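import Mathlib
import Fermat.Statements.S13
import Fermat.Agent.S05Lib.Kummer

/-!
# S13: interface statements (IA), (IC), (ID1), (ID2), (IE) between the packages of the S13 project

These are `Prop`-valued definitions only; the packages prove them, the assembly consumes them.
-/

set_option autoImplicit false
open WeierstrassCurve WeierstrassCurve.Affine WeierstrassCurve.Affine.Point
open FreyPackage

namespace Fermat.Agent.S13Lib.Iface

/-- `ℚ̄` -/
abbrev Qb : Type := AlgebraicClosure ℚ

/-- the absolute Galois group of `ℚ` -/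
abbrev Gal : Type := Qb ≃ₐ[ℚ] Qb

/-- the `p`-torsion module of the Frey curve -/
abbrev Vp (P : FreyPackage) : Type :=
  Submodule.torsionBy ℤ (P.freyCurve⁄Qb).Point P.p

/-- (IA) the `p`-torsion has `p²` points -/
def IA (P : FreyPackage) : Prop := Nat.card (Vp P) = P.p ^ 2

/-- (IC) the dichotomy at `p` for a Galois-stable line -/
def IC (P : FreyPackage) : Prop :=
  ∀ L : Submodule (ZMod P.p) (Vp P), IsGaloisStable ℚ L → Nat.card L = P.p →
    (∀ A : ValuationSubring Qb, A.LiesOverPrime P.p → ∀ σ ∈ A.inertiaSubgroupIn ℚ,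
      ∀ T ∈ L, σ • T = T) ∨
    (∀ A : ValuationSubring Qb, A.LiesOverPrime P.p → ∀ σ ∈ A.inertiaSubgroupIn ℚ,
      ∀ T : Vp P, σ • T - T ∈ L)

/-- (ID1) inertia at `2` is unipotent on the `p`-torsion -/
def ID1 (P : FreyPackage) : Prop :=
  ∀ A : ValuationSubring Qb, A.LiesOverPrime 2 → ∀ σ ∈ A.inertiaSubgroupIn ℚ,
    ∀ T : Vp P, σ • (σ • T - T) = σ • T - T

/-- (ID2) the Frey curve has no rational point of order `p` -/
def ID2 (P : FreyPackage) : Prop :=
  ∀ T : Vp P, (∀ σ : Gal, σ • T = T) → T = 0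

/-- (IE) Minkowski: a normal subgroup of the absolute Galois group containing the fixer of a
finite set and all inertia subgroups is everything -/
def IE : Prop :=
  ∀ H : Subgroup Gal, H.Normal → ∀ S : Finset Qb,
    (∀ σ : Gal, (∀ x ∈ S, σ x = x) → σ ∈ H) →
    (∀ q : ℕ, q.Prime → ∀ A : ValuationSubring Qb, A.LiesOverPrime q →
      A.inertiaSubgroupIn ℚ ≤ H) → H = ⊤

end Fermat.Agent.S13Lib.Iface
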