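import Mathlib
import Fermat.Agent.S13Lib.Iface
import Fermat.Agent.S05

set_option autoImplicit false
open WeierstrassCurve WeierstrassCurve.Affine WeierstrassCurve.Affine.Point
open FreyPackage

namespace Fermat.Agent.S13Lib.Assembly

open Fermat.Agent.S13Lib.Iface

section Lin

variable {V : Type*} [AddCommGroup V] [Finite V]

/-- in a subgroup of prime order, every element is a multiple of any nonzero element -/
theorem exists_zsmul_of_card_prime {p : ℕ} (hp : p.Prime) (N : AddSubgroup V)
    (hN : Nat.card N = p) {a b : V} (ha : a ∈ N) (ha0 : a ≠ 0) (hb : b ∈ N) :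
    ∃ k : ℤ, b = k • a := by
  have hle : AddSubgroup.zmultiples a ≤ N := by
    rw [AddSubgroup.zmultiples_le]; exact ha
  have hdvd : Nat.card (AddSubgroup.zmultiples a) ∣ Nat.card N :=
    AddSubgroup.card_dvd_of_le hle
  rw [hN] at hdvd
  have hne1 : Nat.card (AddSubgroup.zmultiples a) ≠ 1 := by
    intro h1
    have hbot : AddSubgroup.zmultiples a = ⊥ := AddSubgroup.card_eq_one.mp h1
    have : a ∈ (⊥ : AddSubgroup V) := hbot ▸ AddSubgroup.mem_zmultiples a
    exact ha0 (AddSubgroup.mem_bot.mp this)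
  have hcard : Nat.card (AddSubgroup.zmultiples a) = p :=
    ((Nat.dvd_prime hp).mp hdvd).resolve_left hne1
  have heq : AddSubgroup.zmultiples a = N := by
    apply AddSubgroup.eq_of_le_of_card_ge hle
    rw [hN, hcard]
  have hb' : b ∈ AddSubgroup.zmultiples a := heq ▸ hb
  obtain ⟨k, hk⟩ := AddSubgroup.mem_zmultiples_iff.mp hb'
  exact ⟨k, hk.symm⟩

/-- a square-zero endomorphism preserving a line in a plane kills the line and maps into it -/
theorem nilpotent_line {p : ℕ} (hp : p.Prime) (hV : Nat.card V = p ^ 2) (N : AddSubgroup V)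
    (hN : Nat.card N = p) (f : V →+ V) (hff : ∀ x, f (f x) = 0) (hfN : ∀ x ∈ N, f x ∈ N) :
    (∀ x ∈ N, f x = 0) ∧ ∀ x, f x ∈ N := by
  have h1 : ∀ x ∈ N, f x = 0 := by
    intro x hx
    by_contra h0
    obtain ⟨k, hk⟩ := exists_zsmul_of_card_prime hp N hN (hfN x hx) h0 hx
    apply h0
    have : f x = f (k • f x) := by rw [← hk]
    rw [this, map_zsmul, hff, smul_zero]
  refine ⟨h1, ?_⟩
  intro x
  by_contra hx
  -- N ⊔ zmultiples (f x) is everything
  set N₂ : AddSubgroup V := N ⊔ AddSubgroup.zmultiples (f x) with hN₂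
  have hle : N ≤ N₂ := le_sup_left
  have hlt : N < N₂ := by
    refine lt_of_le_of_ne hle ?_
    intro heq
    apply hx
    rw [heq]
    exact (le_sup_right : AddSubgroup.zmultiples (f x) ≤ N₂) (AddSubgroup.mem_zmultiples _)
  have hd1 : Nat.card N ∣ Nat.card N₂ := AddSubgroup.card_dvd_of_le hle
  have hd2 : Nat.card N₂ ∣ Nat.card V := AddSubgroup.card_addSubgroup_dvd_card N₂
  rw [hV] at hd2
  rw [hN] at hd1
  obtain ⟨i, hi, hcard⟩ := (Nat.dvd_prime_pow hp).mp hd2
  have hne : Nat.card N₂ ≠ p := by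
    intro h
    have : N = N₂ := AddSubgroup.eq_of_le_of_card_ge hle (by rw [hN, h])
    exact hlt.ne this
  have hi2 : i = 2 := by
    interval_cases i
    · rw [hcard, pow_zero] at hd1
      exact absurd (Nat.le_of_dvd one_pos hd1) (by have := hp.two_le; omega)
    · rw [pow_one] at hcard; exact absurd hcard hne
    · rfl
  have htop : N₂ = ⊤ := AddSubgroup.eq_top_of_card_eq N₂ (by rw [hcard, hi2, hV])
  have hxm : x ∈ N₂ := htop ▸ AddSubgroup.mem_top x
  obtain ⟨n, hn, z, hz, hnz⟩ := AddSubgroup.mem_sup.mp hxm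
  obtain ⟨k, rfl⟩ := AddSubgroup.mem_zmultiples_iff.mp hz
  apply hx
  have : f x = 0 := by
    rw [← hnz, map_add, h1 n hn, map_zsmul, hff, smul_zero, add_zero]
  rw [this]; exact N.zero_mem

end Lin


section Main

variable (P : FreyPackage)

/-- the coordinates of a point -/
noncomputable def coords : (P.freyCurve⁄Qb).Point → Finset Qb
  | .zero => ∅
  | .some x y _ => {x, y}

theorem smul_eq_of_coords (σ : Gal) (T : (P.freyCurve⁄Qb).Point)
    (h : ∀ z ∈ coords P T, σ z = z) : σ • T = T := by
  rcases T with _ | ⟨x, y, hxy⟩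
  · rfl
  · have hx : σ x = x := h x (by simp [coords])
    have hy : σ y = y := h y (by simp [coords])
    show Point.map σ.toAlgHom (Point.some x y hxy) = Point.some x y hxy
    simp only [Point.map, AddMonoidHom.coe_mk, ZeroHom.coe_mk]
    simp [hx, hy]

/-- the displacement `T ↦ σ T - T` -/
noncomputable def disp (σ : Gal) : Vp P →+ Vp P where
  toFun T := σ • T - T
  map_zero' := by simp
  map_add' a b := by rw [smul_add]; abel

theorem disp_apply (σ : Gal) (T : Vp P) : disp P σ T = σ • T - T := rfl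

/-- **Assembly**: the interface statements imply S13. -/
theorem hasCofixedLine (hA : IA P) (hC : IC P) (hD1 : ID1 P) (hD2 : ID2 P) (hE : IE)
    (hS05 : ∀ q : ℕ, q.Prime → q ≠ 2 → q ≠ P.p → P.GaloisRepUnramifiedAt q)
    (hred : ¬ GaloisRepIsIrreducible (K := AlgebraicClosure ℚ) ℚ P.freyCurve P.p) :
    HasGaloisStableCofixedLine (K := AlgebraicClosure ℚ) ℚ P.freyCurve P.p := by
  classical
  haveI : Fact P.p.Prime := ⟨P.pp⟩
  have hp := P.pp
  have hcardV : Nat.card (Vp P) = P.p ^ 2 := hA
  haveI : Finite (Vp P) :=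
    Nat.finite_of_card_ne_zero (by rw [hcardV]; exact pow_ne_zero 2 hp.ne_zero)
  haveI : Nontrivial (Vp P) := by
    apply Finite.one_lt_card_iff_nontrivial.mp
    rw [hcardV]; exact Nat.one_lt_pow (by norm_num) hp.one_lt
  obtain ⟨N, hNst, hNbot, hNtop⟩ : ∃ N : Submodule (ZMod P.p) (Vp P),
      IsGaloisStable ℚ N ∧ N ≠ ⊥ ∧ N ≠ ⊤ := by
    by_contra hcon
    apply hred
    refine ⟨inferInstance, fun N hN => ?_⟩
    by_contra h
    rw [not_or] at h
    exact hcon ⟨N, hN, h.1, h.2⟩
  have hcardN : Nat.card N = P.p := by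
    have hd : Nat.card N.toAddSubgroup ∣ Nat.card (Vp P) :=
      AddSubgroup.card_addSubgroup_dvd_card _
    rw [hcardV] at hd
    obtain ⟨i, hi, hcard⟩ := (Nat.dvd_prime_pow hp).mp hd
    have h0 : i ≠ 0 := by
      rintro rfl
      apply hNbot
      rw [pow_zero] at hcard
      have h1 : N.toAddSubgroup = ⊥ := AddSubgroup.card_eq_one.mp hcard
      rw [Submodule.eq_bot_iff]
      intro x hx
      have : x ∈ N.toAddSubgroup := hx
      rw [h1] at this
      exact AddSubgroup.mem_bot.mp this
    have h2 : i ≠ 2 := by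
      rintro rfl
      apply hNtop
      have h1 : N.toAddSubgroup = ⊤ := AddSubgroup.eq_top_of_card_eq _ (by rw [hcard, hcardV])
      rw [Submodule.eq_top_iff']
      intro x
      have : x ∈ N.toAddSubgroup := by rw [h1]; exact AddSubgroup.mem_top x
      exact this
    have h1 : i = 1 := by omega
    rw [h1, pow_one] at hcard
    exact hcard
  -- a finite set of coordinates
  letI : Fintype (Vp P) := Fintype.ofFinite _
  let S : Finset Qb := Finset.univ.biUnion (fun T : Vp P => coords P T.1)
  have hSfix : ∀ σ : Gal, (∀ x ∈ S, σ x = x) → ∀ T : Vp P, σ • T = T := by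
    intro σ hσ T
    apply Subtype.ext
    exact smul_eq_of_coords P σ T.1 (fun z hz => hσ z (Finset.mem_biUnion.mpr ⟨T, Finset.mem_univ _, hz⟩))
  -- inertia at 2
  have h2 : ∀ A : ValuationSubring Qb, A.LiesOverPrime 2 → ∀ σ ∈ A.inertiaSubgroupIn ℚ,
      (∀ T ∈ N, σ • T = T) ∧ ∀ T : Vp P, σ • T - T ∈ N := by
    intro A hA2 σ hσ
    have hnil := nilpotent_line hp hcardV N.toAddSubgroup hcardN (disp P σ)
      (fun x => by
        rw [disp_apply, disp_apply, hD1 A hA2 σ hσ x, sub_self])
      (fun x hx => N.sub_mem (hNst σ x hx) hx)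
    refine ⟨fun T hT => ?_, fun T => hnil.2 T⟩
    have := hnil.1 T hT
    rw [disp_apply, sub_eq_zero] at this
    exact this
  -- inertia away from 2, p
  have hq : ∀ q : ℕ, q.Prime → q ≠ 2 → q ≠ P.p → ∀ A : ValuationSubring Qb, A.LiesOverPrime q →
      ∀ σ ∈ A.inertiaSubgroupIn ℚ, ∀ T : Vp P, σ • T = T := by
    intro q hq hq2 hqp A hAq σ hσ T
    exact hS05 q hq hq2 hqp A hAq σ hσ T
  rcases hC N hNst hcardN with hX | hY
  · -- inertia at p trivial on the line: contradiction with (ID2)
    exfalso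
    let H : Subgroup Gal :=
      { carrier := {σ | ∀ T ∈ N, σ • T = T}
        mul_mem' := by
          intro σ τ hσ hτ T hT
          rw [mul_smul, hτ T hT, hσ T hT]
        one_mem' := by intro T _; exact one_smul _ T
        inv_mem' := by
          intro σ hσ T hT
          rw [inv_smul_eq_iff, hσ T hT] }
    have hHn : H.Normal := by
      constructor
      intro n hn g T hT
      have h1 : g⁻¹ • T ∈ N := hNst g⁻¹ T hT
      rw [mul_smul, mul_smul, hn _ h1, smul_inv_smul]
    have hHtop : H = ⊤ := by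
      refine hE H hHn S (fun σ hσ T _ => hSfix σ hσ T) ?_
      intro q hqp A hAq σ hσ T hT
      by_cases hq2 : q = 2
      · subst hq2; exact (h2 A hAq σ hσ).1 T hT
      by_cases hqP : q = P.p
      · subst hqP; exact hX A hAq σ hσ T hT
      · exact hq q hqp hq2 hqP A hAq σ hσ T
    obtain ⟨T, hT, hT0⟩ := (Submodule.ne_bot_iff N).mp hNbot
    apply hT0
    apply hD2 T
    intro σ
    have : σ ∈ H := by rw [hHtop]; exact Subgroup.mem_top σ
    exact this T hT
  · -- inertia at p trivial on the quotient: the line is cofixed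
    let H : Subgroup Gal :=
      { carrier := {σ | ∀ T : Vp P, σ • T - T ∈ N}
        mul_mem' := by
          intro σ τ hσ hτ T
          have e : (σ * τ) • T - T = σ • (τ • T - T) + (σ • T - T) := by
            rw [mul_smul, smul_sub]; abel
          rw [e]
          exact N.add_mem (hNst σ _ (hτ T)) (hσ T)
        one_mem' := by intro T; rw [one_smul, sub_self]; exact N.zero_mem
        inv_mem' := by
          intro σ hσ T
          have e : σ⁻¹ • T - T = -(σ⁻¹ • (σ • T - T)) := by
            rw [smul_sub, inv_smul_smul]; abel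
          rw [e]
          exact N.neg_mem (hNst σ⁻¹ _ (hσ T)) }
    have hHn : H.Normal := by
      constructor
      intro n hn g T
      have e : (g * n * g⁻¹) • T - T = g • (n • (g⁻¹ • T) - g⁻¹ • T) := by
        rw [mul_smul, mul_smul, smul_sub, smul_inv_smul]
      rw [e]
      exact hNst g _ (hn _)
    have hHtop : H = ⊤ := by
      refine hE H hHn S (fun σ hσ T => ?_) ?_
      · rw [hSfix σ hσ T, sub_self]; exact N.zero_mem
      · intro q hqp A hAq σ hσ T
        by_cases hq2 : q = 2
        · subst hq2; exact (h2 A hAq σ hσ).2 T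
        by_cases hqP : q = P.p
        · subst hqP; exact hY A hAq σ hσ T
        · rw [hq q hqp hq2 hqP A hAq σ hσ T, sub_self]; exact N.zero_mem
    refine ⟨N, hNst, hNbot, hNtop, fun σ x => ?_⟩
    have : σ ∈ H := by rw [hHtop]; exact Subgroup.mem_top σ
    exact this x

/-- (IA) from the point count of the curve over `ℚ̄` -/
theorem iA_of_card (h : Nat.card {Q : (P.freyCurve⁄Qb).Point // P.p • Q = 0} = P.p ^ 2) :
    IA P := by
  unfold IA
  rw [← h]
  apply Nat.card_congr
  refine Equiv.subtypeEquivRight (fun Q => ?_)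
  rw [Submodule.mem_torsionBy_iff, natCast_zsmul]

end Main

end Fermat.Agent.S13Lib.Assembly
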