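import Mathlib
import Fermat.Agent.S05

/-!
# S13, part C1: inertia at `p` moves `p`-torsion points inside the kernel of reduction

The proofs of `S05Lib.Assembly.good_fixed` / `node_fixed` without their last step (the only place
where `v p = 1` was used): for a valuation ring `A` with `v 2 = 1` and `σ` in its inertia group,

* `good_sub_mem`: good reduction, every point `D` has `σ D - D` in the kernel of reduction;
* `node_sub_mem`: nodal reduction, every `p`-torsion point `D` has `σ D - D` in the kernel of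
  reduction;
* `frey_sub_mem`: for the Frey curve and `A` above `p`, every `p`-torsion point `T` has
  `σ T - T = 0` or `1 < v (x (σ T - T))` (kernel of reduction for the Kummer line at `e = 0`).
-/

set_option autoImplicit false

namespace Fermat.Agent.S13Lib.AtP

open WeierstrassCurve Fermat.Agent.S51Lib.Pts Fermat.Agent.S05Lib

section Abstract

variable {K : Type*} [Field K] [DecidableEq K] [Algebra ℚ K] (E : WeierstrassCurve ℚ)
  (A : ValuationSubring K)

omit [DecidableEq K] in
/-- inertia preserves non-integrality -/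
theorem one_lt_val_apply_of_mem_inertia {σ : K ≃ₐ[ℚ] K} (hσ : σ ∈ A.inertiaSubgroupIn ℚ) {x : K}
    (hx : 1 < A.valuation x) : 1 < A.valuation (σ x) := by
  by_contra hle
  have hmemA : σ x ∈ A := (A.valuation_le_one_iff _).1 (not_lt.1 hle)
  have hinv : σ⁻¹ ∈ A.inertiaSubgroupIn ℚ := inv_mem hσ
  have h3 := Inertia.mem_of_mem_inertia A hinv hmemA
  have e2 : σ⁻¹ (σ x) = x := σ.symm_apply_apply _
  rw [e2] at h3
  exact absurd ((A.valuation_le_one_iff _).2 h3) (not_le.2 hx)

/-- a point in the kernel of reduction stays there under inertia -/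
theorem smul_one_lt {σ : K ≃ₐ[ℚ] K} (hσ : σ ∈ A.inertiaSubgroupIn ℚ) {e : K} (hσe : σ e = e)
    {x y : K} (h : (E⁄K).toAffine.Nonsingular x y) (hgt : 1 < A.valuation (x - e)) :
    1 < A.valuation (Kummer.xi (E⁄K) e
      (σ • (Affine.Point.some x y h : (E⁄K).toAffine.Point))) := by
  obtain ⟨hD', hσD⟩ := Inertia.smul_some E σ h
  rw [hσD, Kummer.xi_some]
  have e1 : σ x - e = σ (x - e) := by rw [map_sub, hσe]
  rw [e1]
  exact one_lt_val_apply_of_mem_inertia A hσ hgt

omit [DecidableEq K] in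
/-- change of the marked abscissa does not change the kernel of reduction -/
theorem xi_change {e e' : K} (he : e ∈ A) (he' : e' ∈ A) {D : (E⁄K).toAffine.Point}
    (h : D = 0 ∨ 1 < A.valuation (Kummer.xi (E⁄K) e D)) :
    D = 0 ∨ 1 < A.valuation (Kummer.xi (E⁄K) e' D) := by
  rcases D with _ | ⟨x, y, hD⟩
  · exact Or.inl rfl
  · rcases h with h | h
    · exact Or.inl h
    · right
      rw [Kummer.xi_some] at h ⊢
      by_contra hle
      have h1 : x - e' ∈ A := (A.valuation_le_one_iff _).1 (not_lt.1 hle)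
      have h2 : x - e ∈ A := by
        have : x - e = (x - e') + e' - e := by ring
        rw [this]
        exact sub_mem (add_mem h1 he') he
      exact absurd ((A.valuation_le_one_iff _).2 h2) (not_le.2 h)

/-- **good reduction**: `σ D - D` lies in the kernel of reduction, for every point `D` -/
theorem good_sub_mem {σ : K ≃ₐ[ℚ] K} (hσ : σ ∈ A.inertiaSubgroupIn ℚ)
    (ha₁ : (E⁄K).a₁ ∈ A) (ha₂ : (E⁄K).a₂ ∈ A) (ha₃ : (E⁄K).a₃ ∈ A) (ha₄ : (E⁄K).a₄ ∈ A)
    (ha₆ : (E⁄K).a₆ ∈ A) {e β κ : K} (he : e ∈ A) (hσe : σ e = e)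
    (h6 : B6 (E⁄K) e = 0) (hβ' : B2 (E⁄K) e = β) (hκ' : B4 (E⁄K) e = 2 * κ)
    (h2 : A.valuation 2 = 1) (hβ : β ∈ A) (hκ : A.valuation κ = 1)
    (hdisc : A.valuation (β ^ 2 - 64 * κ) = 1)
    (Pt : (E⁄K).toAffine.Point) :
    σ • Pt - Pt = 0 ∨ 1 < A.valuation (Kummer.xi (E⁄K) e (σ • Pt - Pt)) := by
  have h20 : (2 : K) ≠ 0 := by
    intro h0
    rw [h0, map_zero] at h2
    exact zero_ne_one h2
  have hK : IsKummer (Kummer.xi (E⁄K) e) β κ := Kummer.isKummer_xi (E⁄K) h20 e β κ h6 hβ' hκ'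
  have hβv : A.valuation β ≤ 1 := (A.valuation_le_one_iff _).2 hβ
  have hκA : κ ∈ A := (A.valuation_le_one_iff _).1 hκ.le
  rcases Pt with _ | ⟨x, y, h⟩
  · left
    exact sub_eq_zero.2 (Assembly.gal_smul_zero E σ)
  · by_cases hgt : 1 < A.valuation (x - e)
    · have hmem : (Affine.Point.some x y h : (E⁄K).toAffine.Point)
          ∈ E1.ker A.valuation hK h2 hβv hκ.le := Or.inr (by rw [Kummer.xi_some]; exact hgt)
      have hσmem : σ • (Affine.Point.some x y h : (E⁄K).toAffine.Point)
          ∈ E1.ker A.valuation hK h2 hβv hκ.le := Or.inr (smul_one_lt E A hσ hσe h hgt)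
      exact sub_mem hσmem hmem
    · have hξ : x - e ∈ A := (A.valuation_le_one_iff _).1 (not_lt.1 hgt)
      have hx : x ∈ A := by
        have : x = (x - e) + e := by ring
        rw [this]; exact add_mem hξ he
      have H : A.valuation ((x - e) * (4 * (x - e) ^ 2 + β * (x - e) + 4 * κ)) < 1 →
          A.valuation ((x - e) ^ 2 - κ) = 1 := by
        intro h1
        by_contra hne
        have hle : A.valuation ((x - e) ^ 2 - κ) ≤ 1 :=
          (A.valuation_le_one_iff _).2 (sub_mem (pow_mem hξ 2) hκA)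
        have hlt : A.valuation ((x - e) ^ 2 - κ) < 1 := lt_of_le_of_ne hle hne
        have e1 : κ * (β ^ 2 - 64 * κ)
            = (β - 8 * (x - e)) * ((x - e) * (4 * (x - e) ^ 2 + β * (x - e) + 4 * κ))
              + (64 * κ - (β - 8 * (x - e)) * (4 * (x - e) + β)) * ((x - e) ^ 2 - κ) := by
          ring
        have hm1 : β - 8 * (x - e) ∈ A := by aesop
        have hm2 : 64 * κ - (β - 8 * (x - e)) * (4 * (x - e) + β) ∈ A := by aesop
        have h3 : A.valuation (κ * (β ^ 2 - 64 * κ)) < 1 := by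
          rw [e1]
          apply Valuation.map_add_lt
          · rw [map_mul]
            exact mul_lt_one_of_nonneg_of_lt_one_right ((A.valuation_le_one_iff _).2 hm1)
              zero_le h1
          · rw [map_mul]
            exact mul_lt_one_of_nonneg_of_lt_one_right ((A.valuation_le_one_iff _).2 hm2)
              zero_le hlt
        rw [map_mul, hκ, hdisc, one_mul] at h3
        exact lt_irrefl _ h3
      exact Inertia.smul_sub_mem E A hσ ha₁ ha₂ ha₃ ha₄ ha₆ he h6 hβ' hκ' h2 hβ hκA h hx H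

/-- **nodal reduction**: `σ D - D` lies in the kernel of reduction, for every `p`-torsion
point `D` -/
theorem node_sub_mem {σ : K ≃ₐ[ℚ] K} (hσ : σ ∈ A.inertiaSubgroupIn ℚ)
    (ha₁ : (E⁄K).a₁ ∈ A) (ha₂ : (E⁄K).a₂ ∈ A) (ha₃ : (E⁄K).a₃ ∈ A) (ha₄ : (E⁄K).a₄ ∈ A)
    (ha₆ : (E⁄K).a₆ ∈ A) {e β κ r n : K} (he : e ∈ A) (hσe : σ e = e) (hσr : σ r = r)
    (h6 : B6 (E⁄K) e = 0) (hβ' : B2 (E⁄K) e = β) (hκ' : B4 (E⁄K) e = 2 * κ)
    (h2 : A.valuation 2 = 1) (hβ : A.valuation β = 1)
    (hn0 : n ≠ 0) (hn1 : A.valuation n < 1)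
    {p : ℕ} (hp : p.Prime) (hp3 : 3 ≤ p)
    (hκv : A.valuation κ = A.valuation n ^ p) (hrv : A.valuation r = A.valuation n ^ 2)
    (hR : ∃ y, (E⁄K).toAffine.Nonsingular (e + r) y)
    (Pt : (E⁄K).toAffine.Point) (hpP : p • Pt = 0) :
    σ • Pt - Pt = 0 ∨ 1 < A.valuation (Kummer.xi (E⁄K) e (σ • Pt - Pt)) := by
  have h20 : (2 : K) ≠ 0 := by
    intro h0
    rw [h0, map_zero] at h2
    exact zero_ne_one h2
  have hK : IsKummer (Kummer.xi (E⁄K) e) β κ := Kummer.isKummer_xi (E⁄K) h20 e β κ h6 hβ' hκ'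
  have hνpos : 0 < A.valuation n := (Valuation.pos_iff _).2 hn0
  have hκ1 : A.valuation κ < 1 := by
    rw [hκv]; exact pow_lt_one₀ zero_le hn1 hp.ne_zero
  have hκ0 : κ ≠ 0 := by
    intro h0
    rw [h0, map_zero] at hκv
    exact (pow_ne_zero p hνpos.ne') hκv.symm
  have hβA : β ∈ A := (A.valuation_le_one_iff _).1 hβ.le
  have hκA : κ ∈ A := (A.valuation_le_one_iff _).1 hκ1.le
  have hrlt : A.valuation r < 1 := by
    rw [hrv]; exact pow_lt_one₀ zero_le hn1 two_ne_zero
  have hκr : A.valuation κ < A.valuation r := by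
    rw [hκv, hrv]
    exact pow_lt_pow_right_of_lt_one₀ hνpos hn1 (by omega)
  -- `σ D - D` lies in the kernel of reduction for every `D` in `E0`
  have key : ∀ D : (E⁄K).toAffine.Point, D ∈ Node.E0 A.valuation hK h2 hβ hκ1 →
      σ • D - D ∈ E1.ker A.valuation hK h2 hβ.le hκ1.le := by
    rintro (_ | ⟨xD, yD, hD⟩) hDmem
    · left
      exact sub_eq_zero.2 (Assembly.gal_smul_zero E σ)
    · rcases hDmem with h0 | h1
      · exact absurd h0 (Affine.Point.some_ne_zero hD)
      · rw [Kummer.xi_some] at h1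
        rcases eq_or_lt_of_le h1 with heq1 | hgt1
        · have hξ : xD - e ∈ A := (A.valuation_le_one_iff _).1 heq1.symm.le
          have hx : xD ∈ A := by
            have : xD = (xD - e) + e := by ring
            rw [this]; exact add_mem hξ he
          have H : A.valuation ((xD - e) * (4 * (xD - e) ^ 2 + β * (xD - e) + 4 * κ)) < 1 →
              A.valuation ((xD - e) ^ 2 - κ) = 1 := by
            intro _
            rw [Valuation.map_sub_eq_of_lt_left _ (by rw [map_pow, ← heq1, one_pow]; exact hκ1),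
              map_pow, ← heq1, one_pow]
          exact Inertia.smul_sub_mem E A hσ ha₁ ha₂ ha₃ ha₄ ha₆ he h6 hβ' hκ' h2 hβA hκA hD hx H
        · have hDker : (Affine.Point.some xD yD hD : (E⁄K).toAffine.Point)
              ∈ E1.ker A.valuation hK h2 hβ.le hκ1.le :=
            Or.inr (by rw [Kummer.xi_some]; exact hgt1)
          have hσDker : σ • (Affine.Point.some xD yD hD : (E⁄K).toAffine.Point)
              ∈ E1.ker A.valuation hK h2 hβ.le hκ1.le :=
            Or.inr (smul_one_lt E A hσ hσe hD hgt1)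
          exact sub_mem hσDker hDker
  rcases Pt with _ | ⟨x, y, h⟩
  · left
    exact sub_eq_zero.2 (Assembly.gal_smul_zero E σ)
  · have hPt0 : (Affine.Point.some x y h : (E⁄K).toAffine.Point) ≠ 0 :=
      Affine.Point.some_ne_zero h
    rcases lt_trichotomy (A.valuation (x - e)) 1 with hlt | heq | hgt
    · -- the point reduces to the node
      have hnot : (Affine.Point.some x y h : (E⁄K).toAffine.Point)
          ∉ Node.E0 A.valuation hK h2 hβ hκ1 := by
        rintro (h0 | h1)
        · exact hPt0 h0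
        · rw [Kummer.xi_some] at h1
          exact absurd hlt (not_lt.2 h1)
      obtain ⟨k, hk0, hkp, hkv⟩ :=
        Node.exists_nsmul_pow_eq A.valuation hK h2 hβ hκ1 hκ0 hp hp3 hpP hnot
      generalize hB : k • (Affine.Point.some x y h : (E⁄K).toAffine.Point) = B at hkv
      have hBv : A.valuation (Kummer.xi (E⁄K) e B) = A.valuation r := by
        rw [hrv]
        have e1 : A.valuation (Kummer.xi (E⁄K) e B) ^ p = (A.valuation n ^ 2) ^ p := by
          rw [hkv, hκv, ← pow_mul, ← pow_mul, mul_comm]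
        exact (pow_left_inj₀ zero_le zero_le hp.ne_zero).1 e1
      have hB0 : B ≠ 0 := by
        intro h0
        rw [h0, Kummer.xi_zero, map_zero] at hBv
        exact (lt_of_le_of_lt zero_le hκr).ne hBv
      obtain ⟨yR, hRns⟩ := hR
      have hR0 : (Affine.Point.some (e + r) yR hRns : (E⁄K).toAffine.Point) ≠ 0 :=
        Affine.Point.some_ne_zero hRns
      have hRξ : Kummer.xi (E⁄K) e (Affine.Point.some (e + r) yR hRns) = r := by
        rw [Kummer.xi_some]; ring
      have hσR : σ • (Affine.Point.some (e + r) yR hRns : (E⁄K).toAffine.Point)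
          = Affine.Point.some (e + r) yR hRns :=
        Inertia.smul_eq_self E A hσ h6 hβ' hκ' h2 hβ hRns (by rw [map_add, hσe, hσr]) hσe
          (by rw [add_sub_cancel_left]; exact hκr) (by rw [add_sub_cancel_left]; exact hrlt)
      have hB5 := Node.sub_or_add_mem_E0 A.valuation hK h2 hβ hκ1 hB0 hR0
        (by rw [hBv, hRξ]) (by rw [hBv]; exact hκr) (by rw [hBv]; exact hrlt)
      have hσB : σ • B - B ∈ E1.ker A.valuation hK h2 hβ.le hκ1.le := by
        rcases hB5 with hD | hD
        · have h4 := key _ hD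
          rwa [Assembly.gal_smul_sub, hσR, sub_sub_sub_cancel_right] at h4
        · have h4 := key _ hD
          rwa [Assembly.gal_smul_add, hσR, add_sub_add_right_eq_sub] at h4
      -- `σ Pt - Pt` is a multiple of `σ B - B`
      have hcop : Nat.Coprime k p := (Nat.coprime_of_lt_prime hk0.ne' hkp hp).symm
      obtain ⟨m, -, hm⟩ := Nat.exists_mul_mod_eq_one_of_coprime hcop hp.one_lt
      have hpΔ : p • (σ • (Affine.Point.some x y h : (E⁄K).toAffine.Point)
          - Affine.Point.some x y h) = 0 := by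
        rw [smul_sub, ← Assembly.gal_smul_nsmul, hpP, Assembly.gal_smul_zero, sub_zero]
      have hkΔ : k • (σ • (Affine.Point.some x y h : (E⁄K).toAffine.Point)
          - Affine.Point.some x y h) = σ • B - B := by
        rw [smul_sub, ← Assembly.gal_smul_nsmul, hB]
      generalize σ • (Affine.Point.some x y h : (E⁄K).toAffine.Point)
          - Affine.Point.some x y h = Δ at hpΔ hkΔ ⊢
      have h1 : (k * m) • Δ = Δ := by
        conv_lhs => rw [← Nat.div_add_mod (k * m) p, add_nsmul, mul_nsmul, hpΔ, smul_zero,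
          zero_add, hm, one_nsmul]
      have h3 : (k * m) • Δ ∈ E1.ker A.valuation hK h2 hβ.le hκ1.le := by
        rw [mul_nsmul, hkΔ]
        exact (E1.ker A.valuation hK h2 hβ.le hκ1.le).nsmul_mem hσB m
      rw [h1] at h3
      exact h3
    · -- the abscissa is a unit
      have hξ : x - e ∈ A := (A.valuation_le_one_iff _).1 heq.le
      have hx : x ∈ A := by
        have : x = (x - e) + e := by ring
        rw [this]; exact add_mem hξ he
      have H : A.valuation ((x - e) * (4 * (x - e) ^ 2 + β * (x - e) + 4 * κ)) < 1 →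
          A.valuation ((x - e) ^ 2 - κ) = 1 := by
        intro _
        rw [Valuation.map_sub_eq_of_lt_left _ (by rw [map_pow, heq, one_pow]; exact hκ1),
          map_pow, heq, one_pow]
      exact Inertia.smul_sub_mem E A hσ ha₁ ha₂ ha₃ ha₄ ha₆ he h6 hβ' hκ' h2 hβA hκA h hx H
    · have hmem : (Affine.Point.some x y h : (E⁄K).toAffine.Point)
          ∈ E1.ker A.valuation hK h2 hβ.le hκ1.le := Or.inr (by rw [Kummer.xi_some]; exact hgt)
      have hσmem : σ • (Affine.Point.some x y h : (E⁄K).toAffine.Point)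
          ∈ E1.ker A.valuation hK h2 hβ.le hκ1.le := Or.inr (smul_one_lt E A hσ hσe h hgt)
      exact sub_mem hσmem hmem

end Abstract

section Frey

open Fermat.Agent.S05

/-- **inertia at `p` moves the `p`-torsion of the Frey curve inside the kernel of reduction**
(for the Kummer line at `e = 0`, i.e. `ξ = x`) -/
theorem frey_sub_mem {K : Type*} [Field K] [DecidableEq K] [CharZero K] [Algebra ℚ K]
    [IsAlgClosed K] (P : FreyPackage) (A : ValuationSubring K) (hA : (P.p : K) ∈ A.nonunits)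
    {σ : K ≃ₐ[ℚ] K} (hσ : σ ∈ A.inertiaSubgroupIn ℚ)
    (Pt : (P.freyCurve⁄K).toAffine.Point) (hpP : P.p • Pt = 0) :
    σ • Pt - Pt = 0 ∨ 1 < A.valuation (Kummer.xi (P.freyCurve⁄K) 0 (σ • Pt - Pt)) := by
  have hq : P.p.Prime := P.pp
  have hp3 : 3 ≤ P.p := le_trans (by norm_num) P.hp5
  have h2 : A.valuation (2 : K) = 1 := by
    have h := val_eq_one_of_not_dvd A hq hA (n := 2) (by
      intro hd
      have h3 : P.p ∣ 2 := by exact_mod_cast hd
      have := Nat.le_of_dvd (by norm_num) h3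
      omega)
    exact_mod_cast h
  have h4 : A.valuation (4 : K) = 1 := by
    have : (4 : K) = 2 ^ 2 := by norm_num
    rw [this, map_pow, h2, one_pow]
  have h16 : A.valuation (16 : K) = 1 := by
    have : (16 : K) = 2 ^ 4 := by norm_num
    rw [this, map_pow, h2, one_pow]
  have haA : (P.a : K) ∈ A := intCast_mem A P.a
  have hbA : (P.b : K) ∈ A := intCast_mem A P.b
  have hcA : (P.c : K) ∈ A := intCast_mem A P.c
  have hαA : (P.a : K) ^ P.p ∈ A := pow_mem haA _
  have hβA : (P.b : K) ^ P.p ∈ A := pow_mem hbA _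
  have ha₁ : (P.freyCurve⁄K).a₁ ∈ A := by rw [frey_a₁]; exact one_mem A
  have ha₂ : (P.freyCurve⁄K).a₂ ∈ A := by
    rw [frey_a₂]
    exact div_mem_of_val_eq_one A (sub_mem (sub_mem hβA (one_mem A)) hαA) h4
  have ha₃ : (P.freyCurve⁄K).a₃ ∈ A := by rw [frey_a₃]; exact zero_mem A
  have ha₄ : (P.freyCurve⁄K).a₄ ∈ A := by
    rw [frey_a₄]
    exact div_mem_of_val_eq_one A (neg_mem (mul_mem hαA hβA)) h16
  have ha₆ : (P.freyCurve⁄K).a₆ ∈ A := by rw [frey_a₆]; exact zero_mem A
  have ha0 : (P.a : K) ≠ 0 := Int.cast_ne_zero.2 P.ha0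
  have hb0 : (P.b : K) ≠ 0 := Int.cast_ne_zero.2 P.hb0
  have hc0 : (P.c : K) ≠ 0 := Int.cast_ne_zero.2 P.hc0
  have hΔ := frey_Δ_ne_zero (K := K) P
  by_cases hqa : (P.p : ℤ) ∣ P.a
  · -- `p ∣ a`: node at `e = 0`
    have hva : A.valuation (P.a : K) < 1 := val_lt_one_of_dvd A hA hqa
    have hvb : A.valuation (P.b : K) = 1 :=
      val_eq_one_of_not_dvd A hq hA (not_dvd_of_gcd_eq_one hq P.hgcdab hqa)
    have hvα : A.valuation ((P.a : K) ^ P.p) < 1 := by
      rw [map_pow]; exact pow_lt_one₀ zero_le hva P.hp0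
    have hvβ : A.valuation ((P.b : K) ^ P.p) = 1 := by rw [map_pow, hvb, one_pow]
    exact node_sub_mem P.freyCurve A hσ ha₁ ha₂ ha₃ ha₄ ha₆ (e := 0)
      (β := (P.b : K) ^ P.p - (P.a : K) ^ P.p)
      (κ := -((P.a : K) ^ P.p * (P.b : K) ^ P.p) / 16) (r := (P.a : K) ^ 2) (n := (P.a : K))
      (zero_mem A) (map_zero σ) (by rw [map_pow, map_intCast])
      (frey_B6_zero P) (frey_B2_zero P) (frey_B4_zero P) h2
      (by rw [Valuation.map_sub_eq_of_lt_left _ (by rw [hvβ]; exact hvα), hvβ])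
      ha0 hva P.pp hp3
      (by rw [map_div₀, Valuation.map_neg, map_mul, hvβ, mul_one, h16, div_one, map_pow])
      (map_pow _ _ _) (exists_point _ hΔ _) Pt hpP
  by_cases hqb : (P.p : ℤ) ∣ P.b
  · -- `p ∣ b`: node at `e = 0`
    have hvb : A.valuation (P.b : K) < 1 := val_lt_one_of_dvd A hA hqb
    have hva : A.valuation (P.a : K) = 1 := val_eq_one_of_not_dvd A hq hA hqa
    have hvβ : A.valuation ((P.b : K) ^ P.p) < 1 := by
      rw [map_pow]; exact pow_lt_one₀ zero_le hvb P.hp0
    have hvα : A.valuation ((P.a : K) ^ P.p) = 1 := by rw [map_pow, hva, one_pow]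
    exact node_sub_mem P.freyCurve A hσ ha₁ ha₂ ha₃ ha₄ ha₆ (e := 0)
      (β := (P.b : K) ^ P.p - (P.a : K) ^ P.p)
      (κ := -((P.a : K) ^ P.p * (P.b : K) ^ P.p) / 16) (r := (P.b : K) ^ 2) (n := (P.b : K))
      (zero_mem A) (map_zero σ) (by rw [map_pow, map_intCast])
      (frey_B6_zero P) (frey_B2_zero P) (frey_B4_zero P) h2
      (by rw [Valuation.map_sub_eq_of_lt_right _ (by rw [hvα]; exact hvβ), hvα])
      hb0 hvb P.pp hp3
      (by rw [map_div₀, Valuation.map_neg, map_mul, hvα, one_mul, h16, div_one, map_pow])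
      (map_pow _ _ _) (exists_point _ hΔ _) Pt hpP
  by_cases hqc : (P.p : ℤ) ∣ P.c
  · -- `p ∣ c`: node at `e = a^p / 4`, then change the marked abscissa
    have hvc : A.valuation (P.c : K) < 1 := val_lt_one_of_dvd A hA hqc
    have hva : A.valuation (P.a : K) = 1 := val_eq_one_of_not_dvd A hq hA hqa
    have hvγ : A.valuation ((P.c : K) ^ P.p) < 1 := by
      rw [map_pow]; exact pow_lt_one₀ zero_le hvc P.hp0
    have hvα : A.valuation ((P.a : K) ^ P.p) = 1 := by rw [map_pow, hva, one_pow]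
    have heA : (P.a : K) ^ P.p / 4 ∈ A := div_mem_of_val_eq_one A hαA h4
    have key := node_sub_mem P.freyCurve A hσ ha₁ ha₂ ha₃ ha₄ ha₆ (e := (P.a : K) ^ P.p / 4)
      (β := (P.c : K) ^ P.p + (P.a : K) ^ P.p)
      (κ := (P.a : K) ^ P.p * (P.c : K) ^ P.p / 16) (r := (P.c : K) ^ 2) (n := (P.c : K))
      heA
      (by rw [map_div₀, map_pow, map_intCast, map_ofNat]) (by rw [map_pow, map_intCast])
      (frey_B6_a P) (frey_B2_a P) (frey_B4_a P) h2
      (by rw [Valuation.map_add_eq_of_lt_right _ (by rw [hvα]; exact hvγ), hvα])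
      hc0 hvc P.pp hp3
      (by rw [map_div₀, map_mul, hvα, one_mul, h16, div_one, map_pow])
      (map_pow _ _ _) (exists_point _ hΔ _) Pt hpP
    exact xi_change P.freyCurve A heA (zero_mem A) key
  · -- `p ∤ abc`: good reduction
    have hva : A.valuation (P.a : K) = 1 := val_eq_one_of_not_dvd A hq hA hqa
    have hvb : A.valuation (P.b : K) = 1 := val_eq_one_of_not_dvd A hq hA hqb
    have hvc : A.valuation (P.c : K) = 1 := val_eq_one_of_not_dvd A hq hA hqc
    have hdisc : ((P.b : K) ^ P.p - (P.a : K) ^ P.p) ^ 2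
        - 64 * (-((P.a : K) ^ P.p * (P.b : K) ^ P.p) / 16) = ((P.c : K) ^ P.p) ^ 2 := by
      rw [← frey_flt]; ring
    exact good_sub_mem P.freyCurve A hσ ha₁ ha₂ ha₃ ha₄ ha₆ (e := 0)
      (β := (P.b : K) ^ P.p - (P.a : K) ^ P.p)
      (κ := -((P.a : K) ^ P.p * (P.b : K) ^ P.p) / 16)
      (zero_mem A) (map_zero σ) (frey_B6_zero P) (frey_B2_zero P) (frey_B4_zero P) h2
      (sub_mem hβA hαA)
      (by rw [map_div₀, Valuation.map_neg, map_mul, map_pow, map_pow, hva, hvb, one_pow,
        mul_one, h16, div_one])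
      (by rw [hdisc, map_pow, map_pow, hvc, one_pow, one_pow])
      Pt

/-- the Kummer line of the Frey curve at `e = 0` -/
theorem frey_isKummer {K : Type*} [Field K] [DecidableEq K] [CharZero K] [Algebra ℚ K]
    (P : FreyPackage) :
    IsKummer (Kummer.xi (P.freyCurve⁄K) 0) ((P.b : K) ^ P.p - (P.a : K) ^ P.p)
      (-((P.a : K) ^ P.p * (P.b : K) ^ P.p) / 16) :=
  Kummer.isKummer_xi (P.freyCurve⁄K) two_ne_zero 0 _ _ (frey_B6_zero P) (frey_B2_zero P)
    (frey_B4_zero P)

/-- at a place above `p`, the parameters of the Kummer line at `e = 0` are integral and `2` is a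
unit -/
theorem frey_val {K : Type*} [Field K] [CharZero K] (P : FreyPackage) (A : ValuationSubring K)
    (hA : (P.p : K) ∈ A.nonunits) :
    A.valuation (2 : K) = 1 ∧ A.valuation ((P.b : K) ^ P.p - (P.a : K) ^ P.p) ≤ 1 ∧
      A.valuation (-((P.a : K) ^ P.p * (P.b : K) ^ P.p) / 16) ≤ 1 := by
  have hq : P.p.Prime := P.pp
  have h2 : A.valuation (2 : K) = 1 := by
    have h := val_eq_one_of_not_dvd A hq hA (n := 2) (by
      intro hd
      have h3 : P.p ∣ 2 := by exact_mod_cast hd
      have := Nat.le_of_dvd (by norm_num) h3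
      have := P.hp5
      omega)
    exact_mod_cast h
  have h16 : A.valuation (16 : K) = 1 := by
    have : (16 : K) = 2 ^ 4 := by norm_num
    rw [this, map_pow, h2, one_pow]
  have haA : (P.a : K) ∈ A := intCast_mem A P.a
  have hbA : (P.b : K) ∈ A := intCast_mem A P.b
  have hαA : (P.a : K) ^ P.p ∈ A := pow_mem haA _
  have hβA : (P.b : K) ^ P.p ∈ A := pow_mem hbA _
  refine ⟨h2, (A.valuation_le_one_iff _).2 (sub_mem hβA hαA), ?_⟩
  exact (A.valuation_le_one_iff _).2 (div_mem_of_val_eq_one A (neg_mem (mul_mem hαA hβA)) h16)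

end Frey

end Fermat.Agent.S13Lib.AtP
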