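import Mathlib
import Fermat.Agent.S13Lib.Iface

/-!
# S13: interface statement (IB) — the product formula for the `p`-torsion of the Frey curve
-/

set_option autoImplicit false
open WeierstrassCurve WeierstrassCurve.Affine WeierstrassCurve.Affine.Point
open FreyPackage

namespace Fermat.Agent.S13Lib.IfaceB

open Fermat.Agent.S13Lib.Iface Fermat.Agent.S05Lib

/-- (IB) the product formula for the Kummer line `ξ = x - e` of the Frey curve at the `2`-torsion
abscissa `e`, with parameter `κ`: `(∏_{T ∈ E[p] ∖ 0} ξ(T))² p⁴ = κ^(p² - 1)` -/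
def IB (P : FreyPackage) (e κ : Qb) : Prop :=
  (∏ᶠ T : {Q : (P.freyCurve⁄Qb).Point // P.p • Q = 0 ∧ Q ≠ 0},
      Kummer.xi (P.freyCurve⁄Qb) e T.1) ^ 2 * (P.p : Qb) ^ 4 = κ ^ (P.p ^ 2 - 1)

end Fermat.Agent.S13Lib.IfaceB
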