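import Mathlib
import Fermat.Agent.S13Lib.AtP
import Fermat.Agent.S13Lib.Iface
import Fermat.Agent.S13Lib.IfaceB

/-!
# S13, part C: the dichotomy at `p` for a Galois-stable line of the `p`-torsion of the Frey curve

* abstract counting lemmas (`prod_eq_sq`, `le_of_mem`, `eq_top_of_not_mem`, `caseX`, `caseY`);
* `ic_of_prod`: `Iface.IC P` from `Iface.IA P` and the product formula
  `(∏_{T ≠ 0} x(T))² p⁴ = κ^(p²-1)` (stated for an arbitrary enumeration of the nonzero
  `p`-torsion points).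
-/

set_option autoImplicit false

namespace Fermat.Agent.S13Lib.AtPDich

open WeierstrassCurve Fermat.Agent.S51Lib.Pts Fermat.Agent.S05Lib

section Val

variable {Γ₀ : Type*} [LinearOrderedCommGroupWithZero Γ₀]

/-- a nonempty product of elements `> 1` is `> 1` -/
theorem one_lt_prod {ι : Type*} (s : Finset ι) (f : ι → Γ₀) (hs : s.Nonempty)
    (h : ∀ i ∈ s, 1 < f i) : 1 < ∏ i ∈ s, f i := by
  induction hs using Finset.Nonempty.cons_induction with
  | singleton a => simpa using h a (Finset.mem_singleton_self a)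
  | cons a s ha hs ih =>
    rw [Finset.prod_cons]
    exact one_lt_mul'' (h a (Finset.mem_cons_self a s))
      (ih fun i hi => h i (Finset.mem_cons_of_mem hi))

/-- a product of elements `≤ 1` is `≤ 1` -/
theorem prod_le_one {ι : Type*} (s : Finset ι) (f : ι → Γ₀) (h : ∀ i ∈ s, f i ≤ 1) :
    ∏ i ∈ s, f i ≤ 1 := by
  induction s using Finset.cons_induction with
  | empty => simp
  | cons a s ha ih =>
    rw [Finset.prod_cons]
    exact mul_le_one' (h a (Finset.mem_cons_self a s))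
      (ih fun i hi => h i (Finset.mem_cons_of_mem hi))

variable {K : Type*} [Field K] [CharZero K] (A : ValuationSubring K) {p : ℕ}

omit [CharZero K] in
/-- a rational number whose denominator is prime to `p` is integral above `p` -/
theorem val_rat_le_one (hp : p.Prime) (hA : (p : K) ∈ A.nonunits) (r : ℚ) (h : ¬ p ∣ r.den) :
    A.valuation (r : K) ≤ 1 := by
  have hden : A.valuation ((r.den : ℤ) : K) = 1 :=
    Fermat.Agent.S05.val_eq_one_of_not_dvd A hp hA (n := (r.den : ℤ)) (by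
      intro hd
      exact h (by exact_mod_cast hd))
  have hnum : A.valuation ((r.num : ℤ) : K) ≤ 1 := (A.valuation_le_one_iff _).2 (intCast_mem A _)
  have e : (r : K) = ((r.num : ℤ) : K) / ((r.den : ℤ) : K) := by
    rw [Int.cast_natCast]
    exact Rat.cast_def r
  rw [e, map_div₀, hden, div_one]
  exact hnum

/-- a rational number whose denominator is divisible by `p` has valuation `≥ v(p)⁻¹` above `p` -/
theorem one_le_val_mul_rat (hp : p.Prime) (hA : (p : K) ∈ A.nonunits) (r : ℚ) (h : p ∣ r.den) :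
    1 ≤ A.valuation ((p : K) * (r : K)) := by
  obtain ⟨d, hd⟩ := h
  have hd0 : d ≠ 0 := by
    rintro rfl
    rw [mul_zero] at hd
    exact r.den_nz hd
  have hnum : A.valuation ((r.num : ℤ) : K) = 1 :=
    Fermat.Agent.S05.val_eq_one_of_not_dvd A hp hA (n := r.num) (by
      intro hdvd
      have h1 : p ∣ r.num.natAbs := Int.natCast_dvd.1 hdvd
      have h2 : p ∣ Nat.gcd r.num.natAbs r.den := Nat.dvd_gcd h1 ⟨d, hd⟩
      rw [r.reduced] at h2
      exact hp.ne_one (Nat.dvd_one.1 h2))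
  have hdK : (d : K) ≠ 0 := Nat.cast_ne_zero.2 hd0
  have hpK : (p : K) ≠ 0 := Nat.cast_ne_zero.2 hp.ne_zero
  have hdv : A.valuation (d : K) ≤ 1 := (A.valuation_le_one_iff _).2 (natCast_mem A d)
  have e : (p : K) * (r : K) * (d : K) = ((r.num : ℤ) : K) := by
    rw [Rat.cast_def r, hd]
    push_cast
    field_simp
  by_contra hlt
  rw [not_le] at hlt
  have h3 : A.valuation ((p : K) * (r : K) * (d : K)) < 1 := by
    rw [map_mul (A.valuation) ((p : K) * (r : K)) (d : K)]
    exact mul_lt_one_of_nonneg_of_lt_one_left zero_le hlt hdv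
  rw [e, hnum] at h3
  exact lt_irrefl _ h3

end Val

section Group

variable {V : Type*} [AddCommGroup V]

/-- a subgroup of prime order is contained in every subgroup meeting it nontrivially -/
theorem le_of_mem {p : ℕ} (hp : p.Prime) (L M : AddSubgroup V) (hL : Nat.card L = p) {T : V}
    (hT : T ∈ L) (hT0 : T ≠ 0) (hTM : T ∈ M) : L ≤ M := by
  have hfin : Finite L := Nat.finite_of_card_ne_zero (by rw [hL]; exact hp.ne_zero)
  have hdvd : Nat.card (L ⊓ M : AddSubgroup V) ∣ p := by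
    rw [← hL]
    exact AddSubgroup.card_dvd_of_le inf_le_left
  rcases (Nat.dvd_prime hp).1 hdvd with h1 | h1
  · exfalso
    have hbot := AddSubgroup.eq_bot_of_card_eq _ h1
    have hmem : T ∈ (L ⊓ M : AddSubgroup V) := ⟨hT, hTM⟩
    rw [hbot, AddSubgroup.mem_bot] at hmem
    exact hT0 hmem
  · have heq : (L ⊓ M : AddSubgroup V) = L :=
      AddSubgroup.eq_of_le_of_card_ge inf_le_left (by rw [h1, hL])
    rw [← heq]
    exact inf_le_right

/-- in a group of order `p²`, a subgroup properly containing a subgroup of order `p` is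
everything -/
theorem eq_top_of_not_mem {p : ℕ} (hp : p.Prime) (L M : AddSubgroup V) (hV : Nat.card V = p ^ 2)
    (hL : Nat.card L = p) (hLM : L ≤ M) {T : V} (hTM : T ∈ M) (hTL : T ∉ L) : M = ⊤ := by
  have hfinV : Finite V := Nat.finite_of_card_ne_zero (by rw [hV]; exact pow_ne_zero 2 hp.ne_zero)
  have h1 : Nat.card L ∣ Nat.card M := AddSubgroup.card_dvd_of_le hLM
  have h2 : Nat.card M ∣ p ^ 2 := by
    rw [← hV]
    exact AddSubgroup.card_addSubgroup_dvd_card M
  obtain ⟨k, hk, hMk⟩ := (Nat.dvd_prime_pow hp).1 h2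
  interval_cases k
  · exfalso
    rw [hMk, hL, pow_zero] at h1
    exact hp.ne_one (Nat.dvd_one.1 h1)
  · exfalso
    have heq : L = M := AddSubgroup.eq_of_le_of_card_ge hLM (by rw [hMk, hL, pow_one])
    rw [heq] at hTL
    exact hTL hTM
  · exact AddSubgroup.eq_top_of_card_eq M (by rw [hMk, hV])

end Group

section Abstract

variable {V F Γ₀ : Type*} [AddCommGroup V] [Field F] [DecidableEq F]
  [LinearOrderedCommGroupWithZero Γ₀] (v : Valuation F Γ₀) (ξ : V → F)

omit [AddCommGroup V] in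
/-- the product of an even function, injective up to sign, over a symmetric set of elements
`T ≠ -T` is the square of the product over its value set -/
theorem prod_eq_sq [Neg V] (hneg : ∀ T, ξ (-T) = ξ T)
    (s : Finset V) (hinj : ∀ T ∈ s, ∀ T' ∈ s, ξ T = ξ T' → T = T' ∨ T = -T')
    (hodd : ∀ T ∈ s, T ≠ -T) (hsneg : ∀ T ∈ s, -T ∈ s) :
    ∏ T ∈ s, ξ T = (∏ x ∈ s.image ξ, x) ^ 2 := by
  classical
  rw [← Finset.prod_pow]
  symm
  apply Finset.prod_image' (f := fun x => x ^ 2) ξ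
  intro T hT
  have hfil : s.filter (fun j => ξ j = ξ T) = {T, -T} := by
    ext j
    simp only [Finset.mem_filter, Finset.mem_insert, Finset.mem_singleton]
    constructor
    · rintro ⟨hj, hξ⟩
      exact hinj j hj T hT hξ
    · rintro (rfl | rfl)
      · exact ⟨hT, rfl⟩
      · exact ⟨hsneg T hT, hneg T⟩
  rw [hfil, Finset.prod_pair (hodd T hT), hneg, sq]

variable (L MK : AddSubgroup V) {p : ℕ}

/-- **case (X)**: if the half product over `L` is integral, `L` meets the kernel of reduction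
trivially -/
theorem caseX (hp : p.Prime) (hL : Nat.card L = p)
    (sL : Finset V) (hsL : ∀ T, T ∈ sL ↔ T ∈ L ∧ T ≠ 0)
    (hMK : ∀ T, T ≠ 0 → T ∈ MK → 1 < v (ξ T))
    (hh : v (∏ x ∈ sL.image ξ, x) ≤ 1) : ∀ T ∈ L, T ∈ MK → T = 0 := by
  intro T hT hTM
  by_contra hT0
  have hle : L ≤ MK := le_of_mem hp L MK hL hT hT0 hTM
  have hgt : 1 < v (∏ x ∈ sL.image ξ, x) := by
    rw [map_prod]
    apply one_lt_prod
    · exact ⟨ξ T, Finset.mem_image_of_mem ξ ((hsL T).2 ⟨hT, hT0⟩)⟩
    · intro x hx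
      obtain ⟨T', hT', rfl⟩ := Finset.mem_image.1 hx
      obtain ⟨h1, h2⟩ := (hsL T').1 hT'
      exact hMK T' h2 (hle h1)
  exact absurd hh (not_le.2 hgt)

/-- **case (Y)**: if the half product over `L` has a pole at `p`, the kernel of reduction in the
`p`-torsion is contained in `L` (by the product formula) -/
theorem caseY (hp : p.Prime) (hV : Nat.card V = p ^ 2) (hL : Nat.card L = p)
    (sL sV : Finset V) (hsL : ∀ T, T ∈ sL ↔ T ∈ L ∧ T ≠ 0) (hsV : ∀ T, T ∈ sV ↔ T ≠ 0)
    (hneg : ∀ T, ξ (-T) = ξ T)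
    (hinj : ∀ T T', T ≠ 0 → T' ≠ 0 → ξ T = ξ T' → T = T' ∨ T = -T')
    (hodd : ∀ T : V, T ≠ 0 → T ≠ -T)
    (hMK : ∀ T, T ≠ 0 → (T ∈ MK ↔ 1 < v (ξ T)))
    (pK κ : F) (hpK : v pK < 1) (hκ : v κ ≤ 1)
    (hIB : (∏ T ∈ sV, ξ T) ^ 2 * pK ^ 4 = κ ^ (p ^ 2 - 1))
    (hh : 1 ≤ v (pK * ∏ x ∈ sL.image ξ, x)) : ∀ T, T ∈ MK → T ∈ L := by
  classical
  intro T₂ hT₂M
  by_contra hT₂L
  set h : F := ∏ x ∈ sL.image ξ, x with hh_def
  -- `1 < v h`
  have hvh : 1 < v h := by
    by_contra hle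
    rw [not_lt] at hle
    rw [map_mul] at hh
    exact absurd hh (not_le.2 (mul_lt_one_of_nonneg_of_lt_one_left zero_le hpK hle))
  -- some point of `L` lies in the kernel
  obtain ⟨T₁, hT₁, hT₁v⟩ : ∃ T₁ ∈ sL, 1 < v (ξ T₁) := by
    by_contra hno
    have hno : ∀ T₁ ∈ sL, v (ξ T₁) ≤ 1 := fun T₁ hT₁ => not_lt.1 fun hlt => hno ⟨T₁, hT₁, hlt⟩
    have : v h ≤ 1 := by
      rw [hh_def, map_prod]
      apply prod_le_one
      intro x hx
      obtain ⟨T', hT', rfl⟩ := Finset.mem_image.1 hx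
      exact hno T' hT'
    exact absurd hvh (not_lt.2 this)
  obtain ⟨hT₁L, hT₁0⟩ := (hsL T₁).1 hT₁
  have hle : L ≤ MK := le_of_mem hp L MK hL hT₁L hT₁0 ((hMK T₁ hT₁0).2 hT₁v)
  have htop : MK = ⊤ := eq_top_of_not_mem hp L MK hV hL hle hT₂M hT₂L
  have hall : ∀ T : V, T ≠ 0 → 1 < v (ξ T) := by
    intro T hT0
    exact (hMK T hT0).1 (by rw [htop]; exact AddSubgroup.mem_top T)
  -- split the product
  have hsplit := Finset.prod_filter_mul_prod_filter_not sV (fun T => T ∈ L) ξ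
  have hfil : sV.filter (fun T => T ∈ L) = sL := by
    ext T
    rw [Finset.mem_filter, hsV, hsL]
    exact and_comm
  have hsq : ∏ T ∈ sL, ξ T = h ^ 2 := by
    apply prod_eq_sq
    · exact hneg
    · intro T hT T' hT' hξ
      exact hinj T T' ((hsL T).1 hT).2 ((hsL T').1 hT').2 hξ
    · intro T hT
      exact hodd T ((hsL T).1 hT).2
    · intro T hT
      obtain ⟨h1, h2⟩ := (hsL T).1 hT
      exact (hsL (-T)).2 ⟨L.neg_mem h1, neg_ne_zero.2 h2⟩
  rw [hfil, hsq] at hsplit
  have hc : 1 < v (∏ T ∈ sV.filter (fun T => ¬ T ∈ L), ξ T) := by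
    rw [map_prod]
    apply one_lt_prod
    · refine ⟨T₂, Finset.mem_filter.2 ⟨(hsV T₂).2 ?_, hT₂L⟩⟩
      rintro rfl
      exact hT₂L L.zero_mem
    · intro T hT
      exact hall T ((hsV T).1 (Finset.mem_filter.1 hT).1)
  -- the product formula bounds the total product
  have hbound : v (∏ T ∈ sV, ξ T) * v pK ^ 2 ≤ 1 := by
    by_contra hgt
    rw [not_le] at hgt
    have h1 : 1 < (v (∏ T ∈ sV, ξ T) * v pK ^ 2) ^ 2 := one_lt_pow₀ hgt two_ne_zero
    have h2 : (v (∏ T ∈ sV, ξ T) * v pK ^ 2) ^ 2 = v κ ^ (p ^ 2 - 1) := by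
      have := congrArg v hIB
      rw [map_mul, map_pow, map_pow, map_pow] at this
      rw [← this, mul_pow, ← pow_mul]
    rw [h2] at h1
    exact absurd (pow_le_one₀ zero_le hκ) (not_le.2 h1)
  have hfinal : 1 < v (∏ T ∈ sV, ξ T) * v pK ^ 2 := by
    rw [← hsplit, map_mul, map_pow]
    have e : v h ^ 2 * v (∏ T ∈ sV.filter (fun T => ¬ T ∈ L), ξ T) * v pK ^ 2
        = (v pK * v h) ^ 2 * v (∏ T ∈ sV.filter (fun T => ¬ T ∈ L), ξ T) := by
      rw [mul_pow]
      ac_rfl
    rw [e]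
    rw [map_mul] at hh
    have h3 : 1 ≤ (v pK * v h) ^ 2 := one_le_pow₀ hh
    calc 1 < v (∏ T ∈ sV.filter (fun T => ¬ T ∈ L), ξ T) := hc
      _ = 1 * v (∏ T ∈ sV.filter (fun T => ¬ T ∈ L), ξ T) := (one_mul _).symm
      _ ≤ (v pK * v h) ^ 2 * v (∏ T ∈ sV.filter (fun T => ¬ T ∈ L), ξ T) := by gcongr
  exact absurd hbound (not_le.2 hfinal)

end Abstract

section Concrete

open Fermat.Agent.S13Lib.Iface

variable (P : FreyPackage)

/-- the inclusion of the `p`-torsion into the group of points -/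
noncomputable def incl : Vp P →+ (P.freyCurve⁄Qb).toAffine.Point where
  toFun T := T.1
  map_zero' := rfl
  map_add' _ _ := rfl

/-- the abscissa commutes with the Galois action -/
theorem xi_smul (σ : Gal) (D : (P.freyCurve⁄Qb).toAffine.Point) :
    Kummer.xi (P.freyCurve⁄Qb) 0 (σ • D) = σ (Kummer.xi (P.freyCurve⁄Qb) 0 D) := by
  rcases D with _ | ⟨x, y, h⟩
  · show Kummer.xi (P.freyCurve⁄Qb) 0 0 = σ (Kummer.xi (P.freyCurve⁄Qb) 0 0)
    rw [Kummer.xi_zero, _root_.map_zero]
  · obtain ⟨h', e⟩ := Inertia.smul_some P.freyCurve σ h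
    rw [e, Kummer.xi_some, Kummer.xi_some, map_sub, _root_.map_zero]

/-- **(IC)** from (IA) and the product formula (IB), the latter stated for an arbitrary
enumeration of the nonzero `p`-torsion points. -/
theorem ic_of_prod (hIA : IA P)
    (hIB : ∀ s : Finset (Vp P), (∀ T, T ∈ s ↔ T ≠ 0) →
      (∏ T ∈ s, Kummer.xi (P.freyCurve⁄Qb) 0 (T : (P.freyCurve⁄Qb).toAffine.Point)) ^ 2
          * (P.p : Qb) ^ 4
        = (-((P.a : Qb) ^ P.p * (P.b : Qb) ^ P.p) / 16) ^ (P.p ^ 2 - 1)) : IC P := by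
  classical
  intro L hstab hLcard
  have hp := P.pp
  have hfinV : Finite (Vp P) :=
    Nat.finite_of_card_ne_zero (by rw [hIA]; exact pow_ne_zero 2 hp.ne_zero)
  let _ : Fintype (Vp P) := Fintype.ofFinite _
  set ξ : Vp P → Qb :=
    fun T => Kummer.xi (P.freyCurve⁄Qb) 0 (T : (P.freyCurve⁄Qb).toAffine.Point) with hξ
  have hK := AtP.frey_isKummer (K := Qb) P
  set sL : Finset (Vp P) := Finset.univ.filter (fun T => T ∈ L ∧ T ≠ 0) with hsL_def
  set sV : Finset (Vp P) := Finset.univ.filter (fun T => T ≠ 0) with hsV_def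
  have hsL : ∀ T, T ∈ sL ↔ T ∈ L.toAddSubgroup ∧ T ≠ 0 := by
    intro T
    simp [hsL_def]
  have hsV : ∀ T, T ∈ sV ↔ T ≠ 0 := by
    intro T
    simp [hsV_def]
  have hcoe0 : ∀ T : Vp P, T ≠ 0 → (T : (P.freyCurve⁄Qb).toAffine.Point) ≠ 0 :=
    fun T hT h0 => hT (Subtype.ext h0)
  have hneg : ∀ T, ξ (-T) = ξ T := by
    intro T
    simp only [hξ]
    rw [Submodule.coe_neg]
    exact hK.neg _
  have hinj : ∀ T T', T ≠ 0 → T' ≠ 0 → ξ T = ξ T' → T = T' ∨ T = -T' := by
    intro T T' hT hT' h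
    rcases hK.eq_or_eq_neg _ _ (hcoe0 T hT) (hcoe0 T' hT') h with h1 | h1
    · exact Or.inl (Subtype.ext h1)
    · exact Or.inr (Subtype.ext (by rw [Submodule.coe_neg]; exact h1))
  have hodd : ∀ T : Vp P, T ≠ 0 → T ≠ -T := by
    intro T hT hTT
    apply hT
    have h2 : T + T = 0 := by
      nth_rewrite 2 [hTT]
      exact add_neg_cancel T
    have hpT : (P.p : ℤ) • T = 0 := Submodule.smul_torsionBy _ T
    obtain ⟨k, hk⟩ := P.hp_odd
    have e0 : (P.p : ℤ) • T = ((2 * k + 1 : ℕ) : ℤ) • T :=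
      congrArg (fun n : ℕ => (n : ℤ) • T) hk
    have e : ((2 * k + 1 : ℕ) : ℤ) • T = (k : ℤ) • (T + T) + T := by
      push_cast
      module
    rw [← e0, hpT, h2, smul_zero, zero_add] at e
    exact e.symm
  -- the half product over the line
  set h : Qb := ∏ x ∈ sL.image ξ, x with hh_def
  have hfix : ∀ σ : Gal, σ h = h := by
    intro σ
    rw [hh_def, map_prod]
    have himg : (sL.image ξ).image σ = sL.image ξ := by
      apply Finset.eq_of_subset_of_card_le
      · intro y hy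
        obtain ⟨x, hx, rfl⟩ := Finset.mem_image.1 hy
        obtain ⟨T, hT, rfl⟩ := Finset.mem_image.1 hx
        obtain ⟨h1, h2⟩ := (hsL T).1 hT
        have e : σ (ξ T) = ξ (σ • T) := (xi_smul P σ T).symm
        rw [e]
        exact Finset.mem_image_of_mem ξ ((hsL _).2
          ⟨hstab σ T h1, fun h0 => h2 ((smul_eq_zero_iff_eq σ).1 h0)⟩)
      · rw [Finset.card_image_of_injective _ σ.injective]
    conv_rhs => rw [← himg]
    rw [Finset.prod_image (fun a _ b _ hab => σ.injective hab)]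
  obtain ⟨r, hr⟩ := exists_rat_of_fixed h hfix
  have hrK : (r : Qb) = h := by
    rw [← hr]
    exact (eq_ratCast (algebraMap ℚ Qb) r).symm
  by_cases hden : P.p ∣ r.den
  · right
    intro A hA σ hσ T
    obtain ⟨h2, hβ, hκ⟩ := AtP.frey_val P A hA
    set MK : AddSubgroup (Vp P) := AddSubgroup.comap (incl P)
      (E1.ker A.valuation hK h2 hβ hκ) with hMK_def
    have hMK : ∀ T : Vp P, T ≠ 0 → (T ∈ MK ↔ 1 < A.valuation (ξ T)) := by
      intro T hT
      constructor
      · rintro (h0 | h1)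
        · exact absurd h0 (hcoe0 T hT)
        · exact h1
      · intro h1
        exact Or.inr h1
    have hpv : A.valuation (P.p : Qb) < 1 := A.mem_nonunits_iff.1 hA
    have key := caseY A.valuation ξ L.toAddSubgroup MK hp hIA hLcard sL sV hsL hsV hneg hinj hodd
      hMK (P.p : Qb) _ hpv hκ (hIB sV hsV)
      (by rw [← hh_def, ← hrK]; exact one_le_val_mul_rat A hp hA r hden)
    apply key
    have hpT : P.p • (T : (P.freyCurve⁄Qb).toAffine.Point) = 0 := by
      have := (Submodule.mem_torsionBy_iff _ _).1 T.2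
      rwa [natCast_zsmul] at this
    exact AtP.frey_sub_mem P A hA hσ T.1 hpT
  · left
    intro A hA σ hσ T hT
    obtain ⟨h2, hβ, hκ⟩ := AtP.frey_val P A hA
    set MK : AddSubgroup (Vp P) := AddSubgroup.comap (incl P)
      (E1.ker A.valuation hK h2 hβ hκ) with hMK_def
    have hMK : ∀ T : Vp P, T ≠ 0 → T ∈ MK → 1 < A.valuation (ξ T) := by
      intro T hT
      rintro (h0 | h1)
      · exact absurd h0 (hcoe0 T hT)
      · exact h1
    have key := caseX A.valuation ξ L.toAddSubgroup MK hp hLcard sL hsL hMK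
      (by rw [← hh_def, ← hrK]; exact val_rat_le_one A hp hA r hden)
    have hpT : P.p • (T : (P.freyCurve⁄Qb).toAffine.Point) = 0 := by
      have := (Submodule.mem_torsionBy_iff _ _).1 T.2
      rwa [natCast_zsmul] at this
    have hD : σ • T - T ∈ L := L.sub_mem (hstab σ T hT) hT
    exact sub_eq_zero.1 (key (σ • T - T) hD (AtP.frey_sub_mem P A hA hσ T.1 hpT))

/-- the product formula (IB) at `e = 0`, for an arbitrary enumeration of the nonzero `p`-torsion
points -/
theorem prod_of_ib {κ : Qb} (hB : IfaceB.IB P 0 κ) (s : Finset (Vp P))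
    (hs : ∀ T, T ∈ s ↔ T ≠ 0) :
    (∏ T ∈ s, Kummer.xi (P.freyCurve⁄Qb) 0 (T : (P.freyCurve⁄Qb).toAffine.Point)) ^ 2
        * (P.p : Qb) ^ 4 = κ ^ (P.p ^ 2 - 1) := by
  have hpT : ∀ T : Vp P, P.p • (T : (P.freyCurve⁄Qb).toAffine.Point) = 0 := by
    intro T
    have := (Submodule.mem_torsionBy_iff _ _).1 T.2
    rwa [natCast_zsmul] at this
  have key : ∏ T ∈ s, Kummer.xi (P.freyCurve⁄Qb) 0 (T : (P.freyCurve⁄Qb).toAffine.Point)
      = ∏ᶠ T : {Q : (P.freyCurve⁄Qb).toAffine.Point // P.p • Q = 0 ∧ Q ≠ 0},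
          Kummer.xi (P.freyCurve⁄Qb) 0 T.1 := by
    rw [← finprod_mem_finset_eq_prod, ← finprod_subtype_eq_finprod_cond]
    apply finprod_eq_of_bijective
      (fun T : {T : Vp P // T ∈ s} =>
        (⟨T.1.1, ⟨hpT T.1, fun h0 => (hs T.1).1 T.2 (Subtype.ext h0)⟩⟩ :
          {Q : (P.freyCurve⁄Qb).toAffine.Point // P.p • Q = 0 ∧ Q ≠ 0}))
    · constructor
      · intro a b hab
        apply Subtype.ext
        apply Subtype.ext
        have h1 := congrArg Subtype.val hab
        exact h1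
      · rintro ⟨Q, hQ, hQ0⟩
        have hmem : Q ∈ Submodule.torsionBy ℤ (P.freyCurve⁄Qb).toAffine.Point P.p := by
          rw [Submodule.mem_torsionBy_iff, natCast_zsmul]
          exact hQ
        refine ⟨⟨⟨Q, hmem⟩, (hs _).2 ?_⟩, rfl⟩
        intro h0
        exact hQ0 (congrArg Subtype.val h0)
    · intro T
      rfl
  rw [key]
  exact hB

/-- **(IC)**: the dichotomy at `p` for a Galois-stable line of the `p`-torsion of the Frey curve,
from the torsion count (IA) and the product formula (IB) (only the one at `e = 0` is used). -/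
theorem iC (hA : IA P)
    (hB0 : IfaceB.IB P 0 (-((P.a : Qb) ^ P.p * (P.b : Qb) ^ P.p) / 16))
    (_hBa : IfaceB.IB P ((P.a : Qb) ^ P.p / 4) ((P.a : Qb) ^ P.p * (P.c : Qb) ^ P.p / 16)) :
    IC P :=
  ic_of_prod P hA (prod_of_ib P hB0)

end Concrete

end Fermat.Agent.S13Lib.AtPDich
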