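import Mathlib
import Fermat.Agent.S05Lib.Defs

/-!
# S13: the generic Kummer datum (interface between the function-field construction and the
abstract torsion count / product formula)

`GenKummer ξ₀ ξ β κ ι Pg w` packages: a Kummer line `ξ₀ : G₀ → k` (the points of the curve over
the algebraically closed constant field `k`), a Kummer line `ξ : G → K` with the same parameters
over an extension field `K` (the function field), the base-change map `ι : G₀ →+ G`, the generic
point `Pg : G`, and for every `Q : G₀` a `ℤ`-valued valuation `w Q` of `K`, trivial on `k`, at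
which `ξ (Pg - ι Q)` has a pole of order exactly `2`.
-/

set_option autoImplicit false

namespace Fermat.Agent.S13Lib.GenDefs

open Fermat.Agent.S05Lib

/-- `exp n` in the value group `ℤᵐ⁰` -/
noncomputable def ex (n : ℤ) : WithZero (Multiplicative ℤ) :=
  ((Multiplicative.ofAdd n : Multiplicative ℤ) : WithZero (Multiplicative ℤ))

/-- The generic Kummer datum. -/
structure GenKummer {k K G₀ G : Type*} [Field k] [Field K] [Algebra k K] [AddCommGroup G₀]
    [AddCommGroup G] (ξ₀ : G₀ → k) (ξ : G → K) (β κ : k) (ι : G₀ →+ G) (Pg : G)
    (w : G₀ → Valuation K (WithZero (Multiplicative ℤ))) : Prop where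
  /-- the Kummer line of the curve over the constants -/
  kummer₀ : IsKummer ξ₀ β κ
  /-- the Kummer line of the curve over the big field -/
  kummer : IsKummer ξ (algebraMap k K β) (algebraMap k K κ)
  /-- every constant is the `ξ₀` of a nonzero point (constants algebraically closed) -/
  surj : ∀ c : k, ∃ Q : G₀, Q ≠ 0 ∧ ξ₀ Q = c
  /-- base change of points is injective -/
  ι_inj : Function.Injective ι
  /-- base change of points commutes with `ξ` -/
  ξ_ι : ∀ Q : G₀, ξ (ι Q) = algebraMap k K (ξ₀ Q)
  /-- the valuations are trivial on the constants -/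
  w_const : ∀ (Q : G₀) (c : k), c ≠ 0 → w Q (algebraMap k K c) = 1
  /-- at the place `Q`, the point `Pg - Q` has a pole of order exactly two -/
  w_gen : ∀ Q : G₀, w Q (ξ (Pg - ι Q)) = ex 2

/-- The generic Kummer datum, SINGLE-VALUATION form (preferred): only the valuation `w` at
infinity of the big field; the "place at `Q`" is replaced by the translated generic point
`Pg + ι Q`. -/
structure GenK {k K G₀ G : Type*} [Field k] [Field K] [Algebra k K] [AddCommGroup G₀]
    [AddCommGroup G] (ξ₀ : G₀ → k) (ξ : G → K) (β κ : k) (ι : G₀ →+ G) (Pg : G)
    (w : Valuation K (WithZero (Multiplicative ℤ))) : Prop where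
  /-- the Kummer line of the curve over the constants -/
  kummer₀ : IsKummer ξ₀ β κ
  /-- the Kummer line of the curve over the big field -/
  kummer : IsKummer ξ (algebraMap k K β) (algebraMap k K κ)
  /-- every constant is the `ξ₀` of a nonzero point (constants algebraically closed) -/
  surj : ∀ c : k, ∃ Q : G₀, Q ≠ 0 ∧ ξ₀ Q = c
  /-- base change of points is injective -/
  ι_inj : Function.Injective ι
  /-- base change of points commutes with `ξ` -/
  ξ_ι : ∀ Q : G₀, ξ (ι Q) = algebraMap k K (ξ₀ Q)
  /-- the valuation is trivial on the constants -/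
  w_const : ∀ c : k, c ≠ 0 → w (algebraMap k K c) = 1
  /-- the generic point has a pole of order exactly two -/
  w_gen : w (ξ Pg) = ex 2

end Fermat.Agent.S13Lib.GenDefs
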