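/-
S13 long shot, piece (H8'): the table of the valuations of `X_Q - c` in a generic Kummer datum
`GenK` (`X_Q = ξ (Pg + ι Q)` the translated generic abscissa, `c` a constant), from the
continuity property (H6) of the valuation `w`:
`w (X_0 - c) = exp 2`; for `Q ≠ 0`: `w (X_Q - c) = 1` if `c ≠ ξ₀ Q`,
`w (X_Q - ξ₀ Q) = exp (-1)` if `2 Q ≠ 0` and `exp (-2)` if `2 Q = 0`.
-/
import Mathlib
import Fermat.Agent.S05Lib.Defs
import Fermat.Agent.S13Lib.GenDefs
import Fermat.Agent.S13Lib.SumFormula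

set_option autoImplicit false

namespace Fermat.Agent.S13Lib.GenTable

open Fermat.Agent.S05Lib Fermat.Agent.S13Lib.GenDefs Fermat.Agent.S13Lib.SumFormula

/-- (H1) STAR: the product of the two values `ξ (P ± Q) - ξ Q`. -/
theorem star {G F : Type*} [AddCommGroup G] [Field F] {ξ : G → F} {b c : F}
    (hK : IsKummer ξ b c) {P Q : G} (hP : P ≠ 0) (hQ : Q ≠ 0) (hne : ξ P ≠ ξ Q) :
    (ξ (P + Q) - ξ Q) * (ξ (P - Q) - ξ Q) * (ξ P - ξ Q) ^ 2 =
      (ξ Q ^ 2 - c) ^ 2 - ξ P * (ξ Q * (4 * ξ Q ^ 2 + b * ξ Q + 4 * c)) := by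
  have hm := hK.mul P Q hP hQ hne
  have ha := hK.add P Q hP hQ hne
  linear_combination hm - ξ Q * ha

/-- every nonzero element of `ℤᵐ⁰` is an `ex n` -/
theorem exists_eq_ex {x : WithZero (Multiplicative ℤ)} (hx : x ≠ 0) : ∃ n : ℤ, x = ex n := by
  obtain ⟨a, rfl⟩ := WithZero.ne_zero_iff_exists.1 hx
  exact ⟨Multiplicative.toAdd a, rfl⟩

theorem one_lt_ex_two' : (1 : WithZero (Multiplicative ℤ)) < ex 2 := by
  rw [← ex_zero, ex_lt_ex]
  norm_num

variable {k K G₀ G : Type*} [Field k] [Field K] [Algebra k K] [AddCommGroup G₀]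
  [AddCommGroup G] {ξ₀ : G₀ → k} {ξ : G → K} {β κ : k} {ι : G₀ →+ G} {Pg : G}
  {w : Valuation K (WithZero (Multiplicative ℤ))}

/-- **(H8') The table**, from the continuity property (H6). -/
theorem table_of_cont (h : GenK ξ₀ ξ β κ ι Pg w) (hκ0 : κ ≠ 0) (hdisc : β ^ 2 ≠ 64 * κ)
    (hcont : ∀ R S : G, 1 < w (ξ R) → S ≠ 0 → w (ξ S) ≤ 1 → w (ξ (R + S) - ξ S) < 1) :
    Table ξ₀ fun Q c => w (ξ (Pg + ι Q) - algebraMap k K c) := by
  have hgen : 1 < w (ξ Pg) := by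
    rw [h.w_gen]
    exact one_lt_ex_two'
  have hconst : ∀ c : k, w (algebraMap k K c) ≤ 1 := by
    intro c
    by_cases hc : c = 0
    · simp [hc]
    · exact (h.w_const c hc).le
  have hPg : Pg ≠ 0 := by
    intro h0
    rw [h0, h.kummer.zero, map_zero] at hgen
    exact not_lt_of_ge zero_le hgen
  have hι : ∀ Q : G₀, Q ≠ 0 → ι Q ≠ 0 := fun Q hQ h0 => hQ (h.ι_inj (by rw [h0, map_zero]))
  have hlt : ∀ Q : G₀, Q ≠ 0 → w (ξ (Pg + ι Q) - algebraMap k K (ξ₀ Q)) < 1 := by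
    intro Q hQ
    have := hcont Pg (ι Q) hgen (hι Q hQ) (by rw [h.ξ_ι]; exact hconst _)
    rwa [h.ξ_ι] at this
  -- the value of `x - q` for the generic abscissa `x` and a constant `q`
  have hxq : ∀ c : k, w (ξ Pg - algebraMap k K c) = ex 2 := by
    intro c
    rw [Valuation.map_sub_eq_of_lt_left _ (lt_of_le_of_lt (hconst c) hgen), h.w_gen]
  -- the STAR identity at `(Pg, ι Q)`
  have hstar : ∀ Q : G₀, Q ≠ 0 →
      (ξ (Pg + ι Q) - algebraMap k K (ξ₀ Q)) * (ξ (Pg + ι (-Q)) - algebraMap k K (ξ₀ (-Q))) *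
        (ξ Pg - algebraMap k K (ξ₀ Q)) ^ 2 =
      algebraMap k K ((ξ₀ Q ^ 2 - κ) ^ 2) -
        ξ Pg * algebraMap k K (ξ₀ Q * (4 * ξ₀ Q ^ 2 + β * ξ₀ Q + 4 * κ)) := by
    intro Q hQ
    have hne : ξ Pg ≠ ξ (ι Q) := by
      intro hc
      rw [hc, h.ξ_ι] at hgen
      exact not_lt_of_ge (hconst _) hgen
    have := star h.kummer hPg (hι Q hQ) hne
    rw [h.ξ_ι] at this
    rw [h.kummer₀.neg, map_neg, ← sub_eq_add_neg, this]
    simp only [map_mul, map_add, map_sub, map_pow, map_ofNat]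
  refine ⟨?_, ?_, ?_, ?_⟩
  · intro c
    show w (ξ (Pg + ι 0) - algebraMap k K c) = ex 2
    rw [map_zero, add_zero]
    exact hxq c
  · intro Q c hQ hc
    show w (ξ (Pg + ι Q) - algebraMap k K c) = 1
    have e : ξ (Pg + ι Q) - algebraMap k K c =
        (ξ (Pg + ι Q) - algebraMap k K (ξ₀ Q)) + algebraMap k K (ξ₀ Q - c) := by
      rw [map_sub]
      ring
    have h1 : w (algebraMap k K (ξ₀ Q - c)) = 1 :=
      h.w_const _ (sub_ne_zero.2 (Ne.symm hc))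
    rw [e, Valuation.map_add_eq_of_lt_right _ (by rw [h1]; exact hlt Q hQ), h1]
  · intro Q hQ h2
    show w (ξ (Pg + ι Q) - algebraMap k K (ξ₀ Q)) = ex (-1)
    have hd : ξ₀ Q * (4 * ξ₀ Q ^ 2 + β * ξ₀ Q + 4 * κ) ≠ 0 :=
      (h.kummer₀.two_nsmul_eq_zero_iff Q hQ).not.1 h2
    have hs := congrArg w (hstar Q hQ)
    have hR : w (algebraMap k K ((ξ₀ Q ^ 2 - κ) ^ 2) -
        ξ Pg * algebraMap k K (ξ₀ Q * (4 * ξ₀ Q ^ 2 + β * ξ₀ Q + 4 * κ))) = ex 2 := by
      have e2 : w (ξ Pg * algebraMap k K (ξ₀ Q * (4 * ξ₀ Q ^ 2 + β * ξ₀ Q + 4 * κ))) = ex 2 := by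
        rw [map_mul, h.w_const _ hd, mul_one, h.w_gen]
      rw [Valuation.map_sub_eq_of_lt_right _ (by
        rw [e2]
        exact lt_of_le_of_lt (hconst _) one_lt_ex_two'), e2]
    rw [hR, map_mul, map_mul, map_pow, hxq] at hs
    have hA := hlt Q hQ
    have hB := hlt (-Q) (neg_ne_zero.2 hQ)
    have hA0 : w (ξ (Pg + ι Q) - algebraMap k K (ξ₀ Q)) ≠ 0 := by
      intro h0
      rw [h0, zero_mul, zero_mul] at hs
      exact ex_ne_zero 2 hs.symm
    have hB0 : w (ξ (Pg + ι (-Q)) - algebraMap k K (ξ₀ (-Q))) ≠ 0 := by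
      intro h0
      rw [h0, mul_zero, zero_mul] at hs
      exact ex_ne_zero 2 hs.symm
    obtain ⟨a, ha⟩ := exists_eq_ex hA0
    obtain ⟨b, hb⟩ := exists_eq_ex hB0
    rw [ha] at hs hA ⊢
    rw [hb] at hs hB
    rw [← ex_zero, ex_lt_ex] at hA hB
    rw [ex_pow, ← ex_add, ← ex_add] at hs
    have := ex_injective hs
    push_cast at this
    congr 1
    omega
  · intro Q hQ h2
    show w (ξ (Pg + ι Q) - algebraMap k K (ξ₀ Q)) = ex (-2)
    have hd : ξ₀ Q * (4 * ξ₀ Q ^ 2 + β * ξ₀ Q + 4 * κ) = 0 :=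
      (h.kummer₀.two_nsmul_eq_zero_iff Q hQ).1 h2
    have hneg : -Q = Q := by
      rw [two_nsmul] at h2
      exact neg_eq_of_add_eq_zero_left h2
    have hne : ξ₀ Q ^ 2 - κ ≠ 0 := by
      intro hc
      have hc' : ξ₀ Q ^ 2 = κ := sub_eq_zero.1 hc
      have hq0 : ξ₀ Q ≠ 0 := by
        intro h0
        rw [h0] at hc'
        exact hκ0 (by rw [← hc']; ring)
      have h4 : 4 * ξ₀ Q ^ 2 + β * ξ₀ Q + 4 * κ = 0 := by
        rcases mul_eq_zero.1 hd with h0 | h0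
        · exact absurd h0 hq0
        · exact h0
      apply hdisc
      have h8 : β * ξ₀ Q = -8 * κ := by linear_combination h4 - 4 * hc'
      have : (β ^ 2 - 64 * κ) * κ = 0 := by
        have : β ^ 2 * ξ₀ Q ^ 2 = 64 * κ ^ 2 := by
          have h9 : (β * ξ₀ Q) ^ 2 = (-8 * κ) ^ 2 := by rw [h8]
          linear_combination h9
        rw [hc'] at this
        linear_combination this
      rcases mul_eq_zero.1 this with h0 | h0
      · exact sub_eq_zero.1 h0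
      · exact absurd h0 hκ0
    have hs := congrArg w (hstar Q hQ)
    rw [hneg, hd, map_zero, mul_zero, sub_zero, h.w_const _ (pow_ne_zero 2 hne), map_mul,
      map_mul, map_pow, hxq] at hs
    have hA := hlt Q hQ
    have hA0 : w (ξ (Pg + ι Q) - algebraMap k K (ξ₀ Q)) ≠ 0 := by
      intro h0
      rw [h0, zero_mul, zero_mul] at hs
      exact zero_ne_one hs
    obtain ⟨a, ha⟩ := exists_eq_ex hA0
    rw [ha] at hs ⊢
    rw [ex_pow, ← ex_add, ← ex_add, ← ex_zero] at hs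
    have := ex_injective hs
    push_cast at this
    congr 1
    omega

end Fermat.Agent.S13Lib.GenTable
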