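/-
S13 long shot, piece (A3): the product formula for polynomials in the translated generic
abscissas `X_Q = ξ (Pg + ι Q)` of a generic Kummer datum (single-valuation form `GenK`).

* `ProdOne F` : the family `F : ι → Γ₀` has finite multiplicative support and product `1`.
* `prodOne_aeval`, `prodOne_div` : product formula for polynomials / quotients of polynomials,
  for a family of valuations `w i` of a field `K ⊇ k` trivial on `k` and a family of elements
  `X i`, given the product formula for all `X i - c` (`k` algebraically closed).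
* `Table ξ₀ V` : the table (H8) of the valuations `V Q c` of `X - c` at the place `Q`.
* `Table.prodOne` : the table implies the product formula for all `X - c`.
* `prodOne_aeval_gen` : (A3') in a `GenK` with the table, `∏ Q, w (p (X_Q)) = 1` for `p ≠ 0`.
* `val_aeval_eq_pow`, `val_aeval_le_one`, `val_aeval_zero`, `aeval_ne_zero` : the valuations of
  `p (X_Q)` one by one.
* `exists_eq_C_mul` : polynomials with `w (r (X_Q)) = w (s (X_Q))` for all `Q ≠ 0` are
  proportional.
-/
import Mathlib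
import Fermat.Agent.S13Lib.GenDefs

set_option autoImplicit false

namespace Fermat.Agent.S13Lib.SumFormula

open Polynomial Function

section Abstract

variable {ι Γ₀ : Type*} [LinearOrderedCommGroupWithZero Γ₀]

/-- A family of values with finite multiplicative support and product `1`. -/
def ProdOne (F : ι → Γ₀) : Prop := (mulSupport F).Finite ∧ ∏ᶠ i, F i = 1

theorem ProdOne.finite {F : ι → Γ₀} (h : ProdOne F) : (mulSupport F).Finite := h.1

theorem ProdOne.finprod_eq {F : ι → Γ₀} (h : ProdOne F) : ∏ᶠ i, F i = 1 := h.2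

theorem prodOne_one : ProdOne (fun _ : ι => (1 : Γ₀)) :=
  ⟨by rw [mulSupport_fun_one]; exact Set.finite_empty, finprod_one⟩

theorem ProdOne.mul {F G : ι → Γ₀} (hF : ProdOne F) (hG : ProdOne G) :
    ProdOne (fun i => F i * G i) :=
  ⟨(hF.1.union hG.1).subset (mulSupport_mul F G), by
    rw [finprod_mul_distrib hF.1 hG.1, hF.2, hG.2, mul_one]⟩

theorem ProdOne.inv {F : ι → Γ₀} (hF : ProdOne F) : ProdOne (fun i => (F i)⁻¹) :=
  ⟨by
    have : mulSupport (fun i => (F i)⁻¹) = mulSupport F := by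
      ext i
      simp only [mem_mulSupport, ne_eq, inv_eq_one]
    rw [this]; exact hF.1, by
    rw [finprod_inv_distrib, hF.2, inv_one]⟩

theorem ProdOne.div {F G : ι → Γ₀} (hF : ProdOne F) (hG : ProdOne G) :
    ProdOne (fun i => F i / G i) := by
  simp only [div_eq_mul_inv]
  exact hF.mul hG.inv

theorem ProdOne.pow {F : ι → Γ₀} (hF : ProdOne F) (n : ℕ) : ProdOne (fun i => F i ^ n) := by
  induction n with
  | zero => simpa using prodOne_one
  | succ n ih =>
    simp only [pow_succ]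
    exact ih.mul hF

theorem ProdOne.congr {F G : ι → Γ₀} (hF : ProdOne F) (h : ∀ i, F i = G i) : ProdOne G := by
  have : F = G := funext h
  rwa [← this]

/-- Multiset products of families with product one. -/
theorem prodOne_multiset_prod {α : Type*} (s : Multiset α) (F : α → ι → Γ₀)
    (h : ∀ a ∈ s, ProdOne (F a)) : ProdOne (fun i => (s.map fun a => F a i).prod) := by
  induction s using Multiset.induction_on with
  | empty => simpa using prodOne_one
  | cons a s ih =>
    simp only [Multiset.map_cons, Multiset.prod_cons]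
    exact (h a (Multiset.mem_cons_self a s)).mul
      (ih fun b hb => h b (Multiset.mem_cons_of_mem hb))

/-- The shape of the table of a function `X - c` on an elliptic curve: a double pole at the
origin, and either two simple zeros at `± Q₀` or a double zero at a point `Q₀` of order two. -/
theorem prodOne_of_table {G : Type*} [AddCommGroup G] (F : G → Γ₀) (a : Γ₀) (ha : a ≠ 0)
    (Q₀ : G) (hQ₀ : Q₀ ≠ 0) (h0 : F 0 = a ^ 2)
    (h1 : (2 : ℕ) • Q₀ ≠ 0 → F Q₀ = a⁻¹ ∧ F (-Q₀) = a⁻¹)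
    (h2 : (2 : ℕ) • Q₀ = 0 → F Q₀ = (a ^ 2)⁻¹)
    (hne : ∀ Q, Q ≠ 0 → Q ≠ Q₀ → Q ≠ -Q₀ → F Q = 1) : ProdOne F := by
  classical
  have hsub : mulSupport F ⊆ ↑({0, Q₀, -Q₀} : Finset G) := by
    intro Q hQ
    rw [mem_mulSupport] at hQ
    by_contra hcon
    simp only [Finset.coe_insert, Finset.coe_singleton, Set.mem_insert_iff,
      Set.mem_singleton_iff, not_or] at hcon
    exact hQ (hne Q hcon.1 hcon.2.1 hcon.2.2)
  refine ⟨(Finset.finite_toSet _).subset hsub, ?_⟩
  rw [finprod_eq_prod_of_mulSupport_subset F hsub]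
  by_cases h : (2 : ℕ) • Q₀ = 0
  · have hneg : -Q₀ = Q₀ := by
      rw [two_nsmul] at h
      exact neg_eq_of_add_eq_zero_left h
    rw [hneg, Finset.pair_eq_singleton, Finset.prod_pair (Ne.symm hQ₀), h0, h2 h]
    exact mul_inv_cancel₀ (pow_ne_zero 2 ha)
  · have hneg : Q₀ ≠ -Q₀ := by
      intro hc
      apply h
      rw [two_nsmul]
      nth_rewrite 1 [hc]
      exact neg_add_cancel Q₀
    have hnegne : (0 : G) ≠ -Q₀ := fun hc => hQ₀ (by
      have := congrArg Neg.neg hc
      simpa using this.symm)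
    obtain ⟨e1, e2⟩ := h1 h
    rw [Finset.prod_insert (by
        simp only [Finset.mem_insert, Finset.mem_singleton, not_or]
        exact ⟨Ne.symm hQ₀, hnegne⟩),
      Finset.prod_pair hneg, h0, e1, e2, ← mul_inv, ← pow_two,
      mul_inv_cancel₀ (pow_ne_zero 2 ha)]

end Abstract

section Valuations

variable {ι Γ₀ : Type*} [LinearOrderedCommGroupWithZero Γ₀]
  {k K : Type*} [Field k] [Field K] [Algebra k K]

/-- Factorisation of `p(X)` over an algebraically closed field of constants. -/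
theorem aeval_eq_prod_roots [IsAlgClosed k] (X : K) (p : k[X]) :
    aeval X p = algebraMap k K p.leadingCoeff *
      (p.roots.map fun c => X - algebraMap k K c).prod := by
  have hfac := Polynomial.Splits.eq_prod_roots (IsAlgClosed.splits p)
  conv_lhs => rw [hfac]
  rw [map_mul, aeval_C, map_multiset_prod, Multiset.map_map]
  congr 2
  apply Multiset.map_congr rfl
  intro c _
  simp

/-- The valuation of `p(X)` in terms of the valuations of the `X - c`. -/
theorem val_aeval_eq_prod_roots [IsAlgClosed k] (v : Valuation K Γ₀)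
    (hk : ∀ c : k, c ≠ 0 → v (algebraMap k K c) = 1) (X : K) (p : k[X]) (hp : p ≠ 0) :
    v (aeval X p) = (p.roots.map fun c => v (X - algebraMap k K c)).prod := by
  have hlc : p.leadingCoeff ≠ 0 := leadingCoeff_ne_zero.mpr hp
  rw [aeval_eq_prod_roots X p, map_mul, hk _ hlc, one_mul, map_multiset_prod,
    Multiset.map_map]
  rfl

/-- **Product formula for polynomials**, for a family of valuations `w i` trivial on `k` and a
family of elements `X i`, given the product formula for all `X i - c`. -/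
theorem prodOne_aeval [IsAlgClosed k] (w : ι → Valuation K Γ₀) (X : ι → K)
    (hk : ∀ i (c : k), c ≠ 0 → w i (algebraMap k K c) = 1)
    (hX : ∀ c : k, ProdOne fun i => w i (X i - algebraMap k K c))
    (p : k[X]) (hp : p ≠ 0) : ProdOne fun i => w i (aeval (X i) p) :=
  (prodOne_multiset_prod p.roots (fun c i => w i (X i - algebraMap k K c))
    (fun c _ => hX c)).congr (fun i => (val_aeval_eq_prod_roots (w i) (hk i) (X i) p hp).symm)

/-- **Product formula for quotients of polynomials.** -/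
theorem prodOne_div [IsAlgClosed k] (w : ι → Valuation K Γ₀) (X : ι → K)
    (hk : ∀ i (c : k), c ≠ 0 → w i (algebraMap k K c) = 1)
    (hX : ∀ c : k, ProdOne fun i => w i (X i - algebraMap k K c))
    (p q : k[X]) (hp : p ≠ 0) (hq : q ≠ 0) :
    ProdOne fun i => w i (aeval (X i) p / aeval (X i) q) :=
  ((prodOne_aeval w X hk hX p hp).div (prodOne_aeval w X hk hX q hq)).congr
    (fun i => (map_div₀ (w i) _ _).symm)

end Valuations

section Ex

open Fermat.Agent.S13Lib.GenDefs

theorem ex_ne_zero (n : ℤ) : ex n ≠ 0 := WithZero.coe_ne_zero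

theorem ex_zero : ex 0 = 1 := rfl

theorem ex_add (m n : ℤ) : ex (m + n) = ex m * ex n := rfl

theorem ex_neg (n : ℤ) : ex (-n) = (ex n)⁻¹ := rfl

theorem ex_two : ex 2 = ex 1 ^ 2 := rfl

theorem ex_lt_ex {m n : ℤ} : ex m < ex n ↔ m < n := by
  unfold ex
  rw [WithZero.coe_lt_coe, Multiplicative.ofAdd_lt]

theorem ex_le_ex {m n : ℤ} : ex m ≤ ex n ↔ m ≤ n := by
  unfold ex
  rw [WithZero.coe_le_coe, Multiplicative.ofAdd_le]

theorem ex_injective : Function.Injective ex := by
  intro m n hmn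
  unfold ex at hmn
  exact Multiplicative.ofAdd.injective (WithZero.coe_injective hmn)

theorem ex_pow (m : ℤ) (n : ℕ) : ex m ^ n = ex (n * m) := by
  induction n with
  | zero => simp [ex_zero]
  | succ n ih =>
    rw [pow_succ, ih, ← ex_add]
    congr 1
    push_cast
    ring

theorem ex_neg_one_lt_one : ex (-1) < 1 := by
  rw [← ex_zero, ex_lt_ex]
  norm_num

theorem ex_neg_two_lt_one : ex (-2) < 1 := by
  rw [← ex_zero, ex_lt_ex]
  norm_num

end Ex

section TableBasics

open Fermat.Agent.S13Lib.GenDefs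

variable {k G₀ : Type*} [AddCommGroup G₀] {ξ₀ : G₀ → k}

/-- The table (H8) of the valuations `V Q c` of the functions `X - c` (`c` a constant) at the
places `Q`: a double pole at the origin, a zero exactly at the points `Q` with `ξ₀ Q = c`, simple
unless `Q` has order two. For a `GenKummer`: `V Q c = w Q (ξ Pg - c)`; for a `GenK`:
`V Q c = w (ξ (Pg + ι Q) - c)`. -/
def Table (ξ₀ : G₀ → k) (V : G₀ → k → WithZero (Multiplicative ℤ)) : Prop :=
  (∀ c : k, V 0 c = ex 2) ∧
  (∀ (Q : G₀) (c : k), Q ≠ 0 → c ≠ ξ₀ Q → V Q c = 1) ∧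
  (∀ Q : G₀, Q ≠ 0 → (2 : ℕ) • Q ≠ 0 → V Q (ξ₀ Q) = ex (-1)) ∧
  (∀ Q : G₀, Q ≠ 0 → (2 : ℕ) • Q = 0 → V Q (ξ₀ Q) = ex (-2))

variable {V : G₀ → k → WithZero (Multiplicative ℤ)}

theorem Table.lt_one (hT : Table ξ₀ V) (Q : G₀) (hQ : Q ≠ 0) : V Q (ξ₀ Q) < 1 := by
  by_cases h2 : (2 : ℕ) • Q = 0
  · rw [hT.2.2.2 Q hQ h2]
    exact ex_neg_two_lt_one
  · rw [hT.2.2.1 Q hQ h2]
    exact ex_neg_one_lt_one

theorem Table.ne_zero (hT : Table ξ₀ V) (Q : G₀) (c : k) : V Q c ≠ 0 := by
  by_cases hQ : Q = 0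
  · rw [hQ, hT.1 c]
    exact ex_ne_zero _
  · by_cases hc : c = ξ₀ Q
    · by_cases h2 : (2 : ℕ) • Q = 0
      · rw [hc, hT.2.2.2 Q hQ h2]
        exact ex_ne_zero _
      · rw [hc, hT.2.2.1 Q hQ h2]
        exact ex_ne_zero _
    · rw [hT.2.1 Q c hQ hc]
      exact one_ne_zero

theorem Table.le_one (hT : Table ξ₀ V) (Q : G₀) (hQ : Q ≠ 0) (c : k) : V Q c ≤ 1 := by
  by_cases hc : c = ξ₀ Q
  · rw [hc]
    exact (hT.lt_one Q hQ).le
  · exact (hT.2.1 Q c hQ hc).le

end TableBasics

section Gen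

open Fermat.Agent.S05Lib Fermat.Agent.S13Lib.GenDefs

variable {k K G₀ G : Type*} [Field k] [Field K] [Algebra k K] [AddCommGroup G₀]
  [AddCommGroup G] {ξ₀ : G₀ → k} {ξ : G → K} {β κ : k} {ι : G₀ →+ G} {Pg : G}
  {V : G₀ → k → WithZero (Multiplicative ℤ)}

/-- The product formula for `X - c`. -/
theorem Table.prodOne (hT : Table ξ₀ V) (hK : IsKummer ξ₀ β κ)
    (hsurj : ∀ c : k, ∃ Q : G₀, Q ≠ 0 ∧ ξ₀ Q = c) (c : k) : ProdOne fun Q => V Q c := by
  obtain ⟨t0, t1, t2, t3⟩ := hT
  obtain ⟨Q₀, hQ₀, hc⟩ := hsurj c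
  have hnQ₀ : -Q₀ ≠ 0 := neg_ne_zero.2 hQ₀
  refine prodOne_of_table (fun Q => V Q c) (ex 1) (ex_ne_zero 1) Q₀ hQ₀ (t0 c) ?_ ?_ ?_
  · intro h2
    refine ⟨?_, ?_⟩
    · have := t2 Q₀ hQ₀ h2
      rw [hc] at this
      exact this
    · have h2' : (2 : ℕ) • (-Q₀) ≠ 0 := by
        rw [smul_neg]
        exact neg_ne_zero.2 h2
      have := t2 (-Q₀) hnQ₀ h2'
      rw [hK.neg, hc] at this
      exact this
  · intro h2
    have := t3 Q₀ hQ₀ h2
    rw [hc] at this
    exact this
  · intro Q hQ hQ1 hQ2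
    refine t1 Q c hQ ?_
    intro hcon
    rcases hK.eq_or_eq_neg Q Q₀ hQ hQ₀ (by rw [hc, hcon]) with e | e
    · exact hQ1 e
    · exact hQ2 e

/-! ### The single-valuation datum `GenK` -/

variable {w : Valuation K (WithZero (Multiplicative ℤ))}

/-- **(A3') The product formula for polynomials in the translated generic abscissas.** -/
theorem prodOne_aeval_gen [IsAlgClosed k] (h : GenK ξ₀ ξ β κ ι Pg w)
    (hT : Table ξ₀ fun Q c => w (ξ (Pg + ι Q) - algebraMap k K c)) (p : k[X]) (hp : p ≠ 0) :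
    ProdOne fun Q : G₀ => w (aeval (ξ (Pg + ι Q)) p) :=
  prodOne_aeval (fun _ : G₀ => w) (fun Q => ξ (Pg + ι Q)) (fun _ => h.w_const)
    (fun c => hT.prodOne h.kummer₀ h.surj c) p hp

/-- (A3') finiteness of the support, in plain words -/
theorem finite_ne_one [IsAlgClosed k] (h : GenK ξ₀ ξ β κ ι Pg w)
    (hT : Table ξ₀ fun Q c => w (ξ (Pg + ι Q) - algebraMap k K c)) (p : k[X]) (hp : p ≠ 0) :
    {Q : G₀ | w (aeval (ξ (Pg + ι Q)) p) ≠ 1}.Finite :=
  (prodOne_aeval_gen h hT p hp).1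

/-- (A3') the product formula, in plain words -/
theorem finprod_eq_one [IsAlgClosed k] (h : GenK ξ₀ ξ β κ ι Pg w)
    (hT : Table ξ₀ fun Q c => w (ξ (Pg + ι Q) - algebraMap k K c)) (p : k[X]) (hp : p ≠ 0) :
    ∏ᶠ Q : G₀, w (aeval (ξ (Pg + ι Q)) p) = 1 :=
  (prodOne_aeval_gen h hT p hp).2

/-- The product formula for quotients. -/
theorem prodOne_div_gen [IsAlgClosed k] (h : GenK ξ₀ ξ β κ ι Pg w)
    (hT : Table ξ₀ fun Q c => w (ξ (Pg + ι Q) - algebraMap k K c)) (p q : k[X]) (hp : p ≠ 0)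
    (hq : q ≠ 0) :
    ProdOne fun Q : G₀ => w (aeval (ξ (Pg + ι Q)) p / aeval (ξ (Pg + ι Q)) q) :=
  prodOne_div (fun _ : G₀ => w) (fun Q => ξ (Pg + ι Q)) (fun _ => h.w_const)
    (fun c => hT.prodOne h.kummer₀ h.surj c) p q hp hq

/-- At a translate `Q ≠ 0`, the valuation of `p(X_Q)` is the valuation of `X_Q - ξ₀ Q` to the
power the multiplicity of `ξ₀ Q` as a root of `p`. -/
theorem val_aeval_eq_pow [IsAlgClosed k] (h : GenK ξ₀ ξ β κ ι Pg w)
    (hT : Table ξ₀ fun Q c => w (ξ (Pg + ι Q) - algebraMap k K c)) (p : k[X]) (hp : p ≠ 0)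
    (Q : G₀) (hQ : Q ≠ 0) :
    w (aeval (ξ (Pg + ι Q)) p) =
      w (ξ (Pg + ι Q) - algebraMap k K (ξ₀ Q)) ^ p.rootMultiplicity (ξ₀ Q) := by
  classical
  rw [val_aeval_eq_prod_roots w h.w_const (ξ (Pg + ι Q)) p hp, ← count_roots]
  exact Multiset.prod_map_eq_pow_single (ξ₀ Q) (fun c hc _ => hT.2.1 Q c hQ hc)

/-- At a translate `Q ≠ 0`, polynomials in `X_Q` are integral. -/
theorem val_aeval_le_one [IsAlgClosed k] (h : GenK ξ₀ ξ β κ ι Pg w)
    (hT : Table ξ₀ fun Q c => w (ξ (Pg + ι Q) - algebraMap k K c)) (p : k[X]) (hp : p ≠ 0)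
    (Q : G₀) (hQ : Q ≠ 0) : w (aeval (ξ (Pg + ι Q)) p) ≤ 1 := by
  rw [val_aeval_eq_pow h hT p hp Q hQ]
  exact pow_le_one₀ zero_le (hT.lt_one Q hQ).le

/-- At the generic point itself, the valuation of `p(X)` is `exp (2 deg p)`. -/
theorem val_aeval_zero [IsAlgClosed k] (h : GenK ξ₀ ξ β κ ι Pg w)
    (hT : Table ξ₀ fun Q c => w (ξ (Pg + ι Q) - algebraMap k K c)) (p : k[X]) (hp : p ≠ 0) :
    w (aeval (ξ Pg) p) = ex 2 ^ p.natDegree := by
  have e0 : ξ (Pg + ι 0) = ξ Pg := by rw [map_zero, add_zero]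
  have hroot : ∀ c : k, w (ξ Pg - algebraMap k K c) = ex 2 := by
    intro c
    have := hT.1 c
    simp only [e0] at this
    exact this
  rw [val_aeval_eq_prod_roots w h.w_const (ξ Pg) p hp]
  have : (p.roots.map fun c => w (ξ Pg - algebraMap k K c)) = p.roots.map fun _ => ex 2 :=
    Multiset.map_congr rfl (fun c _ => hroot c)
  rw [this, Multiset.map_const', Multiset.prod_replicate,
    splits_iff_card_roots.1 (IsAlgClosed.splits p)]

/-- Nonzero polynomials do not vanish at the translated generic abscissas. -/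
theorem aeval_ne_zero [IsAlgClosed k] (h : GenK ξ₀ ξ β κ ι Pg w)
    (hT : Table ξ₀ fun Q c => w (ξ (Pg + ι Q) - algebraMap k K c)) (p : k[X]) (hp : p ≠ 0)
    (Q : G₀) : aeval (ξ (Pg + ι Q)) p ≠ 0 := by
  intro h0
  have e := val_aeval_eq_prod_roots w h.w_const (ξ (Pg + ι Q)) p hp
  rw [h0, map_zero] at e
  have := Multiset.prod_eq_zero_iff.1 e.symm
  obtain ⟨c, -, hc⟩ := Multiset.mem_map.1 this
  exact hT.ne_zero Q c hc

/-- **Two polynomials whose values at all translates `Q ≠ 0` have the same valuation are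
proportional** (a rational function without zeros and poles away from the origin is a
constant). -/
theorem exists_eq_C_mul [IsAlgClosed k] (h : GenK ξ₀ ξ β κ ι Pg w)
    (hT : Table ξ₀ fun Q c => w (ξ (Pg + ι Q) - algebraMap k K c)) (r s : k[X]) (hr : r ≠ 0)
    (hs : s ≠ 0)
    (h1 : ∀ Q : G₀, Q ≠ 0 → w (aeval (ξ (Pg + ι Q)) r) = w (aeval (ξ (Pg + ι Q)) s)) :
    ∃ c : k, c ≠ 0 ∧ r = C c * s := by
  classical
  -- the roots of `r` and `s` agree with multiplicities
  have hroots : r.roots = s.roots := by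
    ext c
    obtain ⟨Q, hQ, rfl⟩ := h.surj c
    have e := h1 Q hQ
    rw [val_aeval_eq_pow h hT r hr Q hQ, val_aeval_eq_pow h hT s hs Q hQ] at e
    have hlt : w (ξ (Pg + ι Q) - algebraMap k K (ξ₀ Q)) < 1 := hT.lt_one Q hQ
    have hpos : 0 < w (ξ (Pg + ι Q) - algebraMap k K (ξ₀ Q)) :=
      zero_lt_iff.2 (hT.ne_zero Q (ξ₀ Q))
    rw [count_roots, count_roots]
    exact pow_right_injective₀ hpos hlt.ne e
  have hlr : r.leadingCoeff ≠ 0 := leadingCoeff_ne_zero.mpr hr
  have hls : s.leadingCoeff ≠ 0 := leadingCoeff_ne_zero.mpr hs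
  refine ⟨r.leadingCoeff / s.leadingCoeff, div_ne_zero hlr hls, ?_⟩
  have er := Polynomial.Splits.eq_prod_roots (IsAlgClosed.splits r)
  have es := Polynomial.Splits.eq_prod_roots (IsAlgClosed.splits s)
  rw [hroots] at er
  have key : ∀ (a b : k) (P : k[X]), b ≠ 0 → C a * P = C (a / b) * (C b * P) := by
    intro a b P hb
    rw [← mul_assoc, ← C_mul, div_mul_cancel₀ _ hb]
  calc r = C r.leadingCoeff * (s.roots.map fun a => X - C a).prod := er
    _ = C (r.leadingCoeff / s.leadingCoeff) *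
        (C s.leadingCoeff * (s.roots.map fun a => X - C a).prod) := key _ _ _ hls
    _ = C (r.leadingCoeff / s.leadingCoeff) * s := congrArg _ es.symm

end Gen

end Fermat.Agent.S13Lib.SumFormula
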