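import Mathlib
import Fermat.Agent.S05Lib.Defs
import Fermat.Agent.S05Lib.E1
import Fermat.Agent.S13Lib.GenDefs
import Fermat.Agent.S13Lib.SumFormula

/-!
# S13: poles of `ξ (n • (Pg + ι Q))` in a generic Kummer datum `GenK`  ((H7), (H9))

For `h : GenK ξ₀ ξ β κ ι Pg w` over a field `k` of characteristic `0`:

* `val_xi_nsmul_Pg` : `w (ξ (n • Pg)) = ex 2` for `n ≥ 1`;
* `val_xi_nsmul_of_nsmul_eq_zero` : `w (ξ (n • (Pg + ι Q))) = ex 2` if `n • Q = 0`, `n ≥ 1`;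
* `val_xi_nsmul_le_one` : `w (ξ (n • (Pg + ι Q))) ≤ 1` if `n • Q ≠ 0`;
* `nsmul_ne_zero` : `n • (Pg + ι Q) ≠ 0` for `n ≥ 1`;
* `xi_nsmul_ne` : `ξ (n • (Pg + ι Q)) ≠ ξ (m • (Pg + ι Q))` for `0 < m < n`.
-/

set_option autoImplicit false

namespace Fermat.Agent.S13Lib.GenPoles

open Fermat.Agent.S05Lib Fermat.Agent.S13Lib.GenDefs Fermat.Agent.S13Lib.SumFormula

variable {k K G₀ G : Type*} [Field k] [Field K] [Algebra k K] [AddCommGroup G₀]
  [AddCommGroup G] {ξ₀ : G₀ → k} {ξ : G → K} {β κ : k} {ι : G₀ →+ G} {Pg : G}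
  {w : Valuation K (WithZero (Multiplicative ℤ))}

theorem w_const_le (h : GenK ξ₀ ξ β κ ι Pg w) (c : k) : w (algebraMap k K c) ≤ 1 := by
  by_cases hc : c = 0
  · rw [hc, map_zero, map_zero]; exact zero_le_one
  · exact (h.w_const c hc).le

theorem w_natCast [CharZero k] (h : GenK ξ₀ ξ β κ ι Pg w) {n : ℕ} (hn : n ≠ 0) :
    w (n : K) = 1 := by
  have h1 := h.w_const (n : k) (Nat.cast_ne_zero.2 hn)
  rwa [map_natCast] at h1

theorem w_two [CharZero k] (h : GenK ξ₀ ξ β κ ι Pg w) : w (2 : K) = 1 := by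
  have h1 := w_natCast h (n := 2) two_ne_zero
  exact_mod_cast h1

theorem one_lt_ex_two : (1 : WithZero (Multiplicative ℤ)) < ex 2 := by
  rw [← ex_zero, ex_lt_ex]; norm_num

theorem one_lt_val_Pg (h : GenK ξ₀ ξ β κ ι Pg w) : 1 < w (ξ Pg) := by
  rw [h.w_gen]; exact one_lt_ex_two

/-- the generic point lies in the kernel of reduction at infinity -/
theorem Pg_mem_ker [CharZero k] (h : GenK ξ₀ ξ β κ ι Pg w) :
    Pg ∈ E1.ker w h.kummer (w_two h) (w_const_le h β) (w_const_le h κ) :=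
  Or.inr (one_lt_val_Pg h)

/-- **(H7)** for the generic point: `n • Pg` has a pole of order exactly two -/
theorem val_xi_nsmul_Pg [CharZero k] (h : GenK ξ₀ ξ β κ ι Pg w) {n : ℕ} (hn : 0 < n) :
    w (ξ (n • Pg)) = ex 2 := by
  have hP := one_lt_val_Pg h
  have hz := E1.val_zeta_nsmul w h.kummer (w_two h) (w_const_le h β) (w_const_le h κ) hP n
  have hn1 : w (n : K) = 1 := w_natCast h hn.ne'
  have hzpos : 0 < w ((ξ Pg)⁻¹) := by
    rw [Valuation.pos_iff, Ne, inv_eq_zero]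
    exact E1.ne_zero_of_one_lt_val w hP
  have hzlt : w ((ξ Pg)⁻¹) < 1 := by
    rw [map_inv₀]; exact inv_lt_one_of_one_lt₀ hP
  have hsq : w ((ξ Pg)⁻¹) ^ 2 < w ((ξ Pg)⁻¹) := by
    rw [sq]; exact mul_lt_of_lt_one_left hzpos hzlt
  have hmain : w ((n : K) ^ 2 * (ξ Pg)⁻¹) = w ((ξ Pg)⁻¹) := by
    rw [map_mul, map_pow, hn1, one_pow, one_mul]
  have e : (ξ (n • Pg))⁻¹
      = (n : K) ^ 2 * (ξ Pg)⁻¹ + ((ξ (n • Pg))⁻¹ - (n : K) ^ 2 * (ξ Pg)⁻¹) := by ring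
  have h3 : w ((ξ (n • Pg))⁻¹) = w ((ξ Pg)⁻¹) := by
    rw [e, Valuation.map_add_eq_of_lt_left w (by rw [hmain]; exact lt_of_le_of_lt hz hsq), hmain]
  rw [map_inv₀, map_inv₀, inv_inj] at h3
  rw [h3, h.w_gen]

theorem nsmul_add_ι (Q : G₀) (n : ℕ) : n • (Pg + ι Q) = n • Pg + ι (n • Q) := by
  rw [smul_add, map_nsmul]

/-- **(H9)**, torsion case -/
theorem val_xi_nsmul_of_nsmul_eq_zero [CharZero k] (h : GenK ξ₀ ξ β κ ι Pg w) (Q : G₀) {n : ℕ}
    (hn : 0 < n) (hQ : n • Q = 0) : w (ξ (n • (Pg + ι Q))) = ex 2 := by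
  rw [nsmul_add_ι, hQ, map_zero, add_zero]
  exact val_xi_nsmul_Pg h hn

/-- a nonzero constant point does not lie in the kernel of reduction -/
theorem ι_not_mem_ker [CharZero k] (h : GenK ξ₀ ξ β κ ι Pg w) {Q : G₀} (hQ : Q ≠ 0) :
    ι Q ∉ E1.ker w h.kummer (w_two h) (w_const_le h β) (w_const_le h κ) := by
  rintro (h0 | h1)
  · exact hQ (h.ι_inj (by rw [h0, map_zero]))
  · rw [h.ξ_ι] at h1
    exact absurd (w_const_le h _) (not_le.2 h1)

/-- `n • Pg + ι S` is not in the kernel of reduction when `S ≠ 0` -/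
theorem add_ι_not_mem_ker [CharZero k] (h : GenK ξ₀ ξ β κ ι Pg w) (n : ℕ) {S : G₀}
    (hS : S ≠ 0) :
    n • Pg + ι S ∉ E1.ker w h.kummer (w_two h) (w_const_le h β) (w_const_le h κ) := by
  intro hmem
  have hR : n • Pg ∈ E1.ker w h.kummer (w_two h) (w_const_le h β) (w_const_le h κ) :=
    AddSubgroup.nsmul_mem _ (Pg_mem_ker h) n
  have h1 := AddSubgroup.sub_mem _ hmem hR
  rw [add_sub_cancel_left] at h1
  exact ι_not_mem_ker h hS h1

/-- **(H9)**, non-torsion case -/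
theorem val_xi_nsmul_le_one [CharZero k] (h : GenK ξ₀ ξ β κ ι Pg w) (Q : G₀) {n : ℕ}
    (hQ : n • Q ≠ 0) : w (ξ (n • (Pg + ι Q))) ≤ 1 := by
  rw [nsmul_add_ι]
  by_contra hgt
  rw [not_le] at hgt
  exact add_ι_not_mem_ker h n hQ (Or.inr hgt)

/-- **(H9)**: the multiples of a translated generic point are nonzero -/
theorem nsmul_ne_zero [CharZero k] (h : GenK ξ₀ ξ β κ ι Pg w) (Q : G₀) {n : ℕ} (hn : 0 < n) :
    n • (Pg + ι Q) ≠ 0 := by
  by_cases hQ : n • Q = 0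
  · intro h0
    have h1 := val_xi_nsmul_of_nsmul_eq_zero h Q hn hQ
    rw [h0, h.kummer.zero, map_zero] at h1
    exact ex_ne_zero 2 h1.symm
  · rw [nsmul_add_ι]
    intro h0
    exact add_ι_not_mem_ker h n hQ (Or.inl h0)

/-- distinct positive multiples of a translated generic point have distinct `ξ` -/
theorem xi_nsmul_ne [CharZero k] (h : GenK ξ₀ ξ β κ ι Pg w) (Q : G₀) {m n : ℕ} (hm : 0 < m)
    (hmn : m < n) : ξ (n • (Pg + ι Q)) ≠ ξ (m • (Pg + ι Q)) := by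
  intro heq
  obtain ⟨d, rfl⟩ : ∃ d, n = m + d := ⟨n - m, by omega⟩
  have hd : 0 < d := by omega
  rcases h.kummer.eq_or_eq_neg _ _ (nsmul_ne_zero h Q (by omega)) (nsmul_ne_zero h Q hm) heq
    with h1 | h1
  · rw [add_nsmul, add_eq_left] at h1
    exact nsmul_ne_zero h Q hd h1
  · have h2 : (m + d + m) • (Pg + ι Q) = 0 := by
      rw [add_nsmul _ (m + d) m, h1, neg_add_cancel]
    exact nsmul_ne_zero h Q (by omega) h2

end Fermat.Agent.S13Lib.GenPoles
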