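import Mathlib
import Fermat.Agent.S05Lib.E1
import Fermat.Agent.S13Lib.GenDefs

/-!
# S13: torsion count on a generic Kummer datum

For a generic Kummer datum `GenK ξ₀ ξ β κ ι Pg w` (the points `G₀` of an elliptic curve over the
constant field `k`, the points `G` over its function field `K`, the generic point `Pg` and the
valuation `w` of `K` at infinity; the place at `Q : G₀` is replaced by the translated generic
point `Pg + ι Q`):

* `pq`, `xi_nsmul_eq` : `ξ (n • T)` is a universal rational function of `ξ T`;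
* `w_xi_nsmul_of_torsion`, `w_xi_nsmul_sub_lt` : `ξ (n • (Pg + ι Q))` has a pole of order exactly
  `2` if `n • Q = 0` and is integral, congruent to `ξ₀ (n • Q)`, otherwise;
* `card_torsion` : from the local height identities and the product formula, the number of
  points killed by `n` is `n ^ 2`.
-/

set_option autoImplicit false
set_option linter.unusedSectionVars false
set_option linter.unusedVariables false

noncomputable section

namespace Fermat.Agent.S13Lib.TorsCount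

open Polynomial Fermat.Agent.S05Lib Fermat.Agent.S13Lib.GenDefs

/-! ### The value group -/

theorem ex_eq_exp (n : ℤ) : ex n = WithZero.exp n := rfl

theorem ex_zero : ex 0 = 1 := rfl

theorem ex_add (a b : ℤ) : ex (a + b) = ex a * ex b := rfl

theorem ex_ne_zero (a : ℤ) : ex a ≠ 0 := WithZero.exp_ne_zero

theorem ex_pos (a : ℤ) : 0 < ex a := WithZero.exp_pos

theorem ex_lt_ex {a b : ℤ} : ex a < ex b ↔ a < b := WithZero.exp_lt_exp

theorem ex_le_ex {a b : ℤ} : ex a ≤ ex b ↔ a ≤ b := WithZero.exp_le_exp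

theorem ex_inj {a b : ℤ} : ex a = ex b ↔ a = b := WithZero.exp_inj

theorem ex_inv (a : ℤ) : (ex a)⁻¹ = ex (-a) := rfl

theorem ex_pow (a : ℤ) (n : ℕ) : ex a ^ n = ex (n * a) := by
  rw [ex_eq_exp, ex_eq_exp, ← WithZero.exp_nsmul, nsmul_eq_mul]

theorem one_lt_ex {a : ℤ} : 1 < ex a ↔ 0 < a := by
  rw [← ex_zero, ex_lt_ex]

theorem ex_lt_one {a : ℤ} : ex a < 1 ↔ a < 0 := by
  rw [← ex_zero, ex_lt_ex]

variable {k K G₀ G : Type*} [Field k] [Field K] [Algebra k K] [AddCommGroup G₀] [AddCommGroup G]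
  {ξ₀ : G₀ → k} {ξ : G → K} {β κ : k} {ι : G₀ →+ G} {Pg : G}
  {w : Valuation K (WithZero (Multiplicative ℤ))}

/-! ### Constants -/

theorem w_le_one (h : GenK ξ₀ ξ β κ ι Pg w) (c : k) : w (algebraMap k K c) ≤ 1 := by
  by_cases hc : c = 0
  · rw [hc, map_zero, map_zero]
    exact zero_le_one
  · exact (h.w_const c hc).le

theorem w_natCast [CharZero k] (h : GenK ξ₀ ξ β κ ι Pg w) {n : ℕ} (hn : n ≠ 0) :
    w (n : K) = 1 := by
  have e : (n : K) = algebraMap k K (n : k) := (map_natCast (algebraMap k K) n).symm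
  rw [e]
  exact h.w_const _ (Nat.cast_ne_zero.mpr hn)

theorem w_two [CharZero k] (h : GenK ξ₀ ξ β κ ι Pg w) : w (2 : K) = 1 := by
  have := w_natCast h (n := 2) (by norm_num)
  simpa using this

/-! ### Multiples of a point with a double pole -/

/-- If `ξ R` has a pole of order `2`, so has `ξ (n • R)` for `n ≠ 0`. -/
theorem val_nsmul_of_val_eq [CharZero k] (h : GenK ξ₀ ξ β κ ι Pg w) {R : G}
    (hR : w (ξ R) = ex 2) {n : ℕ} (hn : n ≠ 0) : w (ξ (n • R)) = ex 2 := by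
  have hR1 : 1 < w (ξ R) := by rw [hR]; exact one_lt_ex.mpr (by norm_num)
  have hz := E1.val_zeta_nsmul w h.kummer (w_two h) (w_le_one h β) (w_le_one h κ) hR1 n
  have hzR : w ((ξ R)⁻¹) = ex (-2) := by rw [map_inv₀, hR, ex_inv]
  have h1 : w ((n : K) ^ 2 * (ξ R)⁻¹) = ex (-2) := by
    rw [map_mul, map_pow, w_natCast h hn, one_pow, one_mul, hzR]
  have h2 : w ((ξ (n • R))⁻¹ - (n : K) ^ 2 * (ξ R)⁻¹) < w ((n : K) ^ 2 * (ξ R)⁻¹) := by
    refine lt_of_le_of_lt hz ?_
    rw [h1, hzR, ex_pow, ex_lt_ex]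
    norm_num
  have h3 : w ((ξ (n • R))⁻¹) = ex (-2) := by
    have e : (ξ (n • R))⁻¹
        = ((ξ (n • R))⁻¹ - (n : K) ^ 2 * (ξ R)⁻¹) + (n : K) ^ 2 * (ξ R)⁻¹ := by ring
    rw [e, Valuation.map_add_eq_of_lt_right _ h2, h1]
  rw [map_inv₀] at h3
  have h4 : w (ξ (n • R)) = (ex (-2))⁻¹ := by rw [← h3, inv_inv]
  rw [h4, ex_inv]
  norm_num

/-- `ξ (n • Pg)` has a pole of order exactly `2`. -/
theorem w_xi_nsmul_gen [CharZero k] (h : GenK ξ₀ ξ β κ ι Pg w) {n : ℕ} (hn : n ≠ 0) :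
    w (ξ (n • Pg)) = ex 2 :=
  val_nsmul_of_val_eq h h.w_gen hn

/-! ### The translated generic points -/

theorem nsmul_trans_eq (Q : G₀) (n : ℕ) : n • (Pg + ι Q) = n • Pg + ι (n • Q) := by
  rw [map_nsmul, nsmul_add]

/-- The translated generic points are not torsion points. -/
theorem nsmul_trans_ne_zero [CharZero k] (h : GenK ξ₀ ξ β κ ι Pg w) (Q : G₀) {n : ℕ}
    (hn : n ≠ 0) : n • (Pg + ι Q) ≠ 0 := by
  intro h0
  rw [nsmul_trans_eq] at h0
  have e : n • Pg = ι (-(n • Q)) := by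
    rw [map_neg]
    exact eq_neg_of_add_eq_zero_left h0
  have h1 := w_xi_nsmul_gen h hn
  rw [e, h.ξ_ι] at h1
  have h2 := w_le_one h (ξ₀ (-(n • Q)))
  rw [h1] at h2
  exact absurd h2 (not_le.mpr (one_lt_ex.mpr (by norm_num)))

theorem xi_nsmul_trans_ne [CharZero k] (h : GenK ξ₀ ξ β κ ι Pg w) (Q : G₀) {m n : ℕ}
    (hn : 0 < n) (hmn : n < m) : ξ (m • (Pg + ι Q)) ≠ ξ (n • (Pg + ι Q)) := by
  intro he
  rcases h.kummer.eq_or_eq_neg _ _ (nsmul_trans_ne_zero h Q (by omega : m ≠ 0))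
    (nsmul_trans_ne_zero h Q hn.ne') he with e | e
  · refine nsmul_trans_ne_zero h Q (n := m - n) (by omega) ?_
    rw [sub_nsmul _ hmn.le, e, add_neg_cancel]
  · refine nsmul_trans_ne_zero h Q (n := m + n) (by omega) ?_
    rw [add_nsmul, e, neg_add_cancel]

/-- At a point `Q` killed by `n`, `ξ (n • (Pg + ι Q))` has a pole of order exactly `2`. -/
theorem w_xi_nsmul_of_torsion [CharZero k] (h : GenK ξ₀ ξ β κ ι Pg w) (Q : G₀) {n : ℕ}
    (hn : n ≠ 0) (hQ : n • Q = 0) : w (ξ (n • (Pg + ι Q))) = ex 2 := by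
  rw [nsmul_trans_eq, hQ, map_zero, add_zero]
  exact w_xi_nsmul_gen h hn

theorem xi_nsmul_gen_ne_zero [CharZero k] (h : GenK ξ₀ ξ β κ ι Pg w) {n : ℕ} (hn : n ≠ 0) :
    ξ (n • Pg) ≠ 0 := by
  intro h0
  have := w_xi_nsmul_gen h hn
  rw [h0, map_zero] at this
  exact ex_ne_zero 2 this.symm

/-- The continuity hypothesis (H6). -/
def ContHyp (ξ : G → K) (w : Valuation K (WithZero (Multiplicative ℤ))) : Prop :=
  ∀ R S : G, 1 < w (ξ R) → S ≠ 0 → w (ξ S) ≤ 1 → w (ξ (R + S) - ξ S) < 1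

/-- At a point `Q` not killed by `n`, `ξ (n • (Pg + ι Q))` is integral, congruent to
`ξ₀ (n • Q)`. -/
theorem w_xi_nsmul_sub_lt [CharZero k] (h : GenK ξ₀ ξ β κ ι Pg w) (hcont : ContHyp ξ w)
    (Q : G₀) {n : ℕ} (hn : n ≠ 0) (hQ : n • Q ≠ 0) :
    w (ξ (n • (Pg + ι Q)) - algebraMap k K (ξ₀ (n • Q))) < 1 := by
  rw [nsmul_trans_eq, ← h.ξ_ι]
  refine hcont _ _ ?_ ?_ ?_
  · rw [w_xi_nsmul_gen h hn]
    exact one_lt_ex.mpr (by norm_num)
  · intro h0
    exact hQ (h.ι_inj (by rw [h0, map_zero]))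
  · rw [h.ξ_ι]
    exact w_le_one h _

theorem w_xi_nsmul_le_one [CharZero k] (h : GenK ξ₀ ξ β κ ι Pg w) (hcont : ContHyp ξ w)
    (Q : G₀) {n : ℕ} (hn : n ≠ 0) (hQ : n • Q ≠ 0) : w (ξ (n • (Pg + ι Q))) ≤ 1 := by
  have e : ξ (n • (Pg + ι Q))
      = (ξ (n • (Pg + ι Q)) - algebraMap k K (ξ₀ (n • Q))) + algebraMap k K (ξ₀ (n • Q)) := by
    ring
  rw [e]
  exact Valuation.map_add_le _ (w_xi_nsmul_sub_lt h hcont Q hn hQ).le (w_le_one h _)

open Classical in
/-- The local height of `ξ (n • (Pg + ι Q))`. -/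
theorem max_one_w_xi_nsmul [CharZero k] (h : GenK ξ₀ ξ β κ ι Pg w) (hcont : ContHyp ξ w)
    (Q : G₀) {n : ℕ} (hn : n ≠ 0) :
    max 1 (w (ξ (n • (Pg + ι Q)))) = if n • Q = 0 then ex 2 else 1 := by
  split_ifs with hQ
  · rw [w_xi_nsmul_of_torsion h Q hn hQ]
    exact max_eq_right (one_lt_ex.mpr (by norm_num)).le
  · exact max_eq_left (w_xi_nsmul_le_one h hcont Q hn hQ)

/-! ### `ξ (n • T)` as a universal rational function of `ξ T` -/

/-- Numerator and denominator of `ξ (n • T)` as a rational function of `ξ T`. -/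
def pq (β κ : k) : ℕ → k[X] × k[X]
  | 0 => (0, 1)
  | 1 => (X, 1)
  | 2 => ((X ^ 2 - C κ) ^ 2, X * (4 * X ^ 2 + C β * X + 4 * C κ))
  | (n + 3) =>
    ((2 * ((pq β κ (n + 2)).1 + X * (pq β κ (n + 2)).2)
          * ((pq β κ (n + 2)).1 * X + C κ * (pq β κ (n + 2)).2)
        + C β * ((pq β κ (n + 2)).1 * (pq β κ (n + 2)).2 * X)) * (pq β κ (n + 1)).2
      - (pq β κ (n + 1)).1 * ((pq β κ (n + 2)).1 - X * (pq β κ (n + 2)).2) ^ 2,
     ((pq β κ (n + 2)).1 - X * (pq β κ (n + 2)).2) ^ 2 * (pq β κ (n + 1)).2)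

/-- For a non-torsion point `T`, `ξ (n • T) = p_n (ξ T) / q_n (ξ T)`. -/
theorem xi_nsmul_eq (hK : IsKummer ξ (algebraMap k K β) (algebraMap k K κ)) {T : G}
    (hT : ∀ j : ℕ, j ≠ 0 → j • T ≠ 0) (n : ℕ) :
    aeval (ξ T) (pq β κ n).2 ≠ 0 ∧
      ξ (n • T) * aeval (ξ T) (pq β κ n).2 = aeval (ξ T) (pq β κ n).1 := by
  have hT1 : T ≠ 0 := by
    have := hT 1 one_ne_zero
    rwa [one_nsmul] at this
  induction n using Nat.strong_induction_on with
  | _ n ih =>
    match n, ih with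
    | 0, _ =>
      refine ⟨?_, ?_⟩
      · simp [pq]
      · simp [pq, hK.zero]
    | 1, _ =>
      refine ⟨?_, ?_⟩
      · simp [pq]
      · simp [pq]
    | 2, _ =>
      have h2T : (2 : ℕ) • T ≠ 0 := hT 2 two_ne_zero
      have hD : ξ T * (4 * ξ T ^ 2 + algebraMap k K β * ξ T + 4 * algebraMap k K κ) ≠ 0 :=
        fun h0 => h2T ((hK.two_nsmul_eq_zero_iff T hT1).mpr h0)
      have h4 : aeval (ξ T) (4 : k[X]) = 4 := map_ofNat _ 4
      have e2 : aeval (ξ T) (pq β κ 2).2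
          = ξ T * (4 * ξ T ^ 2 + algebraMap k K β * ξ T + 4 * algebraMap k K κ) := by
        simp [pq, h4]
      have e1 : aeval (ξ T) (pq β κ 2).1 = (ξ T ^ 2 - algebraMap k K κ) ^ 2 := by
        simp [pq]
      rw [e1, e2]
      exact ⟨hD, hK.dbl T hT1 h2T⟩
    | (n + 3), ih =>
      obtain ⟨hA', hA⟩ := ih (n + 2) (by omega)
      obtain ⟨hB', hB⟩ := ih (n + 1) (by omega)
      have hne : ξ ((n + 2) • T) ≠ ξ T := by
        intro he
        rcases hK.eq_or_eq_neg _ _ (hT (n + 2) (by omega)) hT1 he with e | e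
        · refine hT (n + 1) (by omega) ?_
          have : (n + 2) • T = (n + 1) • T + T := succ_nsmul T (n + 1)
          rw [this] at e
          exact add_eq_right.mp e
        · refine hT (n + 3) (by omega) ?_
          have : (n + 3) • T = (n + 2) • T + T := succ_nsmul T (n + 2)
          rw [this, e, neg_add_cancel]
      have hadd := hK.add ((n + 2) • T) T (hT (n + 2) (by omega)) hT1 hne
      have e1 : (n + 2) • T + T = (n + 3) • T := (succ_nsmul T (n + 2)).symm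
      have e2 : (n + 2) • T - T = (n + 1) • T := by
        rw [succ_nsmul T (n + 1), add_sub_cancel_right]
      rw [e1, e2] at hadd
      set x := ξ T with hx
      set y := ξ ((n + 2) • T) with hy
      set z := ξ ((n + 1) • T) with hz
      set t := ξ ((n + 3) • T) with ht
      set A := aeval x (pq β κ (n + 2)).1 with hAd
      set A' := aeval x (pq β κ (n + 2)).2 with hA'd
      set B := aeval x (pq β κ (n + 1)).1 with hBd
      set B' := aeval x (pq β κ (n + 1)).2 with hB'd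
      have h2 : aeval x (2 : k[X]) = 2 := map_ofNat _ 2
      have ed : aeval x (pq β κ (n + 3)).2 = (A - x * A') ^ 2 * B' := by
        simp only [pq, map_mul, map_pow, map_sub, aeval_X, hAd, hA'd, hB'd]
      have en : aeval x (pq β κ (n + 3)).1
          = (2 * (A + x * A') * (A * x + algebraMap k K κ * A')
              + algebraMap k K β * (A * A' * x)) * B' - B * (A - x * A') ^ 2 := by
        simp only [pq, map_mul, map_pow, map_sub, map_add, aeval_X, aeval_C, h2, hAd, hA'd,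
          hBd, hB'd]
      rw [ed, en]
      have hAx : A - x * A' = (y - x) * A' := by rw [sub_mul, hA]
      refine ⟨?_, ?_⟩
      · rw [hAx]
        exact mul_ne_zero (pow_ne_zero 2 (mul_ne_zero (sub_ne_zero.mpr hne) hA')) hB'
      · rw [← hA, ← hB]
        linear_combination (A' ^ 2 * B') * hadd

theorem xi_nsmul_trans_eq [CharZero k] (h : GenK ξ₀ ξ β κ ι Pg w) (Q : G₀) (n : ℕ) :
    aeval (ξ (Pg + ι Q)) (pq β κ n).2 ≠ 0 ∧
      ξ (n • (Pg + ι Q)) * aeval (ξ (Pg + ι Q)) (pq β κ n).2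
        = aeval (ξ (Pg + ι Q)) (pq β κ n).1 :=
  xi_nsmul_eq h.kummer (fun j hj => nsmul_trans_ne_zero h Q hj) n

theorem pq_snd_ne_zero [CharZero k] (h : GenK ξ₀ ξ β κ ι Pg w) (n : ℕ) : (pq β κ n).2 ≠ 0 := by
  intro h0
  have := (xi_nsmul_trans_eq h (0 : G₀) n).1
  rw [h0] at this
  exact this (map_zero _)

theorem pq_fst_ne_zero [CharZero k] (h : GenK ξ₀ ξ β κ ι Pg w) {n : ℕ} (hn : n ≠ 0) :
    (pq β κ n).1 ≠ 0 := by
  intro h0
  obtain ⟨h1, h2⟩ := xi_nsmul_trans_eq h (0 : G₀) n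
  have hz : aeval (ξ (Pg + ι (0 : G₀))) (0 : k[X]) = 0 := map_zero _
  rw [h0, hz] at h2
  rcases mul_eq_zero.mp h2 with h3 | h3
  · have := w_xi_nsmul_of_torsion h (0 : G₀) hn (nsmul_zero n)
    rw [h3, map_zero] at this
    exact ex_ne_zero 2 this.symm
  · exact h1 h3

theorem pq_diff_ne_zero [CharZero k] (h : GenK ξ₀ ξ β κ ι Pg w) {m n : ℕ} (hn : 0 < n)
    (hmn : n < m) : (pq β κ m).1 * (pq β κ n).2 - (pq β κ n).1 * (pq β κ m).2 ≠ 0 := by
  intro h0
  obtain ⟨hm1, hm2⟩ := xi_nsmul_trans_eq h (0 : G₀) m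
  obtain ⟨hn1, hn2⟩ := xi_nsmul_trans_eq h (0 : G₀) n
  have hz : aeval (ξ (Pg + ι (0 : G₀))) (0 : k[X]) = 0 := map_zero _
  have e := congrArg (aeval (ξ (Pg + ι (0 : G₀)))) h0
  rw [map_sub, map_mul, map_mul, hz, ← hm2, ← hn2] at e
  have e' : (ξ (m • (Pg + ι (0 : G₀))) - ξ (n • (Pg + ι (0 : G₀))))
      * (aeval (ξ (Pg + ι (0 : G₀))) (pq β κ m).2 * aeval (ξ (Pg + ι (0 : G₀))) (pq β κ n).2)
      = 0 := by
    linear_combination e
  rcases mul_eq_zero.mp e' with h3 | h3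
  · exact xi_nsmul_trans_ne h (0 : G₀) hn hmn (sub_eq_zero.mp h3)
  · exact mul_ne_zero hm1 hn1 h3

/-! ### The product formula and the local heights (hypotheses) -/

/-- The product formula hypothesis (A3'): for every nonzero polynomial `p` over the constants,
`w (p (ξ (Pg + ι Q))) = 1` for all but finitely many `Q`, and the product over all `Q` is `1`. -/
def ProdFormula (ξ : G → K) (ι : G₀ →+ G) (Pg : G)
    (w : Valuation K (WithZero (Multiplicative ℤ))) : Prop :=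
  ∀ p : k[X], p ≠ 0 →
    (Function.mulSupport fun Q : G₀ => w (aeval (ξ (Pg + ι Q)) p)).Finite ∧
      ∏ᶠ Q : G₀, w (aeval (ξ (Pg + ι Q)) p) = 1

/-- The local height identity (H4). -/
def LocalHeight (ξ : G → K) (w : Valuation K (WithZero (Multiplicative ℤ))) : Prop :=
  ∀ P R : G, P ≠ 0 → R ≠ 0 → ξ P ≠ ξ R →
    max 1 (w (ξ (P + R))) * max 1 (w (ξ (P - R))) * w (ξ P - ξ R) ^ 2
      = max 1 (w (ξ P)) ^ 2 * max 1 (w (ξ R)) ^ 2

/-- The product formula for a ratio of two polynomials in `ξ (Pg + ι Q)`. -/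
theorem prod_ratio (hprod : ProdFormula (k := k) ξ ι Pg w) {p q : k[X]} (hp : p ≠ 0)
    (hq : q ≠ 0) {F : G₀ → K}
    (hF : ∀ Q, F Q * aeval (ξ (Pg + ι Q)) q = aeval (ξ (Pg + ι Q)) p) :
    ∃ s : Finset G₀, ∀ t : Finset G₀, s ⊆ t →
      (∀ Q, Q ∉ t → w (F Q) = 1) ∧ ∏ Q ∈ t, w (F Q) = 1 := by
  classical
  obtain ⟨fp, ep⟩ := hprod p hp
  obtain ⟨fq, eq⟩ := hprod q hq
  refine ⟨fp.toFinset ∪ fq.toFinset, fun t ht => ?_⟩
  have hpt : (Function.mulSupport fun Q : G₀ => w (aeval (ξ (Pg + ι Q)) p)) ⊆ ↑t := by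
    intro Q hQ
    exact ht (Finset.mem_union_left _ (fp.mem_toFinset.mpr hQ))
  have hqt : (Function.mulSupport fun Q : G₀ => w (aeval (ξ (Pg + ι Q)) q)) ⊆ ↑t := by
    intro Q hQ
    exact ht (Finset.mem_union_right _ (fq.mem_toFinset.mpr hQ))
  have hw : ∀ Q, w (F Q) * w (aeval (ξ (Pg + ι Q)) q) = w (aeval (ξ (Pg + ι Q)) p) := by
    intro Q
    rw [← map_mul, hF]
  refine ⟨fun Q hQ => ?_, ?_⟩
  · have h1 : w (aeval (ξ (Pg + ι Q)) p) = 1 := by
      by_contra hne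
      exact hQ (hpt hne)
    have h2 : w (aeval (ξ (Pg + ι Q)) q) = 1 := by
      by_contra hne
      exact hQ (hqt hne)
    have := hw Q
    rwa [h1, h2, mul_one] at this
  · have e1 := finprod_eq_prod_of_mulSupport_subset _ hpt
    have e2 := finprod_eq_prod_of_mulSupport_subset _ hqt
    rw [ep] at e1
    rw [eq] at e2
    have := Finset.prod_congr (s₁ := t) rfl (fun Q _ => hw Q)
    rw [Finset.prod_mul_distrib, ← e1, ← e2, mul_one] at this
    exact this

/-! ### The torsion count -/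

/-- The points killed by `n` are among the poles of `ξ (n • (Pg + ι Q))`: finitely many. -/
theorem finite_torsion [CharZero k] (h : GenK ξ₀ ξ β κ ι Pg w)
    (hprod : ProdFormula (k := k) ξ ι Pg w) {n : ℕ} (hn : 0 < n) :
    {Q : G₀ | n • Q = 0}.Finite := by
  obtain ⟨s, hs⟩ := prod_ratio hprod (pq_fst_ne_zero h hn.ne') (pq_snd_ne_zero h n)
    (F := fun Q => ξ (n • (Pg + ι Q))) (fun Q => (xi_nsmul_trans_eq h Q n).2)
  refine s.finite_toSet.subset ?_
  intro Q hQ
  by_contra hne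
  have h1 := (hs s (Finset.Subset.refl s)).1 Q hne
  rw [w_xi_nsmul_of_torsion h Q hn.ne' hQ, ← ex_zero, ex_inj] at h1
  norm_num at h1

/-- The global height of `n • Pg` is `2 * #{Q | n • Q = 0}`. -/
theorem prod_max_eq [CharZero k] (h : GenK ξ₀ ξ β κ ι Pg w) (hcont : ContHyp ξ w)
    (hprod : ProdFormula (k := k) ξ ι Pg w) {n : ℕ} (hn : 0 < n) (t : Finset G₀)
    (ht : (finite_torsion h hprod hn).toFinset ⊆ t) :
    ∏ Q ∈ t, max 1 (w (ξ (n • (Pg + ι Q))))
      = ex (2 * ({Q : G₀ | n • Q = 0}.ncard : ℤ)) := by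
  classical
  have hfin := finite_torsion h hprod hn
  rw [← Finset.prod_subset ht]
  · have hc : ∀ Q ∈ hfin.toFinset, max 1 (w (ξ (n • (Pg + ι Q)))) = ex 2 := by
      intro Q hQ
      rw [max_one_w_xi_nsmul h hcont Q hn.ne',
        if_pos (show n • Q = 0 from hfin.mem_toFinset.mp hQ)]
    rw [Finset.prod_congr rfl hc, Finset.prod_const, ex_pow, Set.ncard_eq_toFinset_card _ hfin,
      mul_comm]
  · intro Q _ hQ
    rw [max_one_w_xi_nsmul h hcont Q hn.ne', if_neg]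
    intro h0
    exact hQ (hfin.mem_toFinset.mpr h0)

/-- The parallelogram law for the torsion counts. -/
theorem ncard_add_sub [CharZero k] (h : GenK ξ₀ ξ β κ ι Pg w) (hcont : ContHyp ξ w)
    (hprod : ProdFormula (k := k) ξ ι Pg w) (hloc : LocalHeight ξ w) {m n : ℕ} (hn : 0 < n)
    (hmn : n < m) :
    {Q : G₀ | (m + n) • Q = 0}.ncard + {Q : G₀ | (m - n) • Q = 0}.ncard
      = 2 * {Q : G₀ | m • Q = 0}.ncard + 2 * {Q : G₀ | n • Q = 0}.ncard := by
  classical
  have hm : 0 < m := by omega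
  have hmn1 : 0 < m + n := by omega
  have hmn2 : 0 < m - n := by omega
  obtain ⟨s, hs⟩ := prod_ratio hprod (pq_diff_ne_zero h hn hmn)
    (mul_ne_zero (pq_snd_ne_zero h m) (pq_snd_ne_zero h n))
    (F := fun Q => ξ (m • (Pg + ι Q)) - ξ (n • (Pg + ι Q))) (fun Q => by
      obtain ⟨_, hm2⟩ := xi_nsmul_trans_eq h Q m
      obtain ⟨_, hn2⟩ := xi_nsmul_trans_eq h Q n
      rw [map_mul, map_sub, map_mul, map_mul, ← hm2, ← hn2]
      ring)
  set t : Finset G₀ := s ∪ (finite_torsion h hprod hmn1).toFinset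
    ∪ (finite_torsion h hprod hmn2).toFinset ∪ (finite_torsion h hprod hm).toFinset
    ∪ (finite_torsion h hprod hn).toFinset with ht
  have t0 : s ⊆ t := by
    intro x hx
    simp only [ht, Finset.mem_union]
    tauto
  have t1 : (finite_torsion h hprod hmn1).toFinset ⊆ t := by
    intro x hx
    simp only [ht, Finset.mem_union]
    tauto
  have t2 : (finite_torsion h hprod hmn2).toFinset ⊆ t := by
    intro x hx
    simp only [ht, Finset.mem_union]
    tauto
  have t3 : (finite_torsion h hprod hm).toFinset ⊆ t := by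
    intro x hx
    simp only [ht, Finset.mem_union]
    tauto
  have t4 : (finite_torsion h hprod hn).toFinset ⊆ t := by
    intro x hx
    simp only [ht, Finset.mem_union]
    tauto
  have key : ∀ Q ∈ t, max 1 (w (ξ ((m + n) • (Pg + ι Q))))
      * max 1 (w (ξ ((m - n) • (Pg + ι Q))))
      * w (ξ (m • (Pg + ι Q)) - ξ (n • (Pg + ι Q))) ^ 2
      = max 1 (w (ξ (m • (Pg + ι Q)))) ^ 2 * max 1 (w (ξ (n • (Pg + ι Q)))) ^ 2 := by
    intro Q _
    have := hloc (m • (Pg + ι Q)) (n • (Pg + ι Q)) (nsmul_trans_ne_zero h Q hm.ne')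
      (nsmul_trans_ne_zero h Q hn.ne') (xi_nsmul_trans_ne h Q hn hmn)
    have e : m • (Pg + ι Q) - n • (Pg + ι Q) = (m - n) • (Pg + ι Q) := by
      rw [sub_nsmul _ hmn.le, sub_eq_add_neg]
    rwa [← add_nsmul, e] at this
  have hP := Finset.prod_congr (s₁ := t) rfl key
  rw [Finset.prod_mul_distrib, Finset.prod_mul_distrib, Finset.prod_mul_distrib,
    Finset.prod_pow, Finset.prod_pow, Finset.prod_pow, (hs t t0).2, one_pow, mul_one,
    prod_max_eq h hcont hprod hmn1 t t1, prod_max_eq h hcont hprod hmn2 t t2,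
    prod_max_eq h hcont hprod hm t t3, prod_max_eq h hcont hprod hn t t4,
    ex_pow, ex_pow, ← ex_add, ← ex_add, ex_inj] at hP
  push_cast at hP
  omega

theorem ncard_torsion_one : {Q : G₀ | 1 • Q = 0}.ncard = 1 := by
  have e : {Q : G₀ | 1 • Q = 0} = {0} := by
    ext Q
    simp
  rw [e, Set.ncard_singleton]

/-- **(A4)** the number of points killed by `n` is `n ^ 2`. -/
theorem ncard_torsion [CharZero k] (h : GenK ξ₀ ξ β κ ι Pg w) (hcont : ContHyp ξ w)
    (hprod : ProdFormula (k := k) ξ ι Pg w) (hloc : LocalHeight ξ w) {n : ℕ} (hn : 0 < n) :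
    {Q : G₀ | n • Q = 0}.ncard = n ^ 2 := by
  have c1 := ncard_torsion_one (G₀ := G₀)
  have c2 : {Q : G₀ | 2 • Q = 0}.ncard = 4 := by
    have r21 := ncard_add_sub h hcont hprod hloc (m := 2) (n := 1) one_pos (by norm_num)
    have r31 := ncard_add_sub h hcont hprod hloc (m := 3) (n := 1) one_pos (by norm_num)
    have r32 := ncard_add_sub h hcont hprod hloc (m := 3) (n := 2) two_pos (by norm_num)
    have r41 := ncard_add_sub h hcont hprod hloc (m := 4) (n := 1) one_pos (by norm_num)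
    norm_num at r21 r31 r32 r41
    omega
  induction n using Nat.strong_induction_on with
  | _ n ih =>
    rcases (by omega : n = 1 ∨ n = 2 ∨ 3 ≤ n) with rfl | rfl | h3
    · rw [c1]
      norm_num
    · rw [c2]
      norm_num
    · obtain ⟨j, rfl⟩ : ∃ j, n = j + 3 := ⟨n - 3, by omega⟩
      have e := ncard_add_sub h hcont hprod hloc (m := j + 2) (n := 1) one_pos (by omega)
      have e1 : j + 2 - 1 = j + 1 := by omega
      rw [e1, ih (j + 2) (by omega) (by omega), ih (j + 1) (by omega) (by omega), c1] at e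
      have e2 : {Q : G₀ | (j + 2 + 1) • Q = 0}.ncard + (j + 1) ^ 2
          = (j + 3) ^ 2 + (j + 1) ^ 2 := by
        rw [e]
        ring
      exact Nat.add_right_cancel e2

/-- **(A4)** the number of points killed by `n` is `n ^ 2`. -/
theorem card_torsion [CharZero k] (h : GenK ξ₀ ξ β κ ι Pg w) (hcont : ContHyp ξ w)
    (hprod : ProdFormula (k := k) ξ ι Pg w) (hloc : LocalHeight ξ w) {n : ℕ} (hn : 0 < n) :
    Nat.card {Q : G₀ // n • Q = 0} = n ^ 2 := by
  rw [← ncard_torsion h hcont hprod hloc hn]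
  exact Nat.card_coe_set_eq _

end Fermat.Agent.S13Lib.TorsCount
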