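import Mathlib
import Fermat.Agent.S05Lib.Defs
import Fermat.Agent.S05Lib.E1
import Fermat.Agent.S13Lib.GenDefs
import Fermat.Agent.S13Lib.GenPoles
import Fermat.Agent.S13Lib.TorsCount

/-!
# S13: values of `ξ (n • (Pg + ι Q))` in a generic Kummer datum  ((B0), (H6), (V), (Z))

Abstract Kummer line (`IsKummer ξ b c`):

* `xi_add_of_xi_eq_zero` **(B0)** : if `ξ T = 0`, `T ≠ 0`, then `ξ (S + T) = c / ξ S`;
* `val_add_sub_lt` **(H6)** : continuity, `v (ξ (R + S) - ξ S) < 1` for `R` in the kernel of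
  reduction and `S ≠ 0` integral.

Generic Kummer datum `h : GenK ξ₀ ξ β κ ι Pg w`, `k` of characteristic `0`, `n ≥ 1`:

* `contHyp` : the hypothesis `TorsCount.ContHyp ξ w`;
* `val_xi_nsmul_sub_lt` : `ξ (n • (Pg + ι Q)) ≡ ξ₀ (n • Q)` modulo the maximal ideal if
  `n • Q ≠ 0`;
* `val_xi_nsmul_of_eq`, `val_xi_nsmul_eq_one` **(V)** : `w (ξ (n • (Pg + ι Q)))` is `ex (-2)` if
  `n • Q = T0` (the point with `ξ₀ T0 = 0`) and `1` if `n • Q ≠ 0, T0`;
* `val_sq_mul_xi_nsmul_sub`, `val_div_sub_sq_lt` **(Z)** : `ξ Pg / ξ (n • Pg) ≡ n²`.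
-/

set_option autoImplicit false

namespace Fermat.Agent.S13Lib.GenVals

open Fermat.Agent.S05Lib Fermat.Agent.S13Lib.GenDefs

section Abstract

variable {G F Γ₀ : Type*} [AddCommGroup G] [Field F] [LinearOrderedCommGroupWithZero Γ₀]
  {ξ : G → F} {b c : F}

/-- a nonzero point with `ξ = 0` has order two -/
theorem two_nsmul_eq_zero_of_xi_eq_zero (hK : IsKummer ξ b c) {T : G} (hT0 : T ≠ 0)
    (hT : ξ T = 0) : (2 : ℕ) • T = 0 := by
  rw [hK.two_nsmul_eq_zero_iff T hT0, hT, zero_mul]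

theorem neg_eq_of_xi_eq_zero (hK : IsKummer ξ b c) {T : G} (hT0 : T ≠ 0) (hT : ξ T = 0) :
    -T = T := by
  have h := two_nsmul_eq_zero_of_xi_eq_zero hK hT0 hT
  rw [two_nsmul] at h
  exact neg_eq_of_add_eq_zero_left h

/-- odd multiples of a point with `ξ = 0` -/
theorem odd_nsmul_of_xi_eq_zero (hK : IsKummer ξ b c) {T : G} (hT0 : T ≠ 0) (hT : ξ T = 0)
    {n : ℕ} (hn : Odd n) : n • T = T := by
  obtain ⟨j, rfl⟩ := hn
  rw [add_nsmul, mul_nsmul, two_nsmul_eq_zero_of_xi_eq_zero hK hT0 hT, smul_zero, zero_add,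
    one_nsmul]

/-- a nonzero point different from the point `T` with `ξ T = 0` has `ξ ≠ 0` -/
theorem xi_ne_zero_of_ne (hK : IsKummer ξ b c) {T : G} (hT0 : T ≠ 0) (hT : ξ T = 0) {S : G}
    (hS0 : S ≠ 0) (hST : S ≠ T) : ξ S ≠ 0 := by
  intro h0
  rcases hK.eq_or_eq_neg S T hS0 hT0 (by rw [h0, hT]) with h1 | h1
  · exact hST h1
  · rw [neg_eq_of_xi_eq_zero hK hT0 hT] at h1
    exact hST h1

/-- **(B0)** translation by the `2`-torsion point `T` with `ξ T = 0` -/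
theorem xi_add_of_xi_eq_zero (hK : IsKummer ξ b c) (h2 : (2 : F) ≠ 0) {T S : G} (hT0 : T ≠ 0)
    (hT : ξ T = 0) (hS0 : S ≠ 0) (hST : S ≠ T) : ξ (S + T) = c / ξ S := by
  have hx : ξ S ≠ 0 := xi_ne_zero_of_ne hK hT0 hT hS0 hST
  have hne : ξ S ≠ ξ T := by rw [hT]; exact hx
  have hadd := hK.add S T hS0 hT0 hne
  have hsub : S - T = S + T := by rw [sub_eq_add_neg, neg_eq_of_xi_eq_zero hK hT0 hT]
  rw [hsub, hT] at hadd
  rw [eq_div_iff hx]
  have h4 : 2 * ξ S * (ξ (S + T) * ξ S - c) = 0 := by linear_combination hadd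
  have h5 := (mul_eq_zero.1 h4).resolve_left (mul_ne_zero h2 hx)
  linear_combination h5

/-- **(H6)** continuity: adding a point of the kernel of reduction does not change `ξ` of an
integral point modulo the maximal ideal -/
theorem val_add_sub_lt (v : Valuation F Γ₀) (hK : IsKummer ξ b c) (hb : v b ≤ 1) (hc : v c ≤ 1)
    {R S : G} (hR : 1 < v (ξ R)) (hS0 : S ≠ 0) (hS : v (ξ S) ≤ 1) :
    v (ξ (R + S) - ξ S) < 1 := by
  have hR0 : R ≠ 0 := E1.ne_zero_of_one_lt v hK hR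
  have hne : ξ R ≠ ξ S := by
    intro h
    rw [h] at hR
    exact absurd hS (not_le.2 hR)
  have hmul := hK.mul R S hR0 hS0 hne
  have hadd := hK.add R S hR0 hS0 hne
  generalize ξ (R + S) = p' at hmul hadd ⊢
  generalize ξ (R - S) = m' at hmul hadd
  generalize ξ R = x at hR hne hmul hadd
  generalize ξ S = y at hS hne hmul hadd ⊢
  have hxpos : 0 < v x := zero_lt_one.trans hR
  have hd : v (x - y) = v x := Valuation.map_sub_eq_of_lt_left v (lt_of_le_of_lt hS hR)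
  have hyI : y ∈ v.integer := (Valuation.mem_integer_iff _ _).2 hS
  have hcI : c ∈ v.integer := (Valuation.mem_integer_iff _ _).2 hc
  have hbI : b ∈ v.integer := (Valuation.mem_integer_iff _ _).2 hb
  have h2I : (2 : F) ∈ v.integer := (Valuation.mem_integer_iff _ _).2 (E1.val_two_le_one v)
  have h4I : (4 : F) ∈ v.integer := by
    have h := E1.val_natCast_le_one v 4
    exact (Valuation.mem_integer_iff _ _).2 (by simpa using h)
  have h6I : (6 : F) ∈ v.integer := by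
    have h := E1.val_natCast_le_one v 6
    exact (Valuation.mem_integer_iff _ _).2 (by simpa using h)
  have hA1 : v ((y ^ 2 - c) ^ 2) ≤ 1 :=
    (Valuation.mem_integer_iff _ _).1 (pow_mem (sub_mem (pow_mem hyI 2) hcI) 2)
  have hA2 : v (y * (4 * y ^ 2 + b * y + 4 * c)) ≤ 1 :=
    (Valuation.mem_integer_iff _ _).1 (mul_mem hyI (add_mem (add_mem (mul_mem h4I (pow_mem hyI 2))
      (mul_mem hbI hyI)) (mul_mem h4I hcI)))
  have hA3 : v (2 * c + 6 * y ^ 2 + b * y) ≤ 1 :=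
    (Valuation.mem_integer_iff _ _).1 (add_mem (add_mem (mul_mem h2I hcI)
      (mul_mem h6I (pow_mem hyI 2))) (mul_mem hbI hyI))
  have hA4 : v (2 * c * y - 2 * y ^ 3) ≤ 1 :=
    (Valuation.mem_integer_iff _ _).1 (sub_mem (mul_mem (mul_mem h2I hcI) hyI)
      (mul_mem h2I (pow_mem hyI 3)))
  have hUU : (p' - y) * (m' - y) * (x - y) ^ 2
      = (y ^ 2 - c) ^ 2 - x * (y * (4 * y ^ 2 + b * y + 4 * c)) := by
    linear_combination hmul - y * hadd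
  have hSum : ((p' - y) + (m' - y)) * (x - y) ^ 2
      = x * (2 * c + 6 * y ^ 2 + b * y) + (2 * c * y - 2 * y ^ 3) := by
    linear_combination hadd
  have hvUU : v (p' - y) * v (m' - y) * v x ^ 2 ≤ v x := by
    have h1 := congrArg v hUU
    rw [map_mul, map_mul, map_pow, hd] at h1
    rw [h1]
    apply Valuation.map_sub_le v (le_trans hA1 hR.le)
    rw [map_mul]
    exact mul_le_of_le_one_right' hA2
  have hvSum : v ((p' - y) + (m' - y)) * v x ^ 2 ≤ v x := by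
    have h1 := congrArg v hSum
    rw [map_mul, map_pow, hd] at h1
    rw [h1]
    apply Valuation.map_add_le v
    · rw [map_mul]
      exact mul_le_of_le_one_right' hA3
    · exact le_trans hA4 hR.le
  by_contra hu
  rw [not_lt] at hu
  have hx2 : v x < v x ^ 2 := by
    rw [sq]; exact lt_mul_of_one_lt_left hxpos hR
  have hsumlt : v ((p' - y) + (m' - y)) < 1 := by
    have h1 : v ((p' - y) + (m' - y)) * v x ^ 2 < 1 * v x ^ 2 := by
      rw [one_mul]; exact lt_of_le_of_lt hvSum hx2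
    exact lt_of_mul_lt_mul_right' h1
  have hm' : v (m' - y) = v (p' - y) := by
    have e : m' - y = ((p' - y) + (m' - y)) - (p' - y) := by ring
    rw [e]
    exact Valuation.map_sub_eq_of_lt_right v (lt_of_lt_of_le hsumlt hu)
  have h3 : v x ^ 2 ≤ v x := by
    calc v x ^ 2 = 1 * 1 * v x ^ 2 := by rw [one_mul, one_mul]
      _ ≤ v (p' - y) * v (m' - y) * v x ^ 2 := by
          rw [hm']; gcongr
      _ ≤ v x := hvUU
  exact absurd hx2 (not_lt.2 h3)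

end Abstract

section Gen

variable {k K G₀ G : Type*} [Field k] [Field K] [Algebra k K] [AddCommGroup G₀]
  [AddCommGroup G] {ξ₀ : G₀ → k} {ξ : G → K} {β κ : k} {ι : G₀ →+ G} {Pg : G}
  {w : Valuation K (WithZero (Multiplicative ℤ))}

/-- **(H6)** in a generic Kummer datum, in the shape used by `TorsCount.card_torsion` -/
theorem contHyp (h : GenK ξ₀ ξ β κ ι Pg w) : TorsCount.ContHyp ξ w :=
  fun _ _ hR hS0 hS =>
    val_add_sub_lt w h.kummer (GenPoles.w_const_le h β) (GenPoles.w_const_le h κ) hR hS0 hS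

theorem two_ne_zero' [CharZero k] (h : GenK ξ₀ ξ β κ ι Pg w) : (2 : K) ≠ 0 := by
  intro h0
  have h1 := GenPoles.w_two h
  rw [h0, map_zero] at h1
  exact zero_ne_one h1

theorem xi_nsmul_Pg_ne_zero [CharZero k] (h : GenK ξ₀ ξ β κ ι Pg w) {n : ℕ} (hn : 0 < n) :
    ξ (n • Pg) ≠ 0 := by
  intro h0
  have hv := GenPoles.val_xi_nsmul_Pg h hn
  rw [h0, map_zero] at hv
  exact SumFormula.ex_ne_zero 2 hv.symm

/-- at a point `Q` not killed by `n`, `ξ (n • (Pg + ι Q)) ≡ ξ₀ (n • Q)` -/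
theorem val_xi_nsmul_sub_lt [CharZero k] (h : GenK ξ₀ ξ β κ ι Pg w) (Q : G₀) {n : ℕ}
    (hn : 0 < n) (hQ : n • Q ≠ 0) :
    w (ξ (n • (Pg + ι Q)) - algebraMap k K (ξ₀ (n • Q))) < 1 := by
  rw [GenPoles.nsmul_add_ι, ← h.ξ_ι]
  refine val_add_sub_lt w h.kummer (GenPoles.w_const_le h β) (GenPoles.w_const_le h κ) ?_ ?_ ?_
  · rw [GenPoles.val_xi_nsmul_Pg h hn]; exact GenPoles.one_lt_ex_two
  · intro h0
    exact hQ (h.ι_inj (by rw [h0, map_zero]))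
  · rw [h.ξ_ι]; exact GenPoles.w_const_le h _

/-- **(V)**, generic case: `n • Q ≠ 0, T0` -/
theorem val_xi_nsmul_eq_one [CharZero k] (h : GenK ξ₀ ξ β κ ι Pg w) {T0 : G₀} (hT0 : T0 ≠ 0)
    (hξT0 : ξ₀ T0 = 0) (Q : G₀) {n : ℕ} (hn : 0 < n) (hQ0 : n • Q ≠ 0) (hQT : n • Q ≠ T0) :
    w (ξ (n • (Pg + ι Q))) = 1 := by
  have hne : ξ₀ (n • Q) ≠ 0 := xi_ne_zero_of_ne h.kummer₀ hT0 hξT0 hQ0 hQT
  have h1 := val_xi_nsmul_sub_lt h Q hn hQ0
  have e : ξ (n • (Pg + ι Q)) = algebraMap k K (ξ₀ (n • Q))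
      + (ξ (n • (Pg + ι Q)) - algebraMap k K (ξ₀ (n • Q))) := by ring
  rw [e, Valuation.map_add_eq_of_lt_left w (by rw [h.w_const _ hne]; exact h1), h.w_const _ hne]

/-- **(B0)** for the translated generic point: if `n • Q = T0` then
`ξ (n • (Pg + ι Q)) = κ / ξ (n • Pg)` -/
theorem xi_nsmul_of_eq [CharZero k] (h : GenK ξ₀ ξ β κ ι Pg w) {T0 : G₀} (hT0 : T0 ≠ 0)
    (hξT0 : ξ₀ T0 = 0) (Q : G₀) {n : ℕ} (hn : 0 < n) (hQ : n • Q = T0) :
    ξ (n • (Pg + ι Q)) = algebraMap k K κ / ξ (n • Pg) := by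
  rw [GenPoles.nsmul_add_ι, hQ]
  have hT0' : ι T0 ≠ 0 := fun h0 => hT0 (h.ι_inj (by rw [h0, map_zero]))
  have hξ : ξ (ι T0) = 0 := by rw [h.ξ_ι, hξT0, map_zero]
  have hx := xi_nsmul_Pg_ne_zero h hn
  have hS0 : n • Pg ≠ 0 := by
    intro h0
    rw [h0, h.kummer.zero] at hx
    exact hx rfl
  have hST : n • Pg ≠ ι T0 := by
    intro h0
    rw [h0, hξ] at hx
    exact hx rfl
  exact xi_add_of_xi_eq_zero h.kummer (two_ne_zero' h) hT0' hξ hS0 hST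

/-- **(V)**, the case `n • Q = T0` -/
theorem val_xi_nsmul_of_eq [CharZero k] (h : GenK ξ₀ ξ β κ ι Pg w) (hκ0 : κ ≠ 0) {T0 : G₀}
    (hT0 : T0 ≠ 0) (hξT0 : ξ₀ T0 = 0) (Q : G₀) {n : ℕ} (hn : 0 < n) (hQ : n • Q = T0) :
    w (ξ (n • (Pg + ι Q))) = ex (-2) := by
  rw [xi_nsmul_of_eq h hT0 hξT0 Q hn hQ, map_div₀, h.w_const κ hκ0,
    GenPoles.val_xi_nsmul_Pg h hn, one_div]
  exact (SumFormula.ex_neg 2).symm

/-- for odd `n`: `ξ (n • (Pg + ι T0)) = κ / ξ (n • Pg)` -/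
theorem xi_nsmul_add_T0 [CharZero k] (h : GenK ξ₀ ξ β κ ι Pg w) {T0 : G₀} (hT0 : T0 ≠ 0)
    (hξT0 : ξ₀ T0 = 0) {n : ℕ} (hn : Odd n) :
    ξ (n • (Pg + ι T0)) = algebraMap k K κ / ξ (n • Pg) :=
  xi_nsmul_of_eq h hT0 hξT0 T0 hn.pos (odd_nsmul_of_xi_eq_zero h.kummer₀ hT0 hξT0 hn)

/-- **(Z)** `n² ξ (n • Pg) ≡ ξ Pg` modulo integers -/
theorem val_sq_mul_xi_nsmul_sub [CharZero k] (h : GenK ξ₀ ξ β κ ι Pg w) {n : ℕ} (hn : 0 < n) :
    w ((n : K) ^ 2 * ξ (n • Pg) - ξ Pg) ≤ 1 := by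
  have hP := GenPoles.one_lt_val_Pg h
  have hz := E1.val_zeta_nsmul w h.kummer (GenPoles.w_two h) (GenPoles.w_const_le h β)
    (GenPoles.w_const_le h κ) hP n
  have hvn := GenPoles.val_xi_nsmul_Pg h hn
  have hx0 : ξ Pg ≠ 0 := E1.ne_zero_of_one_lt_val w hP
  have hxn0 : ξ (n • Pg) ≠ 0 := xi_nsmul_Pg_ne_zero h hn
  have e : (n : K) ^ 2 * ξ (n • Pg) - ξ Pg
      = -(((ξ (n • Pg))⁻¹ - (n : K) ^ 2 * (ξ Pg)⁻¹) * (ξ (n • Pg) * ξ Pg)) := by
    field_simp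
    ring
  rw [e, Valuation.map_neg, map_mul, map_mul, hvn, h.w_gen]
  calc w ((ξ (n • Pg))⁻¹ - (n : K) ^ 2 * (ξ Pg)⁻¹) * (ex 2 * ex 2)
      ≤ w ((ξ Pg)⁻¹) ^ 2 * (ex 2 * ex 2) := by gcongr
    _ = 1 := by
      rw [map_inv₀, h.w_gen, inv_pow, sq, inv_mul_cancel₀]
      exact mul_ne_zero (SumFormula.ex_ne_zero 2) (SumFormula.ex_ne_zero 2)

/-- **(Z)** `ξ Pg / ξ (n • Pg) ≡ n²` modulo the maximal ideal -/
theorem val_div_sub_sq_lt [CharZero k] (h : GenK ξ₀ ξ β κ ι Pg w) {n : ℕ} (hn : 0 < n) :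
    w (ξ Pg / ξ (n • Pg) - (n : K) ^ 2) < 1 := by
  have hxn0 : ξ (n • Pg) ≠ 0 := xi_nsmul_Pg_ne_zero h hn
  have e : ξ Pg / ξ (n • Pg) - (n : K) ^ 2
      = -(((n : K) ^ 2 * ξ (n • Pg) - ξ Pg) / ξ (n • Pg)) := by
    field_simp
    ring
  rw [e, Valuation.map_neg, map_div₀, GenPoles.val_xi_nsmul_Pg h hn]
  calc w ((n : K) ^ 2 * ξ (n • Pg) - ξ Pg) / ex 2 ≤ 1 / ex 2 := by
        rw [div_eq_mul_inv, div_eq_mul_inv]
        exact mul_le_mul_left (val_sq_mul_xi_nsmul_sub h hn) _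
    _ < 1 := by
      rw [one_div, ← SumFormula.ex_neg]
      exact SumFormula.ex_neg_two_lt_one

end Gen

end Fermat.Agent.S13Lib.GenVals
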