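import Mathlib
import Fermat.Agent.S05Lib.Defs

/-!
# S13: local heights on an abstract Kummer line

For an abstract Kummer line `ξ : G → F` with parameters `b`, `c` and a valuation `v` of `F`:

* `star` : the identity
  `(ξ(P+Q) - ξQ)(ξ(P-Q) - ξQ)(ξP - ξQ)² = (ξQ² - c)² - ξP·ξQ(4ξQ² + bξQ + 4c)`;
* `cont` : continuity, `ξ (R + S) ≡ ξ S` modulo the maximal ideal when `ξ R` is not integral and
  `ξ S` is integral;
* `local_height` : the local height identity
  `max(1,|ξ(P+R)|) max(1,|ξ(P-R)|) |ξP - ξR|² = max(1,|ξP|)² max(1,|ξR|)²` when `b` is integral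
  and `c`, `b² - 64c` are units.
-/

set_option autoImplicit false
set_option linter.unusedSectionVars false
set_option linter.unusedVariables false

namespace Fermat.Agent.S13Lib.Height

open Fermat.Agent.S05Lib

variable {G F Γ₀ : Type*} [AddCommGroup G] [Field F] [LinearOrderedCommGroupWithZero Γ₀]
  (v : Valuation F Γ₀) {ξ : G → F} {b c : F}

/-! ### Algebra -/

/-- (H1) STAR -/
theorem star (hK : IsKummer ξ b c) {P Q : G} (hP : P ≠ 0) (hQ : Q ≠ 0) (hne : ξ P ≠ ξ Q) :
    (ξ (P + Q) - ξ Q) * (ξ (P - Q) - ξ Q) * (ξ P - ξ Q) ^ 2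
      = (ξ Q ^ 2 - c) ^ 2 - ξ P * (ξ Q * (4 * ξ Q ^ 2 + b * ξ Q + 4 * c)) := by
  have hm := hK.mul P Q hP hQ hne
  have ha := hK.add P Q hP hQ hne
  linear_combination hm - ξ Q * ha

/-- the companion of STAR for the sum -/
theorem star_add (hK : IsKummer ξ b c) {P Q : G} (hP : P ≠ 0) (hQ : Q ≠ 0) (hne : ξ P ≠ ξ Q) :
    ((ξ (P + Q) - ξ Q) + (ξ (P - Q) - ξ Q)) * (ξ P - ξ Q) ^ 2
      = (2 * c * ξ Q - 2 * ξ Q ^ 3) + ξ P * (2 * c + 6 * ξ Q ^ 2 + b * ξ Q) := by
  have ha := hK.add P Q hP hQ hne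
  linear_combination ha

/-! ### Valuation toolkit -/

theorem val_natCast_le (n : ℕ) : v (n : F) ≤ 1 := by
  induction n with
  | zero => simp
  | succ n ih =>
    rw [Nat.cast_succ]
    exact (v.map_add _ _).trans (max_le ih (by rw [map_one]))

theorem val_two_le : v (2 : F) ≤ 1 := by
  simpa using val_natCast_le v 2

theorem val_four_le : v (4 : F) ≤ 1 := by
  simpa using val_natCast_le v 4

theorem val_six_le : v (6 : F) ≤ 1 := by
  simpa using val_natCast_le v 6

theorem val_eight_le : v (8 : F) ≤ 1 := by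
  simpa using val_natCast_le v 8

theorem val_sixtyfour_le : v (64 : F) ≤ 1 := by
  simpa using val_natCast_le v 64

theorem le_add {a a' : F} {M : Γ₀} (ha : v a ≤ M) (ha' : v a' ≤ M) : v (a + a') ≤ M :=
  (v.map_add a a').trans (max_le ha ha')

theorem le_sub {a a' : F} {M : Γ₀} (ha : v a ≤ M) (ha' : v a' ≤ M) : v (a - a') ≤ M :=
  (v.map_sub a a').trans (max_le ha ha')

theorem le_mul {a a' : F} {M M' : Γ₀} (ha : v a ≤ M) (ha' : v a' ≤ M') : v (a * a') ≤ M * M' := by
  rw [map_mul]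
  exact mul_le_mul' ha ha'

theorem le_one_mul {a a' : F} (ha : v a ≤ 1) (ha' : v a' ≤ 1) : v (a * a') ≤ 1 := by
  rw [map_mul]
  exact mul_le_one' ha ha'

theorem le_mul_left {a a' : F} {M : Γ₀} (ha : v a ≤ 1) (ha' : v a' ≤ M) : v (a * a') ≤ M := by
  rw [map_mul]
  exact (mul_le_mul' ha ha').trans (one_mul M).le

theorem le_one_pow {a : F} (ha : v a ≤ 1) (n : ℕ) : v (a ^ n) ≤ 1 := by
  rw [map_pow]
  exact pow_le_one' ha n

theorem lt_add {a a' : F} (ha : v a < 1) (ha' : v a' < 1) : v (a + a') < 1 :=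
  lt_of_le_of_lt (v.map_add a a') (max_lt ha ha')

theorem lt_sub {a a' : F} (ha : v a < 1) (ha' : v a' < 1) : v (a - a') < 1 :=
  lt_of_le_of_lt (v.map_sub a a') (max_lt ha ha')

theorem lt_mul {a a' : F} (ha : v a ≤ 1) (ha' : v a' < 1) : v (a * a') < 1 := by
  rw [map_mul]
  exact lt_of_le_of_lt (mul_le_of_le_one_left' ha) ha'

theorem lt_of_sq_lt {a : F} (ha : v (a ^ 2) < 1) : v a < 1 := by
  rw [map_pow] at ha
  by_contra h1
  exact absurd (one_le_pow_of_one_le' (not_lt.mp h1) 2) (not_le.mpr ha)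

/-- if the sum and the product are small, both are small -/
theorem lt_of_add_mul {u u' : F} (hs : v (u + u') < 1) (hp : v (u * u') < 1) : v u < 1 := by
  by_contra h1
  have h1 : 1 ≤ v u := not_lt.mp h1
  have h2 : v u' < 1 := by
    by_contra h3
    have h3 : 1 ≤ v u' := not_lt.mp h3
    rw [map_mul] at hp
    exact absurd (one_le_mul_of_one_le_of_one_le h1 h3) (not_le.mpr hp)
  have h4 : v (u + u') = v u := Valuation.map_add_eq_of_lt_left v (lt_of_lt_of_le h2 h1)
  rw [h4] at hs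
  exact absurd h1 (not_le.mpr hs)

/-! ### Continuity -/

/-- (H6) CONTINUITY: if `ξ R` is not integral and `ξ S` is integral (`S ≠ 0`), then
`ξ (R + S) ≡ ξ S` modulo the maximal ideal. -/
theorem cont (hK : IsKummer ξ b c) (hb : v b ≤ 1) (hc : v c ≤ 1) {R S : G}
    (hR : 1 < v (ξ R)) (hS : S ≠ 0) (hS1 : v (ξ S) ≤ 1) : v (ξ (R + S) - ξ S) < 1 := by
  have hR0 : R ≠ 0 := by
    intro h0
    rw [h0, hK.zero, map_zero] at hR
    exact absurd hR (not_lt.mpr zero_le_one)
  have hlt : v (ξ S) < v (ξ R) := lt_of_le_of_lt hS1 hR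
  have hne : ξ R ≠ ξ S := by
    intro he
    rw [he] at hlt
    exact lt_irrefl _ hlt
  have hd : v (ξ R - ξ S) = v (ξ R) := Valuation.map_sub_eq_of_lt_left v hlt
  have hx0 : 0 < v (ξ R) := lt_trans zero_lt_one hR
  have h2 := val_two_le v
  have h4 := val_four_le v
  have h6 := val_six_le v
  -- the product
  have e1 := star hK hR0 hS hne
  have e2 := star_add hK hR0 hS hne
  have b1 : v ((ξ S ^ 2 - c) ^ 2 - ξ R * (ξ S * (4 * ξ S ^ 2 + b * ξ S + 4 * c))) ≤ v (ξ R) := by
    refine le_sub v ?_ ?_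
    · exact (le_one_pow v (le_sub v (le_one_pow v hS1 2) hc) 2).trans hR.le
    · rw [map_mul]
      refine mul_le_of_le_one_right' ?_
      exact le_one_mul v hS1 (le_add v (le_add v (le_one_mul v h4 (le_one_pow v hS1 2))
        (le_one_mul v hb hS1)) (le_one_mul v h4 hc))
  have b2 : v ((2 * c * ξ S - 2 * ξ S ^ 3) + ξ R * (2 * c + 6 * ξ S ^ 2 + b * ξ S))
      ≤ v (ξ R) := by
    refine le_add v ?_ ?_
    · exact (le_sub v (le_one_mul v (le_one_mul v h2 hc) hS1)
        (le_one_mul v h2 (le_one_pow v hS1 3))).trans hR.le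
    · rw [map_mul]
      refine mul_le_of_le_one_right' ?_
      exact le_add v (le_add v (le_one_mul v h2 hc) (le_one_mul v h6 (le_one_pow v hS1 2)))
        (le_one_mul v hb hS1)
  have key : ∀ z : F, v (z * (ξ R - ξ S) ^ 2) ≤ v (ξ R) → v z < 1 := by
    intro z hz
    rw [map_mul, map_pow, hd, pow_two, ← mul_assoc] at hz
    have hz' : v z * v (ξ R) * v (ξ R) ≤ 1 * v (ξ R) := by rwa [one_mul]
    have hz'' : v z * v (ξ R) ≤ 1 := le_of_mul_le_mul_right hz' hx0
    by_contra h1
    exact absurd (lt_of_lt_of_le hR (le_mul_of_one_le_left' (not_lt.mp h1))) (not_lt.mpr hz'')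
  have hp : v ((ξ (R + S) - ξ S) * (ξ (R - S) - ξ S)) < 1 := key _ (by rw [e1]; exact b1)
  have hs : v ((ξ (R + S) - ξ S) + (ξ (R - S) - ξ S)) < 1 := key _ (by rw [e2]; exact b2)
  exact lt_of_add_mul v hs hp

/-! ### Gauss' lemma -/

/-- (H3) GAUSS: the height of a monic quadratic polynomial is the product of the heights of its
roots. -/
theorem gauss (a a' : F) :
    max (v (a * a')) (max (v (a + a')) 1) = max 1 (v a) * max 1 (v a') := by
  have hA : (1 : Γ₀) ≤ max 1 (v a) := le_max_left _ _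
  have hA' : (1 : Γ₀) ≤ max 1 (v a') := le_max_left _ _
  have ha : v a ≤ max 1 (v a) := le_max_right _ _
  have ha' : v a' ≤ max 1 (v a') := le_max_right _ _
  refine le_antisymm (max_le ?_ (max_le ?_ ?_)) ?_
  · exact le_mul v ha ha'
  · refine le_add v ?_ ?_
    · exact ha.trans (le_mul_of_one_le_right' hA')
    · exact ha'.trans (le_mul_of_one_le_left' hA)
  · exact one_le_mul_of_one_le_of_one_le hA hA'
  · rcases le_or_gt (v a) 1 with h1 | h1 <;> rcases le_or_gt (v a') 1 with h2 | h2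
    · rw [max_eq_left h1, max_eq_left h2, one_mul]
      exact le_max_of_le_right (le_max_right _ _)
    · rw [max_eq_left h1, max_eq_right h2.le, one_mul]
      have : v (a + a') = v a' := Valuation.map_add_eq_of_lt_right v (lt_of_le_of_lt h1 h2)
      rw [this]
      exact le_max_of_le_right (le_max_left _ _)
    · rw [max_eq_right h1.le, max_eq_left h2, mul_one]
      have : v (a + a') = v a := Valuation.map_add_eq_of_lt_left v (lt_of_le_of_lt h2 h1)
      rw [this]
      exact le_max_of_le_right (le_max_left _ _)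
    · rw [max_eq_right h1.le, max_eq_right h2.le, map_mul]
      exact le_max_left _ _

/-! ### The three quadrics have no common zero -/

/-- the unit case -/
theorem quad_unit (hb : v b ≤ 1) (hc : v c = 1) (hd : v (b ^ 2 - 64 * c) = 1) {x y : F}
    (hx : v x ≤ 1) (hy : v y ≤ 1) :
    1 ≤ max (v ((x * y - c) ^ 2))
      (max (v (2 * (x + y) * (x * y + c) + b * (x * y))) (v ((x - y) ^ 2))) := by
  by_contra hlt
  have hlt : max (v ((x * y - c) ^ 2))
      (max (v (2 * (x + y) * (x * y + c) + b * (x * y))) (v ((x - y) ^ 2))) < 1 := not_le.mp hlt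
  have f1 : v (x * y - c) < 1 := lt_of_sq_lt v (lt_of_le_of_lt (le_max_left _ _) hlt)
  have f2 : v (2 * (x + y) * (x * y + c) + b * (x * y)) < 1 :=
    lt_of_le_of_lt (le_max_of_le_right (le_max_left _ _)) hlt
  have f3 : v (x - y) < 1 := lt_of_sq_lt v (lt_of_le_of_lt (le_max_of_le_right (le_max_right _ _)) hlt)
  have h2 := val_two_le v
  have h4 := val_four_le v
  have h8 := val_eight_le v
  have h64 := val_sixtyfour_le v
  have hc' : v c ≤ 1 := hc.le
  -- `c (8x + b)` is small
  have e1 : c * (8 * x + b) = (2 * (x + y) * (x * y + c) + b * (x * y))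
      - ((4 * x + b - 2 * (x - y)) * (x * y - c) - (4 * c) * (x - y)) := by ring
  have g1 : v (c * (8 * x + b)) < 1 := by
    rw [e1]
    refine lt_sub v f2 (lt_sub v (lt_mul v ?_ f1) (lt_mul v (le_one_mul v h4 hc') f3))
    exact le_sub v (le_add v (le_one_mul v h4 hx) hb) (le_one_mul v h2 (le_sub v hx hy))
  have g2 : v (8 * x + b) < 1 := by
    rwa [map_mul, hc, one_mul] at g1
  -- `x² - c` is small
  have e2 : x ^ 2 - c = (x * y - c) + x * (x - y) := by ring
  have g3 : v (x ^ 2 - c) < 1 := by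
    rw [e2]
    exact lt_add v f1 (lt_mul v hx f3)
  have e3 : b ^ 2 - 64 * c = (b - 8 * x) * (8 * x + b) + 64 * (x ^ 2 - c) := by ring
  have g4 : v (b ^ 2 - 64 * c) < 1 := by
    rw [e3]
    exact lt_add v (lt_mul v (le_sub v hb (le_one_mul v h8 hx)) g2) (lt_mul v h64 g3)
  rw [hd] at g4
  exact lt_irrefl _ g4

/-- (H2) for `u = 1`: the maximum of the three quadrics. -/
theorem quad_max (hb : v b ≤ 1) (hc : v c = 1) (hd : v (b ^ 2 - 64 * c) = 1) (x y : F) :
    max (v ((x * y - c) ^ 2))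
      (max (v (2 * (x + y) * (x * y + c) + b * (x * y))) (v ((x - y) ^ 2)))
      = (max 1 (v x) * max 1 (v y)) ^ 2 := by
  have hX : (1 : Γ₀) ≤ max 1 (v x) := le_max_left _ _
  have hY : (1 : Γ₀) ≤ max 1 (v y) := le_max_left _ _
  have hx : v x ≤ max 1 (v x) := le_max_right _ _
  have hy : v y ≤ max 1 (v y) := le_max_right _ _
  have hM : (1 : Γ₀) ≤ max 1 (v x) * max 1 (v y) := one_le_mul_of_one_le_of_one_le hX hY
  have hxM : v x ≤ max 1 (v x) * max 1 (v y) := hx.trans (le_mul_of_one_le_right' hY)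
  have hyM : v y ≤ max 1 (v x) * max 1 (v y) := hy.trans (le_mul_of_one_le_left' hX)
  have hxy : v (x * y) ≤ max 1 (v x) * max 1 (v y) := le_mul v hx hy
  have hcM : v c ≤ max 1 (v x) * max 1 (v y) := hc.le.trans hM
  have h2 := val_two_le v
  refine le_antisymm (max_le ?_ (max_le ?_ ?_)) ?_
  · rw [map_pow]
    exact pow_le_pow_left' (le_sub v hxy hcM) 2
  · rw [pow_two]
    refine le_add v ?_ ?_
    · have := le_mul v (le_mul_left v h2 (le_add v hxM hyM)) (le_add v hxy hcM)
      exact this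
    · exact (le_mul_left v hb hxy).trans (le_mul_of_one_le_right' hM)
  · rw [map_pow]
    exact pow_le_pow_left' (le_sub v hxM hyM) 2
  · rcases le_or_gt (v x) 1 with h1 | h1 <;> rcases le_or_gt (v y) 1 with h2' | h2'
    · rw [max_eq_left h1, max_eq_left h2', one_mul, one_pow]
      exact quad_unit v hb hc hd h1 h2'
    · rw [max_eq_left h1, max_eq_right h2'.le, one_mul]
      have : v (x - y) = v y := Valuation.map_sub_eq_of_lt_right v (lt_of_le_of_lt h1 h2')
      refine le_max_of_le_right (le_max_of_le_right ?_)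
      rw [map_pow, this]
    · rw [max_eq_right h1.le, max_eq_left h2', mul_one]
      have : v (x - y) = v x := Valuation.map_sub_eq_of_lt_left v (lt_of_le_of_lt h2' h1)
      refine le_max_of_le_right (le_max_of_le_right ?_)
      rw [map_pow, this]
    · rw [max_eq_right h1.le, max_eq_right h2'.le]
      have hlt : v c < v (x * y) := by
        rw [hc, map_mul]
        exact lt_of_lt_of_le h1 (le_mul_of_one_le_right' h2'.le)
      have : v (x * y - c) = v (x * y) := Valuation.map_sub_eq_of_lt_left v hlt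
      refine le_max_of_le_left ?_
      rw [map_pow, this, map_mul]

/-! ### The local height identity -/

/-- (H4) LOCAL HEIGHT -/
theorem local_height (hK : IsKummer ξ b c) (hb : v b ≤ 1) (hc : v c = 1)
    (hd : v (b ^ 2 - 64 * c) = 1) {P R : G} (hP : P ≠ 0) (hR : R ≠ 0) (hne : ξ P ≠ ξ R) :
    max 1 (v (ξ (P + R))) * max 1 (v (ξ (P - R))) * v (ξ P - ξ R) ^ 2
      = max 1 (v (ξ P)) ^ 2 * max 1 (v (ξ R)) ^ 2 := by
  have hm := hK.mul P R hP hR hne
  have ha := hK.add P R hP hR hne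
  rw [← gauss v (ξ (P + R)) (ξ (P - R)), ← max_mul_mul_right, ← max_mul_mul_right, one_mul,
    ← map_pow, ← map_mul, ← map_mul, hm, ha, ← mul_pow]
  exact quad_max v hb hc hd (ξ P) (ξ R)

end Fermat.Agent.S13Lib.Height
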