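import Mathlib
import Fermat.Agent.S13Lib.TorsCount
import Fermat.Agent.S13Lib.Height
import Fermat.Agent.S13Lib.GenVals
import Fermat.Agent.S13Lib.GenTable
import Fermat.Agent.S13Lib.SumFormula

/-!
# S13: the torsion count on a generic Kummer datum, all hypotheses discharged

`card_torsion` : in a generic Kummer datum `GenK ξ₀ ξ β κ ι Pg w` over an algebraically closed
field `k` of characteristic zero with `κ ≠ 0` and `β² ≠ 64 κ`, the number of points of `G₀`
killed by `n ≥ 1` is `n²`.
-/

set_option autoImplicit false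

namespace Fermat.Agent.S13Lib.GenCard

open Polynomial Fermat.Agent.S05Lib Fermat.Agent.S13Lib.GenDefs

variable {k K G₀ G : Type*} [Field k] [Field K] [Algebra k K] [AddCommGroup G₀] [AddCommGroup G]
  {ξ₀ : G₀ → k} {ξ : G → K} {β κ : k} {ι : G₀ →+ G} {Pg : G}
  {w : Valuation K (WithZero (Multiplicative ℤ))}

/-- the local height identity (H4) in a generic Kummer datum -/
theorem localHeight (h : GenK ξ₀ ξ β κ ι Pg w) (hκ0 : κ ≠ 0) (hdisc : β ^ 2 ≠ 64 * κ) :
    TorsCount.LocalHeight ξ w := by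
  intro P R hP hR hne
  have hb : w (algebraMap k K β) ≤ 1 := TorsCount.w_le_one h β
  have hc : w (algebraMap k K κ) = 1 := h.w_const κ hκ0
  have hd : w (algebraMap k K β ^ 2 - 64 * algebraMap k K κ) = 1 := by
    have e : algebraMap k K β ^ 2 - 64 * algebraMap k K κ
        = algebraMap k K (β ^ 2 - 64 * κ) := by
      rw [map_sub, map_mul, map_pow, map_ofNat]
    rw [e]
    exact h.w_const _ (sub_ne_zero.mpr hdisc)
  exact Height.local_height w h.kummer hb hc hd hP hR hne

/-- the product formula (A3') in a generic Kummer datum -/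
theorem prodFormula [IsAlgClosed k] (h : GenK ξ₀ ξ β κ ι Pg w) (hκ0 : κ ≠ 0)
    (hdisc : β ^ 2 ≠ 64 * κ) : TorsCount.ProdFormula (k := k) ξ ι Pg w := by
  have hT := GenTable.table_of_cont h hκ0 hdisc (GenVals.contHyp h)
  intro p hp
  exact ⟨SumFormula.finite_ne_one h hT p hp, SumFormula.finprod_eq_one h hT p hp⟩

/-- **(A4)** the number of points killed by `n` is `n ^ 2`. -/
theorem card_torsion [IsAlgClosed k] [CharZero k] (h : GenK ξ₀ ξ β κ ι Pg w) (hκ0 : κ ≠ 0)
    (hdisc : β ^ 2 ≠ 64 * κ) {n : ℕ} (hn : 0 < n) :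
    Nat.card {Q : G₀ // n • Q = 0} = n ^ 2 :=
  TorsCount.card_torsion h (GenVals.contHyp h) (prodFormula h hκ0 hdisc)
    (localHeight h hκ0 hdisc) hn

end Fermat.Agent.S13Lib.GenCard
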