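import Mathlib
import Fermat.Agent.S51Lib.Pts

/-!
# S13: the parameters of the Kummer line of a Weierstrass curve with nonzero discriminant

For a Weierstrass curve `W` over a field of characteristic `≠ 2`:
* over an algebraically closed field there is a `2`-torsion abscissa `e` (a root of `B6`);
* if `B6 W e = 0`, `β = B2 W e`, `B4 W e = 2 κ`, then `W.Δ = κ² (β² - 64 κ)`; hence `W.Δ ≠ 0`
  gives `κ ≠ 0` and `β² ≠ 64 κ`.
-/

set_option autoImplicit false

namespace Fermat.Agent.S13Lib.GenDisc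

open WeierstrassCurve Polynomial Fermat.Agent.S51Lib.Pts

variable {k : Type*} [Field k] (W : WeierstrassCurve k)

/-- Over an algebraically closed field of characteristic `≠ 2` there is a `2`-torsion
abscissa. -/
theorem exists_B6_eq_zero [IsAlgClosed k] (h2 : (2 : k) ≠ 0) : ∃ e : k, B6 W e = 0 := by
  have h4 : (4 : k) ≠ 0 := by
    have : (4 : k) = 2 * 2 := by norm_num
    rw [this]
    exact mul_ne_zero h2 h2
  obtain ⟨e, he⟩ := IsAlgClosed.exists_root
    (C (4 : k) * X ^ 3 + C W.b₂ * X ^ 2 + C (2 * W.b₄) * X + C W.b₆)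
    (by rw [degree_cubic h4]; decide)
  refine ⟨e, ?_⟩
  simp only [IsRoot, eval_add, eval_mul, eval_C, eval_pow, eval_X] at he
  simp only [B6]
  linear_combination he

/-- The discriminant in terms of the Kummer parameters. -/
theorem Δ_eq_kummer (h2 : (2 : k) ≠ 0) (e β κ : k) (h6 : B6 W e = 0) (hβ : B2 W e = β)
    (hκ : B4 W e = 2 * κ) : W.Δ = κ ^ 2 * (β ^ 2 - 64 * κ) := by
  have h4 : (4 : k) ≠ 0 := by
    have : (4 : k) = 2 * 2 := by norm_num
    rw [this]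
    exact mul_ne_zero h2 h2
  have hrel := B_rel W e
  rw [h6, hβ, hκ] at hrel
  have h8 : B8 W e = -κ ^ 2 := by
    have h : 4 * (B8 W e + κ ^ 2) = 0 := by linear_combination hrel
    have h' := (mul_eq_zero.1 h).resolve_left h4
    linear_combination h'
  have hΔ := Δ_eq W e
  rw [h6, hβ, hκ, h8] at hΔ
  rw [hΔ]
  ring

/-- Nonzero discriminant: `κ ≠ 0`. -/
theorem kappa_ne_zero (h2 : (2 : k) ≠ 0) (hΔ : W.Δ ≠ 0) (e β κ : k) (h6 : B6 W e = 0)
    (hβ : B2 W e = β) (hκ : B4 W e = 2 * κ) : κ ≠ 0 := by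
  intro h0
  apply hΔ
  rw [Δ_eq_kummer W h2 e β κ h6 hβ hκ, h0]
  ring

/-- Nonzero discriminant: `β² ≠ 64 κ`. -/
theorem disc_ne (h2 : (2 : k) ≠ 0) (hΔ : W.Δ ≠ 0) (e β κ : k) (h6 : B6 W e = 0)
    (hβ : B2 W e = β) (hκ : B4 W e = 2 * κ) : β ^ 2 ≠ 64 * κ := by
  intro h0
  apply hΔ
  rw [Δ_eq_kummer W h2 e β κ h6 hβ hκ, h0]
  ring

/-- Over an algebraically closed field of characteristic zero, a Weierstrass curve with nonzero
discriminant has Kummer parameters `e, β, κ` with `κ ≠ 0` and `β² ≠ 64 κ`. -/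
theorem exists_kummer_params [IsAlgClosed k] [CharZero k] (hΔ : W.Δ ≠ 0) :
    ∃ e β κ : k, B6 W e = 0 ∧ B2 W e = β ∧ B4 W e = 2 * κ ∧ κ ≠ 0 ∧ β ^ 2 ≠ 64 * κ := by
  obtain ⟨e, he⟩ := exists_B6_eq_zero W two_ne_zero
  have hκ : B4 W e = 2 * (B4 W e / 2) := by
    field_simp
  exact ⟨e, B2 W e, B4 W e / 2, he, rfl, hκ,
    kappa_ne_zero W two_ne_zero hΔ e _ _ he rfl hκ, disc_ne W two_ne_zero hΔ e _ _ he rfl hκ⟩

end Fermat.Agent.S13Lib.GenDisc
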