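import Mathlib
import Fermat.Agent.S13Lib.TorsCount
import Fermat.Agent.S13Lib.SumFormula

/-!
# S13, part (B): the product formula for the `p`-torsion of a generic Kummer datum

For a generic Kummer datum `GenK ξ₀ ξ β κ ι Pg w` over an algebraically closed field `k` of
characteristic zero and an odd prime `p` (with `p ^ 2` points killed by `p`):

`(∏ over the nonzero p-torsion points T of ξ₀ T) ^ 2 * p ^ 4 = κ ^ (p ^ 2 - 1)`.

Proof: with `D = ∏ (X - ξ₀ T)` and `N = X * ∏ (X - κ / ξ₀ T)`, the "divisor" of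
`ξ (p • (Pg + ι Q))` as a function of `ξ (Pg + ι Q)` is that of `N / D`, so
`ξ (p • (Pg + ι Q)) * D = c * N` with a constant `c`; the leading term at infinity gives
`c = p⁻²`, and the comparison of the translates `Q = 0` and `Q = T0` (the `2`-torsion point with
`ξ₀ = 0`) gives the formula.
-/

set_option autoImplicit false
set_option linter.unusedSectionVars false
set_option linter.unusedVariables false

noncomputable section

namespace Fermat.Agent.S13Lib.GenProd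

open Polynomial Fermat.Agent.S05Lib Fermat.Agent.S13Lib.GenDefs
open Fermat.Agent.S13Lib.TorsCount (ContHyp pq)
open Fermat.Agent.S13Lib.SumFormula (Table)

/-! ### Kummer algebra: translation by the `2`-torsion point with `ξ = 0` -/

section Kummer

variable {G F : Type*} [AddCommGroup G] [Field F] {ξ : G → F} {β κ : F}

theorem neg_eq_of_two_nsmul {T0 : G} (h : (2 : ℕ) • T0 = 0) : -T0 = T0 := by
  rw [two_nsmul] at h
  exact neg_eq_of_add_eq_zero_left h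

/-- (B0) `ξ (S + T0) * ξ S = κ` for the `2`-torsion point `T0` with `ξ T0 = 0`. -/
theorem xi_add_mul (hK : IsKummer ξ β κ) (hchar : (2 : F) ≠ 0) {T0 : G} (hT0 : T0 ≠ 0)
    (hx0 : ξ T0 = 0) (h2 : (2 : ℕ) • T0 = 0) {S : G} (hx : ξ S ≠ 0) :
    ξ (S + T0) * ξ S = κ := by
  have hS : S ≠ 0 := by
    intro h0
    exact hx (by rw [h0, hK.zero])
  have hne : ξ S ≠ ξ T0 := by rw [hx0]; exact hx
  have ha := hK.add S T0 hS hT0 hne
  have e : S - T0 = S + T0 := by rw [sub_eq_add_neg, neg_eq_of_two_nsmul h2]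
  rw [e, hx0] at ha
  have h3 : 2 * ξ S * (ξ (S + T0) * ξ S - κ) = 0 := by linear_combination ha
  rcases mul_eq_zero.mp h3 with h4 | h4
  · exact absurd h4 (mul_ne_zero hchar hx)
  · exact sub_eq_zero.mp h4

/-- a nonzero point different from `T0` has `ξ ≠ 0` -/
theorem xi_ne_zero_of_ne (hK : IsKummer ξ β κ) {T0 : G} (hT0 : T0 ≠ 0)
    (hx0 : ξ T0 = 0) (h2 : (2 : ℕ) • T0 = 0) {S : G} (hS : S ≠ 0) (hST : S ≠ T0) : ξ S ≠ 0 := by
  intro h0
  rcases hK.eq_or_eq_neg S T0 hS hT0 (by rw [h0, hx0]) with e | e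
  · exact hST e
  · exact hST (by rw [e, neg_eq_of_two_nsmul h2])

end Kummer

/-! ### Odd torsion -/

section Odd

variable {G : Type*} [AddCommGroup G]

theorem exists_eq_mul_two_add_one {p : ℕ} (hp : p.Prime) (hp2 : p ≠ 2) : ∃ m, p = m * 2 + 1 := by
  rcases hp.eq_two_or_odd' with h | ⟨m, hm⟩
  · exact absurd h hp2
  · exact ⟨m, by omega⟩

theorem nsmul_eq_self_of_two {p : ℕ} (hp : p.Prime) (hp2 : p ≠ 2) {T : G}
    (h2 : (2 : ℕ) • T = 0) : p • T = T := by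
  obtain ⟨m, hm⟩ := exists_eq_mul_two_add_one hp hp2
  rw [hm, add_nsmul, one_nsmul, mul_nsmul', h2, nsmul_zero, zero_add]

theorem eq_zero_of_nsmul_of_two {p : ℕ} (hp : p.Prime) (hp2 : p ≠ 2) {T : G}
    (hpT : p • T = 0) (h2 : (2 : ℕ) • T = 0) : T = 0 := by
  rw [← nsmul_eq_self_of_two hp hp2 h2, hpT]

end Odd

/-! ### The `2`-torsion point `T0` and the finite set `Tp` of nonzero `p`-torsion points -/

section Setup

variable {k G₀ : Type*} [Field k] [AddCommGroup G₀]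

/-- `T0` is the `2`-torsion point with `ξ₀ T0 = 0`, `Tp` the set of nonzero points killed by the
odd prime `p`. -/
structure Setup (ξ₀ : G₀ → k) (p : ℕ) (T0 : G₀) (Tp : Finset G₀) : Prop where
  hp : p.Prime
  hp2 : p ≠ 2
  T0_ne : T0 ≠ 0
  xi_T0 : ξ₀ T0 = 0
  two_T0 : (2 : ℕ) • T0 = 0
  mem : ∀ T, T ∈ Tp ↔ p • T = 0 ∧ T ≠ 0

namespace Setup

variable {ξ₀ : G₀ → k} {β κ : k} {p : ℕ} {T0 : G₀} {Tp : Finset G₀}

theorem p_T0 (S : Setup ξ₀ p T0 Tp) : p • T0 = T0 :=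
  nsmul_eq_self_of_two S.hp S.hp2 S.two_T0

theorem neg_T0 (S : Setup ξ₀ p T0 Tp) : -T0 = T0 := neg_eq_of_two_nsmul S.two_T0

theorem T0_not_mem (S : Setup ξ₀ p T0 Tp) : T0 ∉ Tp := by
  intro h
  have := ((S.mem T0).1 h).1
  rw [S.p_T0] at this
  exact S.T0_ne this

theorem two_ne (S : Setup ξ₀ p T0 Tp) {T : G₀} (hT : T ∈ Tp) : (2 : ℕ) • T ≠ 0 := by
  intro h2
  obtain ⟨h1, h0⟩ := (S.mem T).1 hT
  exact h0 (eq_zero_of_nsmul_of_two S.hp S.hp2 h1 h2)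

theorem neg_mem (S : Setup ξ₀ p T0 Tp) {T : G₀} (hT : T ∈ Tp) : -T ∈ Tp := by
  obtain ⟨h1, h0⟩ := (S.mem T).1 hT
  refine (S.mem _).2 ⟨by rw [smul_neg, h1, neg_zero], neg_ne_zero.2 h0⟩

theorem ne_neg (S : Setup ξ₀ p T0 Tp) {T : G₀} (hT : T ∈ Tp) : T ≠ -T := by
  intro h
  apply S.two_ne hT
  rw [two_nsmul]
  nth_rewrite 2 [h]
  exact add_neg_cancel T

theorem xi_ne_zero (S : Setup ξ₀ p T0 Tp) (hK : IsKummer ξ₀ β κ) {T : G₀} (hT : T ∈ Tp) :
    ξ₀ T ≠ 0 := by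
  refine xi_ne_zero_of_ne hK S.T0_ne S.xi_T0 S.two_T0 ((S.mem T).1 hT).2 ?_
  rintro rfl
  exact S.T0_not_mem hT

open Classical in
/-- the number of `T ∈ Tp` with `ξ₀ T = ξ₀ Q` -/
theorem card_filter (S : Setup ξ₀ p T0 Tp) (hK : IsKummer ξ₀ β κ) {Q : G₀} (hQ : Q ≠ 0) :
    (Tp.filter (fun T => ξ₀ T = ξ₀ Q)).card = if Q ∈ Tp then 2 else 0 := by
  by_cases hQT : Q ∈ Tp
  · rw [if_pos hQT]
    have e : Tp.filter (fun T => ξ₀ T = ξ₀ Q) = {Q, -Q} := by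
      ext T
      simp only [Finset.mem_filter, Finset.mem_insert, Finset.mem_singleton]
      constructor
      · rintro ⟨hT, he⟩
        exact hK.eq_or_eq_neg T Q ((S.mem T).1 hT).2 hQ he
      · rintro (rfl | rfl)
        · exact ⟨hQT, rfl⟩
        · exact ⟨S.neg_mem hQT, hK.neg Q⟩
    rw [e, Finset.card_pair (S.ne_neg hQT)]
  · rw [if_neg hQT, Finset.card_eq_zero, Finset.filter_eq_empty_iff]
    intro T hT he
    rcases hK.eq_or_eq_neg T Q ((S.mem T).1 hT).2 hQ he with rfl | rfl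
    · exact hQT hT
    · have := S.neg_mem hT
      rw [neg_neg] at this
      exact hQT this

/-- `Q + T0 ∈ Tp` iff `p • Q = T0` and `Q ≠ T0` -/
theorem add_T0_mem_iff (S : Setup ξ₀ p T0 Tp) {Q : G₀} (hQ : Q ≠ T0) :
    Q + T0 ∈ Tp ↔ p • Q = T0 := by
  rw [S.mem, nsmul_add, S.p_T0]
  constructor
  · rintro ⟨h1, -⟩
    rw [eq_neg_of_add_eq_zero_left h1, S.neg_T0]
  · intro h1
    refine ⟨?_, ?_⟩
    · rw [h1, ← two_nsmul, S.two_T0]
    · intro h0
      exact hQ (by rw [eq_neg_of_add_eq_zero_left h0, S.neg_T0])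

end Setup

open Classical in
theorem prod_ite_eq_pow {Γ : Type*} [CommMonoid Γ] (Tp : Finset G₀) (P : G₀ → Prop) (v : Γ) :
    ∏ T ∈ Tp, (if P T then v else 1) = v ^ (Tp.filter P).card := by
  rw [Finset.prod_ite, Finset.prod_const, Finset.prod_const_one, mul_one]

/-- the denominator polynomial -/
def Dpoly (ξ₀ : G₀ → k) (Tp : Finset G₀) : k[X] := ∏ T ∈ Tp, (X - C (ξ₀ T))

/-- the numerator polynomial -/
def Npoly (ξ₀ : G₀ → k) (κ : k) (Tp : Finset G₀) : k[X] := X * ∏ T ∈ Tp, (X - C (κ / ξ₀ T))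

theorem Dpoly_ne_zero (ξ₀ : G₀ → k) (Tp : Finset G₀) : Dpoly ξ₀ Tp ≠ 0 :=
  Finset.prod_ne_zero_iff.2 fun T _ => X_sub_C_ne_zero _

theorem Npoly_ne_zero (ξ₀ : G₀ → k) (κ : k) (Tp : Finset G₀) : Npoly ξ₀ κ Tp ≠ 0 :=
  mul_ne_zero X_ne_zero (Finset.prod_ne_zero_iff.2 fun T _ => X_sub_C_ne_zero _)

theorem aeval_Dpoly {K : Type*} [Field K] [Algebra k K] (ξ₀ : G₀ → k) (Tp : Finset G₀) (x : K) :
    aeval x (Dpoly ξ₀ Tp) = ∏ T ∈ Tp, (x - algebraMap k K (ξ₀ T)) := by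
  rw [Dpoly, map_prod]
  exact Finset.prod_congr rfl fun T _ => by rw [map_sub, aeval_X, aeval_C]

theorem aeval_Npoly {K : Type*} [Field K] [Algebra k K] (ξ₀ : G₀ → k) (κ : k) (Tp : Finset G₀)
    (x : K) :
    aeval x (Npoly ξ₀ κ Tp) = x * ∏ T ∈ Tp, (x - algebraMap k K (κ / ξ₀ T)) := by
  rw [Npoly, map_mul, aeval_X, map_prod]
  congr 1
  exact Finset.prod_congr rfl fun T _ => by rw [map_sub, aeval_X, aeval_C]

end Setup

/-! ### Principal units -/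

section Units

variable {K Γ : Type*} [Field K] [LinearOrderedCommGroupWithZero Γ] (v : Valuation K Γ)

theorem val_le_one_of_sub_one {x : K} (hx : v (x - 1) < 1) : v x ≤ 1 := by
  have e : x = (x - 1) + 1 := by ring
  rw [e]
  exact Valuation.map_add_le v hx.le (by rw [map_one])

theorem unit_mul {x y : K} (hx : v (x - 1) < 1) (hy : v (y - 1) < 1) : v (x * y - 1) < 1 := by
  have e : x * y - 1 = (x - 1) * y + (y - 1) := by ring
  rw [e]
  refine Valuation.map_add_lt v ?_ hy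
  rw [map_mul]
  exact mul_lt_one_of_nonneg_of_lt_one_left zero_le hx (val_le_one_of_sub_one v hy)

theorem unit_prod {α : Type*} (s : Finset α) (f : α → K) (hf : ∀ a ∈ s, v (f a - 1) < 1) :
    v (∏ a ∈ s, f a - 1) < 1 := by
  classical
  induction s using Finset.induction_on with
  | empty => simp
  | insert a s ha ih =>
    rw [Finset.prod_insert ha]
    exact unit_mul v (hf a (Finset.mem_insert_self a s))
      (ih fun b hb => hf b (Finset.mem_insert_of_mem hb))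

end Units

/-! ### The valuations at the translated generic points -/

section Gen

variable {k K G₀ G : Type*} [Field k] [Field K] [Algebra k K] [AddCommGroup G₀] [AddCommGroup G]
  {ξ₀ : G₀ → k} {ξ : G → K} {β κ : k} {ι : G₀ →+ G} {Pg : G}
  {w : Valuation K (WithZero (Multiplicative ℤ))} {p : ℕ} {T0 : G₀} {Tp : Finset G₀}

theorem table_ne (hT : Table ξ₀ fun Q c => w (ξ (Pg + ι Q) - algebraMap k K c)) {Q : G₀}
    (hQ : Q ≠ 0) {c : k} (hc : c ≠ ξ₀ Q) : w (ξ (Pg + ι Q) - algebraMap k K c) = 1 :=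
  hT.2.1 Q c hQ hc

theorem table_two_ne (hT : Table ξ₀ fun Q c => w (ξ (Pg + ι Q) - algebraMap k K c)) {Q : G₀}
    (hQ : Q ≠ 0) (h2 : (2 : ℕ) • Q ≠ 0) :
    w (ξ (Pg + ι Q) - algebraMap k K (ξ₀ Q)) = ex (-1) :=
  hT.2.2.1 Q hQ h2

theorem table_two_eq (hT : Table ξ₀ fun Q c => w (ξ (Pg + ι Q) - algebraMap k K c)) {Q : G₀}
    (hQ : Q ≠ 0) (h2 : (2 : ℕ) • Q = 0) :
    w (ξ (Pg + ι Q) - algebraMap k K (ξ₀ Q)) = ex (-2) :=
  hT.2.2.2 Q hQ h2

theorem table_zero (hT : Table ξ₀ fun Q c => w (ξ (Pg + ι Q) - algebraMap k K c)) (c : k) :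
    w (ξ Pg - algebraMap k K c) = ex 2 := by
  have := hT.1 c
  simp only [map_zero, add_zero] at this
  exact this

theorem ex_neg_one_sq : ex (-1) ^ 2 = ex (-2) := by
  rw [TorsCount.ex_pow]
  norm_num

/-- (V1) the valuation of the denominator polynomial at a translate `Q ≠ 0` -/
theorem val_D (S : Setup ξ₀ p T0 Tp) (h : GenK ξ₀ ξ β κ ι Pg w)
    (hT : Table ξ₀ fun Q c => w (ξ (Pg + ι Q) - algebraMap k K c)) {Q : G₀} (hQ : Q ≠ 0) :
    (p • Q = 0 → w (aeval (ξ (Pg + ι Q)) (Dpoly ξ₀ Tp)) = ex (-2)) ∧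
      (p • Q ≠ 0 → w (aeval (ξ (Pg + ι Q)) (Dpoly ξ₀ Tp)) = 1) := by
  classical
  rw [aeval_Dpoly, map_prod]
  have e : ∀ T ∈ Tp, w (ξ (Pg + ι Q) - algebraMap k K (ξ₀ T))
      = if ξ₀ T = ξ₀ Q then w (ξ (Pg + ι Q) - algebraMap k K (ξ₀ Q)) else 1 := by
    intro T _
    by_cases he : ξ₀ T = ξ₀ Q
    · rw [if_pos he, he]
    · rw [if_neg he]
      exact table_ne hT hQ he
  rw [Finset.prod_congr rfl e, prod_ite_eq_pow, S.card_filter h.kummer₀ hQ]
  refine ⟨fun hpQ => ?_, fun hpQ => ?_⟩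
  · have hQT : Q ∈ Tp := (S.mem Q).2 ⟨hpQ, hQ⟩
    rw [if_pos hQT, table_two_ne hT hQ (S.two_ne hQT), ex_neg_one_sq]
  · have hQT : Q ∉ Tp := fun hh => hpQ ((S.mem Q).1 hh).1
    rw [if_neg hQT, pow_zero]

/-- (V2) the valuation of the numerator polynomial at a translate `Q ≠ 0` -/
theorem val_N [CharZero k] (S : Setup ξ₀ p T0 Tp) (h : GenK ξ₀ ξ β κ ι Pg w) (hκ : κ ≠ 0)
    (hT : Table ξ₀ fun Q c => w (ξ (Pg + ι Q) - algebraMap k K c)) {Q : G₀} (hQ : Q ≠ 0) :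
    (p • Q = T0 → w (aeval (ξ (Pg + ι Q)) (Npoly ξ₀ κ Tp)) = ex (-2)) ∧
      (p • Q ≠ T0 → w (aeval (ξ (Pg + ι Q)) (Npoly ξ₀ κ Tp)) = 1) := by
  classical
  rw [aeval_Npoly, map_mul, map_prod]
  by_cases hQT0 : Q = T0
  · -- the factor `X` vanishes to order two, the others are units
    have e1 : w (ξ (Pg + ι Q)) = ex (-2) := by
      have := table_two_eq hT hQ (by rw [hQT0]; exact S.two_T0)
      rw [hQT0, S.xi_T0, map_zero, sub_zero] at this
      rw [hQT0]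
      exact this
    have e2 : ∀ T ∈ Tp, w (ξ (Pg + ι Q) - algebraMap k K (κ / ξ₀ T)) = 1 := by
      intro T hT'
      refine table_ne hT hQ ?_
      rw [hQT0, S.xi_T0]
      exact div_ne_zero hκ (S.xi_ne_zero h.kummer₀ hT')
    rw [e1, Finset.prod_congr rfl e2, Finset.prod_const_one, mul_one]
    refine ⟨fun _ => rfl, fun hne => absurd (by rw [hQT0]; exact S.p_T0) hne⟩
  · have hxQ : ξ₀ Q ≠ 0 := xi_ne_zero_of_ne h.kummer₀ S.T0_ne S.xi_T0 S.two_T0 hQ hQT0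
    have h2k : (2 : k) ≠ 0 := two_ne_zero
    have hB0 : ξ₀ (Q + T0) * ξ₀ Q = κ :=
      xi_add_mul h.kummer₀ h2k S.T0_ne S.xi_T0 S.two_T0 hxQ
    have hQ' : Q + T0 ≠ 0 := by
      intro h0
      exact hQT0 (by rw [eq_neg_of_add_eq_zero_left h0, S.neg_T0])
    have e1 : w (ξ (Pg + ι Q)) = 1 := by
      have := table_ne hT hQ (c := 0) (fun h0 => hxQ h0.symm)
      rwa [map_zero, sub_zero] at this
    have e2 : ∀ T ∈ Tp, w (ξ (Pg + ι Q) - algebraMap k K (κ / ξ₀ T))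
        = if ξ₀ T = ξ₀ (Q + T0) then w (ξ (Pg + ι Q) - algebraMap k K (ξ₀ Q)) else 1 := by
      intro T hT'
      have hxT : ξ₀ T ≠ 0 := S.xi_ne_zero h.kummer₀ hT'
      by_cases he : ξ₀ T = ξ₀ (Q + T0)
      · rw [if_pos he]
        have hx' : ξ₀ (Q + T0) ≠ 0 := he ▸ hxT
        have : κ / ξ₀ T = ξ₀ Q := by
          rw [he, ← hB0, mul_div_cancel_left₀ _ hx']
        rw [this]
      · rw [if_neg he]
        refine table_ne hT hQ ?_
        intro h1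
        apply he
        have h2 : ξ₀ T * ξ₀ Q = ξ₀ (Q + T0) * ξ₀ Q := by
          rw [hB0, ← h1]
          field_simp
        exact mul_right_cancel₀ hxQ h2
    rw [e1, one_mul, Finset.prod_congr rfl e2, prod_ite_eq_pow, S.card_filter h.kummer₀ hQ']
    refine ⟨fun hpQ => ?_, fun hpQ => ?_⟩
    · have hQT : Q + T0 ∈ Tp := (S.add_T0_mem_iff hQT0).2 hpQ
      have h2Q : (2 : ℕ) • Q ≠ 0 := by
        have := S.two_ne hQT
        rwa [nsmul_add, S.two_T0, add_zero] at this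
      rw [if_pos hQT, table_two_ne hT hQ h2Q, ex_neg_one_sq]
    · have hQT : Q + T0 ∉ Tp := fun hh => hpQ ((S.add_T0_mem_iff hQT0).1 hh)
      rw [if_neg hQT, pow_zero]

theorem two_ne_zero_K [CharZero k] (h : GenK ξ₀ ξ β κ ι Pg w) : (2 : K) ≠ 0 := by
  intro h0
  have := TorsCount.w_two h
  rw [h0, map_zero] at this
  exact zero_ne_one this

/-- (V3) the valuation of `ξ (p • (Pg + ι Q))` -/
theorem val_xi [CharZero k] (S : Setup ξ₀ p T0 Tp) (h : GenK ξ₀ ξ β κ ι Pg w) (hκ : κ ≠ 0)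
    (hcont : ContHyp ξ w) (Q : G₀) :
    (p • Q = 0 → w (ξ (p • (Pg + ι Q))) = ex 2) ∧
      (p • Q = T0 → w (ξ (p • (Pg + ι Q))) = ex (-2)) ∧
      (p • Q ≠ 0 → p • Q ≠ T0 → w (ξ (p • (Pg + ι Q))) = 1) := by
  have hp0 : p ≠ 0 := S.hp.ne_zero
  refine ⟨fun hpQ => TorsCount.w_xi_nsmul_of_torsion h Q hp0 hpQ, fun hpQ => ?_,
    fun h0 hT0 => ?_⟩
  · rw [TorsCount.nsmul_trans_eq, hpQ]
    have hιT0 : ι T0 ≠ 0 := fun h0 => S.T0_ne (h.ι_inj (by rw [h0, map_zero]))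
    have hx0 : ξ (ι T0) = 0 := by rw [h.ξ_ι, S.xi_T0, map_zero]
    have h2 : (2 : ℕ) • ι T0 = 0 := by rw [← map_nsmul, S.two_T0, map_zero]
    have hB := xi_add_mul h.kummer (two_ne_zero_K h) hιT0 hx0 h2
      (TorsCount.xi_nsmul_gen_ne_zero h hp0)
    have hw := congrArg w hB
    rw [map_mul, TorsCount.w_xi_nsmul_gen h hp0, h.w_const κ hκ] at hw
    rw [eq_inv_of_mul_eq_one_left hw]
    rfl
  · have hlt := TorsCount.w_xi_nsmul_sub_lt h hcont Q hp0 h0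
    have hx : ξ₀ (p • Q) ≠ 0 := xi_ne_zero_of_ne h.kummer₀ S.T0_ne S.xi_T0 S.two_T0 h0 hT0
    have h1 : w (algebraMap k K (ξ₀ (p • Q))) = 1 := h.w_const _ hx
    have h2 := Valuation.map_eq_of_sub_lt w (by rw [h1]; exact hlt)
    rw [h2, h1]

/-- the "divisors" agree: for `Q ≠ 0`, `w (ξ (p • (Pg + ι Q))) * w (D) = w (N)` -/
theorem val_key [CharZero k] (S : Setup ξ₀ p T0 Tp) (h : GenK ξ₀ ξ β κ ι Pg w) (hκ : κ ≠ 0)
    (hcont : ContHyp ξ w)
    (hT : Table ξ₀ fun Q c => w (ξ (Pg + ι Q) - algebraMap k K c)) {Q : G₀} (hQ : Q ≠ 0) :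
    w (ξ (p • (Pg + ι Q))) * w (aeval (ξ (Pg + ι Q)) (Dpoly ξ₀ Tp))
      = w (aeval (ξ (Pg + ι Q)) (Npoly ξ₀ κ Tp)) := by
  obtain ⟨x1, x2, x3⟩ := val_xi S h hκ hcont Q
  obtain ⟨d1, d2⟩ := val_D S h hT hQ
  obtain ⟨n1, n2⟩ := val_N S h hκ hT hQ
  by_cases h0 : p • Q = 0
  · have hT0 : p • Q ≠ T0 := by
      rw [h0]
      exact S.T0_ne.symm
    rw [x1 h0, d1 h0, n2 hT0, ← TorsCount.ex_add]
    rfl
  · by_cases hT0 : p • Q = T0
    · rw [x2 hT0, d2 h0, n1 hT0, mul_one]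
    · rw [x3 h0 hT0, d2 h0, n2 hT0, mul_one]

/-- (B2) `ξ (p • (Pg + ι Q)) * D = c * N` at every translate, for a constant `c ≠ 0` -/
theorem exists_const [IsAlgClosed k] [CharZero k] (S : Setup ξ₀ p T0 Tp)
    (h : GenK ξ₀ ξ β κ ι Pg w) (hκ : κ ≠ 0) (hcont : ContHyp ξ w)
    (hT : Table ξ₀ fun Q c => w (ξ (Pg + ι Q) - algebraMap k K c)) :
    ∃ c : k, c ≠ 0 ∧ ∀ Q : G₀, ξ (p • (Pg + ι Q)) * aeval (ξ (Pg + ι Q)) (Dpoly ξ₀ Tp)
      = algebraMap k K c * aeval (ξ (Pg + ι Q)) (Npoly ξ₀ κ Tp) := by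
  have hqq : (pq β κ p).2 ≠ 0 := TorsCount.pq_snd_ne_zero h p
  have hpp : (pq β κ p).1 ≠ 0 := TorsCount.pq_fst_ne_zero h S.hp.ne_zero
  have key := fun Q : G₀ => TorsCount.xi_nsmul_trans_eq h Q p
  obtain ⟨c, hc, hrs⟩ := SumFormula.exists_eq_C_mul h hT ((pq β κ p).1 * Dpoly ξ₀ Tp)
    ((pq β κ p).2 * Npoly ξ₀ κ Tp) (mul_ne_zero hpp (Dpoly_ne_zero _ _))
    (mul_ne_zero hqq (Npoly_ne_zero _ _ _)) (fun Q hQ => by
      rw [map_mul, map_mul, map_mul, map_mul, ← (key Q).2, map_mul,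
        ← val_key S h hκ hcont hT hQ]
      exact (mul_assoc _ _ _).trans (mul_left_comm _ _ _))
  refine ⟨c, hc, fun Q => ?_⟩
  have e := congrArg (aeval (ξ (Pg + ι Q))) hrs
  rw [map_mul, map_mul, map_mul, aeval_C, ← (key Q).2] at e
  exact mul_left_cancel₀ (key Q).1 (by linear_combination e)

/-- (B3) the constant is `p⁻²` (leading terms at infinity) -/
theorem const_eq [CharZero k] (S : Setup ξ₀ p T0 Tp) (h : GenK ξ₀ ξ β κ ι Pg w) {c : k}
    (hc : ξ (p • Pg) * aeval (ξ Pg) (Dpoly ξ₀ Tp)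
      = algebraMap k K c * aeval (ξ Pg) (Npoly ξ₀ κ Tp)) :
    c * (p : k) ^ 2 = 1 := by
  have hp0 : p ≠ 0 := S.hp.ne_zero
  set X := ξ Pg with hXdef
  set Y := ξ (p • Pg) with hYdef
  have hwX : w X = ex 2 := h.w_gen
  have hwY : w Y = ex 2 := TorsCount.w_xi_nsmul_gen h hp0
  have hX0 : X ≠ 0 := by
    intro h0
    rw [h0, map_zero] at hwX
    exact TorsCount.ex_ne_zero 2 hwX.symm
  have hY0 : Y ≠ 0 := TorsCount.xi_nsmul_gen_ne_zero h hp0
  have hwXi : w X⁻¹ = ex (-2) := by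
    rw [map_inv₀, hwX]
    rfl
  have hz : w (Y⁻¹ - (p : K) ^ 2 * X⁻¹) ≤ w X⁻¹ ^ 2 :=
    E1.val_zeta_nsmul w h.kummer (TorsCount.w_two h) (TorsCount.w_le_one h β)
      (TorsCount.w_le_one h κ) (by rw [hwX]; exact TorsCount.one_lt_ex.mpr (by norm_num)) p
  -- `X / Y` is congruent to `p ^ 2`
  have hr : w (X * Y⁻¹ - (p : K) ^ 2) < 1 := by
    have e : X * Y⁻¹ - (p : K) ^ 2 = X * (Y⁻¹ - (p : K) ^ 2 * X⁻¹) := by
      field_simp
    rw [e, map_mul, hwX]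
    calc ex 2 * w (Y⁻¹ - (p : K) ^ 2 * X⁻¹) ≤ ex 2 * w X⁻¹ ^ 2 := mul_le_mul_right hz _
      _ = ex (-2) := by
          rw [hwXi, TorsCount.ex_pow, ← TorsCount.ex_add]
          norm_num
      _ < 1 := TorsCount.ex_lt_one.mpr (by norm_num)
  -- the two products are principal units
  have hsmall : ∀ t : k, w (1 - algebraMap k K t * X⁻¹ - 1) < 1 := by
    intro t
    have e : 1 - algebraMap k K t * X⁻¹ - 1 = -(algebraMap k K t * X⁻¹) := by ring
    rw [e, Valuation.map_neg, map_mul, hwXi]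
    calc w (algebraMap k K t) * ex (-2) ≤ 1 * ex (-2) :=
          mul_le_mul_left (TorsCount.w_le_one h t) _
      _ < 1 := by
          rw [one_mul]
          exact TorsCount.ex_lt_one.mpr (by norm_num)
  set u := ∏ T ∈ Tp, (1 - algebraMap k K (ξ₀ T) * X⁻¹) with hu
  set u' := ∏ T ∈ Tp, (1 - algebraMap k K (κ / ξ₀ T) * X⁻¹) with hu'
  have hwu : w (u - 1) < 1 := unit_prod w Tp _ (fun T _ => hsmall _)
  have hwu' : w (u' - 1) < 1 := unit_prod w Tp _ (fun T _ => hsmall _)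
  have hD : aeval X (Dpoly ξ₀ Tp) = X ^ Tp.card * u := by
    rw [aeval_Dpoly, hu, ← Finset.prod_const, ← Finset.prod_mul_distrib]
    refine Finset.prod_congr rfl fun T _ => ?_
    field_simp
  have hN : aeval X (Npoly ξ₀ κ Tp) = X * (X ^ Tp.card * u') := by
    rw [aeval_Npoly, hu', ← Finset.prod_const, ← Finset.prod_mul_distrib]
    congr 1
    refine Finset.prod_congr rfl fun T _ => ?_
    field_simp
  rw [hD, hN] at hc
  have h1 : Y * u = algebraMap k K c * X * u' :=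
    mul_left_cancel₀ (pow_ne_zero Tp.card hX0) (by linear_combination hc)
  have h2 : u = algebraMap k K c * (X * Y⁻¹) * u' := by
    have e : Y⁻¹ * (Y * u) = u := inv_mul_cancel_left₀ hY0 u
    rw [← e, h1]
    ring
  have h3 : algebraMap k K c * (p : K) ^ 2 - 1
      = algebraMap k K c * ((p : K) ^ 2 - X * Y⁻¹)
        + algebraMap k K c * (X * Y⁻¹) * (1 - u') + (u - 1) := by
    linear_combination (-1 : K) * h2
  have hwc : w (algebraMap k K c) ≤ 1 := TorsCount.w_le_one h c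
  have hwr : w (X * Y⁻¹) ≤ 1 := by
    have e : X * Y⁻¹ = (X * Y⁻¹ - (p : K) ^ 2) + (p : K) ^ 2 := by ring
    rw [e]
    refine Valuation.map_add_le w hr.le ?_
    rw [map_pow, TorsCount.w_natCast h hp0, one_pow]
  have h4 : w (algebraMap k K c * (p : K) ^ 2 - 1) < 1 := by
    rw [h3]
    refine Valuation.map_add_lt w (Valuation.map_add_lt w ?_ ?_) hwu
    · rw [map_mul, Valuation.map_sub_swap]
      exact mul_lt_one_of_nonneg_of_lt_one_right hwc zero_le hr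
    · rw [map_mul, map_mul, Valuation.map_sub_swap]
      exact mul_lt_one_of_nonneg_of_lt_one_right (mul_le_one' hwc hwr) zero_le hwu'
  by_contra hne
  have h5 : algebraMap k K c * (p : K) ^ 2 - 1 = algebraMap k K (c * (p : k) ^ 2 - 1) := by
    rw [map_sub, map_mul, map_pow, map_natCast, map_one]
  rw [h5, h.w_const _ (sub_ne_zero.mpr hne)] at h4
  exact lt_irrefl _ h4

/-- (B4) the product formula for the finite set `Tp` of nonzero `p`-torsion points -/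
theorem prod_formula_aux [IsAlgClosed k] [CharZero k] (S : Setup ξ₀ p T0 Tp)
    (h : GenK ξ₀ ξ β κ ι Pg w) (hκ : κ ≠ 0) (hcont : ContHyp ξ w)
    (hT : Table ξ₀ fun Q c => w (ξ (Pg + ι Q) - algebraMap k K c)) :
    (∏ T ∈ Tp, ξ₀ T) ^ 2 * (p : k) ^ 4 = κ ^ Tp.card := by
  obtain ⟨c, hc0, hc⟩ := exists_const S h hκ hcont hT
  have hp0 : p ≠ 0 := S.hp.ne_zero
  -- the translate `Q = 0`
  have E0 := hc 0
  rw [map_zero, add_zero] at E0
  have hcp : c * (p : k) ^ 2 = 1 := const_eq S h E0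
  -- the translate `Q = T0`
  have E1 := hc T0
  have hwX : w (ξ Pg) = ex 2 := h.w_gen
  have hX0 : ξ Pg ≠ 0 := by
    intro h0
    rw [h0, map_zero] at hwX
    exact TorsCount.ex_ne_zero 2 hwX.symm
  have hY0 : ξ (p • Pg) ≠ 0 := TorsCount.xi_nsmul_gen_ne_zero h hp0
  have hιT0 : ι T0 ≠ 0 := fun h0 => S.T0_ne (h.ι_inj (by rw [h0, map_zero]))
  have hx0 : ξ (ι T0) = 0 := by rw [h.ξ_ι, S.xi_T0, map_zero]
  have h2 : (2 : ℕ) • ι T0 = 0 := by rw [← map_nsmul, S.two_T0, map_zero]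
  have hXX' : ξ (Pg + ι T0) * ξ Pg = algebraMap k K κ :=
    xi_add_mul h.kummer (two_ne_zero_K h) hιT0 hx0 h2 hX0
  have hYY' : ξ (p • (Pg + ι T0)) * ξ (p • Pg) = algebraMap k K κ := by
    rw [TorsCount.nsmul_trans_eq, S.p_T0]
    exact xi_add_mul h.kummer (two_ne_zero_K h) hιT0 hx0 h2 hY0
  rw [aeval_Dpoly, aeval_Npoly] at E0 E1
  generalize ξ (p • (Pg + ι T0)) = Y' at E1 hYY'
  generalize ξ (p • Pg) = Y at E0 hYY' hY0
  generalize ξ (Pg + ι T0) = X' at E1 hXX'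
  generalize hXdef : ξ Pg = X at E0 E1 hXX' hX0 hwX
  have hak : algebraMap k K κ ≠ 0 := (_root_.map_ne_zero _).2 hκ
  -- the two product identities
  have ha : X ^ Tp.card * ∏ T ∈ Tp, (X' - algebraMap k K (ξ₀ T))
      = (-1) ^ Tp.card * (∏ T ∈ Tp, algebraMap k K (ξ₀ T))
        * ∏ T ∈ Tp, (X - algebraMap k K (κ / ξ₀ T)) := by
    calc X ^ Tp.card * ∏ T ∈ Tp, (X' - algebraMap k K (ξ₀ T))
        = ∏ T ∈ Tp, (X * (X' - algebraMap k K (ξ₀ T))) := by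
          rw [Finset.prod_mul_distrib, Finset.prod_const]
      _ = ∏ T ∈ Tp, ((-1) * algebraMap k K (ξ₀ T) * (X - algebraMap k K (κ / ξ₀ T))) := by
          refine Finset.prod_congr rfl fun T hT' => ?_
          have ht : algebraMap k K (ξ₀ T) ≠ 0 := (_root_.map_ne_zero _).2 (S.xi_ne_zero h.kummer₀ hT')
          have ht' : algebraMap k K (ξ₀ T) * (algebraMap k K κ / algebraMap k K (ξ₀ T))
              = algebraMap k K κ := mul_div_cancel₀ _ ht
          rw [map_div₀]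
          linear_combination hXX' - ht'
      _ = (-1) ^ Tp.card * (∏ T ∈ Tp, algebraMap k K (ξ₀ T))
            * ∏ T ∈ Tp, (X - algebraMap k K (κ / ξ₀ T)) := by
          rw [Finset.prod_mul_distrib, Finset.prod_mul_distrib, Finset.prod_const]
  have hb : X ^ Tp.card * (∏ T ∈ Tp, algebraMap k K (ξ₀ T))
        * ∏ T ∈ Tp, (X' - algebraMap k K (κ / ξ₀ T))
      = (-1) ^ Tp.card * algebraMap k K κ ^ Tp.card
        * ∏ T ∈ Tp, (X - algebraMap k K (ξ₀ T)) := by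
    calc X ^ Tp.card * (∏ T ∈ Tp, algebraMap k K (ξ₀ T))
          * ∏ T ∈ Tp, (X' - algebraMap k K (κ / ξ₀ T))
        = ∏ T ∈ Tp, (X * algebraMap k K (ξ₀ T) * (X' - algebraMap k K (κ / ξ₀ T))) := by
          rw [Finset.prod_mul_distrib, Finset.prod_mul_distrib, Finset.prod_const]
      _ = ∏ T ∈ Tp, ((-1) * algebraMap k K κ * (X - algebraMap k K (ξ₀ T))) := by
          refine Finset.prod_congr rfl fun T hT' => ?_
          have ht : algebraMap k K (ξ₀ T) ≠ 0 := (_root_.map_ne_zero _).2 (S.xi_ne_zero h.kummer₀ hT')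
          have ht' : algebraMap k K (ξ₀ T) * (algebraMap k K κ / algebraMap k K (ξ₀ T))
              = algebraMap k K κ := mul_div_cancel₀ _ ht
          rw [map_div₀]
          linear_combination algebraMap k K (ξ₀ T) * hXX' - X * ht'
      _ = (-1) ^ Tp.card * algebraMap k K κ ^ Tp.card
            * ∏ T ∈ Tp, (X - algebraMap k K (ξ₀ T)) := by
          rw [Finset.prod_mul_distrib, Finset.prod_mul_distrib, Finset.prod_const,
            Finset.prod_const]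
  have hPN : ∏ T ∈ Tp, (X - algebraMap k K (κ / ξ₀ T)) ≠ 0 := by
    refine Finset.prod_ne_zero_iff.2 fun T _ => ?_
    intro h0
    have := table_zero hT (κ / ξ₀ T)
    rw [hXdef, h0, map_zero] at this
    exact TorsCount.ex_ne_zero 2 this.symm
  generalize (∏ T ∈ Tp, (X - algebraMap k K (κ / ξ₀ T))) = PN at E0 ha hPN
  generalize (∏ T ∈ Tp, (X' - algebraMap k K (κ / ξ₀ T))) = PN' at E1 hb
  generalize (∏ T ∈ Tp, (X - algebraMap k K (ξ₀ T))) = D at E0 hb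
  generalize (∏ T ∈ Tp, (X' - algebraMap k K (ξ₀ T))) = D' at E1 ha
  have hπ : (∏ T ∈ Tp, algebraMap k K (ξ₀ T)) ^ 2
      = algebraMap k K c ^ 2 * algebraMap k K κ ^ Tp.card := by
    have hne : algebraMap k K κ * (-1) ^ Tp.card * X ^ Tp.card * PN ≠ 0 :=
      mul_ne_zero (mul_ne_zero (mul_ne_zero hak (pow_ne_zero _ (neg_ne_zero.2 one_ne_zero)))
        (pow_ne_zero _ hX0)) hPN
    refine mul_left_cancel₀ hne ?_
    generalize (∏ T ∈ Tp, algebraMap k K (ξ₀ T)) = π at ha hb ⊢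
    linear_combination (X ^ Tp.card * X ^ Tp.card * π * Y) * E1
      - (X ^ Tp.card * D' * X ^ Tp.card * π) * hYY' - (algebraMap k K κ * X ^ Tp.card * π) * ha
      + (algebraMap k K c * X' * X ^ Tp.card * Y) * hb
      + (algebraMap k K c * X' * (-1) ^ Tp.card * algebraMap k K κ ^ Tp.card * X ^ Tp.card) * E0
      + (algebraMap k K c ^ 2 * (-1) ^ Tp.card * algebraMap k K κ ^ Tp.card * X ^ Tp.card * PN)
        * hXX'
  have e : (∏ T ∈ Tp, ξ₀ T) ^ 2 = c ^ 2 * κ ^ Tp.card := by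
    apply (algebraMap k K).injective
    rw [map_pow, map_prod, map_mul, map_pow, map_pow]
    exact hπ
  rw [e]
  linear_combination (κ ^ Tp.card * (c * (p : k) ^ 2 + 1)) * hcp

/-- **(B)** the product formula for the `p`-torsion points of a generic Kummer datum -/
theorem prod_formula [IsAlgClosed k] [CharZero k] (h : GenK ξ₀ ξ β κ ι Pg w) (hκ : κ ≠ 0)
    (hcont : ContHyp ξ w) (hT : Table ξ₀ fun Q c => w (ξ (Pg + ι Q) - algebraMap k K c))
    {p : ℕ} (hp : p.Prime) (hp2 : p ≠ 2) (hcard : Nat.card {Q : G₀ // p • Q = 0} = p ^ 2) :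
    (∏ᶠ T : {Q : G₀ // p • Q = 0 ∧ Q ≠ 0}, ξ₀ T.1) ^ 2 * (p : k) ^ 4 = κ ^ (p ^ 2 - 1) := by
  classical
  obtain ⟨T0, hT0, hx0⟩ := h.surj 0
  have h2T0 : (2 : ℕ) • T0 = 0 :=
    (h.kummer₀.two_nsmul_eq_zero_iff T0 hT0).mpr (by rw [hx0, zero_mul])
  have hfinT : Finite {Q : G₀ // p • Q = 0} :=
    Nat.finite_of_card_ne_zero (by rw [hcard]; exact pow_ne_zero 2 hp.ne_zero)
  have hfin : {Q : G₀ | p • Q = 0}.Finite := Set.finite_coe_iff.mp hfinT
  have hmem : ∀ T, T ∈ hfin.toFinset.erase 0 ↔ p • T = 0 ∧ T ≠ 0 := by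
    intro T
    rw [Finset.mem_erase, Set.Finite.mem_toFinset]
    exact ⟨fun ⟨a, b⟩ => ⟨b, a⟩, fun ⟨a, b⟩ => ⟨b, a⟩⟩
  have S : Setup ξ₀ p T0 (hfin.toFinset.erase 0) := ⟨hp, hp2, hT0, hx0, h2T0, hmem⟩
  have hcardT : (hfin.toFinset.erase 0).card = p ^ 2 - 1 := by
    have h0 : (0 : G₀) ∈ hfin.toFinset := by
      rw [Set.Finite.mem_toFinset]
      exact nsmul_zero p
    have h1 : {Q : G₀ | p • Q = 0}.ncard = p ^ 2 := by
      rw [← hcard]
      exact (Nat.card_coe_set_eq _).symm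
    rw [Finset.card_erase_of_mem h0, ← Set.ncard_eq_toFinset_card _ hfin, h1]
  have hset : {Q : G₀ | p • Q = 0 ∧ Q ≠ 0} = ((hfin.toFinset.erase 0 : Finset G₀) : Set G₀) := by
    ext T
    rw [Finset.mem_coe, hmem]
    rfl
  have hprod : ∏ᶠ T : {Q : G₀ // p • Q = 0 ∧ Q ≠ 0}, ξ₀ T.1
      = ∏ T ∈ hfin.toFinset.erase 0, ξ₀ T := by
    calc ∏ᶠ T : {Q : G₀ // p • Q = 0 ∧ Q ≠ 0}, ξ₀ T.1
        = ∏ᶠ T ∈ {Q : G₀ | p • Q = 0 ∧ Q ≠ 0}, ξ₀ T :=
          finprod_set_coe_eq_finprod_mem {Q : G₀ | p • Q = 0 ∧ Q ≠ 0}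
      _ = ∏ᶠ T ∈ ((hfin.toFinset.erase 0 : Finset G₀) : Set G₀), ξ₀ T := by rw [hset]
      _ = ∏ T ∈ hfin.toFinset.erase 0, ξ₀ T := finprod_mem_coe_finset _ _
  rw [hprod, ← hcardT]
  exact prod_formula_aux S h hκ hcont hT

end Gen

end Fermat.Agent.S13Lib.GenProd
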