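import Mathlib
import Fermat.Agent.S05Lib.Defs
import Fermat.Agent.S05Lib.E1

/-!
# S13: the "kernel of reduction" `E₁` of an abstract Kummer line, without any assumption on `v 2`

Port of `Fermat.Agent.S05Lib.E1` to residue characteristic `2`: for a function `ξ : G → F`
satisfying the Kummer identities (`IsKummer ξ β κ`) and a valuation `v` on `F` with `v β ≤ 1`,
`v κ ≤ 1` (and NO hypothesis on `v 2`):

* `ker` : the set `{P | P = 0 ∨ 1 < v (ξ P)}` is a subgroup of `G`;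
* `zeta_sum` : the sum formula for `ζ = ξ⁻¹` on `ker` (convention `ζ 0 = 0`);
* `val_zeta_nsmul` : `v (ζ (k P) - k² ζ P) ≤ v (ζ P) ^ 2` on `ker`;
* `eq_zero_of_mem_ker` : if `v p = 1` then `ker` has no nonzero point killed by `p`.

The statement `2 P ≠ 0` of `S05Lib.E1.two_nsmul_of_one_lt` is false in residue characteristic `2`
(`ker` contains a point of order `2`); it is replaced by `le_val_two_nsmul`.
-/

set_option autoImplicit false

namespace Fermat.Agent.S13Lib.E1Two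

open Fermat.Agent.S05Lib

variable {G F Γ₀ : Type*} [AddCommGroup G] [Field F] [LinearOrderedCommGroupWithZero Γ₀]
  (v : Valuation F Γ₀) {ξ : G → F} {β κ : F}

theorem val_four_le_one : v (4 : F) ≤ 1 := by
  have := E1.val_natCast_le_one v 4
  simpa using this

/-- Valuations of the two polynomial expressions of the duplication formula on `E₁`. -/
theorem val_dbl_aux (hβ : v β ≤ 1) (hκ : v κ ≤ 1) {x : F} (hx : 1 < v x) :
    v (4 * x ^ 2 + β * x + 4 * κ) ≤ v x ^ 2 ∧ v (x ^ 2 - κ) = v x ^ 2 := by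
  have h4 : v (4 : F) ≤ 1 := val_four_le_one v
  have hx0 : 0 < v x := zero_lt_one.trans hx
  have hxx : v x < v x * v x := by
    calc v x = 1 * v x := (one_mul _).symm
      _ < v x * v x := mul_lt_mul_of_pos_right hx hx0
  have hx2 : 1 < v x ^ 2 := by rw [sq]; exact hx.trans hxx
  have h1 : v (4 * x ^ 2) ≤ v x ^ 2 := by
    rw [map_mul, map_pow]
    calc v 4 * v x ^ 2 ≤ 1 * v x ^ 2 := by gcongr
      _ = v x ^ 2 := one_mul _
  have h2' : v (β * x) ≤ v x ^ 2 := by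
    rw [map_mul, sq]
    calc v β * v x ≤ 1 * v x := by gcongr
      _ = v x := one_mul _
      _ ≤ v x * v x := hxx.le
  have h3 : v (4 * κ) ≤ v x ^ 2 := by
    rw [map_mul]
    calc v 4 * v κ ≤ 1 * 1 := by gcongr
      _ = 1 := one_mul _
      _ ≤ v x ^ 2 := hx2.le
  refine ⟨?_, ?_⟩
  · exact Valuation.map_add_le v (Valuation.map_add_le v h1 h2') h3
  · rw [← map_pow]
    exact Valuation.map_sub_eq_of_lt_left v (by rw [map_pow]; exact lt_of_le_of_lt hκ hx2)

/-- Duplication on `E₁`: if `2P ≠ 0` then `v (ξ P) ≤ v (ξ (2P))`. -/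
theorem le_val_two_nsmul (hK : IsKummer ξ β κ) (hβ : v β ≤ 1) (hκ : v κ ≤ 1) {P : G}
    (hP : 1 < v (ξ P)) (h2P : (2 : ℕ) • P ≠ 0) : v (ξ P) ≤ v (ξ ((2 : ℕ) • P)) := by
  have hP0 := E1.ne_zero_of_one_lt v hK hP
  obtain ⟨hquad, hnum⟩ := val_dbl_aux (β := β) (κ := κ) v hβ hκ hP
  have hxpos : 0 < v (ξ P) := zero_lt_one.trans hP
  have hd := congrArg v (hK.dbl P hP0 h2P)
  rw [map_mul, map_mul, map_pow, hnum] at hd
  have h3 : v (ξ P) * (v (ξ P) * v (ξ P) ^ 2) ≤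
      v (ξ ((2 : ℕ) • P)) * (v (ξ P) * v (ξ P) ^ 2) := by
    calc v (ξ P) * (v (ξ P) * v (ξ P) ^ 2) = (v (ξ P) ^ 2) ^ 2 := by
          rw [sq (v (ξ P) ^ 2), sq, mul_assoc]
      _ = v (ξ ((2 : ℕ) • P)) * (v (ξ P) * v (4 * ξ P ^ 2 + β * ξ P + 4 * κ)) := hd.symm
      _ ≤ v (ξ ((2 : ℕ) • P)) * (v (ξ P) * v (ξ P) ^ 2) :=
          mul_le_mul_right (mul_le_mul_right hquad _) _
  exact le_of_mul_le_mul_right h3 (mul_pos hxpos (pow_pos hxpos 2))

/-- **(E1)** The points with `1 < v (ξ P)`, together with `0`, form a subgroup. -/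
def ker (hK : IsKummer ξ β κ) (hβ : v β ≤ 1) (hκ : v κ ≤ 1) : AddSubgroup G where
  carrier := {P | P = 0 ∨ 1 < v (ξ P)}
  zero_mem' := Or.inl rfl
  add_mem' := by
    rintro P Q (rfl | hP) (rfl | hQ)
    · left; simp
    · right; simpa using hQ
    · right; simpa using hP
    · by_cases hne : ξ P = ξ Q
      · rcases hK.eq_or_eq_neg P Q (E1.ne_zero_of_one_lt v hK hP) (E1.ne_zero_of_one_lt v hK hQ)
          hne with rfl | rfl
        · by_cases h2P : (2 : ℕ) • P = 0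
          · left
            show P + P = 0
            rw [← two_nsmul]; exact h2P
          · right
            show 1 < v (ξ (P + P))
            rw [← two_nsmul]
            exact lt_of_lt_of_le hP (le_val_two_nsmul v hK hβ hκ hP h2P)
        · left; simp
      · right; exact E1.one_lt_add_of_ne v hK hβ hκ hP hQ hne
  neg_mem' := by
    rintro P (rfl | hP)
    · left; simp
    · right
      show 1 < v (ξ (-P))
      rw [hK.neg]; exact hP

theorem mem_ker (hK : IsKummer ξ β κ) (hβ : v β ≤ 1) (hκ : v κ ≤ 1) {P : G} :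
    P ∈ ker v hK hβ hκ ↔ P = 0 ∨ 1 < v (ξ P) := Iff.rfl

/-! ### The `ζ = ξ⁻¹` sum formula on `E₁` -/

/-- Duplication formula for `ζ = ξ⁻¹` on `E₁` (valid also when `2P = 0`, with `ζ 0 = 0`). -/
theorem zeta_dbl (hK : IsKummer ξ β κ) (hβ : v β ≤ 1) (hκ : v κ ≤ 1) {P : G}
    (hP : 1 < v (ξ P)) :
    (ξ ((2 : ℕ) • P))⁻¹
      = (2 * ((ξ P)⁻¹ + (ξ P)⁻¹) * (1 + κ * (ξ P)⁻¹ * (ξ P)⁻¹) + β * (ξ P)⁻¹ * (ξ P)⁻¹)
        / (1 - κ * (ξ P)⁻¹ * (ξ P)⁻¹) ^ 2 := by
  have hP0 := E1.ne_zero_of_one_lt v hK hP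
  obtain ⟨-, hnum⟩ := val_dbl_aux (β := β) (κ := κ) v hβ hκ hP
  have hx : ξ P ≠ 0 := E1.ne_zero_of_one_lt_val v hP
  have hN : ξ P ^ 2 - κ ≠ 0 := by
    intro h
    rw [h, map_zero] at hnum
    exact (pow_ne_zero 2 (zero_lt_one.trans hP).ne') hnum.symm
  by_cases h2P : (2 : ℕ) • P = 0
  · have hc := (hK.two_nsmul_eq_zero_iff P hP0).1 h2P
    have hc' : 4 * ξ P ^ 2 + β * ξ P + 4 * κ = 0 := (mul_eq_zero.1 hc).resolve_left hx
    rw [h2P, hK.zero, inv_zero]
    generalize ξ P = x at *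
    have e2 : 2 * (x⁻¹ + x⁻¹) * (1 + κ * x⁻¹ * x⁻¹) + β * x⁻¹ * x⁻¹
        = (x * (4 * x ^ 2 + β * x + 4 * κ)) / x ^ 4 := by
      field_simp; ring
    rw [e2, hc', mul_zero, zero_div, zero_div]
  · have hd := hK.dbl P hP0 h2P
    have hd0 : ξ ((2 : ℕ) • P) ≠ 0 := by
      intro h0
      rw [h0, zero_mul] at hd
      exact hN ((pow_eq_zero_iff (two_ne_zero)).mp hd.symm)
    generalize ξ ((2 : ℕ) • P) = d at *
    generalize ξ P = x at *
    have e1 : 1 - κ * x⁻¹ * x⁻¹ = (x ^ 2 - κ) / x ^ 2 := by field_simp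
    have e2 : 2 * (x⁻¹ + x⁻¹) * (1 + κ * x⁻¹ * x⁻¹) + β * x⁻¹ * x⁻¹
        = (x * (4 * x ^ 2 + β * x + 4 * κ)) / x ^ 4 := by
      field_simp; ring
    rw [e1, e2]
    field_simp
    linear_combination (-1 : F) * hd

/-- **The `ζ`-sum formula** on `E₁`, valid for all pairs of points of `E₁` (including the
degenerate cases `P = 0`, `Q = 0`, `P = ± Q`), with the convention `ζ 0 = 0`. -/
theorem zeta_sum (hK : IsKummer ξ β κ) (hβ : v β ≤ 1) (hκ : v κ ≤ 1) {P Q : G}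
    (hP : P ∈ ker v hK hβ hκ) (hQ : Q ∈ ker v hK hβ hκ) :
    (ξ (P + Q))⁻¹ + (ξ (P - Q))⁻¹
      = (2 * ((ξ P)⁻¹ + (ξ Q)⁻¹) * (1 + κ * (ξ P)⁻¹ * (ξ Q)⁻¹) + β * (ξ P)⁻¹ * (ξ Q)⁻¹)
        / (1 - κ * (ξ P)⁻¹ * (ξ Q)⁻¹) ^ 2 := by
  rcases hP with rfl | hP
  · simp only [zero_add, zero_sub, hK.neg, hK.zero, inv_zero, mul_zero, zero_mul, add_zero,
      sub_zero, one_pow, div_one, mul_one]
    ring
  rcases hQ with rfl | hQ
  · simp only [add_zero, sub_zero, hK.zero, inv_zero, mul_zero, add_zero,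
      sub_zero, one_pow, div_one, mul_one]
    ring
  by_cases hne : ξ P = ξ Q
  · rcases hK.eq_or_eq_neg P Q (E1.ne_zero_of_one_lt v hK hP) (E1.ne_zero_of_one_lt v hK hQ) hne
      with rfl | rfl
    · rw [sub_self, hK.zero, inv_zero, add_zero, ← two_nsmul]
      exact zeta_dbl v hK hβ hκ hP
    · rw [neg_add_cancel, hK.zero, inv_zero, zero_add, ← neg_add', hK.neg, hK.neg, ← two_nsmul]
      exact zeta_dbl v hK hβ hκ hQ
  · have hP0 := E1.ne_zero_of_one_lt v hK hP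
    have hQ0 := E1.ne_zero_of_one_lt v hK hQ
    have hprod := hK.mul P Q hP0 hQ0 hne
    have hsum := hK.add P Q hP0 hQ0 hne
    have hx : ξ P ≠ 0 := E1.ne_zero_of_one_lt_val v hP
    have hy : ξ Q ≠ 0 := E1.ne_zero_of_one_lt_val v hQ
    have hN : ξ P * ξ Q - κ ≠ 0 := by
      intro h
      have hxy : 1 < v (ξ P * ξ Q) := by rw [map_mul]; exact one_lt_mul'' hP hQ
      have := Valuation.map_sub_eq_of_lt_left v (lt_of_le_of_lt hκ hxy)
      rw [h, map_zero] at this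
      rw [← this] at hxy
      exact not_lt_zero hxy
    have hpm : ξ (P + Q) * ξ (P - Q) ≠ 0 := by
      intro h
      rw [h, zero_mul] at hprod
      exact hN ((pow_eq_zero_iff (two_ne_zero)).mp hprod.symm)
    have hp : ξ (P + Q) ≠ 0 := left_ne_zero_of_mul hpm
    have hm : ξ (P - Q) ≠ 0 := right_ne_zero_of_mul hpm
    generalize ξ (P + Q) = p at *
    generalize ξ (P - Q) = m at *
    generalize ξ P = x at *
    generalize ξ Q = y at *
    have e1 : 1 - κ * x⁻¹ * y⁻¹ = (x * y - κ) / (x * y) := by field_simp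
    have e2 : 2 * (x⁻¹ + y⁻¹) * (1 + κ * x⁻¹ * y⁻¹) + β * x⁻¹ * y⁻¹
        = (2 * (x + y) * (x * y + κ) + β * x * y) / (x * y) ^ 2 := by
      field_simp; ring
    rw [e1, e2]
    field_simp
    linear_combination (-(p + m)) * hprod + p * m * hsum

/-! ### Torsion-freeness of `E₁` away from the residue characteristic -/

/-- On `E₁`, `ζ (k P) ≡ k² ζ P` modulo terms of valuation `≤ v (ζ P) ^ 2`. -/
theorem val_zeta_nsmul (hK : IsKummer ξ β κ) (hβ : v β ≤ 1) (hκ : v κ ≤ 1) {P : G}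
    (hP : 1 < v (ξ P)) (k : ℕ) :
    v ((ξ (k • P))⁻¹ - (k : F) ^ 2 * (ξ P)⁻¹) ≤ v ((ξ P)⁻¹) ^ 2 := by
  have h2 : v (2 : F) ≤ 1 := E1.val_two_le_one v
  have hPE : P ∈ ker v hK hβ hκ := Or.inr hP
  set z : F := (ξ P)⁻¹ with hz
  have hvz : v z < 1 := by
    rw [hz, map_inv₀]; exact inv_lt_one_of_one_lt₀ hP
  have hvz2 : v z ^ 2 ≤ v z := by
    rw [sq]; exact mul_le_of_le_one_left' hvz.le
  suffices H : ∀ k : ℕ, v ((ξ (k • P))⁻¹ - (k : F) ^ 2 * z) ≤ v z ^ 2 ∧
      v ((ξ ((k + 1) • P))⁻¹ - ((k + 1 : ℕ) : F) ^ 2 * z) ≤ v z ^ 2 from (H k).1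
  intro k
  induction k with
  | zero =>
    refine ⟨?_, ?_⟩
    · simp [hK.zero]
    · simp [hz]
  | succ k ih =>
    refine ⟨ih.2, ?_⟩
    obtain ⟨ih0, ih1⟩ := ih
    have hkP : (k + 1) • P ∈ ker v hK hβ hκ := AddSubgroup.nsmul_mem _ hPE _
    have hsum := zeta_sum v hK hβ hκ hkP hPE
    have e1 : (k + 1) • P + P = (k + 1 + 1) • P := (succ_nsmul P (k + 1)).symm
    have e2 : (k + 1) • P - P = k • P := by rw [succ_nsmul, add_sub_cancel_right]
    rw [e1, e2, ← hz] at hsum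
    set w : F := (ξ ((k + 1) • P))⁻¹ with hw
    set u : F := (ξ (k • P))⁻¹ with hu
    set t : F := (ξ ((k + 1 + 1) • P))⁻¹ with ht
    -- valuations
    have hvw : v w ≤ v z := by
      have : w = (w - ((k + 1 : ℕ) : F) ^ 2 * z) + ((k + 1 : ℕ) : F) ^ 2 * z := by ring
      rw [this]
      apply Valuation.map_add_le v (ih1.trans hvz2)
      rw [map_mul, map_pow]
      calc v ((k + 1 : ℕ) : F) ^ 2 * v z ≤ 1 ^ 2 * v z := by
            gcongr; exact E1.val_natCast_le_one v _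
        _ = v z := by rw [one_pow, one_mul]
    set c : F := κ * w * z with hc
    have hvc : v c ≤ v z ^ 2 := by
      rw [hc, map_mul, map_mul, sq]
      calc v κ * v w * v z ≤ 1 * v z * v z := by gcongr
        _ = v z * v z := by rw [one_mul]
    have hvc1 : v c < 1 := lt_of_le_of_lt (hvc.trans hvz2) hvz
    have h1c : v (1 - c) = 1 := Valuation.map_one_sub_of_lt v hvc1
    have h1c0 : 1 - c ≠ 0 := by
      intro h; rw [h, map_zero] at h1c; exact zero_ne_one h1c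
    -- the main estimate
    have hmain : t + u - 2 * w - 2 * z
        = (c * (2 * (w + z) * (3 - c)) + β * w * z) / (1 - c) ^ 2 := by
      rw [hsum]
      field_simp
      ring
    have hvmain : v (t + u - 2 * w - 2 * z) ≤ v z ^ 2 := by
      rw [hmain, map_div₀, map_pow, h1c, one_pow, div_one]
      apply Valuation.map_add_le v
      · rw [map_mul]
        have h3 : v (2 * (w + z) * (3 - c)) ≤ 1 := by
          rw [map_mul, map_mul]
          have ha : v (w + z) ≤ 1 := Valuation.map_add_le v (hvw.trans hvz.le) hvz.le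
          have hb : v (3 - c) ≤ 1 := Valuation.map_sub_le v (E1.val_three_le_one v) hvc1.le
          calc v 2 * v (w + z) * v (3 - c) ≤ 1 * 1 * 1 := by gcongr
            _ = 1 := by rw [one_mul, one_mul]
        calc v c * v (2 * (w + z) * (3 - c)) ≤ v z ^ 2 * 1 := by gcongr
          _ = v z ^ 2 := mul_one _
      · rw [map_mul, map_mul, sq]
        calc v β * v w * v z ≤ 1 * v z * v z := by gcongr
          _ = v z * v z := by rw [one_mul]
    have hfin : t - ((k + 1 + 1 : ℕ) : F) ^ 2 * z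
        = (t + u - 2 * w - 2 * z) + 2 * (w - ((k + 1 : ℕ) : F) ^ 2 * z)
          - (u - (k : F) ^ 2 * z) := by
      push_cast; ring
    rw [hfin]
    apply Valuation.map_sub_le v
    · apply Valuation.map_add_le v hvmain
      rw [map_mul]
      calc v 2 * v (w - ((k + 1 : ℕ) : F) ^ 2 * z) ≤ 1 * v z ^ 2 := by gcongr
        _ = v z ^ 2 := one_mul _
    · exact ih0

/-- **(E1tf)** If `v p = 1`, the subgroup `E₁` has no nonzero point killed by `p`. -/
theorem eq_zero_of_mem_ker (hK : IsKummer ξ β κ) (hβ : v β ≤ 1) (hκ : v κ ≤ 1)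
    {p : ℕ} (hp : v (p : F) = 1) {P : G} (hP : P ∈ ker v hK hβ hκ) (hpP : p • P = 0) :
    P = 0 := by
  rcases hP with rfl | hP
  · rfl
  · exfalso
    have h := val_zeta_nsmul v hK hβ hκ hP p
    rw [hpP, hK.zero, inv_zero, zero_sub, Valuation.map_neg, map_mul, map_pow, hp, one_pow,
      one_mul] at h
    have hz0 : v ((ξ P)⁻¹) ≠ 0 := by
      rw [Ne, map_eq_zero, inv_eq_zero]
      exact E1.ne_zero_of_one_lt_val v hP
    have hvz : v ((ξ P)⁻¹) < 1 := by
      rw [map_inv₀]; exact inv_lt_one_of_one_lt₀ hP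
    have : v ((ξ P)⁻¹) ^ 2 < v ((ξ P)⁻¹) := by
      calc v ((ξ P)⁻¹) ^ 2 = v ((ξ P)⁻¹) * v ((ξ P)⁻¹) := sq _
        _ < v ((ξ P)⁻¹) * 1 := mul_lt_mul_of_pos_left hvz (zero_lt_iff.mpr hz0)
        _ = v ((ξ P)⁻¹) := mul_one _
    exact absurd h (not_le.mpr this)

end Fermat.Agent.S13Lib.E1Two
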