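import Mathlib
import Fermat.Agent.S05

/-!
# S13: the Frey curve at the prime `2`

Arithmetic of a Frey package at `2` (`a ≡ 3 mod 4`, `2 ∣ b`, `p ≥ 5` odd) and its consequences
for the Kummer line of the Frey curve at the `2`-torsion abscissa `e = 0`
(`β = b^p - a^p`, `κ = -a^p b^p / 16`) over a valuation ring `A` above `2`:
`v 2 < 1`, `v β = 1`, `v κ < 1`, `κ ≠ 0`, `a₂ ∈ A`, `v p = 1`.
-/

set_option autoImplicit false
open WeierstrassCurve FreyPackage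

namespace Fermat.Agent.S13Lib.FreyTwo

open Fermat.Agent.S05 Fermat.Agent.S05Lib Fermat.Agent.S51Lib.Pts

section Ints

variable (P : FreyPackage)

/-- `b` is even -/
theorem two_dvd_b : (2 : ℤ) ∣ P.b := by
  have h := (ZMod.intCast_zmod_eq_zero_iff_dvd P.b 2).1 P.hb2
  exact_mod_cast h

/-- `a ≡ 3 mod 4` -/
theorem four_dvd_a_sub : (4 : ℤ) ∣ 3 - P.a := by
  have h := (ZMod.intCast_eq_intCast_iff_dvd_sub P.a 3 4).1 (by rw [P.ha4]; norm_num)
  exact_mod_cast h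

/-- `a` is odd -/
theorem not_two_dvd_a : ¬ (2 : ℤ) ∣ P.a := by
  obtain ⟨k, hk⟩ := four_dvd_a_sub P
  rintro ⟨j, hj⟩
  omega

/-- `a ^ p` is odd -/
theorem not_two_dvd_a_pow : ¬ (2 : ℤ) ∣ P.a ^ P.p := fun h =>
  not_two_dvd_a P (Int.prime_two.dvd_of_dvd_pow h)

/-- `32 ∣ b ^ p` -/
theorem dvd_b_pow : (32 : ℤ) ∣ P.b ^ P.p := by
  obtain ⟨j, hj⟩ := two_dvd_b P
  rw [hj, mul_pow]
  have h5 : (2 : ℤ) ^ 5 ∣ 2 ^ P.p := pow_dvd_pow 2 P.hp5
  have h32 : (32 : ℤ) = 2 ^ 5 := by norm_num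
  rw [h32]
  exact Dvd.dvd.mul_right h5 _

/-- `b ^ p - a ^ p` is odd -/
theorem not_two_dvd_beta : ¬ (2 : ℤ) ∣ P.b ^ P.p - P.a ^ P.p := by
  intro h
  have hb : (2 : ℤ) ∣ P.b ^ P.p := Dvd.dvd.trans (by norm_num) (dvd_b_pow P)
  have ha : (2 : ℤ) ∣ P.a ^ P.p := by
    have := dvd_sub hb h
    rwa [sub_sub_cancel] at this
  exact not_two_dvd_a_pow P ha

/-- `a ^ p ≡ 3 mod 4` -/
theorem a_pow_mod_four : ((P.a ^ P.p : ℤ) : ZMod 4) = 3 := by
  rw [Int.cast_pow, P.ha4]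
  have h3 : (3 : ZMod 4) = -1 := by decide
  rw [h3, P.hp_odd.neg_one_pow]

/-- `4 ∣ b ^ p - 1 - a ^ p` -/
theorem four_dvd_a₂_num : (4 : ℤ) ∣ P.b ^ P.p - 1 - P.a ^ P.p := by
  have hb : ((P.b ^ P.p : ℤ) : ZMod 4) = 0 := by
    rw [ZMod.intCast_zmod_eq_zero_iff_dvd]
    exact Dvd.dvd.trans (by norm_num) (dvd_b_pow P)
  have h : ((P.b ^ P.p - 1 - P.a ^ P.p : ℤ) : ZMod 4) = 0 := by
    rw [Int.cast_sub, Int.cast_sub, hb, a_pow_mod_four P]
    decide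
  have h' := (ZMod.intCast_zmod_eq_zero_iff_dvd _ 4).1 h
  exact_mod_cast h'

end Ints

section Val

variable {K : Type*} [Field K] [CharZero K] [Algebra ℚ K] (P : FreyPackage)
  (A : ValuationSubring K)

/-- `a₂` of the Frey curve is an integer -/
theorem exists_a₂_eq : ∃ n : ℤ, (P.freyCurve⁄K).a₂ = (n : K) := by
  obtain ⟨n, hn⟩ := four_dvd_a₂_num P
  refine ⟨n, ?_⟩
  rw [frey_a₂]
  have h : (P.b : K) ^ P.p - 1 - (P.a : K) ^ P.p = 4 * (n : K) := by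
    exact_mod_cast congrArg (Int.cast : ℤ → K) hn
  rw [h]
  field_simp

/-- `a₂` of the Frey curve lies in every valuation ring -/
theorem a₂_mem : (P.freyCurve⁄K).a₂ ∈ A := by
  obtain ⟨n, hn⟩ := exists_a₂_eq (K := K) P
  rw [hn]
  exact intCast_mem A n

/-- `κ = -a^p b^p / 16` is twice an integer -/
theorem exists_kappa_eq :
    ∃ t : ℤ, -((P.a : K) ^ P.p * (P.b : K) ^ P.p) / 16 = ((2 * t : ℤ) : K) := by
  obtain ⟨t, ht⟩ := dvd_b_pow P
  refine ⟨-(P.a ^ P.p * t), ?_⟩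
  have h : (P.b : K) ^ P.p = 32 * (t : K) := by
    exact_mod_cast congrArg (Int.cast : ℤ → K) ht
  rw [h]
  push_cast
  ring

variable {A}

theorem val_two_lt_one (hA : ((2 : ℕ) : K) ∈ A.nonunits) : A.valuation (2 : K) < 1 := by
  have h := A.mem_nonunits_iff.1 hA
  exact_mod_cast h

/-- `v κ < 1` at a valuation ring above `2` -/
theorem val_kappa_lt_one (hA : ((2 : ℕ) : K) ∈ A.nonunits) :
    A.valuation (-((P.a : K) ^ P.p * (P.b : K) ^ P.p) / 16) < 1 := by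
  obtain ⟨t, ht⟩ := exists_kappa_eq (K := K) P
  rw [ht]
  exact val_lt_one_of_dvd A hA (by exact_mod_cast Dvd.intro t rfl)

/-- `v β = 1` at a valuation ring above `2` -/
theorem val_beta_eq_one (hA : ((2 : ℕ) : K) ∈ A.nonunits) :
    A.valuation ((P.b : K) ^ P.p - (P.a : K) ^ P.p) = 1 := by
  have h := val_eq_one_of_not_dvd A Nat.prime_two hA (n := P.b ^ P.p - P.a ^ P.p)
    (by exact_mod_cast not_two_dvd_beta P)
  exact_mod_cast h

/-- `v p = 1` at a valuation ring above `2` -/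
theorem val_p_eq_one (hA : ((2 : ℕ) : K) ∈ A.nonunits) : A.valuation (P.p : K) = 1 := by
  have h := val_eq_one_of_not_dvd A Nat.prime_two hA (n := (P.p : ℤ)) (by
    intro hd
    have h3 : 2 ∣ P.p := by exact_mod_cast hd
    have h4 := (Nat.prime_dvd_prime_iff_eq Nat.prime_two P.pp).1 h3
    have h5 := P.hp5
    omega)
  exact_mod_cast h

omit [Algebra ℚ K] in
/-- `κ ≠ 0` -/
theorem kappa_ne_zero : -((P.a : K) ^ P.p * (P.b : K) ^ P.p) / 16 ≠ 0 := by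
  have ha : (P.a : K) ≠ 0 := Int.cast_ne_zero.2 P.ha0
  have hb : (P.b : K) ≠ 0 := Int.cast_ne_zero.2 P.hb0
  exact div_ne_zero (neg_ne_zero.2 (mul_ne_zero (pow_ne_zero _ ha) (pow_ne_zero _ hb)))
    (by norm_num)

/-- the Kummer line of the Frey curve at `e = 0` -/
theorem isKummer_zero [DecidableEq K] :
    IsKummer (Kummer.xi (P.freyCurve⁄K) 0) ((P.b : K) ^ P.p - (P.a : K) ^ P.p)
      (-((P.a : K) ^ P.p * (P.b : K) ^ P.p) / 16) :=
  Kummer.isKummer_xi (P.freyCurve⁄K) two_ne_zero 0 _ _ (frey_B6_zero P) (frey_B2_zero P)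
    (frey_B4_zero P)

end Val

end Fermat.Agent.S13Lib.FreyTwo
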