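import Mathlib
import Fermat.Prelude.Def_FLTPrelim_Ramification
import Fermat.Agent.S05Lib.Inertia

/-!
# S13: elements of the inertia group preserve the valuation

For a valuation subring `A` of an algebraic extension `K` of `ℚ` and `σ` in the inertia group
of `A`:

* `val_lt_one_of_mem_inertia` : `v z < 1 → v (σ z) < 1`;
* `val_lt_of_mem_inertia` : `v a < v b → v (σ a) < v (σ b)`;
* `exists_pow_apply_eq` : every `x : K` is fixed by some positive power of `σ`;
* `val_apply_eq` : `v (σ x) = v x` (equality in the value group).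
-/

set_option autoImplicit false

namespace Fermat.Agent.S13Lib.ValInertia

open Fermat.Agent.S05Lib

variable {K : Type*} [Field K] [Algebra ℚ K] (A : ValuationSubring K)

/-- the inertia group preserves the maximal ideal -/
theorem val_lt_one_of_mem_inertia {σ : K ≃ₐ[ℚ] K} (hσ : σ ∈ A.inertiaSubgroupIn ℚ) {z : K}
    (hz : A.valuation z < 1) : A.valuation (σ z) < 1 := by
  have hzA : z ∈ A := (A.valuation_le_one_iff _).1 hz.le
  have h1 := Inertia.sub_mem_nonunits_of_mem_inertia A hσ hzA
  have e : σ z = (σ z - z) + z := by ring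
  rw [e]
  exact Valuation.map_add_lt _ h1 hz

/-- the inertia group preserves the strict order of valuations -/
theorem val_lt_of_mem_inertia {σ : K ≃ₐ[ℚ] K} (hσ : σ ∈ A.inertiaSubgroupIn ℚ) {a b : K}
    (h : A.valuation a < A.valuation b) : A.valuation (σ a) < A.valuation (σ b) := by
  have hb0 : b ≠ 0 := by
    rintro rfl
    rw [map_zero] at h
    exact not_lt_zero h
  have hbpos : 0 < A.valuation b := (Valuation.pos_iff _).2 hb0
  have hz : A.valuation (a / b) < 1 := by
    rw [map_div₀]
    exact (div_lt_one₀ hbpos).2 h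
  have h1 := val_lt_one_of_mem_inertia A hσ hz
  rw [map_div₀, map_div₀] at h1
  have hσb0 : σ b ≠ 0 := fun h0 => hb0 ((map_eq_zero_iff σ σ.injective).1 h0)
  have hσbpos : 0 < A.valuation (σ b) := (Valuation.pos_iff _).2 hσb0
  exact (div_lt_one₀ hσbpos).1 h1

/-- every element of an algebraic extension is fixed by a positive power of a given
automorphism -/
theorem exists_pow_apply_eq [Algebra.IsAlgebraic ℚ K] (σ : K ≃ₐ[ℚ] K) (x : K) :
    ∃ k : ℕ, 0 < k ∧ (σ ^ k) x = x := by
  have hx : IsIntegral ℚ x := (Algebra.IsAlgebraic.isAlgebraic x).isIntegral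
  have hfin : ((minpoly ℚ x).rootSet K).Finite := Polynomial.rootSet_finite _ _
  have hmem : ∀ j : ℕ, (σ ^ j) x ∈ (minpoly ℚ x).rootSet K := by
    intro j
    rw [Polynomial.mem_rootSet_of_ne (minpoly.ne_zero hx)]
    have h1 := Polynomial.aeval_algHom_apply ((σ ^ j : K ≃ₐ[ℚ] K) : K →ₐ[ℚ] K) x (minpoly ℚ x)
    rw [minpoly.aeval, map_zero] at h1
    exact h1
  obtain ⟨i, j, hij, h⟩ := Set.Finite.exists_lt_map_eq_of_forall_mem hmem hfin
  refine ⟨j - i, by omega, ?_⟩
  have hj : σ ^ j = σ ^ i * σ ^ (j - i) := by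
    rw [← pow_add]; congr 1; omega
  rw [hj, AlgEquiv.mul_apply] at h
  exact ((σ ^ i).injective h).symm

/-- **the inertia group preserves the valuation** (equality in the value group) -/
theorem val_apply_eq [Algebra.IsAlgebraic ℚ K] {σ : K ≃ₐ[ℚ] K}
    (hσ : σ ∈ A.inertiaSubgroupIn ℚ) (x : K) : A.valuation (σ x) = A.valuation x := by
  obtain ⟨k, hk, hkx⟩ := exists_pow_apply_eq σ x
  obtain ⟨m, rfl⟩ : ∃ m, k = m + 1 := ⟨k - 1, by omega⟩
  have hpow : ∀ n : ℕ, σ ^ n ∈ A.inertiaSubgroupIn ℚ := fun n => Subgroup.pow_mem _ hσ n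
  have hstep : ∀ n : ℕ, (σ ^ (n + 1)) (σ x) = (σ ^ (n + 1 + 1)) x := by
    intro n
    rw [pow_succ σ (n + 1), AlgEquiv.mul_apply]
  have h1 : (σ ^ (0 + 1)) x = σ x := by
    rw [zero_add, pow_one]
  rcases lt_trichotomy (A.valuation (σ x)) (A.valuation x) with h | h | h
  · exfalso
    have H : ∀ n : ℕ, A.valuation ((σ ^ (n + 1)) x) < A.valuation x := by
      intro n
      induction n with
      | zero => rw [h1]; exact h
      | succ n ih =>
        rw [← hstep]
        exact lt_trans (val_lt_of_mem_inertia A (hpow (n + 1)) h) ih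
    have h2 := H m
    rw [hkx] at h2
    exact lt_irrefl _ h2
  · exact h
  · exfalso
    have H : ∀ n : ℕ, A.valuation x < A.valuation ((σ ^ (n + 1)) x) := by
      intro n
      induction n with
      | zero => rw [h1]; exact h
      | succ n ih =>
        rw [← hstep]
        exact lt_trans ih (val_lt_of_mem_inertia A (hpow (n + 1)) h)
    have h2 := H m
    rw [hkx] at h2
    exact lt_irrefl _ h2

end Fermat.Agent.S13Lib.ValInertia
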