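import Mathlib
import Fermat.Agent.S13Lib.Iface
import Fermat.Agent.S13Lib.E1Two
import Fermat.Agent.S13Lib.NodeTwo
import Fermat.Agent.S13Lib.ValInertia
import Fermat.Agent.S13Lib.FreyTwo
import Fermat.Agent.S05

/-!
# S13: inertia at `2` acts unipotently on the `p`-torsion of the Frey curve  (`Iface.ID1`)

Setting: a Weierstrass curve `E` over `ℚ` with `a₁ = 1`, `a₃ = a₆ = 0`, `a₄ = κ`, `a₂` integral
at a valuation ring `A` (of an algebraic extension `K` of `ℚ`) with `v 2 < 1`, `v β = 1`,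
`v κ < 1` (Kummer line at the `2`-torsion abscissa `e = 0`, nodal reduction in residue
characteristic `2`), `σ` in the inertia group of `A`, `p` odd with `v p = 1`.

* `smul_eq_of_one_le` : a `p`-torsion point not reducing to the node is fixed by `σ`;
* `one_le_smul_sub` : for a `p`-torsion point `D` reducing to the node, `σ D - D` does not reduce
  to the node;
* `unipotent` : `σ (σ T - T) = σ T - T` for every `p`-torsion point `T`;
* `iD1` : `Iface.ID1 P` for every Frey package `P`.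
-/

set_option autoImplicit false
open WeierstrassCurve FreyPackage

namespace Fermat.Agent.S13Lib.InertiaTwo

open Fermat.Agent.S51Lib.Pts Fermat.Agent.S05Lib Fermat.Agent.S05

section Algebra

variable {F Γ₀ : Type*} [Field F] [LinearOrderedCommGroupWithZero Γ₀]

/-- the abscissa of `(x₁, y₁) - (x, y)` on `y² + xy = x³ + a₂ x² + κ x`, in terms of the slopes
`m = y / x` and `m + ε = y₁ / x₁` at the node -/
theorem addX_identity {x x₁ y y₁ m ε a₂ κ : F} (hx : x ≠ 0) (hd : x₁ - x ≠ 0)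
    (hy : y = m * x) (hy₁ : y₁ = (m + ε) * x₁)
    (heq : y ^ 2 + x * y = x ^ 3 + a₂ * x ^ 2 + κ * x) :
    (((y₁ - (-y - x)) / (x₁ - x)) ^ 2 + (y₁ - (-y - x)) / (x₁ - x) - a₂ - x₁ - x) * (x₁ - x) ^ 2
      = (ε * x₁ + (2 * m + 1) * x) * (2 * m + 1 + ε) * x₁ + (κ / x - x₁) * (x₁ - x) ^ 2 := by
  subst hy hy₁
  have hκ : κ = x * (m ^ 2 + m - x - a₂) := by
    apply mul_right_cancel₀ hx
    linear_combination (-1 : F) * heq
  subst hκ
  field_simp
  ring

/-- valuation estimate for `addX_identity` -/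
theorem one_le_val_of_identity (v : Valuation F Γ₀) {x x₁ m ε κ X : F}
    (hr : v x₁ = v x) (hx1 : v x < 1) (hκx : v κ < v x) (hm : v m ≤ 1) (hε : v ε < 1)
    (h2 : v 2 < 1)
    (hI : X * (x₁ - x) ^ 2
      = (ε * x₁ + (2 * m + 1) * x) * (2 * m + 1 + ε) * x₁ + (κ / x - x₁) * (x₁ - x) ^ 2) :
    1 ≤ v X := by
  have hxpos : 0 < v x := lt_of_le_of_lt zero_le hκx
  have h2m : v (2 * m) < 1 := by
    rw [map_mul]; exact mul_lt_one_of_nonneg_of_lt_one_left zero_le h2 hm
  have hu' : v (2 * m + 1) = 1 := by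
    rw [add_comm]; exact Valuation.map_one_add_of_lt v h2m
  have hu : v (2 * m + 1 + ε) = 1 := by
    have e : 2 * m + 1 + ε = 1 + (2 * m + ε) := by ring
    rw [e]; exact Valuation.map_one_add_of_lt v (Valuation.map_add_lt v h2m hε)
  have hεx : v (ε * x₁) < v x := by
    rw [map_mul, hr]; exact mul_lt_of_lt_one_left hxpos hε
  have hN : v (ε * x₁ + (2 * m + 1) * x) = v x := by
    have e : v ((2 * m + 1) * x) = v x := by rw [map_mul, hu', one_mul]
    rw [Valuation.map_add_eq_of_lt_right v (by rw [e]; exact hεx), e]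
  have hT1 : v ((ε * x₁ + (2 * m + 1) * x) * (2 * m + 1 + ε) * x₁) = v x * v x := by
    rw [map_mul, map_mul, hN, hu, mul_one, hr]
  have hδ : v (x₁ - x) ≤ v x := Valuation.map_sub_le v hr.le le_rfl
  have hδ2 : v (x₁ - x) ^ 2 ≤ v x * v x := by
    rw [sq]; exact mul_le_mul' hδ hδ
  have hc : v (κ / x - x₁) < 1 := by
    apply Valuation.map_sub_lt v
    · rw [map_div₀]; exact (div_lt_one₀ hxpos).2 hκx
    · rw [hr]; exact hx1
  have hT2 : v ((κ / x - x₁) * (x₁ - x) ^ 2) < v x * v x := by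
    rw [map_mul, map_pow]
    calc v (κ / x - x₁) * v (x₁ - x) ^ 2 ≤ v (κ / x - x₁) * (v x * v x) := by gcongr
      _ < v x * v x := mul_lt_of_lt_one_left (mul_pos hxpos hxpos) hc
  have hv := congrArg v hI
  rw [Valuation.map_add_eq_of_lt_left v (by rw [hT1]; exact hT2), hT1, map_mul, map_pow] at hv
  have h3 : 1 * (v x * v x) ≤ v X * (v x * v x) := by
    calc 1 * (v x * v x) = v X * v (x₁ - x) ^ 2 := by rw [one_mul, hv]
      _ ≤ v X * (v x * v x) := by gcongr
  exact le_of_mul_le_mul_right h3 (mul_pos hxpos hxpos)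

end Algebra

section Curve

variable {K : Type*} [Field K] [DecidableEq K] [Algebra ℚ K] (E : WeierstrassCurve ℚ)
  (A : ValuationSubring K)

/-- **(a)** a `p`-torsion point which does not reduce to the node is fixed by inertia -/
theorem smul_eq_of_one_le [Algebra.IsAlgebraic ℚ K] {σ : K ≃ₐ[ℚ] K}
    (hσ : σ ∈ A.inertiaSubgroupIn ℚ) {β κ : K}
    (hK : IsKummer (Kummer.xi (E⁄K) 0) β κ) (hβ : A.valuation β = 1) (hκ : A.valuation κ < 1)
    (h2 : A.valuation (2 : K) < 1)
    (ha₁ : (E⁄K).a₁ = 1) (ha₂ : (E⁄K).a₂ ∈ A) (ha₃ : (E⁄K).a₃ = 0) (ha₄ : (E⁄K).a₄ = κ)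
    (ha₆ : (E⁄K).a₆ = 0) {p : ℕ} (hpv : A.valuation (p : K) = 1)
    {D : (E⁄K).toAffine.Point} (hpD : p • D = 0)
    (hD : D = 0 ∨ 1 ≤ A.valuation (Kummer.xi (E⁄K) 0 D)) : σ • D = D := by
  rcases D with _ | ⟨x, y, h⟩
  · exact Assembly.gal_smul_zero E σ
  · have hD0 : (Affine.Point.some x y h : (E⁄K).toAffine.Point) ≠ 0 :=
      Affine.Point.some_ne_zero h
    rcases hD with h0 | h1
    · exact absurd h0 hD0
    rw [Kummer.xi_some, sub_zero] at h1
    have hx1 : A.valuation x = 1 := by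
      refine le_antisymm ?_ h1
      by_contra hgt
      rw [not_le] at hgt
      have hmem : (Affine.Point.some x y h : (E⁄K).toAffine.Point)
          ∈ E1Two.ker A.valuation hK hβ.le hκ.le :=
        Or.inr (by rw [Kummer.xi_some, sub_zero]; exact hgt)
      exact hD0 (E1Two.eq_zero_of_mem_ker A.valuation hK hβ.le hκ.le hpv hmem hpD)
    have hxA : x ∈ A := (A.valuation_le_one_iff _).1 hx1.le
    have hκA : κ ∈ A := (A.valuation_le_one_iff _).1 hκ.le
    have hyA : y ∈ A := Inertia.y_mem E A h.1 (by rw [ha₁]; exact one_mem A) ha₂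
      (by rw [ha₃]; exact zero_mem A) (by rw [ha₄]; exact hκA) (by rw [ha₆]; exact zero_mem A) hxA
    obtain ⟨h', hσD⟩ := Inertia.smul_some E σ h
    have hδx : A.valuation (σ x - x) < 1 := Inertia.sub_mem_nonunits_of_mem_inertia A hσ hxA
    have hδy : A.valuation (σ y - y) < 1 := Inertia.sub_mem_nonunits_of_mem_inertia A hσ hyA
    by_cases hxx : σ x = x
    · rw [hσD]
      rcases Affine.Point.X_eq_iff.1 hxx with heq | heq
      · exact heq
      · exfalso
        have hy' : σ y = (E⁄K).toAffine.negY x y := by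
          rw [Affine.Point.neg_some] at heq
          injection heq
        have hneg : (E⁄K).toAffine.negY x y = -y - x := by
          simp only [Affine.negY]
          rw [ha₁, ha₃]; ring
        rw [hneg] at hy'
        have e1 : x = -(σ y - y) - 2 * y := by rw [hy']; ring
        have hlt : A.valuation x < 1 := by
          rw [e1]
          apply Valuation.map_sub_lt
          · rw [Valuation.map_neg]; exact hδy
          · rw [map_mul]
            exact mul_lt_one_of_nonneg_of_lt_one_left zero_le h2 ((A.valuation_le_one_iff _).2 hyA)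
        rw [hx1] at hlt
        exact lt_irrefl _ hlt
    · exfalso
      have hσD0 : (Affine.Point.some (σ x) (σ y) h' : (E⁄K).toAffine.Point) ≠ 0 :=
        Affine.Point.some_ne_zero h'
      have hpσ : p • (Affine.Point.some (σ x) (σ y) h' : (E⁄K).toAffine.Point) = 0 := by
        rw [← hσD, ← Assembly.gal_smul_nsmul, hpD, Assembly.gal_smul_zero]
      have hne : Kummer.xi (E⁄K) 0 (Affine.Point.some (σ x) (σ y) h')
          ≠ Kummer.xi (E⁄K) 0 (Affine.Point.some x y h) := by
        rw [Kummer.xi_some, Kummer.xi_some, sub_zero, sub_zero]; exact hxx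
      have hmul := hK.mul _ _ hσD0 hD0 hne
      rw [Kummer.xi_some, Kummer.xi_some, sub_zero, sub_zero] at hmul
      have hσx1 : A.valuation (σ x) = 1 := by rw [ValInertia.val_apply_eq A hσ x, hx1]
      have hN : A.valuation (σ x * x - κ) = 1 := by
        rw [Valuation.map_sub_eq_of_lt_left _ (by rw [map_mul, hσx1, hx1, one_mul]; exact hκ),
          map_mul, hσx1, hx1, one_mul]
      have hv := congrArg A.valuation hmul
      rw [map_mul, map_mul, map_pow, map_pow, hN, one_pow] at hv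
      have hδ2 : A.valuation (σ x - x) ^ 2 < 1 := pow_lt_one₀ zero_le hδx two_ne_zero
      have hpsum : p • ((Affine.Point.some (σ x) (σ y) h' : (E⁄K).toAffine.Point)
          + Affine.Point.some x y h) = 0 := by
        rw [smul_add, hpσ, hpD, add_zero]
      have hpdiff : p • ((Affine.Point.some (σ x) (σ y) h' : (E⁄K).toAffine.Point)
          - Affine.Point.some x y h) = 0 := by
        rw [smul_sub, hpσ, hpD, sub_zero]
      generalize (Affine.Point.some (σ x) (σ y) h' : (E⁄K).toAffine.Point)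
          + Affine.Point.some x y h = Sp at hv hpsum
      generalize (Affine.Point.some (σ x) (σ y) h' : (E⁄K).toAffine.Point)
          - Affine.Point.some x y h = Sm at hv hpdiff
      have hlep : A.valuation (Kummer.xi (E⁄K) 0 Sp) ≤ 1 := by
        by_contra hgt
        rw [not_le] at hgt
        exact E1.ne_zero_of_one_lt A.valuation hK hgt
          (E1Two.eq_zero_of_mem_ker A.valuation hK hβ.le hκ.le hpv (Or.inr hgt) hpsum)
      have hlem : A.valuation (Kummer.xi (E⁄K) 0 Sm) ≤ 1 := by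
        by_contra hgt
        rw [not_le] at hgt
        exact E1.ne_zero_of_one_lt A.valuation hK hgt
          (E1Two.eq_zero_of_mem_ker A.valuation hK hβ.le hκ.le hpv (Or.inr hgt) hpdiff)
      have hlt : A.valuation (Kummer.xi (E⁄K) 0 Sp) * A.valuation (Kummer.xi (E⁄K) 0 Sm)
          * A.valuation (σ x - x) ^ 2 < 1 :=
        mul_lt_one_of_nonneg_of_lt_one_right (mul_le_one' hlep hlem) zero_le hδ2
      rw [hv] at hlt
      exact lt_irrefl _ hlt

/-- **(b)** for a `p`-torsion point `D` reducing to the node, `σ D - D` does not reduce to the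
node -/
theorem one_le_smul_sub [Algebra.IsAlgebraic ℚ K] {σ : K ≃ₐ[ℚ] K}
    (hσ : σ ∈ A.inertiaSubgroupIn ℚ) {β κ : K}
    (hK : IsKummer (Kummer.xi (E⁄K) 0) β κ) (hβ : A.valuation β = 1) (hκ : A.valuation κ < 1)
    (h2 : A.valuation (2 : K) < 1)
    (ha₁ : (E⁄K).a₁ = 1) (ha₂ : (E⁄K).a₂ ∈ A) (ha₃ : (E⁄K).a₃ = 0) (ha₄ : (E⁄K).a₄ = κ)
    (ha₆ : (E⁄K).a₆ = 0) {p : ℕ} (hp : Odd p) (hpv : A.valuation (p : K) = 1)
    {D : (E⁄K).toAffine.Point} (hpD : p • D = 0)
    (hD : ¬ (D = 0 ∨ 1 ≤ A.valuation (Kummer.xi (E⁄K) 0 D))) :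
    σ • D - D = 0 ∨ 1 ≤ A.valuation (Kummer.xi (E⁄K) 0 (σ • D - D)) := by
  rcases D with _ | ⟨x, y, h⟩
  · exact absurd (Or.inl rfl) hD
  have hD0 : (Affine.Point.some x y h : (E⁄K).toAffine.Point) ≠ 0 := Affine.Point.some_ne_zero h
  have hx1 : A.valuation x < 1 := by
    by_contra hle
    rw [not_lt] at hle
    exact hD (Or.inr (by rw [Kummer.xi_some, sub_zero]; exact hle))
  by_cases hdeep : A.valuation x ≤ A.valuation κ
  · -- deep in the node: `2 D` does not reduce to the node, hence is fixed; so `σ D = D`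
    left
    have h2D : (2 : ℕ) • (Affine.Point.some x y h : (E⁄K).toAffine.Point) = 0 ∨
        1 ≤ A.valuation (Kummer.xi (E⁄K) 0
          ((2 : ℕ) • (Affine.Point.some x y h : (E⁄K).toAffine.Point))) :=
      NodeTwo.two_nsmul_mem_E0 A.valuation hK hβ hκ hD0
        (by rw [Kummer.xi_some, sub_zero]; exact hdeep)
    have hp2D : p • ((2 : ℕ) • (Affine.Point.some x y h : (E⁄K).toAffine.Point)) = 0 := by
      rw [smul_comm, hpD, smul_zero]
    have hfix := smul_eq_of_one_le E A hσ hK hβ hκ h2 ha₁ ha₂ ha₃ ha₄ ha₆ hpv hp2D h2D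
    have h2Δ : (2 : ℕ) • (σ • (Affine.Point.some x y h : (E⁄K).toAffine.Point)
        - Affine.Point.some x y h) = 0 := by
      rw [smul_sub, ← Assembly.gal_smul_nsmul, hfix, sub_self]
    have hpΔ : p • (σ • (Affine.Point.some x y h : (E⁄K).toAffine.Point)
        - Affine.Point.some x y h) = 0 := by
      rw [smul_sub, ← Assembly.gal_smul_nsmul, hpD, Assembly.gal_smul_zero, sub_zero]
    have hd1 := addOrderOf_dvd_of_nsmul_eq_zero h2Δ
    have hd2 := addOrderOf_dvd_of_nsmul_eq_zero hpΔ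
    have hcop : Nat.Coprime 2 p := Nat.coprime_two_left.2 hp
    have hd3 : addOrderOf (σ • (Affine.Point.some x y h : (E⁄K).toAffine.Point)
        - Affine.Point.some x y h) ∣ 1 := by
      rw [← hcop]; exact Nat.dvd_gcd hd1 hd2
    exact AddMonoid.addOrderOf_eq_one_iff.1 (Nat.dvd_one.1 hd3)
  · rw [not_le] at hdeep
    have hxpos : 0 < A.valuation x := lt_of_le_of_lt zero_le hdeep
    have hx0 : x ≠ 0 := (Valuation.pos_iff _).1 hxpos
    have heq : y ^ 2 + x * y = x ^ 3 + (E⁄K).a₂ * x ^ 2 + κ * x := by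
      have h0 := (Affine.equation_iff x y).1 h.1
      rw [ha₁, ha₃, ha₄, ha₆] at h0
      linear_combination h0
    obtain ⟨m, hm⟩ : ∃ m : K, m = y / x := ⟨_, rfl⟩
    have hy : y = m * x := by rw [hm]; field_simp
    have hmc : m ^ 2 + m = x + (E⁄K).a₂ + κ / x := by
      rw [hm]; field_simp; linear_combination heq
    have hcA : A.valuation (x + (E⁄K).a₂ + κ / x) ≤ 1 := by
      apply Valuation.map_add_le _ (Valuation.map_add_le _ hx1.le ((A.valuation_le_one_iff _).2 ha₂))
      rw [map_div₀]; exact ((div_lt_one₀ hxpos).2 hdeep).le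
    have hmv : A.valuation m ≤ 1 := by
      by_contra hgt
      rw [not_le] at hgt
      have h1 : A.valuation m < A.valuation (m ^ 2) := by
        rw [map_pow, sq]; exact lt_mul_of_one_lt_left (zero_lt_one.trans hgt) hgt
      have h3 : A.valuation (m ^ 2 + m) = A.valuation (m ^ 2) :=
        Valuation.map_add_eq_of_lt_left _ h1
      rw [hmc] at h3
      have h4 : 1 < A.valuation (m ^ 2) := lt_trans hgt h1
      rw [← h3] at h4
      exact absurd hcA (not_le.2 h4)
    have hmA : m ∈ A := (A.valuation_le_one_iff _).1 hmv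
    have hεv : A.valuation (σ m - m) < 1 := Inertia.sub_mem_nonunits_of_mem_inertia A hσ hmA
    have h2m : A.valuation (2 * m) < 1 := by
      rw [map_mul]; exact mul_lt_one_of_nonneg_of_lt_one_left zero_le h2 hmv
    obtain ⟨h', hσD⟩ := Inertia.smul_some E σ h
    have hσy : σ y = (m + (σ m - m)) * σ x := by
      have := congrArg σ hy
      rw [map_mul] at this
      rw [this]; ring
    have hneg : (E⁄K).toAffine.negY x y = -y - x := by
      simp only [Affine.negY]
      rw [ha₁, ha₃]; ring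
    by_cases hxx : σ x = x
    · rcases Affine.Point.X_eq_iff.1 hxx with heq' | heq'
      · left; rw [hσD, heq', sub_self]
      · exfalso
        have hy' : σ y = (E⁄K).toAffine.negY x y := by
          rw [Affine.Point.neg_some] at heq'
          injection heq'
        rw [hneg, hσy, hxx, hy] at hy'
        have e1 : σ m - m = -(1 + 2 * m) := by
          apply mul_right_cancel₀ hx0
          linear_combination hy'
        rw [e1, Valuation.map_neg, Valuation.map_one_add_of_lt _ h2m] at hεv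
        exact lt_irrefl _ hεv
    · right
      have hd : σ x - x ≠ 0 := sub_ne_zero.2 hxx
      rw [hσD, sub_eq_add_neg (Affine.Point.some (σ x) (σ y) h'), Affine.Point.neg_some,
        Affine.Point.add_of_X_ne hxx, Kummer.xi_some, Affine.slope_of_X_ne hxx, sub_zero, hneg]
      have e2 : (E⁄K).toAffine.addX (σ x) x ((σ y - (-y - x)) / (σ x - x))
          = ((σ y - (-y - x)) / (σ x - x)) ^ 2 + (σ y - (-y - x)) / (σ x - x)
            - (E⁄K).a₂ - σ x - x := by
        simp only [Affine.addX]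
        rw [ha₁]; ring
      rw [e2]
      exact one_le_val_of_identity A.valuation (ValInertia.val_apply_eq A hσ x) hx1 hdeep hmv hεv
        h2 (addX_identity hx0 hd hy hσy heq)

/-- **inertia is unipotent** on the `p`-torsion -/
theorem unipotent [Algebra.IsAlgebraic ℚ K] {σ : K ≃ₐ[ℚ] K}
    (hσ : σ ∈ A.inertiaSubgroupIn ℚ) {β κ : K}
    (hK : IsKummer (Kummer.xi (E⁄K) 0) β κ) (hβ : A.valuation β = 1) (hκ : A.valuation κ < 1)
    (h2 : A.valuation (2 : K) < 1)
    (ha₁ : (E⁄K).a₁ = 1) (ha₂ : (E⁄K).a₂ ∈ A) (ha₃ : (E⁄K).a₃ = 0) (ha₄ : (E⁄K).a₄ = κ)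
    (ha₆ : (E⁄K).a₆ = 0) {p : ℕ} (hp : Odd p) (hpv : A.valuation (p : K) = 1)
    (T : (E⁄K).toAffine.Point) (hpT : p • T = 0) : σ • (σ • T - T) = σ • T - T := by
  by_cases hT : T = 0 ∨ 1 ≤ A.valuation (Kummer.xi (E⁄K) 0 T)
  · rw [smul_eq_of_one_le E A hσ hK hβ hκ h2 ha₁ ha₂ ha₃ ha₄ ha₆ hpv hpT hT, sub_self]
    exact Assembly.gal_smul_zero E σ
  · have hD := one_le_smul_sub E A hσ hK hβ hκ h2 ha₁ ha₂ ha₃ ha₄ ha₆ hp hpv hpT hT
    have hpD : p • (σ • T - T) = 0 := by
      rw [smul_sub, ← Assembly.gal_smul_nsmul, hpT, Assembly.gal_smul_zero, sub_zero]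
    exact smul_eq_of_one_le E A hσ hK hβ hκ h2 ha₁ ha₂ ha₃ ha₄ ha₆ hpv hpD hD

end Curve

/-- inertia at `2` is unipotent on the `p`-torsion of the Frey curve -/
theorem frey_unipotent {K : Type*} [Field K] [DecidableEq K] [CharZero K] [Algebra ℚ K]
    [Algebra.IsAlgebraic ℚ K] (P : FreyPackage) (A : ValuationSubring K)
    (hA : ((2 : ℕ) : K) ∈ A.nonunits) {σ : K ≃ₐ[ℚ] K} (hσ : σ ∈ A.inertiaSubgroupIn ℚ)
    (T : (P.freyCurve⁄K).toAffine.Point) (hpT : P.p • T = 0) :
    σ • (σ • T - T) = σ • T - T :=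
  unipotent P.freyCurve A hσ (FreyTwo.isKummer_zero P) (FreyTwo.val_beta_eq_one P hA)
    (FreyTwo.val_kappa_lt_one P hA) (FreyTwo.val_two_lt_one hA) (frey_a₁ P) (FreyTwo.a₂_mem P A)
    (frey_a₃ P) (frey_a₄ P) (frey_a₆ P) P.hp_odd (FreyTwo.val_p_eq_one P hA) T hpT

/-- **(ID1)** -/
theorem iD1 (P : FreyPackage) : Iface.ID1 P := by
  intro A hA σ hσ T
  haveI : Algebra.IsAlgebraic ℚ Iface.Qb := AlgebraicClosure.isAlgebraic ℚ
  apply Subtype.ext
  have hT : (P.p : ℤ) • T.1 = 0 := (Submodule.mem_torsionBy_iff _ _).1 T.2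
  rw [natCast_zsmul] at hT
  exact frey_unipotent P A hA hσ T.1 hT

end Fermat.Agent.S13Lib.InertiaTwo
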