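import Mathlib
import Fermat.Agent.FrobLib2
import Fermat.Agent.S13Lib.Iface

/-!
# S13, piece (E): lifting of inertia elements

For a closed subgroup `H` of the Galois group of a Galois extension `L/ℚ`, a valuation subring
`A` of `L` above a prime number and `σ₀` in the Galois group moving every `H`-invariant algebraic
integer by a non-unit of `A`, some element of the coset `σ₀ H` lies in the inertia subgroup of `A`
(`exists_mul_mem_inertiaSubgroupIn`, `exists_mul_mem_inertia`).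
-/

set_option autoImplicit false
set_option linter.style.haveILetI false

namespace Fermat.Agent.S13Lib.InertiaLift

open scoped Pointwise

section Galois

variable {L : Type*} [Field L] [Algebra ℚ L] [IsGalois ℚ L]

/-- If `σ b - b` is a non-unit of `A` for every algebraic integer `b`, then `σ` maps `A` into
itself and `σ x - x` is a non-unit of `A` for every `x ∈ A`. -/
theorem map_mem_and_sub_mem (A : ValuationSubring L) {ℓ : ℕ} (hℓ : ℓ.Prime)
    (hA : (ℓ : L) ∈ A.nonunits) (σ : L ≃ₐ[ℚ] L)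
    (h2 : ∀ b : L, IsIntegral ℤ b → σ b - b ∈ A.nonunits) (x : L) (hx : x ∈ A) :
    σ x ∈ A ∧ σ x - x ∈ A.nonunits := by
  obtain ⟨s, b, hs, hb, hs0, hsA, hsinvA, hxs⟩ :=
    FrobLib2.exists_integral_unit_mul A hℓ hA x hx
  set v := A.valuation with hv
  have hvs : v s = 1 := by
    have h1 : v s ≤ 1 := (A.valuation_le_one_iff s).2 hsA
    have h2 : v s⁻¹ ≤ 1 := (A.valuation_le_one_iff s⁻¹).2 hsinvA
    rw [map_inv₀] at h2
    have h3 : v s ≠ 0 := (Valuation.ne_zero_iff v).2 hs0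
    have h4 : 1 ≤ v s := by
      have := (inv_le_one₀ (zero_lt_iff.2 h3)).1 h2
      exact this
    exact le_antisymm h1 h4
  have hσs_lt : v (σ s - s) < 1 := (ValuationSubring.mem_nonunits_iff A).1 (h2 s hs)
  have hσb_lt : v (σ b - b) < 1 := (ValuationSubring.mem_nonunits_iff A).1 (h2 b hb)
  have hvσs : v (σ s) = 1 := by
    have h1 : σ s = s + (σ s - s) := by ring
    rw [h1, Valuation.map_add_eq_of_lt_left v (by rw [hvs]; exact hσs_lt), hvs]
  have hvb : v b ≤ 1 := (A.valuation_le_one_iff b).2 (FrobLib2.integral_mem_valuationSubring A hb)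
  have hσs0 : σ s ≠ 0 := fun h0 => hs0 ((map_eq_zero σ).1 h0)
  have hσx : σ x = σ b * (σ s)⁻¹ := by
    rw [eq_mul_inv_iff_mul_eq₀ hσs0, ← map_mul, hxs]
  have hxb : x = b * s⁻¹ := by
    rw [eq_mul_inv_iff_mul_eq₀ hs0, hxs]
  have hvσb : v (σ b) ≤ 1 :=
    (A.valuation_le_one_iff _).2 (FrobLib2.integral_mem_valuationSubring A (map_isIntegral_int σ hb))
  refine ⟨?_, ?_⟩
  · rw [← A.valuation_le_one_iff, hσx, map_mul, map_inv₀, hvσs, inv_one, mul_one]
    exact hvσb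
  · rw [ValuationSubring.mem_nonunits_iff]
    have h3 : σ x - x = ((σ b - b) * s - b * (σ s - s)) * ((σ s)⁻¹ * s⁻¹) := by
      rw [hσx, hxb]
      field_simp
      ring
    rw [h3, map_mul, map_mul, map_inv₀, map_inv₀, hvσs, hvs, inv_one, mul_one, mul_one]
    refine lt_of_le_of_lt (Valuation.map_sub v _ _) (max_lt ?_ ?_)
    · rw [map_mul, hvs, mul_one]; exact hσb_lt
    · rw [map_mul]
      calc v b * v (σ s - s) ≤ 1 * v (σ s - s) := by gcongr
        _ = v (σ s - s) := one_mul _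
        _ < 1 := hσs_lt

/-- An element of the Galois group moving every algebraic integer by a non-unit of `A` lies in
the inertia subgroup of `A`. -/
theorem mem_inertiaSubgroupIn (A : ValuationSubring L) {ℓ : ℕ} (hℓ : ℓ.Prime)
    (hA : (ℓ : L) ∈ A.nonunits) (σ : L ≃ₐ[ℚ] L)
    (h2 : ∀ b : L, IsIntegral ℤ b → σ b - b ∈ A.nonunits) :
    σ ∈ A.inertiaSubgroupIn ℚ := by
  have h2' : ∀ b : L, IsIntegral ℤ b → σ⁻¹ b - b ∈ A.nonunits := by
    intro b hb
    have hb' : IsIntegral ℤ (σ⁻¹ b) := map_isIntegral_int (σ⁻¹ : L ≃ₐ[ℚ] L) hb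
    have h3 := h2 _ hb'
    have h4 : σ (σ⁻¹ b) = b := by
      show σ (σ.symm b) = b
      exact σ.apply_symm_apply b
    rw [h4] at h3
    rw [ValuationSubring.mem_nonunits_iff] at h3 ⊢
    have h5 : σ⁻¹ b - b = -(b - σ⁻¹ b) := by ring
    rw [h5, Valuation.map_neg]
    exact h3
  have hdec : σ ∈ A.decompositionSubgroup ℚ := by
    rw [MulAction.mem_stabilizer_iff]
    apply le_antisymm
    · intro y hy
      obtain ⟨x, hx, rfl⟩ := (ValuationSubring.mem_smul_pointwise_iff_exists _ _ _).1 hy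
      exact (map_mem_and_sub_mem A hℓ hA σ h2 x hx).1
    · intro y hy
      rw [ValuationSubring.mem_pointwise_smul_iff_inv_smul_mem]
      exact (map_mem_and_sub_mem A hℓ hA σ⁻¹ h2' y hy).1
  refine ⟨⟨σ, hdec⟩, ?_, rfl⟩
  show (⟨σ, hdec⟩ : A.decompositionSubgroup ℚ) ∈ A.inertiaSubgroup ℚ
  rw [ValuationSubring.inertiaSubgroup, MonoidHom.mem_ker]
  ext xbar
  obtain ⟨a, rfl⟩ := IsLocalRing.residue_surjective xbar
  show (⟨σ, hdec⟩ : A.decompositionSubgroup ℚ) • (IsLocalRing.residue A a) = IsLocalRing.residue A a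
  rw [← IsLocalRing.ResidueField.residue_smul, ← sub_eq_zero, ← map_sub,
    IsLocalRing.residue_eq_zero_iff, ← ValuationSubring.coe_mem_nonunits_iff]
  exact (map_mem_and_sub_mem A hℓ hA σ h2 a a.2).2

/-- Inertia lifting: if `σ₀` moves every `H`-invariant algebraic integer by a non-unit of `A`,
then some element of the coset `σ₀ H` lies in the inertia subgroup of `A`. -/
theorem exists_mul_mem_inertiaSubgroupIn (H : Subgroup (L ≃ₐ[ℚ] L))
    (hH : IsClosed (H : Set (L ≃ₐ[ℚ] L)))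
    (A : ValuationSubring L) {ℓ : ℕ} (hℓ : ℓ.Prime) (hA : (ℓ : L) ∈ A.nonunits)
    (σ₀ : L ≃ₐ[ℚ] L)
    (hσ₀ : ∀ b : L, IsIntegral ℤ b → (∀ h ∈ H, h b = b) → σ₀ b - b ∈ A.nonunits) :
    ∃ h ∈ H, σ₀ * h ∈ A.inertiaSubgroupIn ℚ := by
  classical
  let G := L ≃ₐ[ℚ] L
  let B := integralClosure ℤ L
  let A₀ : Subring B := FixedPoints.subring B H
  letI : TopologicalSpace B := ⊥
  haveI : DiscreteTopology B := ⟨rfl⟩
  haveI : CompactSpace H := isCompact_iff_compactSpace.1 hH.isCompact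
  haveI : ContinuousSMul H B := by
    rw [continuousSMul_iff_stabilizer_isOpen]
    intro b
    have h : (MulAction.stabilizer H b : Set H)
        = Subtype.val ⁻¹' (MulAction.stabilizer G (b : L) : Set G) := by
      ext g
      simp only [SetLike.mem_coe, MulAction.mem_stabilizer_iff, Set.mem_preimage]
      exact Subtype.ext_iff
    rw [h]
    exact (stabilizer_isOpen_of_isIntegral (b : L)).preimage continuous_subtype_val
  haveI : Algebra.IsInvariant A₀ B H := ⟨fun b hb => ⟨⟨b, hb⟩, rfl⟩⟩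
  have hBA : ∀ b : B, (b : L) ∈ A := fun b => FrobLib2.integral_mem_valuationSubring A b.2
  let φ : B →+* A :=
    { toFun := fun b => ⟨b, hBA b⟩
      map_one' := rfl
      map_mul' := fun _ _ => rfl
      map_zero' := rfl
      map_add' := fun _ _ => rfl }
  let Q : Ideal B := (IsLocalRing.maximalIdeal A).comap φ
  haveI hQprime : Q.IsPrime := Ideal.comap_isPrime φ _
  have hQmem : ∀ b : B, b ∈ Q ↔ (b : L) ∈ A.nonunits := by
    intro b
    show φ b ∈ IsLocalRing.maximalIdeal A ↔ _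
    rw [← ValuationSubring.coe_mem_nonunits_iff]
    exact Iff.rfl
  -- the hypothesis, in terms of `Q`
  have hQsub : ∀ a : A₀, σ₀ • (a : B) - (a : B) ∈ Q := by
    intro a
    rw [hQmem]
    refine hσ₀ ((a : B) : L) (a : B).2 ?_
    intro h hh
    exact congrArg Subtype.val (a.2 ⟨h, hh⟩)
  -- Step 1: move `σ₀` inside its coset so that it stabilises `Q`
  let Q' : Ideal B := σ₀⁻¹ • Q
  haveI hQ'prime : Q'.IsPrime := by
    show (σ₀⁻¹ • Q).IsPrime
    rw [Ideal.pointwise_smul_eq_comap]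
    exact Ideal.comap_isPrime _ _
  have hunder : Q.under A₀ = Q'.under A₀ := by
    ext a
    rw [Ideal.under_def, Ideal.under_def, Ideal.mem_comap, Ideal.mem_comap]
    show (a : B) ∈ Q ↔ (a : B) ∈ σ₀⁻¹ • Q
    rw [Ideal.mem_inv_pointwise_smul_iff]
    constructor
    · intro ha
      have := Q.add_mem (hQsub a) ha
      rwa [sub_add_cancel] at this
    · intro ha
      have := Q.sub_mem ha (hQsub a)
      rwa [sub_sub_cancel] at this
  obtain ⟨h₁, hh₁⟩ :=
    Algebra.IsInvariant.exists_smul_of_under_eq_of_profinite (A := A₀) (G := H) Q Q' hunder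
  have hh₁' : Q' = (h₁ : G) • Q := hh₁
  have hσ₁Q : (σ₀ * (h₁ : G)) • Q = Q := by
    rw [mul_smul, ← hh₁']
    show σ₀ • σ₀⁻¹ • Q = Q
    rw [smul_inv_smul]
  -- Step 2: correct by an element of the stabiliser of `Q` in `H`
  let P₀ : Ideal A₀ := Q.under A₀
  let Pz : Ideal ℤ := Q.under ℤ
  haveI : Q.LiesOver P₀ := ⟨rfl⟩
  haveI : Q.LiesOver Pz := ⟨rfl⟩
  let g₁ : MulAction.stabilizer G Q := ⟨σ₀ * (h₁ : G), hσ₁Q⟩
  let e₁ : (B ⧸ Q) ≃ₐ[ℤ ⧸ Pz] (B ⧸ Q) := Ideal.Quotient.stabilizerHom Q Pz G g₁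
  have he₁ : ∀ b : B, e₁ (Ideal.Quotient.mk Q b) = Ideal.Quotient.mk Q ((σ₀ * (h₁ : G)) • b) :=
    fun b => Ideal.Quotient.stabilizerHom_apply Q Pz G g₁ b
  let σbar : (B ⧸ Q) ≃ₐ[A₀ ⧸ P₀] (B ⧸ Q) :=
    AlgEquiv.ofRingEquiv (f := e₁.toRingEquiv) (by
      intro a
      obtain ⟨a, rfl⟩ := Ideal.Quotient.mk_surjective a
      show e₁ (Ideal.Quotient.mk Q (a : B)) = Ideal.Quotient.mk Q (a : B)
      rw [he₁, Ideal.Quotient.eq, mul_smul]
      have h3 : (h₁ : G) • (a : B) = (a : B) := a.2 h₁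
      rw [h3]
      exact hQsub a)
  obtain ⟨h₂, hh₂⟩ := Ideal.Quotient.stabilizerHom_surjective_of_profinite (G := H) P₀ Q σbar
  have hkey : ∀ c : B, (σ₀ * (h₁ : G)) • c - ((h₂ : H) : G) • c ∈ Q := by
    intro c
    have h3 : Ideal.Quotient.stabilizerHom Q P₀ H h₂ (Ideal.Quotient.mk Q c)
        = σbar (Ideal.Quotient.mk Q c) := by rw [hh₂]
    rw [Ideal.Quotient.stabilizerHom_apply] at h3
    have h4 : σbar (Ideal.Quotient.mk Q c) = e₁ (Ideal.Quotient.mk Q c) := rfl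
    rw [h4, he₁] at h3
    rw [← Ideal.Quotient.eq]
    exact h3.symm
  refine ⟨(h₁ : G) * ((h₂ : H) : G)⁻¹, H.mul_mem h₁.2 (H.inv_mem (h₂ : H).2), ?_⟩
  refine mem_inertiaSubgroupIn A hℓ hA _ ?_
  intro b hb
  let b' : B := ⟨b, hb⟩
  let c : B := (((h₂ : H) : G)⁻¹) • b'
  have h5 := (hQmem _).1 (hkey c)
  have h6 : ((((σ₀ * (h₁ : G)) • c - ((h₂ : H) : G) • c : B)) : L)
      = (σ₀ * ((h₁ : G) * ((h₂ : H) : G)⁻¹)) b - b := by
    have h7 : ((h₂ : H) : G) • c = b' := smul_inv_smul _ _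
    rw [h7]
    rfl
  rw [h6] at h5
  exact h5

end Galois

/-- Inertia lifting in the absolute Galois group of `ℚ`: if `σ₀` moves every `H`-invariant
algebraic integer by a non-unit of `A`, for a closed subgroup `H`, then some element of the
coset `σ₀ H` lies in the inertia subgroup of `A`. -/
theorem exists_mul_mem_inertia (H : Subgroup Iface.Gal) (hH : IsClosed (H : Set Iface.Gal))
    (A : ValuationSubring Iface.Qb) {ℓ : ℕ} (hℓ : ℓ.Prime) (hA : A.LiesOverPrime ℓ)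
    (σ₀ : Iface.Gal)
    (hσ₀ : ∀ b : Iface.Qb, IsIntegral ℤ b → (∀ h ∈ H, h b = b) → σ₀ b - b ∈ A.nonunits) :
    ∃ h ∈ H, σ₀ * h ∈ A.inertiaSubgroupIn ℚ :=
  haveI : IsGalois ℚ (AlgebraicClosure ℚ) := FrobLib2.isGalois_algebraicClosure_rat
  exists_mul_mem_inertiaSubgroupIn H hH A hℓ hA σ₀ hσ₀

/-- An element of the absolute Galois group of `ℚ` moving every algebraic integer by a non-unit
of `A` lies in the inertia subgroup of `A`. -/
theorem mem_inertia_of_integral (A : ValuationSubring Iface.Qb) {ℓ : ℕ} (hℓ : ℓ.Prime)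
    (hA : A.LiesOverPrime ℓ) (σ : Iface.Gal)
    (h2 : ∀ b : Iface.Qb, IsIntegral ℤ b → σ b - b ∈ A.nonunits) :
    σ ∈ A.inertiaSubgroupIn ℚ :=
  haveI : IsGalois ℚ (AlgebraicClosure ℚ) := FrobLib2.isGalois_algebraicClosure_rat
  mem_inertiaSubgroupIn A hℓ hA σ h2

end Fermat.Agent.S13Lib.InertiaLift
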