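import Fermat.Agent.S13Lib.Minkowski
import Fermat.Agent.S13Lib.InertiaLift

/-!
# S13, part (E): the interface statement `Iface.IE`

`Minkowski.ie_of_lift` applied to the inertia lifting lemma `InertiaLift.exists_mul_mem_inertia`.
-/

set_option autoImplicit false

namespace Fermat.Agent.S13Lib.MinkowskiIE

/-- (IE) A normal subgroup of the absolute Galois group of `ℚ` containing the fixer of a finite
set and all inertia subgroups is the whole group. -/
theorem ie : Iface.IE :=
  Minkowski.ie_of_lift fun H hH A _ hl hA s0 hs0 =>
    InertiaLift.exists_mul_mem_inertia H hH A hl hA s0 hs0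

end Fermat.Agent.S13Lib.MinkowskiIE
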