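import Mathlib
import Fermat.Agent.S05Lib.Defs
import Fermat.Agent.S13Lib.NodeTwo

/-!
# S13: no "rational" point of prime order `p ≥ 5` on a nodal Kummer line above `2`

Abstract setting: a Kummer line `ξ : G → F` (`IsKummer ξ β κ`), a valuation `v` on `F` with
`v 2 < 1`, `v β = 1`, `v κ < 1` (multiplicative reduction in residue characteristic `2`), and a
set `S ⊆ F` of "rational" elements whose valuations are integral powers of `v 2` and whose units
are all congruent modulo the maximal ideal (residue field `𝔽₂`).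

* `val_two_nsmul_eq_one` : a point with unit abscissa doubles to a point with unit abscissa;
* `one_lt_val_three_nsmul` : if moreover `ξ (2T) ≡ ξ T`, then `3T` lies in the kernel of reduction;
* `eq_zero_of_rational` : if `v κ = v 2 ^ m` with `p ∤ 2m` and the kernel of reduction has no
  `p`-torsion, a point `T` with `p • T = 0` all of whose multiples have abscissa in `S` is `0`.
-/

set_option autoImplicit false

namespace Fermat.Agent.S13Lib.NoFixed
open Fermat.Agent.S05Lib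

variable {G F Γ₀ : Type*} [AddCommGroup G] [Field F] [LinearOrderedCommGroupWithZero Γ₀]
  (v : Valuation F Γ₀) {ξ : G → F} {β κ : F}

theorem val_four_lt (h2 : v 2 < 1) : v (4 : F) < 1 := by
  have h4 : (4 : F) = 2 * 2 := by norm_num
  rw [h4, map_mul]
  exact mul_lt_one_of_nonneg_of_lt_one_left zero_le h2 h2.le

/-- The `2`-division factor at a unit abscissa is a unit (residue characteristic `2`). -/
theorem val_cubic_eq_one (h2 : v 2 < 1) (hβ : v β = 1) (hκ : v κ < 1) {x : F} (hx : v x = 1) :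
    v (4 * x ^ 2 + β * x + 4 * κ) = 1 := by
  have h4 := val_four_lt v h2
  have e1 : v (4 * x ^ 2) < 1 := by rw [map_mul, map_pow, hx, one_pow, mul_one]; exact h4
  have e2 : v (β * x) = 1 := by rw [map_mul, hβ, hx, one_mul]
  have e3 : v (4 * κ) < 1 := by
    rw [map_mul]
    exact mul_lt_one_of_nonneg_of_lt_one_left zero_le h4 hκ.le
  have e4 : v (4 * x ^ 2 + β * x) = 1 := by
    rw [v.map_add_eq_of_lt_right (by rw [e2]; exact e1), e2]
  rw [v.map_add_eq_of_lt_left (by rw [e4]; exact e3), e4]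

/-- A point with unit abscissa doubles to a point with unit abscissa. -/
theorem val_two_nsmul_eq_one (hK : IsKummer ξ β κ) (h2 : v 2 < 1) (hβ : v β = 1) (hκ : v κ < 1)
    {T : G} (hT : v (ξ T) = 1) (h2T : (2 : ℕ) • T ≠ 0) : v (ξ ((2 : ℕ) • T)) = 1 := by
  have hT0 : T ≠ 0 := by
    rintro rfl
    rw [hK.zero, map_zero] at hT
    exact zero_ne_one hT
  have hdbl := congrArg v (hK.dbl T hT0 h2T)
  rw [map_mul, map_mul, map_pow, val_cubic_eq_one v h2 hβ hκ hT, hT, mul_one, mul_one] at hdbl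
  have hN : v (ξ T ^ 2 - κ) = 1 := by
    rw [v.map_sub_eq_of_lt_left (by rw [map_pow, hT, one_pow]; exact hκ), map_pow, hT, one_pow]
  rw [hN, one_pow] at hdbl
  exact hdbl

/-- If `T` and `2T` have unit abscissas congruent modulo the maximal ideal, then `3T` lies in the
kernel of reduction. -/
theorem one_lt_val_three_nsmul (hK : IsKummer ξ β κ) (hκ : v κ < 1)
    {T : G} (hT : v (ξ T) = 1) (h2T : v (ξ ((2 : ℕ) • T)) = 1)
    (hne : ξ ((2 : ℕ) • T) ≠ ξ T) (hclose : v (ξ ((2 : ℕ) • T) - ξ T) < 1) :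
    1 < v (ξ ((3 : ℕ) • T)) := by
  have hT0 : T ≠ 0 := by
    rintro rfl
    rw [hK.zero, map_zero] at hT
    exact zero_ne_one hT
  have h2T0 : (2 : ℕ) • T ≠ 0 := by
    intro h0
    rw [h0, hK.zero, map_zero] at h2T
    exact zero_ne_one h2T
  have hmul := congrArg v (hK.mul ((2 : ℕ) • T) T h2T0 hT0 hne)
  have e3 : (2 : ℕ) • T + T = (3 : ℕ) • T := (succ_nsmul T 2).symm
  have e1 : (2 : ℕ) • T - T = T := by rw [two_nsmul, add_sub_cancel_right]
  rw [e3, e1, map_mul, map_mul, map_pow, map_pow, hT, mul_one] at hmul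
  have hN : v (ξ ((2 : ℕ) • T) * ξ T - κ) = 1 := by
    rw [v.map_sub_eq_of_lt_left (by rw [map_mul, h2T, hT, one_mul]; exact hκ), map_mul, h2T, hT,
      one_mul]
  rw [hN, one_pow] at hmul
  have hd0 : v (ξ ((2 : ℕ) • T) - ξ T) ≠ 0 := (v.ne_zero_iff).mpr (sub_ne_zero.mpr hne)
  have hdpos : 0 < v (ξ ((2 : ℕ) • T) - ξ T) ^ 2 := pow_pos (zero_lt_iff.mpr hd0) 2
  have hd1 : v (ξ ((2 : ℕ) • T) - ξ T) ^ 2 < 1 := pow_lt_one₀ zero_le hclose two_ne_zero
  by_contra hle
  rw [not_lt] at hle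
  have h3 : v (ξ ((3 : ℕ) • T)) * v (ξ ((2 : ℕ) • T) - ξ T) ^ 2 < 1 :=
    calc v (ξ ((3 : ℕ) • T)) * v (ξ ((2 : ℕ) • T) - ξ T) ^ 2
        ≤ 1 * v (ξ ((2 : ℕ) • T) - ξ T) ^ 2 := mul_le_mul_left hle _
      _ = v (ξ ((2 : ℕ) • T) - ξ T) ^ 2 := one_mul _
      _ < 1 := hd1
  rw [hmul] at h3
  exact lt_irrefl _ h3

/-- **No rational point of prime order `p ≥ 5`** on a nodal Kummer line above `2`:
if the valuations of the elements of `S` are integral powers of `v 2`, the units of `S` are all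
congruent modulo the maximal ideal, `v κ = v 2 ^ m` with `p ∤ 2 m`, and the kernel of reduction
`{1 < v ξ}` has no `p`-torsion, then a point `T` with `p • T = 0` all of whose multiples have
abscissa in `S` is `0`. -/
theorem eq_zero_of_rational (hK : IsKummer ξ β κ) (h2 : v 2 < 1) (hβ : v β = 1) (hκ : v κ < 1)
    (hκ0 : κ ≠ 0) {p : ℕ} (hp : p.Prime) (hp5 : 5 ≤ p) (S : Set F)
    (hS1 : ∀ x ∈ S, x ≠ 0 → ∃ n : ℤ, v x = v 2 ^ n)
    (hS2 : ∀ x ∈ S, ∀ y ∈ S, v x = 1 → v y = 1 → v (x - y) < 1)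
    {m : ℕ} (hκm : v κ = v 2 ^ m) (hpm : ¬ p ∣ 2 * m)
    (hE1 : ∀ P : G, 1 < v (ξ P) → p • P ≠ 0)
    {T : G} (hpT : p • T = 0) (hTS : ∀ k : ℕ, ξ (k • T) ∈ S) : T = 0 := by
  by_contra hT0
  have hκv0 : v κ ≠ 0 := (v.ne_zero_iff).mpr hκ0
  -- `v 2 ≠ 0`
  have h20 : v (2 : F) ≠ 0 := by
    intro h0
    rw [h0] at hκm
    rcases Nat.eq_zero_or_pos m with rfl | hm
    · rw [pow_zero] at hκm
      exact hκ.ne hκm
    · rw [zero_pow hm.ne'] at hκm
      exact hκv0 hκm
  have h2pos : 0 < v (2 : F) := zero_lt_iff.mpr h20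
  by_cases hE0 : T ∈ NodeTwo.E0 v hK hβ hκ
  · -- `T` does not reduce to the node
    rcases hE0 with h0 | h1
    · exact hT0 h0
    rcases eq_or_lt_of_le h1 with heq | hgt
    · -- unit abscissa: `3T` is in the kernel of reduction
      have hTu : v (ξ T) = 1 := heq.symm
      have hord : ∀ k : ℕ, k • T = 0 → p ∣ k := by
        intro k hk
        by_contra hnd
        have hcop : Nat.Coprime k p := ((Nat.Prime.coprime_iff_not_dvd hp).mpr hnd).symm
        have hd1 := addOrderOf_dvd_of_nsmul_eq_zero hk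
        have hd2 := addOrderOf_dvd_of_nsmul_eq_zero hpT
        have hd3 : addOrderOf T ∣ 1 := by rw [← hcop]; exact Nat.dvd_gcd hd1 hd2
        exact hT0 (AddMonoid.addOrderOf_eq_one_iff.1 (Nat.dvd_one.1 hd3))
      have h2T0 : (2 : ℕ) • T ≠ 0 := fun h0 => by
        have := Nat.le_of_dvd (by norm_num) (hord 2 h0)
        omega
      have h3T0 : (3 : ℕ) • T ≠ 0 := fun h0 => by
        have := Nat.le_of_dvd (by norm_num) (hord 3 h0)
        omega
      have h2Tu := val_two_nsmul_eq_one v hK h2 hβ hκ hTu h2T0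
      have hTS1 : ξ T ∈ S := by
        have h := hTS 1
        rwa [one_nsmul] at h
      have hclose := hS2 _ (hTS 2) _ hTS1 h2Tu hTu
      have hne : ξ ((2 : ℕ) • T) ≠ ξ T := by
        intro heq2
        rcases hK.eq_or_eq_neg _ _ h2T0 hT0 heq2 with h | h
        · rw [two_nsmul] at h
          exact hT0 (by simpa using h)
        · apply h3T0
          rw [show (3 : ℕ) • T = (2 : ℕ) • T + T from succ_nsmul T 2, h, neg_add_cancel]
      have h3 := one_lt_val_three_nsmul v hK hκ hTu h2Tu hne hclose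
      apply hE1 _ h3
      rw [smul_comm, hpT, smul_zero]
    · exact hE1 T hgt hpT
  · -- `T` reduces to the node: the fold rule
    obtain ⟨k, -, -, hk⟩ := NodeTwo.exists_nsmul_pow_eq v hK hβ hκ hκ0 hp (by omega) hpT hE0
    have hx0 : ξ (k • T) ≠ 0 := by
      intro h0
      rw [h0, map_zero, zero_pow hp.ne_zero] at hk
      exact pow_ne_zero 2 hκv0 hk.symm
    obtain ⟨n, hn⟩ := hS1 _ (hTS k) hx0
    rw [hn, hκm, ← zpow_natCast (v (2 : F) ^ n), ← zpow_mul, ← pow_mul, ← zpow_natCast] at hk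
    have hinj := zpow_right_injective₀ h2pos h2.ne hk
    apply hpm
    have h3 : (p : ℤ) ∣ ((m * 2 : ℕ) : ℤ) := ⟨n, by rw [← hinj]; ring⟩
    rw [mul_comm 2 m]
    exact_mod_cast h3

end Fermat.Agent.S13Lib.NoFixed
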