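import Mathlib
import Fermat.Agent.S05
import Fermat.Agent.FrobLib2
import Fermat.Agent.S13Lib.Iface
import Fermat.Agent.S13Lib.NodeTwo
import Fermat.Agent.S13Lib.NoFixed
import Fermat.Agent.S13Lib.E1Two
import Fermat.Agent.S13Lib.FreyTwo

/-!
# S13, (ID2): the Frey curve has no rational point of order `p`

* `Val2`: valuations of rational numbers at a valuation ring above `2`: integral powers of
  `v 2`; two rational units are congruent modulo the maximal ideal.
* `iD2`: `Iface.ID2 P`.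
-/

set_option autoImplicit false
set_option linter.unusedSectionVars false

namespace Fermat.Agent.S13Lib.NoRat

open WeierstrassCurve Fermat.Agent.S51Lib.Pts Fermat.Agent.S05Lib

section Val2

variable {K : Type*} [Field K] [CharZero K] (A : ValuationSubring K)

theorem val_two_lt_one (hA : ((2 : ℕ) : K) ∈ A.nonunits) : A.valuation (2 : K) < 1 := by
  have h := A.mem_nonunits_iff.1 hA
  simpa using h

theorem val_two_ne_zero : A.valuation (2 : K) ≠ 0 :=
  (A.valuation.ne_zero_iff).mpr two_ne_zero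

theorem val_int_of_odd (hA : ((2 : ℕ) : K) ∈ A.nonunits) {n : ℤ} (hn : ¬ (2 : ℤ) ∣ n) :
    A.valuation (n : K) = 1 :=
  Fermat.Agent.S05.val_eq_one_of_not_dvd A Nat.prime_two hA (by exact_mod_cast hn)

theorem val_int_of_even (hA : ((2 : ℕ) : K) ∈ A.nonunits) {n : ℤ} (hn : (2 : ℤ) ∣ n) :
    A.valuation (n : K) < 1 :=
  Fermat.Agent.S05.val_lt_one_of_dvd A hA (by exact_mod_cast hn)

/-- The valuation of a nonzero natural number is a power of `v 2`. -/
theorem exists_val_nat (hA : ((2 : ℕ) : K) ∈ A.nonunits) {n : ℕ} (hn : n ≠ 0) :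
    ∃ s : ℕ, A.valuation (n : K) = A.valuation 2 ^ s := by
  obtain ⟨s, m, hm, rfl⟩ := Nat.exists_eq_two_pow_mul_odd hn
  refine ⟨s, ?_⟩
  have hm' : ¬ (2 : ℤ) ∣ (m : ℤ) := by
    intro h
    have h2 : 2 ∣ m := by exact_mod_cast h
    exact (Nat.not_even_iff_odd.mpr hm) (even_iff_two_dvd.mpr h2)
  have h1 := val_int_of_odd A hA hm'
  rw [Int.cast_natCast] at h1
  push_cast
  rw [map_mul, map_pow, h1, mul_one]

/-- The valuation of a nonzero integer is a power of `v 2`. -/
theorem exists_val_int (hA : ((2 : ℕ) : K) ∈ A.nonunits) {z : ℤ} (hz : z ≠ 0) :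
    ∃ s : ℕ, A.valuation (z : K) = A.valuation 2 ^ s := by
  obtain ⟨s, hs⟩ := exists_val_nat A hA (Int.natAbs_ne_zero.mpr hz)
  refine ⟨s, ?_⟩
  rcases Int.natAbs_eq z with h | h
  · rw [h, Int.cast_natCast, hs]
  · rw [h, Int.cast_neg, Int.cast_natCast, Valuation.map_neg, hs]

/-- The valuation of a nonzero rational number is an integral power of `v 2`. -/
theorem exists_val_rat (hA : ((2 : ℕ) : K) ∈ A.nonunits) {q : ℚ} (hq : q ≠ 0) :
    ∃ n : ℤ, A.valuation (q : K) = A.valuation 2 ^ n := by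
  obtain ⟨s, hs⟩ := exists_val_int A hA (Rat.num_ne_zero.mpr hq)
  obtain ⟨t, ht⟩ := exists_val_nat A hA q.den_ne_zero
  refine ⟨(s : ℤ) - t, ?_⟩
  rw [Rat.cast_def, map_div₀, hs, ht, zpow_sub₀ (val_two_ne_zero A), zpow_natCast, zpow_natCast]

/-- A rational number which is a unit at `2` has odd numerator and denominator. -/
theorem odd_of_val_rat_eq_one (hA : ((2 : ℕ) : K) ∈ A.nonunits) {q : ℚ}
    (hq : A.valuation (q : K) = 1) : ¬ (2 : ℤ) ∣ q.num ∧ ¬ (2 : ℤ) ∣ (q.den : ℤ) := by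
  rw [Rat.cast_def, map_div₀] at hq
  have hden0 : A.valuation ((q.den : ℕ) : K) ≠ 0 :=
    (A.valuation.ne_zero_iff).mpr (Nat.cast_ne_zero.mpr q.den_ne_zero)
  have heq : A.valuation (q.num : K) = A.valuation ((q.den : ℕ) : K) := by
    rw [div_eq_one_iff_eq hden0] at hq
    exact hq
  have hcop : ¬ ((2 : ℤ) ∣ q.num ∧ (2 : ℤ) ∣ (q.den : ℤ)) := by
    rintro ⟨h1, h2⟩
    have h3 : (2 : ℕ) ∣ q.num.natAbs := by
      have := Int.natAbs_dvd_natAbs.mpr h1
      simpa using this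
    have h4 : (2 : ℕ) ∣ q.den := by exact_mod_cast h2
    have h5 := Nat.dvd_gcd h3 h4
    rw [q.reduced] at h5
    omega
  by_cases hd : (2 : ℤ) ∣ (q.den : ℤ)
  · exfalso
    have hn : ¬ (2 : ℤ) ∣ q.num := fun h => hcop ⟨h, hd⟩
    have h1 := val_int_of_odd A hA hn
    have h2 := val_int_of_even A hA hd
    rw [Int.cast_natCast] at h2
    rw [heq] at h1
    exact h2.ne h1
  · refine ⟨?_, hd⟩
    intro hn
    have h1 := val_int_of_even A hA hn
    have h2 := val_int_of_odd A hA hd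
    rw [Int.cast_natCast] at h2
    rw [heq, h2] at h1
    exact lt_irrefl _ h1

/-- Two rational numbers which are units at `2` are congruent modulo the maximal ideal. -/
theorem val_sub_rat_lt_one (hA : ((2 : ℕ) : K) ∈ A.nonunits) {q r : ℚ}
    (hq : A.valuation (q : K) = 1) (hr : A.valuation (r : K) = 1) :
    A.valuation ((q : K) - (r : K)) < 1 := by
  obtain ⟨hqn, hqd⟩ := odd_of_val_rat_eq_one A hA hq
  obtain ⟨hrn, hrd⟩ := odd_of_val_rat_eq_one A hA hr
  have hqd0 : ((q.den : ℕ) : K) ≠ 0 := Nat.cast_ne_zero.mpr q.den_ne_zero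
  have hrd0 : ((r.den : ℕ) : K) ≠ 0 := Nat.cast_ne_zero.mpr r.den_ne_zero
  have e : (q : K) - (r : K)
      = ((q.num * (r.den : ℤ) - r.num * (q.den : ℤ) : ℤ) : K) / (((q.den : ℤ) * (r.den : ℤ) : ℤ) : K) := by
    rw [Rat.cast_def q, Rat.cast_def r]
    push_cast
    field_simp
  have hodd : ∀ z : ℤ, ¬ (2 : ℤ) ∣ z → Odd z := fun z hz =>
    Int.not_even_iff_odd.mp (fun h => hz (even_iff_two_dvd.mp h))
  have hnum : (2 : ℤ) ∣ q.num * (r.den : ℤ) - r.num * (q.den : ℤ) :=
    even_iff_two_dvd.mp (((hodd _ hqn).mul (hodd _ hrd)).sub_odd ((hodd _ hrn).mul (hodd _ hqd)))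
  have hden : ¬ (2 : ℤ) ∣ (q.den : ℤ) * (r.den : ℤ) := fun h =>
    (Int.prime_two.dvd_or_dvd h).elim hqd hrd
  rw [e, map_div₀, val_int_of_odd A hA hden, div_one]
  exact val_int_of_even A hA hnum

end Val2

section Main

open Fermat.Agent.S13Lib.Iface FreyPackage

variable (P : FreyPackage)

/-- the exact valuation of `κ = -a^p b^p / 16` at a valuation ring above `2` -/
theorem exists_val_kappa {K : Type*} [Field K] [CharZero K] (A : ValuationSubring K)
    (hA : ((2 : ℕ) : K) ∈ A.nonunits) :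
    ∃ m : ℕ, A.valuation (-((P.a : K) ^ P.p * (P.b : K) ^ P.p) / 16) = A.valuation 2 ^ m ∧
      ¬ P.p ∣ 2 * m := by
  obtain ⟨t, ht⟩ := exists_val_int A hA P.hb0
  have ha : A.valuation (P.a : K) = 1 := val_int_of_odd A hA (FreyTwo.not_two_dvd_a P)
  have hb : A.valuation (P.b : K) < 1 := val_int_of_even A hA (FreyTwo.two_dvd_b P)
  have ht1 : 1 ≤ t := by
    by_contra h
    have h0 : t = 0 := by omega
    rw [h0, pow_zero] at ht
    rw [ht] at hb
    exact lt_irrefl _ hb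
  have h16 : A.valuation (16 : K) = A.valuation 2 ^ 4 := by
    rw [← map_pow]
    norm_num
  have hp5 := P.hp5
  have hge : 5 ≤ t * P.p := le_trans hp5 (Nat.le_mul_of_pos_left _ ht1)
  refine ⟨t * P.p - 4, ?_, ?_⟩
  · rw [map_div₀, Valuation.map_neg, map_mul, map_pow, map_pow, ha, one_pow, one_mul, ht, h16,
      ← pow_mul, div_eq_iff (pow_ne_zero 4 (val_two_ne_zero A)), ← pow_add]
    congr 1
    omega
  · intro hd
    have h1 : P.p ∣ 2 * (t * P.p - 4) + 8 := by
      have h2 : 2 * (t * P.p - 4) + 8 = (2 * t) * P.p := by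
        have h3 : 2 * (t * P.p - 4) + 8 = 2 * (t * P.p) := by omega
        rw [h3]
        ring
      rw [h2]
      exact Dvd.intro_left _ rfl
    have h8 : P.p ∣ 2 ^ 3 := (Nat.dvd_add_right hd).mp h1
    have h2 := Nat.le_of_dvd (by norm_num) (P.pp.dvd_of_dvd_pow h8)
    omega

/-- **(ID2)**: the Frey curve has no point of order `p` fixed by the whole Galois group. -/
theorem iD2 : Iface.ID2 P := by
  intro T hT
  obtain ⟨A, hA⟩ := Fermat.Agent.FrobLib2.exists_liesOverPrime Nat.prime_two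
  have hA' : ((2 : ℕ) : Qb) ∈ A.nonunits := hA
  have hGal := Fermat.Agent.FrobLib2.isGalois_algebraicClosure_rat
  have hK := FreyTwo.isKummer_zero (K := Qb) P
  have h2 := FreyTwo.val_two_lt_one (K := Qb) hA'
  have hβ := FreyTwo.val_beta_eq_one (K := Qb) P hA'
  have hκ := FreyTwo.val_kappa_lt_one (K := Qb) P hA'
  have hκ0 := FreyTwo.kappa_ne_zero (K := Qb) P
  have hpv := FreyTwo.val_p_eq_one (K := Qb) P hA'
  obtain ⟨m, hκm, hpm⟩ := exists_val_kappa P A hA'
  have hpT : P.p • (T : (P.freyCurve⁄Qb).toAffine.Point) = 0 := by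
    have h := T.2
    rw [Submodule.mem_torsionBy_iff] at h
    rwa [natCast_zsmul] at h
  have hfix : ∀ σ : Gal, σ • (T : (P.freyCurve⁄Qb).toAffine.Point) = T := fun σ =>
    congrArg Subtype.val (hT σ)
  have hTS : ∀ k : ℕ, Kummer.xi (P.freyCurve⁄Qb) 0 (k • (T : (P.freyCurve⁄Qb).toAffine.Point))
      ∈ Set.range (algebraMap ℚ Qb) := by
    intro k
    have hk : ∀ σ : Gal, σ • (k • (T : (P.freyCurve⁄Qb).toAffine.Point))
        = k • (T : (P.freyCurve⁄Qb).toAffine.Point) := fun σ => by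
      rw [Fermat.Agent.S05Lib.Assembly.gal_smul_nsmul, hfix σ]
    generalize k • (T : (P.freyCurve⁄Qb).toAffine.Point) = Q at hk
    rcases Q with _ | ⟨x, y, hxy⟩
    · exact ⟨0, by rw [map_zero]; rfl⟩
    · have hx : ∀ σ : Gal, σ x = x := fun σ => by
        have h := hk σ
        obtain ⟨h', e⟩ := Inertia.smul_some P.freyCurve σ hxy
        rw [e] at h
        injection h
      rw [Kummer.xi_some, sub_zero]
      exact (InfiniteGalois.mem_range_algebraMap_iff_fixed x).2 hx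
  have hT0 : (T : (P.freyCurve⁄Qb).toAffine.Point) = 0 := by
    refine NoFixed.eq_zero_of_rational A.valuation hK h2 hβ hκ hκ0 P.pp P.hp5
      (Set.range (algebraMap ℚ Qb)) ?_ ?_ hκm hpm ?_ hpT hTS
    · rintro _ ⟨q, rfl⟩ hq
      rw [eq_ratCast] at hq ⊢
      exact exists_val_rat A hA' (fun h0 => hq (by rw [h0, Rat.cast_zero]))
    · rintro _ ⟨q, rfl⟩ _ ⟨r, rfl⟩ hq hr
      rw [eq_ratCast] at hq hr ⊢
      exact val_sub_rat_lt_one A hA' hq hr
    · intro Q hQ hpQ
      have hmem : Q ∈ E1Two.ker A.valuation hK hβ.le hκ.le := Or.inr hQ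
      have hQ0 := E1Two.eq_zero_of_mem_ker A.valuation hK hβ.le hκ.le hpv hmem hpQ
      rw [hQ0, hK.zero, map_zero] at hQ
      exact not_lt_of_gt hQ zero_lt_one
  exact Subtype.ext hT0

end Main

end Fermat.Agent.S13Lib.NoRat
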