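import Mathlib
import Fermat.Agent.S05Lib.Kummer
import Fermat.Agent.S13Lib.GenDefs

/-!
# S13 (A1): the generic point of a Weierstrass curve over its function field

For a Weierstrass curve `W` with nonzero discriminant over an algebraically closed field `k` of
characteristic zero we construct the generic Kummer datum `GenDefs.GenKummer`:

* `K = W.toAffine.FunctionField`, the generic point `Pg = (xg, yg)` of `W` over `K`;
* `w0`, the valuation at infinity of `K` (degree of the norm to `k[X]`), trivial on `k`, with
  `w0 (xg - c) = ex 2`;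
* for every point `Q` of `W` over `k` a `k`-embedding `phi Q : K → K` with
  `phi Q (Pg) = Pg + Q` (evaluation at the point `Pg + Q`, whose abscissa is not constant), and
  the valuation `wQ Q = w0 ∘ phi Q`.

Main results: `genKummer` and its existential form `exists_genKummer`.
-/

set_option autoImplicit false

noncomputable section

namespace Fermat.Agent.S13Lib.GenPoint

open WeierstrassCurve Polynomial Fermat.Agent.S05Lib Fermat.Agent.S13Lib.GenDefs
open Fermat.Agent.S51Lib.Pts
open scoped Polynomial.Bivariate

/-! ### The value group -/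

theorem ex_zero : ex 0 = 1 := rfl

theorem ex_add (a b : ℤ) : ex (a + b) = ex a * ex b := by
  simp [ex, ofAdd_add, WithZero.coe_mul]

theorem ex_le_ex {a b : ℤ} : ex a ≤ ex b ↔ a ≤ b := by
  simp [ex]

theorem ex_ne_zero (a : ℤ) : ex a ≠ 0 := WithZero.coe_ne_zero

/-- The map `⊥ ↦ 0`, `n ↦ ex n` from degrees to the value group. -/
def toVal (d : WithBot ℕ) : WithZero (Multiplicative ℤ) :=
  WithBot.recBotCoe 0 (fun n : ℕ => ex (n : ℤ)) d

@[simp] theorem toVal_bot : toVal ⊥ = 0 := rfl

@[simp] theorem toVal_some (n : ℕ) : toVal (WithBot.some n) = ex (n : ℤ) := rfl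

@[simp] theorem toVal_coe (n : ℕ) : toVal (n : WithBot ℕ) = ex (n : ℤ) := rfl

theorem toVal_add (a b : WithBot ℕ) : toVal (a + b) = toVal a * toVal b := by
  induction a using WithBot.recBotCoe with
  | bot => simp
  | coe a =>
    induction b using WithBot.recBotCoe with
    | bot => simp
    | coe b =>
      rw [← WithBot.coe_add, toVal_some, toVal_some, toVal_some, Nat.cast_add, ex_add]

theorem toVal_mono : Monotone toVal := by
  intro a b hab
  induction a using WithBot.recBotCoe with
  | bot => simp
  | coe a =>
    induction b using WithBot.recBotCoe with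
    | bot => exact absurd hab (by simp)
    | coe b =>
      rw [toVal_some, toVal_some, ex_le_ex]
      exact_mod_cast WithBot.coe_le_coe.mp hab

universe u

variable {k : Type u} [Field k] (W : WeierstrassCurve k)

/-! ### The degree of the norm on the coordinate ring -/

/-- The degree of the norm to `k[X]` (= the pole order at infinity). -/
def degN (f : W.toAffine.CoordinateRing) : WithBot ℕ := (Algebra.norm k[X] f).degree

theorem degN_smul_basis (p q : k[X]) :
    degN W (p • (1 : W.toAffine.CoordinateRing) + q • Affine.CoordinateRing.mk W.toAffine Y)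
      = max (2 • p.degree) (2 • q.degree + 3) :=
  Affine.CoordinateRing.degree_norm_smul_basis p q

theorem degN_mul (f g : W.toAffine.CoordinateRing) : degN W (f * g) = degN W f + degN W g := by
  rw [degN, map_mul, degree_mul]
  rfl

theorem degN_one : degN W 1 = 0 := by
  rw [degN, map_one, degree_one]

theorem degN_zero : degN W 0 = ⊥ := by
  have h := degN_smul_basis W 0 0
  simpa using h

theorem degN_eq_bot {f : W.toAffine.CoordinateRing} (h : degN W f = ⊥) : f = 0 := by
  obtain ⟨p, q, rfl⟩ := Affine.CoordinateRing.exists_smul_basis_eq f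
  rw [degN_smul_basis, max_eq_bot] at h
  have hp : p = 0 := by
    have h1 := h.1
    rw [two_nsmul, WithBot.add_eq_bot, or_self] at h1
    exact degree_eq_bot.mp h1
  have hq : q = 0 := by
    have h2 := h.2
    rw [WithBot.add_eq_bot, two_nsmul, WithBot.add_eq_bot, or_self] at h2
    rcases h2 with h2 | h2
    · exact degree_eq_bot.mp h2
    · exact absurd h2 (by decide)
  rw [hp, hq, zero_smul, zero_smul, add_zero]

theorem degN_add_le (f g : W.toAffine.CoordinateRing) :
    degN W (f + g) ≤ max (degN W f) (degN W g) := by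
  obtain ⟨p, q, rfl⟩ := Affine.CoordinateRing.exists_smul_basis_eq f
  obtain ⟨p', q', rfl⟩ := Affine.CoordinateRing.exists_smul_basis_eq g
  have e : (p • (1 : W.toAffine.CoordinateRing) + q • Affine.CoordinateRing.mk W.toAffine Y)
      + (p' • (1 : W.toAffine.CoordinateRing) + q' • Affine.CoordinateRing.mk W.toAffine Y)
      = (p + p') • (1 : W.toAffine.CoordinateRing)
        + (q + q') • Affine.CoordinateRing.mk W.toAffine Y := by
    rw [add_smul, add_smul]
    abel
  rw [e, degN_smul_basis, degN_smul_basis, degN_smul_basis]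
  have key : ∀ a b c : WithBot ℕ, c ≤ max a b → 2 • c ≤ max (2 • a) (2 • b) := by
    intro a b c h
    rcases le_total a b with hab | hab
    · exact (nsmul_le_nsmul_right (h.trans (max_le hab le_rfl)) 2).trans (le_max_right _ _)
    · exact (nsmul_le_nsmul_right (h.trans (max_le le_rfl hab)) 2).trans (le_max_left _ _)
  apply max_le
  · exact (key _ _ _ (degree_add_le p p')).trans
      (max_le_max (le_max_left _ _) (le_max_left _ _))
  · have h2 := key _ _ _ (degree_add_le q q')
    have h3 : 2 • (q + q').degree + 3 ≤ max (2 • q.degree + 3) (2 • q'.degree + 3) := by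
      rcases le_max_iff.mp h2 with h | h
      · exact (add_le_add h le_rfl).trans (le_max_left _ _)
      · exact (add_le_add h le_rfl).trans (le_max_right _ _)
    exact h3.trans (max_le_max (le_max_right _ _) (le_max_right _ _))

/-! ### The valuation at infinity -/

/-- The valuation at infinity on the coordinate ring. -/
def v0 : Valuation W.toAffine.CoordinateRing (WithZero (Multiplicative ℤ)) where
  toFun f := toVal (degN W f)
  map_zero' := by rw [degN_zero]; rfl
  map_one' := by
    rw [degN_one]
    exact (toVal_coe 0).trans ex_zero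
  map_mul' f g := by rw [degN_mul, toVal_add]
  map_add_le_max' f g :=
    (toVal_mono (degN_add_le W f g)).trans (le_of_eq (toVal_mono.map_max))

theorem v0_apply (f : W.toAffine.CoordinateRing) : v0 W f = toVal (degN W f) := rfl

theorem v0_ne_zero {f : W.toAffine.CoordinateRing} (hf : f ≠ 0) : v0 W f ≠ 0 := by
  rw [v0_apply]
  intro h
  apply hf
  apply degN_eq_bot W
  revert h
  generalize degN W f = d
  induction d using WithBot.recBotCoe with
  | bot => intro _; rfl
  | coe n => intro h; exact absurd h (ex_ne_zero _)

/-- The valuation at infinity on the function field. -/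
def w0 : Valuation W.toAffine.FunctionField (WithZero (Multiplicative ℤ)) :=
  (v0 W).extendToLocalization (S := nonZeroDivisors W.toAffine.CoordinateRing)
    (fun s hs => by
      have hs0 : s ≠ 0 := nonZeroDivisors.ne_zero hs
      exact fun h => v0_ne_zero W hs0 h)
    W.toAffine.FunctionField

theorem w0_algebraMap (f : W.toAffine.CoordinateRing) :
    w0 W (algebraMap W.toAffine.CoordinateRing W.toAffine.FunctionField f) = v0 W f :=
  Valuation.extendToLocalization_apply_map_apply _ _ _ f

/-! ### The generic point -/

/-- the abscissa function in the coordinate ring -/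
def xc : W.toAffine.CoordinateRing := Affine.CoordinateRing.mk W.toAffine (C X)

/-- the ordinate function in the coordinate ring -/
def yc : W.toAffine.CoordinateRing := Affine.CoordinateRing.mk W.toAffine Y

theorem algebraMap_cr (c : k) :
    algebraMap k W.toAffine.CoordinateRing c = Affine.CoordinateRing.mk W.toAffine (C (C c)) := by
  rw [AdjoinRoot.algebraMap_eq']
  rfl

theorem eqn_c : yc W ^ 2 + algebraMap k W.toAffine.CoordinateRing W.a₁ * xc W * yc W
      + algebraMap k W.toAffine.CoordinateRing W.a₃ * yc W
    = xc W ^ 3 + algebraMap k W.toAffine.CoordinateRing W.a₂ * xc W ^ 2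
      + algebraMap k W.toAffine.CoordinateRing W.a₄ * xc W
      + algebraMap k W.toAffine.CoordinateRing W.a₆ := by
  have h : Affine.CoordinateRing.mk W.toAffine
      (Y ^ 2 + C (C W.a₁ * X + C W.a₃) * Y - C (X ^ 3 + C W.a₂ * X ^ 2 + C W.a₄ * X + C W.a₆))
      = 0 := AdjoinRoot.mk_self
  simp only [map_add, map_sub, map_mul, map_pow] at h
  simp only [algebraMap_cr, xc, yc]
  linear_combination h

theorem xc_sub (c : k) : xc W - algebraMap k W.toAffine.CoordinateRing c
    = (X - C c : k[X]) • (1 : W.toAffine.CoordinateRing)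
      + (0 : k[X]) • Affine.CoordinateRing.mk W.toAffine Y := by
  rw [zero_smul, add_zero, Affine.CoordinateRing.smul, mul_one, algebraMap_cr, xc, ← map_sub,
    C_sub]

theorem degN_xc_sub (c : k) : degN W (xc W - algebraMap k W.toAffine.CoordinateRing c) = 2 := by
  rw [xc_sub, degN_smul_basis, degree_X_sub_C, degree_zero]
  rfl

theorem algebraMap_cr' (c : k) : algebraMap k W.toAffine.CoordinateRing c
    = (C c : k[X]) • (1 : W.toAffine.CoordinateRing)
      + (0 : k[X]) • Affine.CoordinateRing.mk W.toAffine Y := by
  rw [zero_smul, add_zero, Affine.CoordinateRing.smul, mul_one, algebraMap_cr]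

theorem degN_algebraMap {c : k} (hc : c ≠ 0) :
    degN W (algebraMap k W.toAffine.CoordinateRing c) = 0 := by
  rw [algebraMap_cr', degN_smul_basis, degree_C hc, degree_zero]
  rfl

/-- the generic abscissa -/
def xg : W.toAffine.FunctionField := algebraMap W.toAffine.CoordinateRing _ (xc W)

/-- the generic ordinate -/
def yg : W.toAffine.FunctionField := algebraMap W.toAffine.CoordinateRing _ (yc W)

theorem w0_const {c : k} (hc : c ≠ 0) :
    w0 W (algebraMap k W.toAffine.FunctionField c) = 1 := by
  rw [IsScalarTower.algebraMap_apply k W.toAffine.CoordinateRing W.toAffine.FunctionField,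
    w0_algebraMap, v0_apply, degN_algebraMap W hc]
  rfl

theorem w0_xg_sub (c : k) :
    w0 W (xg W - algebraMap k W.toAffine.FunctionField c) = ex 2 := by
  rw [IsScalarTower.algebraMap_apply k W.toAffine.CoordinateRing W.toAffine.FunctionField, xg,
    ← map_sub, w0_algebraMap, v0_apply, degN_xc_sub]
  rfl

theorem xg_ne (c : k) : xg W ≠ algebraMap k W.toAffine.FunctionField c := by
  intro h
  have h2 := w0_xg_sub W c
  rw [h, sub_self, map_zero] at h2
  exact ex_ne_zero 2 h2.symm

theorem equation_gen :
    (W.baseChange W.toAffine.FunctionField).toAffine.Equation (xg W) (yg W) := by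
  rw [Affine.equation_iff]
  have h := congrArg (algebraMap W.toAffine.CoordinateRing W.toAffine.FunctionField) (eqn_c W)
  simp only [map_add, map_mul, map_pow, ← IsScalarTower.algebraMap_apply] at h
  simpa [WeierstrassCurve.baseChange, xg, yg] using h

/-! ### Evaluation at a point over an extension field -/

theorem mem_range_of_aeval_eq_zero [IsAlgClosed k] {L : Type*} [Field L] [Algebra k L] (x : L)
    (N : k[X]) (hN : N ≠ 0) (h : aeval x N = 0) : ∃ c : k, x = algebraMap k L c := by
  have halg : IsAlgebraic k x := ⟨N, hN, h⟩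
  have hint : IsIntegral k x := halg.isIntegral
  have hdeg : (minpoly k x).degree = 1 :=
    IsAlgClosed.degree_eq_one_of_irreducible k (minpoly.irreducible hint)
  obtain ⟨c, hc⟩ := minpoly.mem_range_of_degree_eq_one k x hdeg
  exact ⟨c, hc.symm⟩

section Eval

variable {L : Type*} [Field L] [Algebra k L]

theorem eval₂_polynomial {x' y' : L} (h : (W.baseChange L).toAffine.Equation x' y') :
    W.toAffine.polynomial.eval₂ ((aeval x' : k[X] →ₐ[k] L) : k[X] →+* L) y' = 0 := by
  rw [Affine.equation_iff] at h
  have hp : W.toAffine.polynomial = Y ^ 2 + C (C W.a₁ * X + C W.a₃) * Y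
      - C (X ^ 3 + C W.a₂ * X ^ 2 + C W.a₄ * X + C W.a₆) := rfl
  rw [hp]
  simp only [eval₂_add, eval₂_sub, eval₂_mul, eval₂_pow, eval₂_X, eval₂_C, AlgHom.coe_toRingHom,
    map_add, map_mul, map_pow, aeval_X, aeval_C]
  simp only [WeierstrassCurve.baseChange, WeierstrassCurve.map_a₁, WeierstrassCurve.map_a₂,
    WeierstrassCurve.map_a₃, WeierstrassCurve.map_a₄, WeierstrassCurve.map_a₆] at h
  linear_combination h

/-- evaluation of the coordinate ring at a point over an extension field -/
def evc {x' y' : L} (h : (W.baseChange L).toAffine.Equation x' y') :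
    W.toAffine.CoordinateRing →ₐ[k] L :=
  AdjoinRoot.liftAlgHom W.toAffine.polynomial (aeval x' : k[X] →ₐ[k] L) y' (eval₂_polynomial W h)

theorem evc_mk {x' y' : L} (h : (W.baseChange L).toAffine.Equation x' y') (g : k[X][Y]) :
    evc W h (Affine.CoordinateRing.mk W.toAffine g)
      = g.eval₂ ((aeval x' : k[X] →ₐ[k] L) : k[X] →+* L) y' := rfl

theorem evc_xc {x' y' : L} (h : (W.baseChange L).toAffine.Equation x' y') :
    evc W h (xc W) = x' := by
  rw [xc, evc_mk, eval₂_C]
  simp

theorem evc_yc {x' y' : L} (h : (W.baseChange L).toAffine.Equation x' y') :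
    evc W h (yc W) = y' := by
  rw [yc, evc_mk, eval₂_X]

theorem evc_injective [IsAlgClosed k] {x' y' : L} (h : (W.baseChange L).toAffine.Equation x' y')
    (hx : ∀ c : k, x' ≠ algebraMap k L c) : Function.Injective (evc W h) := by
  rw [injective_iff_map_eq_zero]
  intro f hf
  by_contra hne
  obtain ⟨p, q, rfl⟩ := Affine.CoordinateRing.exists_smul_basis_eq f
  have hN : Algebra.norm k[X] (p • (1 : W.toAffine.CoordinateRing)
      + q • Affine.CoordinateRing.mk W.toAffine Y) ≠ 0 := by
    intro h0
    apply hne
    apply degN_eq_bot W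
    rw [degN, h0, degree_zero]
  have h1 := Affine.CoordinateRing.coe_norm_smul_basis (W' := W.toAffine) p q
  have h2 := congrArg (evc W h) h1
  have h3 : evc W h (AdjoinRoot.of W.toAffine.polynomial
      (Algebra.norm k[X] (p • (1 : W.toAffine.CoordinateRing)
        + q • Affine.CoordinateRing.mk W.toAffine Y)))
      = aeval x' (Algebra.norm k[X] (p • (1 : W.toAffine.CoordinateRing)
        + q • Affine.CoordinateRing.mk W.toAffine Y)) :=
    AdjoinRoot.liftAlgHom_of _ _ _ _ _
  have h4 : evc W h (p • (1 : W.toAffine.CoordinateRing)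
      + q • Affine.CoordinateRing.mk W.toAffine Y) = aeval x' p + aeval x' q * y' := by
    rw [Affine.CoordinateRing.smul, Affine.CoordinateRing.smul, mul_one, ← map_mul, ← map_add,
      evc_mk]
    simp
  rw [h4] at hf
  rw [h3, evc_mk, eval₂_mul] at h2
  have h5 : eval₂ ((aeval x' : k[X] →ₐ[k] L) : k[X] →+* L) y' (C p + C q * (X : k[X][Y]))
      = aeval x' p + aeval x' q * y' := by
    simp
  rw [h5, hf, zero_mul] at h2
  obtain ⟨c, hc⟩ := mem_range_of_aeval_eq_zero x' _ hN h2
  exact hx c hc

/-- evaluation of the function field at a point with non-constant abscissa -/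
def evK [IsAlgClosed k] {x' y' : L} (h : (W.baseChange L).toAffine.Equation x' y')
    (hx : ∀ c : k, x' ≠ algebraMap k L c) : W.toAffine.FunctionField →ₐ[k] L :=
  IsFractionRing.liftAlgHom (evc_injective W h hx)

theorem evK_xg [IsAlgClosed k] {x' y' : L} (h : (W.baseChange L).toAffine.Equation x' y')
    (hx : ∀ c : k, x' ≠ algebraMap k L c) : evK W h hx (xg W) = x' := by
  rw [evK, IsFractionRing.liftAlgHom_apply, xg, IsFractionRing.lift_algebraMap]
  exact evc_xc W h

theorem evK_yg [IsAlgClosed k] {x' y' : L} (h : (W.baseChange L).toAffine.Equation x' y')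
    (hx : ∀ c : k, x' ≠ algebraMap k L c) : evK W h hx (yg W) = y' := by
  rw [evK, IsFractionRing.liftAlgHom_apply, yg, IsFractionRing.lift_algebraMap]
  exact evc_yc W h

end Eval

/-! ### Points over the function field -/

/-- classical decidable equality on the function field -/
@[reducible] def decK : DecidableEq W.toAffine.FunctionField := Classical.decEq _

attribute [local instance] decK

theorem some_congr {F : Type*} [Field F] {V : WeierstrassCurve F} {x y x' y' : F}
    (h : V.toAffine.Nonsingular x y) (h' : V.toAffine.Nonsingular x' y') (hx : x = x')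
    (hy : y = y') : Affine.Point.some x y h = Affine.Point.some x' y' h' := by
  subst hx hy
  rfl

theorem nonsingular_gen (hΔ : W.Δ ≠ 0) :
    (W.baseChange W.toAffine.FunctionField).toAffine.Nonsingular (xg W) (yg W) := by
  refine (Affine.equation_iff_nonsingular_of_Δ_ne_zero ?_).mp (equation_gen W)
  rw [WeierstrassCurve.baseChange, WeierstrassCurve.map_Δ]
  exact (_root_.map_ne_zero _).mpr hΔ

/-- the generic point -/
def Pg (hΔ : W.Δ ≠ 0) : (W.baseChange W.toAffine.FunctionField).toAffine.Point :=
  Affine.Point.some (xg W) (yg W) (nonsingular_gen W hΔ)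

section Pts

variable [DecidableEq k]

/-- base change of points to the function field -/
def iota : W.toAffine.Point →+ (W.baseChange W.toAffine.FunctionField).toAffine.Point :=
  Affine.Point.map (W' := W.toAffine) (S := k) (F := k) (K := W.toAffine.FunctionField)
    (Algebra.ofId k W.toAffine.FunctionField)

theorem iota_injective : Function.Injective (iota W) :=
  Affine.Point.map_injective (W' := W.toAffine) (S := k) (F := k) (K := W.toAffine.FunctionField)
    (Algebra.ofId k W.toAffine.FunctionField)

theorem iota_some {x y : k} (h : W.toAffine.Nonsingular x y) :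
    ∃ h', iota W (Affine.Point.some x y h)
      = Affine.Point.some (algebraMap k W.toAffine.FunctionField x)
          (algebraMap k W.toAffine.FunctionField y) h' :=
  ⟨_, rfl⟩

theorem map_iota (φ : W.toAffine.FunctionField →ₐ[k] W.toAffine.FunctionField)
    (Q : W.toAffine.Point) :
    Affine.Point.map (W' := W.toAffine) (S := k) φ (iota W Q) = iota W Q :=
  Affine.Point.map_baseChange (W' := W.toAffine) (F := k) φ Q

omit [DecidableEq k] in
theorem algHom_xi (e : k) (φ : W.toAffine.FunctionField →ₐ[k] W.toAffine.FunctionField)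
    (P : (W.baseChange W.toAffine.FunctionField).toAffine.Point) :
    φ (Kummer.xi (W.baseChange W.toAffine.FunctionField)
        (algebraMap k W.toAffine.FunctionField e) P)
      = Kummer.xi (W.baseChange W.toAffine.FunctionField)
        (algebraMap k W.toAffine.FunctionField e)
        (Affine.Point.map (W' := W.toAffine) (S := k) φ P) := by
  rcases P with _ | ⟨x, y, h⟩
  · exact map_zero φ
  · rw [Affine.Point.map_some, Kummer.xi_some, Kummer.xi_some, map_sub, AlgHom.commutes]

theorem Pg_not_mem_range (hΔ : W.Δ ≠ 0) : Pg W hΔ ∉ Set.range (iota W) := by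
  rintro ⟨Q, hQ⟩
  rcases Q with _ | ⟨c, d, h⟩
  · exact Affine.Point.some_ne_zero _ hQ.symm
  · obtain ⟨h', hh'⟩ := iota_some W h
    rw [hh', Pg] at hQ
    injection hQ with h1 h2
    exact xg_ne W c h1.symm

theorem exists_algHom_of_not_mem_range [IsAlgClosed k] (hΔ : W.Δ ≠ 0)
    (R : (W.baseChange W.toAffine.FunctionField).toAffine.Point)
    (hR : R ∉ Set.range (iota W)) :
    ∃ φ : W.toAffine.FunctionField →ₐ[k] W.toAffine.FunctionField,
      Affine.Point.map (W' := W.toAffine) (S := k) φ (Pg W hΔ) = R := by
  rcases R with _ | ⟨x', y', h⟩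
  · exact absurd ⟨0, map_zero _⟩ hR
  · have hx : ∀ c : k, x' ≠ algebraMap k W.toAffine.FunctionField c := by
      intro c hc
      apply hR
      have hy : ∃ d : k, y' = algebraMap k W.toAffine.FunctionField d := by
        apply mem_range_of_aeval_eq_zero y'
          (C (1 : k) * X ^ 2 + C (W.a₁ * c + W.a₃) * X
            + C (-(c ^ 3 + W.a₂ * c ^ 2 + W.a₄ * c + W.a₆)))
        · intro h0
          have hdeg : (C (1 : k) * X ^ 2 + C (W.a₁ * c + W.a₃) * X
            + C (-(c ^ 3 + W.a₂ * c ^ 2 + W.a₄ * c + W.a₆))).degree = 2 :=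
            degree_quadratic one_ne_zero
          rw [h0, degree_zero] at hdeg
          exact absurd hdeg (by decide)
        · have he := h.1
          rw [Affine.equation_iff] at he
          simp only [WeierstrassCurve.baseChange, WeierstrassCurve.map_a₁,
            WeierstrassCurve.map_a₂, WeierstrassCurve.map_a₃, WeierstrassCurve.map_a₄,
            WeierstrassCurve.map_a₆, hc] at he
          simp only [map_add, map_mul, map_pow, map_neg, map_one, aeval_X, aeval_C]
          linear_combination he
      obtain ⟨d, hd⟩ := hy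
      subst hc hd
      have h' : W.toAffine.Nonsingular c d :=
        (Affine.map_nonsingular (W := W.toAffine)
          (f := algebraMap k W.toAffine.FunctionField) (algebraMap k _).injective c d).mp h
      exact ⟨Affine.Point.some c d h', rfl⟩
    refine ⟨evK W h.1 hx, ?_⟩
    rw [Pg, Affine.Point.map_some]
    exact some_congr _ _ (evK_xg W h.1 hx) (evK_yg W h.1 hx)

theorem exists_phi [IsAlgClosed k] (hΔ : W.Δ ≠ 0) (Q : W.toAffine.Point) :
    ∃ φ : W.toAffine.FunctionField →ₐ[k] W.toAffine.FunctionField,
      Affine.Point.map (W' := W.toAffine) (S := k) φ (Pg W hΔ) = Pg W hΔ + iota W Q := by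
  apply exists_algHom_of_not_mem_range
  rintro ⟨Q', hQ'⟩
  apply Pg_not_mem_range W hΔ
  exact ⟨Q' - Q, by rw [map_sub, hQ', add_sub_cancel_right]⟩

/-- the translation embedding `φ_Q` of the function field, with `φ_Q(Pg) = Pg + Q` -/
def phi [IsAlgClosed k] (hΔ : W.Δ ≠ 0) (Q : W.toAffine.Point) :
    W.toAffine.FunctionField →ₐ[k] W.toAffine.FunctionField :=
  Classical.choose (exists_phi W hΔ Q)

theorem map_phi_Pg [IsAlgClosed k] (hΔ : W.Δ ≠ 0) (Q : W.toAffine.Point) :
    Affine.Point.map (W' := W.toAffine) (S := k) (phi W hΔ Q) (Pg W hΔ) = Pg W hΔ + iota W Q :=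
  Classical.choose_spec (exists_phi W hΔ Q)

/-- the valuation of the function field at the point `Q` -/
def wQ [IsAlgClosed k] (hΔ : W.Δ ≠ 0) (Q : W.toAffine.Point) :
    Valuation W.toAffine.FunctionField (WithZero (Multiplicative ℤ)) :=
  (w0 W).comap ((phi W hΔ Q : W.toAffine.FunctionField →ₐ[k] W.toAffine.FunctionField) :
    W.toAffine.FunctionField →+* W.toAffine.FunctionField)

theorem wQ_apply [IsAlgClosed k] (hΔ : W.Δ ≠ 0) (Q : W.toAffine.Point)
    (f : W.toAffine.FunctionField) : wQ W hΔ Q f = w0 W (phi W hΔ Q f) := rfl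

/-- **The generic Kummer datum of a Weierstrass curve** over an algebraically closed field of
characteristic zero, at a `2`-torsion abscissa `e`. -/
theorem genKummer [IsAlgClosed k] [CharZero k] (hΔ : W.Δ ≠ 0) (e β κ : k) (h6 : B6 W e = 0)
    (hβ : B2 W e = β) (hκ : B4 W e = 2 * κ) :
    GenKummer (Kummer.xi W e)
      (Kummer.xi (W.baseChange W.toAffine.FunctionField)
        (algebraMap k W.toAffine.FunctionField e)) β κ (iota W) (Pg W hΔ) (wQ W hΔ) where
  kummer₀ := Kummer.isKummer_xi W two_ne_zero e β κ h6 hβ hκ
  kummer := by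
    have h2 : (2 : W.toAffine.FunctionField) ≠ 0 := by
      rw [← map_ofNat (algebraMap k W.toAffine.FunctionField) 2]
      exact (_root_.map_ne_zero _).mpr two_ne_zero
    refine Kummer.isKummer_xi (W.baseChange W.toAffine.FunctionField) h2 _ _ _ ?_ ?_ ?_
    · rw [WeierstrassCurve.baseChange, B6_map, h6, map_zero]
    · rw [WeierstrassCurve.baseChange, B2_map, hβ]
    · rw [WeierstrassCurve.baseChange, B4_map, hκ, map_mul, map_ofNat]
  surj c := by
    obtain ⟨y, hy⟩ := exists_point W hΔ (c + e)
    exact ⟨Affine.Point.some (c + e) y hy, Affine.Point.some_ne_zero _, by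
      rw [Kummer.xi_some, add_sub_cancel_right]⟩
  ι_inj := iota_injective W
  ξ_ι Q := by
    rcases Q with _ | ⟨x, y, h⟩
    · exact (map_zero _).symm
    · obtain ⟨h', hh'⟩ := iota_some W h
      rw [hh', Kummer.xi_some, Kummer.xi_some, map_sub]
  w_const Q c hc := by
    rw [wQ_apply, AlgHom.commutes, w0_const W hc]
  w_gen Q := by
    rw [wQ_apply, algHom_xi, map_sub, map_phi_Pg, map_iota, add_sub_cancel_right, Pg,
      Kummer.xi_some, w0_xg_sub]

/-- Existential form of `genKummer`: a generic Kummer datum exists for every Weierstrass curve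
with nonzero discriminant over an algebraically closed field of characteristic zero. -/
theorem exists_genKummer [IsAlgClosed k] [CharZero k] (hΔ : W.Δ ≠ 0) (e β κ : k)
    (h6 : B6 W e = 0) (hβ : B2 W e = β) (hκ : B4 W e = 2 * κ) :
    ∃ (K : Type u) (_ : Field K) (_ : Algebra k K) (G : Type u) (_ : AddCommGroup G)
      (ξ : G → K) (ι : W.toAffine.Point →+ G) (Pg : G)
      (w : W.toAffine.Point → Valuation K (WithZero (Multiplicative ℤ))),
      GenKummer (Kummer.xi W e) ξ β κ ι Pg w :=
  ⟨W.toAffine.FunctionField, inferInstance, inferInstance, _, inferInstance, _, _, _, _,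
    genKummer W hΔ e β κ h6 hβ hκ⟩

end Pts

end Fermat.Agent.S13Lib.GenPoint
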