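import Mathlib
import Fermat.Agent.S13Lib.GenPoint

/-!
# S13 (A1): the single-valuation generic Kummer datum `GenDefs.GenK` of a Weierstrass curve

`K = W.toAffine.FunctionField`, `G` = points of `W` over `K`, `Pg = (xg, yg)` the generic point,
`w = w0` the valuation at infinity (degree of the norm to `k[X]`).
-/

set_option autoImplicit false

noncomputable section

namespace Fermat.Agent.S13Lib.GenPointK

open WeierstrassCurve Polynomial Fermat.Agent.S05Lib Fermat.Agent.S13Lib.GenDefs
open Fermat.Agent.S51Lib.Pts Fermat.Agent.S13Lib.GenPoint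

attribute [local instance] Fermat.Agent.S13Lib.GenPoint.decK

universe u

/-- **The generic Kummer datum (single-valuation form) of a Weierstrass curve** over an
algebraically closed field of characteristic zero, at a `2`-torsion abscissa `e`. -/
theorem genK {k : Type u} [Field k] [DecidableEq k] [IsAlgClosed k] [CharZero k]
    (W : WeierstrassCurve k) (hΔ : W.Δ ≠ 0) (e β κ : k) (h6 : B6 W e = 0)
    (hβ : B2 W e = β) (hκ : B4 W e = 2 * κ) :
    GenK (Kummer.xi W e)
      (Kummer.xi (W.baseChange W.toAffine.FunctionField)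
        (algebraMap k W.toAffine.FunctionField e)) β κ (iota W) (Pg W hΔ) (w0 W) where
  kummer₀ := (genKummer W hΔ e β κ h6 hβ hκ).kummer₀
  kummer := (genKummer W hΔ e β κ h6 hβ hκ).kummer
  surj := (genKummer W hΔ e β κ h6 hβ hκ).surj
  ι_inj := (genKummer W hΔ e β κ h6 hβ hκ).ι_inj
  ξ_ι := (genKummer W hΔ e β κ h6 hβ hκ).ξ_ι
  w_const _ hc := w0_const W hc
  w_gen := by
    rw [Pg, Kummer.xi_some, w0_xg_sub]

/-- Existential form of `genK`. -/
theorem exists_genK {k : Type u} [Field k] [DecidableEq k] [IsAlgClosed k] [CharZero k]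
    (W : WeierstrassCurve k) (hΔ : W.Δ ≠ 0) (e β κ : k) (h6 : B6 W e = 0)
    (hβ : B2 W e = β) (hκ : B4 W e = 2 * κ) :
    ∃ (K : Type u) (_ : Field K) (_ : Algebra k K) (G : Type u) (_ : AddCommGroup G)
      (ξ : G → K) (ι : W.toAffine.Point →+ G) (Pg : G)
      (w : Valuation K (WithZero (Multiplicative ℤ))),
      GenDefs.GenK (Kummer.xi W e) ξ β κ ι Pg w :=
  ⟨W.toAffine.FunctionField, inferInstance, inferInstance, _, inferInstance, _, _, _, _,
    genK W hΔ e β κ h6 hβ hκ⟩

end Fermat.Agent.S13Lib.GenPointK
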