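/-
S13 long shot: the table (H8') and the product formula (A3') in a generic Kummer datum `GenK`,
unconditionally (continuity = `GenVals.contHyp`), in the shapes consumed by `TorsCount`.
-/
import Mathlib
import Fermat.Agent.S13Lib.GenDefs
import Fermat.Agent.S13Lib.SumFormula
import Fermat.Agent.S13Lib.GenTable
import Fermat.Agent.S13Lib.TorsCount
import Fermat.Agent.S13Lib.GenVals

set_option autoImplicit false

namespace Fermat.Agent.S13Lib.GenTableK

open Polynomial Fermat.Agent.S05Lib Fermat.Agent.S13Lib.GenDefs Fermat.Agent.S13Lib.SumFormula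

variable {k K G₀ G : Type*} [Field k] [Field K] [Algebra k K] [AddCommGroup G₀]
  [AddCommGroup G] {ξ₀ : G₀ → k} {ξ : G → K} {β κ : k} {ι : G₀ →+ G} {Pg : G}
  {w : Valuation K (WithZero (Multiplicative ℤ))}

/-- **(H8') The table** of the valuations of `ξ (Pg + ι Q) - c`. -/
theorem table (h : GenK ξ₀ ξ β κ ι Pg w) (hκ0 : κ ≠ 0) (hdisc : β ^ 2 ≠ 64 * κ) :
    Table ξ₀ fun Q c => w (ξ (Pg + ι Q) - algebraMap k K c) :=
  GenTable.table_of_cont h hκ0 hdisc (GenVals.contHyp h)

/-- **(A3') The product formula**, in the shape of `TorsCount.ProdFormula`. -/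
theorem prodFormula [IsAlgClosed k] (h : GenK ξ₀ ξ β κ ι Pg w) (hκ0 : κ ≠ 0)
    (hdisc : β ^ 2 ≠ 64 * κ) : TorsCount.ProdFormula (k := k) ξ ι Pg w :=
  fun p hp => prodOne_aeval_gen h (table h hκ0 hdisc) p hp

end Fermat.Agent.S13Lib.GenTableK
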