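import Mathlib
import Fermat.Agent.S05Lib.Kummer
import Fermat.Agent.S13Lib.GenDefs

/-!
# S13, part A: glue between the abstract generic-Kummer theorems and Weierstrass curves

For a Weierstrass curve `W` over an algebraically closed field `k` of characteristic `0` with
`Δ ≠ 0`:

* `exists_B6_eq_zero`: a `2`-torsion abscissa `e` exists;
* `Δ_eq_of_B6`, `kappa_ne_zero`, `disc_ne`: `Δ = κ² (β² - 64 κ)` for the parameters of the Kummer
  line at `e`, hence `κ ≠ 0` and `β² ≠ 64 κ`;
* `card_torsion_point_of`, `prod_formula_point_of`: the torsion count and the product formula for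
  the points of `W`, from (i) the existence of the generic Kummer datum, (ii)/(iii) the abstract
  torsion count / product formula for generic Kummer data (all three as hypotheses).
-/

set_option autoImplicit false

namespace Fermat.Agent.S13Lib.PointGlue

open WeierstrassCurve Fermat.Agent.S51Lib.Pts Fermat.Agent.S05Lib Fermat.Agent.S13Lib.GenDefs

universe u

section Invariants

variable {k : Type u} [Field k] (W : WeierstrassCurve k)

/-- over an algebraically closed field of characteristic `≠ 2` there is a `2`-torsion abscissa -/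
theorem exists_B6_eq_zero [IsAlgClosed k] (h2 : (2 : k) ≠ 0) : ∃ e : k, B6 W e = 0 := by
  have h4 : (4 : k) ≠ 0 := by
    have : (4 : k) = 2 * 2 := by norm_num
    rw [this]
    exact mul_ne_zero h2 h2
  obtain ⟨e, he⟩ := IsAlgClosed.exists_root
    (Polynomial.C (4 : k) * Polynomial.X ^ 3 + Polynomial.C W.b₂ * Polynomial.X ^ 2
      + Polynomial.C (2 * W.b₄) * Polynomial.X + Polynomial.C W.b₆)
    (by rw [Polynomial.degree_cubic h4]; norm_num)
  refine ⟨e, ?_⟩
  simp only [Polynomial.IsRoot, Polynomial.eval_add, Polynomial.eval_mul, Polynomial.eval_C,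
    Polynomial.eval_pow, Polynomial.eval_X] at he
  simp only [B6]
  linear_combination he

/-- the discriminant in terms of the parameters of the Kummer line at a `2`-torsion abscissa -/
theorem Δ_eq_of_B6 (h2 : (2 : k) ≠ 0) {e β κ : k} (h6 : B6 W e = 0) (hβ : B2 W e = β)
    (hκ : B4 W e = 2 * κ) : W.Δ = κ ^ 2 * (β ^ 2 - 64 * κ) := by
  have h4 : (4 : k) ≠ 0 := by
    have : (4 : k) = 2 * 2 := by norm_num
    rw [this]
    exact mul_ne_zero h2 h2
  have hrel := B_rel W e
  rw [h6, hβ, hκ] at hrel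
  have h8 : B8 W e = -κ ^ 2 := by
    have : 4 * (B8 W e + κ ^ 2) = 0 := by linear_combination hrel
    have := (mul_eq_zero.1 this).resolve_left h4
    linear_combination this
  rw [Δ_eq W e, h6, hβ, hκ, h8]
  ring

theorem kappa_ne_zero (h2 : (2 : k) ≠ 0) (hΔ : W.Δ ≠ 0) {e β κ : k} (h6 : B6 W e = 0)
    (hβ : B2 W e = β) (hκ : B4 W e = 2 * κ) : κ ≠ 0 := by
  rintro rfl
  apply hΔ
  rw [Δ_eq_of_B6 W h2 h6 hβ hκ]
  ring

theorem disc_ne (h2 : (2 : k) ≠ 0) (hΔ : W.Δ ≠ 0) {e β κ : k} (h6 : B6 W e = 0)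
    (hβ : B2 W e = β) (hκ : B4 W e = 2 * κ) : β ^ 2 ≠ 64 * κ := by
  intro h
  apply hΔ
  rw [Δ_eq_of_B6 W h2 h6 hβ hκ, h]
  ring

end Invariants

section Glue

variable {k : Type u} [Field k] [DecidableEq k] [IsAlgClosed k] [CharZero k]
  (W : WeierstrassCurve k)

/-- **torsion count for the points of a Weierstrass curve**, from the existence of the generic
Kummer datum and the abstract torsion count -/
theorem card_torsion_point_of (hΔ : W.Δ ≠ 0)
    (hgen : ∀ e β κ : k, B6 W e = 0 → B2 W e = β → B4 W e = 2 * κ →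
      ∃ (K : Type u) (_ : Field K) (_ : Algebra k K) (G : Type u) (_ : AddCommGroup G)
        (ξ : G → K) (ι : W.toAffine.Point →+ G) (Pg : G)
        (w : Valuation K (WithZero (Multiplicative ℤ))), GenK (Kummer.xi W e) ξ β κ ι Pg w)
    (hcard : ∀ (K : Type u) [Field K] [Algebra k K] (G : Type u) [AddCommGroup G]
        (ξ : G → K) (ι : W.toAffine.Point →+ G) (Pg : G)
        (w : Valuation K (WithZero (Multiplicative ℤ))) (e β κ : k),
        GenK (Kummer.xi W e) ξ β κ ι Pg w → κ ≠ 0 → β ^ 2 ≠ 64 * κ →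
        ∀ n : ℕ, 0 < n → Nat.card {Q : W.toAffine.Point // n • Q = 0} = n ^ 2)
    {n : ℕ} (hn : 0 < n) : Nat.card {Q : W.toAffine.Point // n • Q = 0} = n ^ 2 := by
  have h2 : (2 : k) ≠ 0 := two_ne_zero
  obtain ⟨e, h6⟩ := exists_B6_eq_zero W h2
  have hκ : B4 W e = 2 * (B4 W e / 2) := by field_simp
  obtain ⟨K, instK, instA, G, instG, ξ, ι, Pg, w, hG⟩ := hgen e (B2 W e) (B4 W e / 2) h6 rfl hκ
  exact @hcard K instK instA G instG ξ ι Pg w e (B2 W e) (B4 W e / 2) hG
    (kappa_ne_zero W h2 hΔ h6 rfl hκ) (disc_ne W h2 hΔ h6 rfl hκ) n hn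

omit [IsAlgClosed k] in
/-- **product formula for the `p`-torsion points of a Weierstrass curve**, from the existence of
the generic Kummer datum and the abstract product formula -/
theorem prod_formula_point_of (hΔ : W.Δ ≠ 0) (e β κ : k) (h6 : B6 W e = 0) (hβ : B2 W e = β)
    (hκ : B4 W e = 2 * κ)
    (hgen : ∃ (K : Type u) (_ : Field K) (_ : Algebra k K) (G : Type u) (_ : AddCommGroup G)
        (ξ : G → K) (ι : W.toAffine.Point →+ G) (Pg : G)
        (w : Valuation K (WithZero (Multiplicative ℤ))), GenK (Kummer.xi W e) ξ β κ ι Pg w)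
    {p : ℕ}
    (hprod : ∀ (K : Type u) [Field K] [Algebra k K] (G : Type u) [AddCommGroup G]
        (ξ : G → K) (ι : W.toAffine.Point →+ G) (Pg : G)
        (w : Valuation K (WithZero (Multiplicative ℤ))),
        GenK (Kummer.xi W e) ξ β κ ι Pg w → κ ≠ 0 → β ^ 2 ≠ 64 * κ →
        (∏ᶠ T : {Q : W.toAffine.Point // p • Q = 0 ∧ Q ≠ 0}, Kummer.xi W e T.1) ^ 2
          * (p : k) ^ 4 = κ ^ (p ^ 2 - 1)) :
    (∏ᶠ T : {Q : W.toAffine.Point // p • Q = 0 ∧ Q ≠ 0}, Kummer.xi W e T.1) ^ 2
      * (p : k) ^ 4 = κ ^ (p ^ 2 - 1) := by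
  have h2 : (2 : k) ≠ 0 := two_ne_zero
  obtain ⟨K, instK, instA, G, instG, ξ, ι, Pg, w, hG⟩ := hgen
  exact @hprod K instK instA G instG ξ ι Pg w hG
    (kappa_ne_zero W h2 hΔ h6 hβ hκ) (disc_ne W h2 hΔ h6 hβ hκ)

end Glue

end Fermat.Agent.S13Lib.PointGlue
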