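import Mathlib
import Fermat.Agent.S05
import Fermat.Agent.S13Lib.Iface
import Fermat.Agent.S13Lib.PointGlue
import Fermat.Agent.S13Lib.GenPointK
import Fermat.Agent.S13Lib.TorsCount
import Fermat.Agent.S13Lib.Height
import Fermat.Agent.S13Lib.GenVals
import Fermat.Agent.S13Lib.GenTableK

/-!
# S13, part A: the `n`-torsion of a Weierstrass curve over an algebraically closed field of
characteristic `0` has `n²` points

* `card_torsion_gen`: the abstract torsion count for a generic Kummer datum, all side hypotheses
  discharged (`TorsCount.card_torsion` + `Height.local_height` + `GenVals.contHyp`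
  + `GenTableK.prodFormula`);
* `card_torsion_point`: `Nat.card {Q : W.toAffine.Point // n • Q = 0} = n ^ 2`;
* `iA`: the interface statement (IA) for the Frey curve.
-/

set_option autoImplicit false

namespace Fermat.Agent.S13Lib.PointCard

open WeierstrassCurve Fermat.Agent.S51Lib.Pts Fermat.Agent.S05Lib Fermat.Agent.S13Lib.GenDefs

universe u

/-- abstract torsion count for a generic Kummer datum -/
theorem card_torsion_gen {k K G₀ G : Type*} [Field k] [IsAlgClosed k] [CharZero k] [Field K]
    [Algebra k K] [AddCommGroup G₀] [AddCommGroup G] {ξ₀ : G₀ → k} {ξ : G → K} {β κ : k}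
    {ι : G₀ →+ G} {Pg : G} {w : Valuation K (WithZero (Multiplicative ℤ))}
    (h : GenK ξ₀ ξ β κ ι Pg w) (hκ0 : κ ≠ 0) (hdisc : β ^ 2 ≠ 64 * κ) {n : ℕ} (hn : 0 < n) :
    Nat.card {Q : G₀ // n • Q = 0} = n ^ 2 := by
  have hloc : TorsCount.LocalHeight ξ w := by
    intro P R hP hR hne
    refine Height.local_height w h.kummer ?_ (h.w_const κ hκ0) ?_ hP hR hne
    · exact GenPoles.w_const_le h β
    · have e : algebraMap k K β ^ 2 - 64 * algebraMap k K κ
          = algebraMap k K (β ^ 2 - 64 * κ) := by
        rw [map_sub, map_pow, map_mul, map_ofNat]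
      rw [e]
      exact h.w_const _ (sub_ne_zero.2 hdisc)
  exact TorsCount.card_torsion h (GenVals.contHyp h) (GenTableK.prodFormula h hκ0 hdisc) hloc hn

/-- **the `n`-torsion of a Weierstrass curve over an algebraically closed field of
characteristic `0` has exactly `n²` points** -/
theorem card_torsion_point {k : Type u} [Field k] [DecidableEq k] [IsAlgClosed k] [CharZero k]
    (W : WeierstrassCurve k) (hΔ : W.Δ ≠ 0) {n : ℕ} (hn : 0 < n) :
    Nat.card {Q : W.toAffine.Point // n • Q = 0} = n ^ 2 :=
  PointGlue.card_torsion_point_of W hΔ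
    (fun e β κ h6 hβ hκ => GenPointK.exists_genK W hΔ e β κ h6 hβ hκ)
    (fun _ _ _ _ _ _ _ _ _ _ _ _ h hκ0 hd _ hn => card_torsion_gen h hκ0 hd hn) hn

open Fermat.Agent.S13Lib.Iface in
/-- **(IA)**: the `p`-torsion of the Frey curve over `ℚ̄` has `p²` points -/
theorem iA (P : FreyPackage) : IA P := by
  unfold IA
  have h := card_torsion_point (P.freyCurve⁄Qb) (Fermat.Agent.S05.frey_Δ_ne_zero (K := Qb) P)
    P.hppos
  rw [← h]
  apply Nat.card_congr
  refine Equiv.subtypeEquivRight (fun Q => ?_)
  rw [Submodule.mem_torsionBy_iff, natCast_zsmul]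

end Fermat.Agent.S13Lib.PointCard
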