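import Mathlib
import Fermat.Agent.S13Lib.GenVals

/-!
# S13: the constant `c = n⁻²` of the product formula  ((B3))

* calculus of `1`-units of a valuation (`v (u - 1) < 1`);
* `val_aeval_sub_pow_lt` : a monic polynomial over the constants, evaluated at an element with a
  pole, is dominated by its leading term;
* `eq_of_val_sub_lt` : two constants congruent modulo the maximal ideal are equal;
* `const_mul_sq_eq_one` : in a generic Kummer datum, if `ξ (n • Pg) * F(ξ Pg) = c * H(ξ Pg)` with
  `F`, `H` monic over the constants and `deg H = deg F + 1`, then `c * n² = 1`.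
-/

set_option autoImplicit false

namespace Fermat.Agent.S13Lib.GenConst

open Polynomial Fermat.Agent.S05Lib Fermat.Agent.S13Lib.GenDefs

section OneUnit

variable {F Γ₀ : Type*} [Field F] [LinearOrderedCommGroupWithZero Γ₀] (v : Valuation F Γ₀)

theorem val_eq_one_of_sub_lt {u : F} (hu : v (u - 1) < 1) : v u = 1 := by
  have e : u = 1 + (u - 1) := by ring
  rw [e]
  exact Valuation.map_one_add_of_lt v hu

theorem ne_zero_of_sub_lt {u : F} (hu : v (u - 1) < 1) : u ≠ 0 := by
  intro h0
  have h1 := val_eq_one_of_sub_lt v hu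
  rw [h0, map_zero] at h1
  exact zero_ne_one h1

theorem oneUnit_mul {u u' : F} (hu : v (u - 1) < 1) (hu' : v (u' - 1) < 1) :
    v (u * u' - 1) < 1 := by
  have e : u * u' - 1 = (u - 1) * u' + (u' - 1) := by ring
  rw [e]
  refine Valuation.map_add_lt v ?_ hu'
  rw [map_mul, val_eq_one_of_sub_lt v hu', mul_one]
  exact hu

theorem oneUnit_inv {u : F} (hu : v (u - 1) < 1) : v (u⁻¹ - 1) < 1 := by
  have h1 := val_eq_one_of_sub_lt v hu
  have hu0 : u ≠ 0 := ne_zero_of_sub_lt v hu
  have e : u⁻¹ - 1 = -((u - 1) * u⁻¹) := by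
    field_simp
    ring
  rw [e, Valuation.map_neg, map_mul, map_inv₀, h1, inv_one, mul_one]
  exact hu

theorem oneUnit_div {u u' : F} (hu : v (u - 1) < 1) (hu' : v (u' - 1) < 1) :
    v (u / u' - 1) < 1 := by
  rw [div_eq_mul_inv]
  exact oneUnit_mul v hu (oneUnit_inv v hu')

end OneUnit

section Monic

variable {k K Γ₀ : Type*} [Field k] [Field K] [Algebra k K] [LinearOrderedCommGroupWithZero Γ₀]
  (w : Valuation K Γ₀)

/-- a monic polynomial over the constants, evaluated at an element with a pole, is dominated by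
its leading term -/
theorem val_aeval_sub_pow_lt (hconst : ∀ c : k, w (algebraMap k K c) ≤ 1) {x : K}
    (hx : 1 < w x) {P : k[X]} (hP : P.Monic) :
    w (aeval x P - x ^ P.natDegree) < w x ^ P.natDegree := by
  have hxpos : 0 < w x := zero_lt_one.trans hx
  have h1 : aeval x P = x ^ P.natDegree
      + ∑ i ∈ Finset.range P.natDegree, algebraMap k K (P.coeff i) * x ^ i := by
    have h0 := congrArg (aeval x) hP.as_sum
    simpa only [map_add, map_pow, aeval_X, map_sum, map_mul, aeval_C] using h0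
  rw [h1, add_sub_cancel_left]
  apply Valuation.map_sum_lt w (pow_ne_zero _ hxpos.ne')
  intro i hi
  rw [Finset.mem_range] at hi
  rw [map_mul, map_pow]
  calc w (algebraMap k K (P.coeff i)) * w x ^ i ≤ 1 * w x ^ i := by
        gcongr
        exact hconst _
    _ = w x ^ i := one_mul _
    _ < w x ^ P.natDegree := pow_lt_pow_right₀ hx hi

/-- `P(x) / x ^ deg P` is a `1`-unit -/
theorem oneUnit_aeval_div (hconst : ∀ c : k, w (algebraMap k K c) ≤ 1) {x : K}
    (hx : 1 < w x) {P : k[X]} (hP : P.Monic) :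
    w (aeval x P / x ^ P.natDegree - 1) < 1 := by
  have hxpos : 0 < w x := zero_lt_one.trans hx
  have hx0 : x ≠ 0 := (Valuation.pos_iff w).1 hxpos
  have e : aeval x P / x ^ P.natDegree - 1 = (aeval x P - x ^ P.natDegree) / x ^ P.natDegree := by
    field_simp
  rw [e, map_div₀, map_pow]
  exact (div_lt_one₀ (pow_pos hxpos _)).2 (val_aeval_sub_pow_lt w hconst hx hP)

end Monic

section Gen

variable {k K G₀ G : Type*} [Field k] [Field K] [Algebra k K] [AddCommGroup G₀]
  [AddCommGroup G] {ξ₀ : G₀ → k} {ξ : G → K} {β κ : k} {ι : G₀ →+ G} {Pg : G}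
  {w : Valuation K (WithZero (Multiplicative ℤ))}

/-- two constants congruent modulo the maximal ideal are equal -/
theorem eq_of_val_sub_lt (h : GenK ξ₀ ξ β κ ι Pg w) (c d : k)
    (hlt : w (algebraMap k K c - algebraMap k K d) < 1) : c = d := by
  by_contra hne
  have h1 := h.w_const (c - d) (sub_ne_zero.2 hne)
  rw [map_sub] at h1
  rw [h1] at hlt
  exact lt_irrefl _ hlt

/-- **(B3)** the constant of the product formula is `n⁻²` -/
theorem const_mul_sq_eq_one [CharZero k] (h : GenK ξ₀ ξ β κ ι Pg w) {n : ℕ} (hn : 0 < n)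
    {F H : k[X]} (hF : F.Monic) (hH : H.Monic) (hdeg : H.natDegree = F.natDegree + 1) {c : k}
    (hid : ξ (n • Pg) * aeval (ξ Pg) F = algebraMap k K c * aeval (ξ Pg) H) :
    c * (n : k) ^ 2 = 1 := by
  have hX : 1 < w (ξ Pg) := GenPoles.one_lt_val_Pg h
  have hX0 : ξ Pg ≠ 0 := E1.ne_zero_of_one_lt_val w hX
  have hY0 : ξ (n • Pg) ≠ 0 := GenVals.xi_nsmul_Pg_ne_zero h hn
  have hconst := GenPoles.w_const_le h
  have uF := oneUnit_aeval_div w hconst hX hF
  have uH := oneUnit_aeval_div w hconst hX hH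
  have uZ : w ((n : K) ^ 2 * ξ (n • Pg) / ξ Pg - 1) < 1 := by
    have hz := GenVals.val_sq_mul_xi_nsmul_sub h hn
    have e : (n : K) ^ 2 * ξ (n • Pg) / ξ Pg - 1 = ((n : K) ^ 2 * ξ (n • Pg) - ξ Pg) / ξ Pg := by
      field_simp
    rw [e, map_div₀]
    exact (div_lt_one₀ (zero_lt_one.trans hX)).2 (lt_of_le_of_lt hz hX)
  have hFX : aeval (ξ Pg) F ≠ 0 := by
    intro h0
    have h1 := ne_zero_of_sub_lt w uF
    rw [h0, zero_div] at h1
    exact h1 rfl
  have hHX : aeval (ξ Pg) H ≠ 0 := by
    intro h0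
    have h1 := ne_zero_of_sub_lt w uH
    rw [h0, zero_div] at h1
    exact h1 rfl
  have hY : ξ (n • Pg) = algebraMap k K c * aeval (ξ Pg) H / aeval (ξ Pg) F := by
    rw [eq_div_iff hFX]
    exact hid
  have key : algebraMap k K (c * (n : k) ^ 2)
      = ((n : K) ^ 2 * ξ (n • Pg) / ξ Pg) * (aeval (ξ Pg) F / ξ Pg ^ F.natDegree)
        / (aeval (ξ Pg) H / ξ Pg ^ H.natDegree) := by
    rw [hdeg, map_mul, map_pow, map_natCast, hY]
    field_simp
    ring
  have hu : w (algebraMap k K (c * (n : k) ^ 2) - algebraMap k K 1) < 1 := by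
    rw [map_one, key]
    exact oneUnit_div w (oneUnit_mul w uZ uF) uH
  exact eq_of_val_sub_lt h _ _ hu

end Gen

end Fermat.Agent.S13Lib.GenConst
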