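import Mathlib
import Fermat.Agent.S13Lib.SumFormula

/-!
# S13 (B1): the value tables of the polynomials `D` and `N`

In a single-valuation generic Kummer datum `GenK ξ₀ ξ β κ ι Pg w` with the table (H8') of the
valuations `w (ξ (Pg + ι Q) - c)`, we compute, for a finite symmetric set `S` of points without
`2`-torsion, the valuations at the translated generic abscissas `X_Q = ξ (Pg + ι Q)` of
`D = ∏_{T ∈ S} (X - ξ₀ T)` and `N = X * ∏_{T ∈ S} (X - κ / ξ₀ T)`, and specialise to the set of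
nonzero `p`-torsion points (`p` odd).
-/

set_option autoImplicit false

namespace Fermat.Agent.S13Lib.GenValTab

open Polynomial Fermat.Agent.S05Lib Fermat.Agent.S13Lib.GenDefs Fermat.Agent.S13Lib.SumFormula

variable {k K G₀ G : Type*} [Field k] [Field K] [Algebra k K] [AddCommGroup G₀]
  [AddCommGroup G] {ξ₀ : G₀ → k} {ξ : G → K} {β κ : k} {ι : G₀ →+ G} {Pg : G}
  {w : Valuation K (WithZero (Multiplicative ℤ))}

/-! ### Evaluating products of linear factors -/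

omit [AddCommGroup G₀] in
theorem aeval_prod_sub (x : K) (S : Finset G₀) (f : G₀ → k) :
    aeval x (∏ T ∈ S, (X - C (f T))) = ∏ T ∈ S, (x - algebraMap k K (f T)) := by
  rw [map_prod]
  refine Finset.prod_congr rfl fun T _ => ?_
  rw [map_sub, aeval_X, aeval_C]

omit [AddCommGroup G₀] in
theorem val_aeval_prod_sub (x : K) (S : Finset G₀) (f : G₀ → k) :
    w (aeval x (∏ T ∈ S, (X - C (f T)))) = ∏ T ∈ S, w (x - algebraMap k K (f T)) := by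
  rw [aeval_prod_sub, map_prod]

theorem ex_neg_one_mul : ex (-1) * ex (-1) = ex (-2) := rfl

/-! ### The general tables -/

/-- At a place `Q` outside the symmetric set `S`, the polynomial `∏_{T ∈ S} (X - ξ₀ T)` is a
unit. -/
theorem val_prod_of_not_mem (h : GenK ξ₀ ξ β κ ι Pg w)
    (hT : Table ξ₀ fun Q c => w (ξ (Pg + ι Q) - algebraMap k K c)) (S : Finset G₀)
    (hneg : ∀ T ∈ S, -T ∈ S) (h2 : ∀ T ∈ S, (2 : ℕ) • T ≠ 0) {Q : G₀} (hQ0 : Q ≠ 0)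
    (hQ : Q ∉ S) : w (aeval (ξ (Pg + ι Q)) (∏ T ∈ S, (X - C (ξ₀ T)))) = 1 := by
  rw [val_aeval_prod_sub]
  refine Finset.prod_eq_one fun T hTS => ?_
  have hT0 : T ≠ 0 := by
    rintro rfl
    exact h2 0 hTS (smul_zero _)
  refine hT.2.1 Q (ξ₀ T) hQ0 ?_
  intro heq
  rcases h.kummer₀.eq_or_eq_neg T Q hT0 hQ0 heq with e | e
  · exact hQ (e ▸ hTS)
  · have := hneg T hTS
    rw [e, neg_neg] at this
    exact hQ this

/-- At a place `Q` in the symmetric set `S` (without `2`-torsion), the polynomial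
`∏_{T ∈ S} (X - ξ₀ T)` has a double zero. -/
theorem val_prod_of_mem (h : GenK ξ₀ ξ β κ ι Pg w)
    (hT : Table ξ₀ fun Q c => w (ξ (Pg + ι Q) - algebraMap k K c)) (S : Finset G₀)
    (hneg : ∀ T ∈ S, -T ∈ S) (h2 : ∀ T ∈ S, (2 : ℕ) • T ≠ 0) {Q : G₀} (hQ : Q ∈ S) :
    w (aeval (ξ (Pg + ι Q)) (∏ T ∈ S, (X - C (ξ₀ T)))) = ex (-2) := by
  have h2Q : (2 : ℕ) • Q ≠ 0 := h2 Q hQ
  have hQ0 : Q ≠ 0 := by
    rintro rfl
    exact h2Q (smul_zero _)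
  have hne : Q ≠ -Q := by
    intro e
    apply h2Q
    rw [two_nsmul]
    nth_rewrite 1 [e]
    exact neg_add_cancel Q
  rw [val_aeval_prod_sub, Finset.prod_eq_mul Q (-Q) hne]
  · have h1 : w (ξ (Pg + ι Q) - algebraMap k K (ξ₀ Q)) = ex (-1) := hT.2.2.1 Q hQ0 h2Q
    rw [h.kummer₀.neg, h1, ex_neg_one_mul]
  · intro T hTS hTne
    have hT0 : T ≠ 0 := by
      rintro rfl
      exact h2 0 hTS (smul_zero _)
    refine hT.2.1 Q (ξ₀ T) hQ0 ?_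
    intro heq
    rcases h.kummer₀.eq_or_eq_neg T Q hT0 hQ0 heq with e | e
    · exact hTne.1 e
    · exact hTne.2 e
  · intro hc
    exact absurd hQ hc
  · intro hc
    exact absurd (hneg Q hQ) hc

/-- At the generic point itself, `∏_{T ∈ S} (X - ξ₀ T)` has a pole of order `2 #S`. -/
theorem val_prod_zero (_h : GenK ξ₀ ξ β κ ι Pg w)
    (hT : Table ξ₀ fun Q c => w (ξ (Pg + ι Q) - algebraMap k K c)) (S : Finset G₀)
    (f : G₀ → k) : w (aeval (ξ Pg) (∏ T ∈ S, (X - C (f T)))) = ex 2 ^ S.card := by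
  have hroot : ∀ c : k, w (ξ Pg - algebraMap k K c) = ex 2 := by
    intro c
    have h0 := hT.1 c
    simp only [map_zero, add_zero] at h0
    exact h0
  rw [val_aeval_prod_sub, Finset.prod_congr rfl fun T _ => hroot (f T), Finset.prod_const]

/-! ### Translation by the `2`-torsion point `T0` with `ξ₀ T0 = 0` -/

theorem two_nsmul_T0 (hK : IsKummer ξ₀ β κ) {T0 : G₀} (hT0 : T0 ≠ 0) (hξT0 : ξ₀ T0 = 0) :
    (2 : ℕ) • T0 = 0 := by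
  rw [hK.two_nsmul_eq_zero_iff T0 hT0, hξT0, zero_mul]

theorem neg_T0 (hK : IsKummer ξ₀ β κ) {T0 : G₀} (hT0 : T0 ≠ 0) (hξT0 : ξ₀ T0 = 0) :
    -T0 = T0 := by
  have h := two_nsmul_T0 hK hT0 hξT0
  rw [two_nsmul] at h
  exact neg_eq_of_add_eq_zero_left h

theorem xi_ne_zero (hK : IsKummer ξ₀ β κ) {T0 : G₀} (hT0 : T0 ≠ 0) (hξT0 : ξ₀ T0 = 0)
    {T : G₀} (hT : T ≠ 0) (hTT0 : T ≠ T0) : ξ₀ T ≠ 0 := by
  intro h0
  rcases hK.eq_or_eq_neg T T0 hT hT0 (by rw [h0, hξT0]) with e | e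
  · exact hTT0 e
  · rw [neg_T0 hK hT0 hξT0] at e
    exact hTT0 e

/-- (B0) translation by `T0` inverts the Kummer coordinate: `ξ₀ (T + T0) = κ / ξ₀ T`. -/
theorem xi_add_T0 (hK : IsKummer ξ₀ β κ) (h2 : (2 : k) ≠ 0) {T0 : G₀} (hT0 : T0 ≠ 0)
    (hξT0 : ξ₀ T0 = 0) {T : G₀} (hT : T ≠ 0) (hTT0 : T ≠ T0) : ξ₀ (T + T0) = κ / ξ₀ T := by
  have hx : ξ₀ T ≠ 0 := xi_ne_zero hK hT0 hξT0 hT hTT0
  have hne : ξ₀ T ≠ ξ₀ T0 := by rw [hξT0]; exact hx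
  have hsub : T - T0 = T + T0 := by rw [sub_eq_add_neg, neg_T0 hK hT0 hξT0]
  have ha := hK.add T T0 hT hT0 hne
  rw [hsub, hξT0] at ha
  have key : 2 * ξ₀ T * (ξ₀ (T + T0) * ξ₀ T - κ) = 0 := by linear_combination ha
  have h3 : ξ₀ (T + T0) * ξ₀ T - κ = 0 :=
    (mul_eq_zero.1 key).resolve_left (mul_ne_zero h2 hx)
  rw [eq_div_iff hx]
  linear_combination h3

/-- The valuation of `X_Q` itself: a double zero at `Q = T0`. -/
theorem val_X_T0 (h : GenK ξ₀ ξ β κ ι Pg w)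
    (hT : Table ξ₀ fun Q c => w (ξ (Pg + ι Q) - algebraMap k K c)) {T0 : G₀} (hT0 : T0 ≠ 0)
    (hξT0 : ξ₀ T0 = 0) : w (ξ (Pg + ι T0)) = ex (-2) := by
  have h1 := hT.2.2.2 T0 hT0 (two_nsmul_T0 h.kummer₀ hT0 hξT0)
  simp only [hξT0, map_zero, sub_zero] at h1
  exact h1

/-- The valuation of `X_Q` itself: a unit at `Q ≠ 0, T0`. -/
theorem val_X_of_ne (h : GenK ξ₀ ξ β κ ι Pg w)
    (hT : Table ξ₀ fun Q c => w (ξ (Pg + ι Q) - algebraMap k K c)) {T0 : G₀} (hT0 : T0 ≠ 0)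
    (hξT0 : ξ₀ T0 = 0) {Q : G₀} (hQ0 : Q ≠ 0) (hQ : Q ≠ T0) : w (ξ (Pg + ι Q)) = 1 := by
  have h1 := hT.2.1 Q 0 hQ0 (Ne.symm (xi_ne_zero h.kummer₀ hT0 hξT0 hQ0 hQ))
  simp only [map_zero, sub_zero] at h1
  exact h1

open scoped Classical in
/-- The product `∏_{T ∈ S} (X - κ / ξ₀ T)` is the product over the translated set `S + T0`. -/
theorem prod_inv_eq (hK : IsKummer ξ₀ β κ) (h2k : (2 : k) ≠ 0) {T0 : G₀} (hT0 : T0 ≠ 0)
    (hξT0 : ξ₀ T0 = 0) (S : Finset G₀) (h2 : ∀ T ∈ S, (2 : ℕ) • T ≠ 0) :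
    ∏ T ∈ S, (X - C (κ / ξ₀ T)) = ∏ T ∈ S.image (fun T => T + T0), (X - C (ξ₀ T)) := by
  rw [Finset.prod_image (fun a _ b _ hab => add_right_cancel hab)]
  refine Finset.prod_congr rfl fun T hTS => ?_
  have hTne : T ≠ 0 := by
    rintro rfl
    exact h2 0 hTS (smul_zero _)
  have hTT0 : T ≠ T0 := by
    rintro rfl
    exact h2 T hTS (two_nsmul_T0 hK hT0 hξT0)
  rw [xi_add_T0 hK h2k hT0 hξT0 hTne hTT0]

open scoped Classical in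
theorem image_neg_mem (hK : IsKummer ξ₀ β κ) {T0 : G₀} (hT0 : T0 ≠ 0) (hξT0 : ξ₀ T0 = 0)
    (S : Finset G₀) (hneg : ∀ T ∈ S, -T ∈ S) :
    ∀ T ∈ S.image (fun T => T + T0), -T ∈ S.image (fun T => T + T0) := by
  intro T hT
  obtain ⟨T', hT', rfl⟩ := Finset.mem_image.1 hT
  refine Finset.mem_image.2 ⟨-T', hneg T' hT', ?_⟩
  rw [neg_add, neg_T0 hK hT0 hξT0]

open scoped Classical in
theorem image_two_nsmul (hK : IsKummer ξ₀ β κ) {T0 : G₀} (hT0 : T0 ≠ 0) (hξT0 : ξ₀ T0 = 0)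
    (S : Finset G₀) (h2 : ∀ T ∈ S, (2 : ℕ) • T ≠ 0) :
    ∀ T ∈ S.image (fun T => T + T0), (2 : ℕ) • T ≠ 0 := by
  intro T hT
  obtain ⟨T', hT', rfl⟩ := Finset.mem_image.1 hT
  rw [smul_add, two_nsmul_T0 hK hT0 hξT0, add_zero]
  exact h2 T' hT'

open scoped Classical in
theorem mem_image_iff (hK : IsKummer ξ₀ β κ) {T0 : G₀} (hT0 : T0 ≠ 0) (hξT0 : ξ₀ T0 = 0)
    (S : Finset G₀) (Q : G₀) : Q ∈ S.image (fun T => T + T0) ↔ Q + T0 ∈ S := by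
  constructor
  · intro hQ
    obtain ⟨T', hT', rfl⟩ := Finset.mem_image.1 hQ
    have e : T' + T0 + T0 = T' := by
      have h := two_nsmul_T0 hK hT0 hξT0
      rw [two_nsmul] at h
      rw [add_assoc, h, add_zero]
    rw [e]
    exact hT'
  · intro hQ
    refine Finset.mem_image.2 ⟨Q + T0, hQ, ?_⟩
    have h := two_nsmul_T0 hK hT0 hξT0
    rw [two_nsmul] at h
    rw [add_assoc, h, add_zero]

/-- `N`-table, the translated place: `Q + T0 ∈ S`, `Q ≠ 0, T0`. -/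
theorem val_N_of_mem (h : GenK ξ₀ ξ β κ ι Pg w) (h2k : (2 : k) ≠ 0)
    (hT : Table ξ₀ fun Q c => w (ξ (Pg + ι Q) - algebraMap k K c)) {T0 : G₀} (hT0 : T0 ≠ 0)
    (hξT0 : ξ₀ T0 = 0) (S : Finset G₀) (hneg : ∀ T ∈ S, -T ∈ S)
    (h2 : ∀ T ∈ S, (2 : ℕ) • T ≠ 0) {Q : G₀} (hQ0 : Q ≠ 0) (hQT0 : Q ≠ T0)
    (hQ : Q + T0 ∈ S) :
    w (aeval (ξ (Pg + ι Q)) (X * ∏ T ∈ S, (X - C (κ / ξ₀ T)))) = ex (-2) := by
  classical
  rw [prod_inv_eq h.kummer₀ h2k hT0 hξT0 S h2, map_mul, aeval_X, map_mul,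
    val_X_of_ne h hT hT0 hξT0 hQ0 hQT0, one_mul]
  exact val_prod_of_mem h hT _ (image_neg_mem h.kummer₀ hT0 hξT0 S hneg)
    (image_two_nsmul h.kummer₀ hT0 hξT0 S h2)
    ((mem_image_iff h.kummer₀ hT0 hξT0 S Q).2 hQ)

/-- `N`-table, the place `T0` (which is not in `S + T0` as `0 ∉ S`). -/
theorem val_N_T0 (h : GenK ξ₀ ξ β κ ι Pg w) (h2k : (2 : k) ≠ 0)
    (hT : Table ξ₀ fun Q c => w (ξ (Pg + ι Q) - algebraMap k K c)) {T0 : G₀} (hT0 : T0 ≠ 0)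
    (hξT0 : ξ₀ T0 = 0) (S : Finset G₀) (hneg : ∀ T ∈ S, -T ∈ S)
    (h2 : ∀ T ∈ S, (2 : ℕ) • T ≠ 0) :
    w (aeval (ξ (Pg + ι T0)) (X * ∏ T ∈ S, (X - C (κ / ξ₀ T)))) = ex (-2) := by
  classical
  rw [prod_inv_eq h.kummer₀ h2k hT0 hξT0 S h2, map_mul, aeval_X, map_mul,
    val_X_T0 h hT hT0 hξT0,
    val_prod_of_not_mem h hT _ (image_neg_mem h.kummer₀ hT0 hξT0 S hneg)
      (image_two_nsmul h.kummer₀ hT0 hξT0 S h2) hT0, mul_one]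
  rw [mem_image_iff h.kummer₀ hT0 hξT0 S T0]
  intro hmem
  have h0 := two_nsmul_T0 h.kummer₀ hT0 hξT0
  rw [two_nsmul] at h0
  rw [h0] at hmem
  exact h2 0 hmem (smul_zero _)

/-- `N`-table, the other places: `Q ≠ 0, T0` and `Q + T0 ∉ S`. -/
theorem val_N_of_not_mem (h : GenK ξ₀ ξ β κ ι Pg w) (h2k : (2 : k) ≠ 0)
    (hT : Table ξ₀ fun Q c => w (ξ (Pg + ι Q) - algebraMap k K c)) {T0 : G₀} (hT0 : T0 ≠ 0)
    (hξT0 : ξ₀ T0 = 0) (S : Finset G₀) (hneg : ∀ T ∈ S, -T ∈ S)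
    (h2 : ∀ T ∈ S, (2 : ℕ) • T ≠ 0) {Q : G₀} (hQ0 : Q ≠ 0) (hQT0 : Q ≠ T0)
    (hQ : Q + T0 ∉ S) :
    w (aeval (ξ (Pg + ι Q)) (X * ∏ T ∈ S, (X - C (κ / ξ₀ T)))) = 1 := by
  classical
  rw [prod_inv_eq h.kummer₀ h2k hT0 hξT0 S h2, map_mul, aeval_X, map_mul,
    val_X_of_ne h hT hT0 hξT0 hQ0 hQT0, one_mul]
  exact val_prod_of_not_mem h hT _ (image_neg_mem h.kummer₀ hT0 hξT0 S hneg)
    (image_two_nsmul h.kummer₀ hT0 hξT0 S h2) hQ0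
    (fun hmem => hQ ((mem_image_iff h.kummer₀ hT0 hξT0 S Q).1 hmem))

/-- `N`-table at the generic point: a pole of order `2 (#S + 1)`. -/
theorem val_N_zero (h : GenK ξ₀ ξ β κ ι Pg w)
    (hT : Table ξ₀ fun Q c => w (ξ (Pg + ι Q) - algebraMap k K c)) (S : Finset G₀) :
    w (aeval (ξ Pg) (X * ∏ T ∈ S, (X - C (κ / ξ₀ T)))) = ex 2 ^ (S.card + 1) := by
  rw [map_mul, aeval_X, map_mul, h.w_gen, val_prod_zero h hT S fun T => κ / ξ₀ T, pow_succ,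
    mul_comm]

/-! ### The `p`-torsion, `p` odd -/

section Torsion

variable {p : ℕ} {S : Finset G₀}

theorem neg_mem_of_torsion (hS : ∀ T, T ∈ S ↔ p • T = 0 ∧ T ≠ 0) : ∀ T ∈ S, -T ∈ S := by
  intro T hT
  obtain ⟨h1, h2⟩ := (hS T).1 hT
  exact (hS (-T)).2 ⟨by rw [smul_neg, h1, neg_zero], neg_ne_zero.2 h2⟩

theorem nsmul_eq_self_of_odd (hp : Odd p) {T : G₀} (h2 : (2 : ℕ) • T = 0) : p • T = T := by
  obtain ⟨m, rfl⟩ := hp
  rw [add_smul, one_smul, mul_comm, mul_smul, h2, smul_zero, zero_add]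

theorem two_nsmul_ne_of_torsion (hp : Odd p) (hS : ∀ T, T ∈ S ↔ p • T = 0 ∧ T ≠ 0) :
    ∀ T ∈ S, (2 : ℕ) • T ≠ 0 := by
  intro T hT h2
  obtain ⟨h1, h0⟩ := (hS T).1 hT
  rw [nsmul_eq_self_of_odd hp h2] at h1
  exact h0 h1

/-- `D`-table at a nonzero `p`-torsion point. -/
theorem val_D_of_torsion (h : GenK ξ₀ ξ β κ ι Pg w)
    (hT : Table ξ₀ fun Q c => w (ξ (Pg + ι Q) - algebraMap k K c)) (hp : Odd p)
    (hS : ∀ T, T ∈ S ↔ p • T = 0 ∧ T ≠ 0) {Q : G₀} (hQ0 : Q ≠ 0) (hQ : p • Q = 0) :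
    w (aeval (ξ (Pg + ι Q)) (∏ T ∈ S, (X - C (ξ₀ T)))) = ex (-2) :=
  val_prod_of_mem h hT S (neg_mem_of_torsion hS) (two_nsmul_ne_of_torsion hp hS)
    ((hS Q).2 ⟨hQ, hQ0⟩)

/-- `D`-table at a place which is not `p`-torsion. -/
theorem val_D_of_not_torsion (h : GenK ξ₀ ξ β κ ι Pg w)
    (hT : Table ξ₀ fun Q c => w (ξ (Pg + ι Q) - algebraMap k K c)) (hp : Odd p)
    (hS : ∀ T, T ∈ S ↔ p • T = 0 ∧ T ≠ 0) {Q : G₀} (hQ : p • Q ≠ 0) :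
    w (aeval (ξ (Pg + ι Q)) (∏ T ∈ S, (X - C (ξ₀ T)))) = 1 :=
  val_prod_of_not_mem h hT S (neg_mem_of_torsion hS) (two_nsmul_ne_of_torsion hp hS)
    (fun h0 => hQ (by rw [h0, smul_zero])) (fun hmem => hQ ((hS Q).1 hmem).1)

/-- `D`-table at the generic point. -/
theorem val_D_zero (h : GenK ξ₀ ξ β κ ι Pg w)
    (hT : Table ξ₀ fun Q c => w (ξ (Pg + ι Q) - algebraMap k K c)) (S : Finset G₀) :
    w (aeval (ξ Pg) (∏ T ∈ S, (X - C (ξ₀ T)))) = ex 2 ^ S.card :=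
  val_prod_zero h hT S ξ₀

/-- `N`-table at the places with `p • Q = T0`. -/
theorem val_N_of_eq (h : GenK ξ₀ ξ β κ ι Pg w) (h2k : (2 : k) ≠ 0)
    (hT : Table ξ₀ fun Q c => w (ξ (Pg + ι Q) - algebraMap k K c)) (hp : Odd p)
    (hS : ∀ T, T ∈ S ↔ p • T = 0 ∧ T ≠ 0) {T0 : G₀} (hT0 : T0 ≠ 0) (hξT0 : ξ₀ T0 = 0)
    {Q : G₀} (hQ : p • Q = T0) :
    w (aeval (ξ (Pg + ι Q)) (X * ∏ T ∈ S, (X - C (κ / ξ₀ T)))) = ex (-2) := by
  by_cases hQT0 : Q = T0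
  · rw [hQT0]
    exact val_N_T0 h h2k hT hT0 hξT0 S (neg_mem_of_torsion hS) (two_nsmul_ne_of_torsion hp hS)
  · have hQ0 : Q ≠ 0 := by
      rintro rfl
      rw [smul_zero] at hQ
      exact hT0 hQ.symm
    refine val_N_of_mem h h2k hT hT0 hξT0 S (neg_mem_of_torsion hS)
      (two_nsmul_ne_of_torsion hp hS) hQ0 hQT0 ((hS (Q + T0)).2 ⟨?_, ?_⟩)
    · have h0 := two_nsmul_T0 h.kummer₀ hT0 hξT0
      rw [smul_add, hQ, nsmul_eq_self_of_odd hp h0, ← two_nsmul, h0]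
    · intro h0
      apply hQT0
      have h1 := eq_neg_of_add_eq_zero_left h0
      rw [neg_T0 h.kummer₀ hT0 hξT0] at h1
      exact h1

/-- `N`-table at the places `Q ≠ 0` with `p • Q ≠ T0`. -/
theorem val_N_of_ne (h : GenK ξ₀ ξ β κ ι Pg w) (h2k : (2 : k) ≠ 0)
    (hT : Table ξ₀ fun Q c => w (ξ (Pg + ι Q) - algebraMap k K c)) (hp : Odd p)
    (hS : ∀ T, T ∈ S ↔ p • T = 0 ∧ T ≠ 0) {T0 : G₀} (hT0 : T0 ≠ 0) (hξT0 : ξ₀ T0 = 0)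
    {Q : G₀} (hQ0 : Q ≠ 0) (hQ : p • Q ≠ T0) :
    w (aeval (ξ (Pg + ι Q)) (X * ∏ T ∈ S, (X - C (κ / ξ₀ T)))) = 1 := by
  have h0 := two_nsmul_T0 h.kummer₀ hT0 hξT0
  have hQT0 : Q ≠ T0 := by
    rintro rfl
    exact hQ (nsmul_eq_self_of_odd hp h0)
  refine val_N_of_not_mem h h2k hT hT0 hξT0 S (neg_mem_of_torsion hS)
    (two_nsmul_ne_of_torsion hp hS) hQ0 hQT0 ?_
  intro hmem
  apply hQ
  have h1 := ((hS (Q + T0)).1 hmem).1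
  rw [smul_add, nsmul_eq_self_of_odd hp h0] at h1
  have h2 := eq_neg_of_add_eq_zero_left h1
  rw [neg_T0 h.kummer₀ hT0 hξT0] at h2
  exact h2

end Torsion

end Fermat.Agent.S13Lib.GenValTab
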