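import Mathlib

/-!
# S13, part B: the final field algebra of the product formula

If `Y · q · D(X) = N(X)` and the same identity holds after the substitution
`X ↦ κ / X`, `Y ↦ κ / Y`, where `D = ∏ (X - aᵢ)` and `N = X · ∏ (X - κ / aᵢ)` over an even number
of nonzero `aᵢ`, then `(∏ aᵢ)² q² = κ ^ #`.
-/

set_option autoImplicit false

namespace Fermat.Agent.S13Lib.ProdAlg

theorem prod_sq_of_identities' {F ι : Type*} [Field F] (s : Finset ι) (a : ι → F)
    (ha : ∀ i ∈ s, a i ≠ 0) (hs : Even s.card) {κ X Y q : F} (hκ : κ ≠ 0) (hX : X ≠ 0)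
    (hY : Y ≠ 0) (hD : ∏ i ∈ s, (X - a i) ≠ 0)
    (h0 : Y * q * ∏ i ∈ s, (X - a i) = X * ∏ i ∈ s, (X - κ / a i))
    (hT : κ / Y * q * ∏ i ∈ s, (κ / X - a i) = κ / X * ∏ i ∈ s, (κ / X - κ / a i)) :
    (∏ i ∈ s, a i) ^ 2 * q ^ 2 = κ ^ s.card := by
  have hP0 : ∏ i ∈ s, a i ≠ 0 := Finset.prod_ne_zero_iff.2 ha
  have e1 : ∏ i ∈ s, (κ / X - a i)
      = (-1) ^ s.card * ((∏ i ∈ s, a i) / X ^ s.card) * ∏ i ∈ s, (X - κ / a i) := by
    have : ∀ i ∈ s, κ / X - a i = (-1) * (a i / X) * (X - κ / a i) := by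
      intro i hi
      have := ha i hi
      field_simp
      ring
    rw [Finset.prod_congr rfl this, Finset.prod_mul_distrib, Finset.prod_mul_distrib,
      Finset.prod_const, Finset.prod_div_distrib, Finset.prod_const]
  have e2 : ∏ i ∈ s, (κ / X - κ / a i)
      = (-1) ^ s.card * (κ ^ s.card / (X ^ s.card * ∏ i ∈ s, a i)) * ∏ i ∈ s, (X - a i) := by
    have : ∀ i ∈ s, κ / X - κ / a i = (-1) * (κ / (X * a i)) * (X - a i) := by
      intro i hi
      have := ha i hi
      field_simp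
      ring
    rw [Finset.prod_congr rfl this, Finset.prod_mul_distrib, Finset.prod_mul_distrib,
      Finset.prod_const, Finset.prod_div_distrib, Finset.prod_const, Finset.prod_mul_distrib,
      Finset.prod_const]
  rw [e1, e2, hs.neg_one_pow, one_mul, one_mul] at hT
  have hXm : X ^ s.card ≠ 0 := pow_ne_zero _ hX
  generalize (∏ i ∈ s, a i) = P at *
  generalize (∏ i ∈ s, (X - a i)) = D at *
  generalize (∏ i ∈ s, (X - κ / a i)) = N at *
  generalize X ^ s.card = Z at *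
  generalize κ ^ s.card = W at *
  have hN' : N = Y * q * D / X := by
    field_simp
    linear_combination (-1 : F) * h0
  rw [hN'] at hT
  field_simp at hT
  linear_combination hT

/-- the same statement with two redundant hypotheses -/
theorem prod_sq_of_identities {F ι : Type*} [Field F] (s : Finset ι) (a : ι → F)
    (ha : ∀ i ∈ s, a i ≠ 0) (hs : Even s.card) {κ X Y q : F} (hκ : κ ≠ 0) (hX : X ≠ 0)
    (hY : Y ≠ 0) (_hq : q ≠ 0)
    (hD : ∏ i ∈ s, (X - a i) ≠ 0) (_hN : ∏ i ∈ s, (X - κ / a i) ≠ 0)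
    (h0 : Y * q * ∏ i ∈ s, (X - a i) = X * ∏ i ∈ s, (X - κ / a i))
    (hT : κ / Y * q * ∏ i ∈ s, (κ / X - a i) = κ / X * ∏ i ∈ s, (κ / X - κ / a i)) :
    (∏ i ∈ s, a i) ^ 2 * q ^ 2 = κ ^ s.card :=
  prod_sq_of_identities' s a ha hs hκ hX hY hD h0 hT

/-- a `finprod` over a subtype as a `Finset` product over an enumeration of it -/
theorem finprod_subtype_eq_prod {α M : Type*} [CommMonoid M] (p : α → Prop) (S : Finset α)
    (hS : ∀ x, x ∈ S ↔ p x) (f : α → M) : ∏ᶠ T : {x // p x}, f T.1 = ∏ x ∈ S, f x := by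
  rw [finprod_subtype_eq_finprod_cond, ← finprod_mem_finset_eq_prod]
  refine finprod_congr fun x => ?_
  exact finprod_congr_Prop (propext (hS x).symm) (fun _ => rfl)

/-- the product formula over the constants, from the two identities over the big field -/
theorem prod_formula_of_identities {k K G₀ : Type*} [Field k] [Field K] [Algebra k K]
    (ξ₀ : G₀ → k) (S : Finset G₀) {p : ℕ} (hp : Odd p) (hS0 : ∀ T ∈ S, ξ₀ T ≠ 0)
    (hcard : S.card = p ^ 2 - 1) {κ : k} (hκ : κ ≠ 0) {X Y : K} (hX : X ≠ 0) (hY : Y ≠ 0)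
    (hD : ∏ T ∈ S, (X - algebraMap k K (ξ₀ T)) ≠ 0)
    (h0 : Y * (p : K) ^ 2 * ∏ T ∈ S, (X - algebraMap k K (ξ₀ T))
      = X * ∏ T ∈ S, (X - algebraMap k K κ / algebraMap k K (ξ₀ T)))
    (hT : algebraMap k K κ / Y * (p : K) ^ 2
        * ∏ T ∈ S, (algebraMap k K κ / X - algebraMap k K (ξ₀ T))
      = algebraMap k K κ / X
        * ∏ T ∈ S, (algebraMap k K κ / X - algebraMap k K κ / algebraMap k K (ξ₀ T))) :
    (∏ T ∈ S, ξ₀ T) ^ 2 * (p : k) ^ 4 = κ ^ (p ^ 2 - 1) := by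
  have hinj : Function.Injective (algebraMap k K) := (algebraMap k K).injective
  have heven : Even S.card := by
    rw [hcard]
    exact Nat.Odd.sub_odd hp.pow odd_one
  have hκK : algebraMap k K κ ≠ 0 := fun h => hκ (hinj (by rw [h, map_zero]))
  have ha : ∀ T ∈ S, algebraMap k K (ξ₀ T) ≠ 0 :=
    fun T hT h => hS0 T hT (hinj (by rw [h, map_zero]))
  have key := prod_sq_of_identities' S (fun T => algebraMap k K (ξ₀ T)) ha heven hκK hX hY
    hD h0 hT
  apply hinj
  rw [map_mul, map_pow, map_pow, map_pow, map_prod, map_natCast, ← hcard, ← key]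
  ring

end Fermat.Agent.S13Lib.ProdAlg
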