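import Mathlib
import Fermat.Agent.S13Lib.GenCard
import Fermat.Agent.S13Lib.GenValTab
import Fermat.Agent.S13Lib.GenConst
import Fermat.Agent.S13Lib.ProdAlg

/-!
# S13 (B): the product formula for the `p`-torsion on a generic Kummer datum

`prod_formula` : in a generic Kummer datum `GenK ξ₀ ξ β κ ι Pg w` over an algebraically closed
field `k` of characteristic zero with `κ ≠ 0` and `β² ≠ 64 κ`, for an odd prime `p`,
`(∏_{T ∈ E[p] ∖ 0} ξ₀ T)² · p⁴ = κ^(p² - 1)`.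

Assembly of: the table (`GenTable`), the value tables of `D`, `N` (`GenValTab`), the values of
`ξ (p • (Pg + ι Q))` (`GenPoles`, `GenVals`), the universal pair (`TorsCount.pq`), the constancy
lemma (`SumFormula.exists_eq_C_mul`), the constant (`GenConst`), the torsion count (`GenCard`)
and the final algebra (`ProdAlg`).
-/

set_option autoImplicit false

namespace Fermat.Agent.S13Lib.GenProdAsm

open Polynomial Fermat.Agent.S05Lib Fermat.Agent.S13Lib.GenDefs Fermat.Agent.S13Lib.SumFormula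

variable {k K G₀ G : Type*} [Field k] [Field K] [Algebra k K] [AddCommGroup G₀]
  [AddCommGroup G] {ξ₀ : G₀ → k} {ξ : G → K} {β κ : k} {ι : G₀ →+ G} {Pg : G}
  {w : Valuation K (WithZero (Multiplicative ℤ))}

theorem ex_two_mul_neg_two : ex 2 * ex (-2) = 1 := rfl

omit [AddCommGroup G₀] in
theorem monic_D (S : Finset G₀) (f : G₀ → k) : (∏ T ∈ S, (X - C (f T))).Monic :=
  monic_prod_of_monic _ _ fun T _ => monic_X_sub_C (f T)

omit [AddCommGroup G₀] in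
theorem natDegree_D (S : Finset G₀) (f : G₀ → k) :
    (∏ T ∈ S, (X - C (f T))).natDegree = S.card := by
  rw [natDegree_prod_of_monic _ _ fun T _ => monic_X_sub_C (f T)]
  simp

omit [AddCommGroup G₀] in
theorem monic_N (S : Finset G₀) (f : G₀ → k) : (X * ∏ T ∈ S, (X - C (f T))).Monic :=
  monic_X.mul (monic_D S f)

omit [AddCommGroup G₀] in
theorem natDegree_N (S : Finset G₀) (f : G₀ → k) :
    (X * ∏ T ∈ S, (X - C (f T))).natDegree = S.card + 1 := by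
  rw [(monic_X (R := k)).natDegree_mul (monic_D S f), natDegree_X, natDegree_D, add_comm]

/-- The valuations of `ξ (p • R_Q) * D(X_Q)` and `N(X_Q)` agree at every `Q ≠ 0`. -/
theorem val_mul_D_eq_N [CharZero k] (h : GenK ξ₀ ξ β κ ι Pg w) (hκ0 : κ ≠ 0)
    (hT : Table ξ₀ fun Q c => w (ξ (Pg + ι Q) - algebraMap k K c)) {p : ℕ} (hp : Odd p)
    {S : Finset G₀} (hS : ∀ T, T ∈ S ↔ p • T = 0 ∧ T ≠ 0) {T0 : G₀} (hT0 : T0 ≠ 0)
    (hξT0 : ξ₀ T0 = 0) {Q : G₀} (hQ0 : Q ≠ 0) :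
    w (ξ (p • (Pg + ι Q))) * w (aeval (ξ (Pg + ι Q)) (∏ T ∈ S, (X - C (ξ₀ T))))
      = w (aeval (ξ (Pg + ι Q)) (X * ∏ T ∈ S, (X - C (κ / ξ₀ T)))) := by
  have h2k : (2 : k) ≠ 0 := two_ne_zero
  have hp0 : 0 < p := hp.pos
  by_cases hQ : p • Q = 0
  · rw [GenPoles.val_xi_nsmul_of_nsmul_eq_zero h Q hp0 hQ,
      GenValTab.val_D_of_torsion h hT hp hS hQ0 hQ,
      GenValTab.val_N_of_ne h h2k hT hp hS hT0 hξT0 hQ0 (by rw [hQ]; exact hT0.symm)]
    exact ex_two_mul_neg_two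
  · by_cases hQT : p • Q = T0
    · rw [GenVals.val_xi_nsmul_of_eq h hκ0 hT0 hξT0 Q hp0 hQT,
        GenValTab.val_D_of_not_torsion h hT hp hS hQ,
        GenValTab.val_N_of_eq h h2k hT hp hS hT0 hξT0 hQT, mul_one]
    · rw [GenVals.val_xi_nsmul_eq_one h hT0 hξT0 Q hp0 hQ hQT,
        GenValTab.val_D_of_not_torsion h hT hp hS hQ,
        GenValTab.val_N_of_ne h h2k hT hp hS hT0 hξT0 hQ0 hQT, mul_one]

/-- The polynomial identity `num_p * D = c * (den_p * N)`. -/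
theorem exists_const [IsAlgClosed k] [CharZero k] (h : GenK ξ₀ ξ β κ ι Pg w) (hκ0 : κ ≠ 0)
    (hT : Table ξ₀ fun Q c => w (ξ (Pg + ι Q) - algebraMap k K c)) {p : ℕ} (hp : Odd p)
    {S : Finset G₀} (hS : ∀ T, T ∈ S ↔ p • T = 0 ∧ T ≠ 0) {T0 : G₀} (hT0 : T0 ≠ 0)
    (hξT0 : ξ₀ T0 = 0) :
    ∃ c : k, c ≠ 0 ∧ (TorsCount.pq β κ p).1 * ∏ T ∈ S, (X - C (ξ₀ T))
      = C c * ((TorsCount.pq β κ p).2 * (X * ∏ T ∈ S, (X - C (κ / ξ₀ T)))) := by
  have hp0 : 0 < p := hp.pos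
  refine exists_eq_C_mul h hT _ _
    (mul_ne_zero (TorsCount.pq_fst_ne_zero h hp0.ne') (monic_D S ξ₀).ne_zero)
    (mul_ne_zero (TorsCount.pq_snd_ne_zero h p) (monic_N S fun T => κ / ξ₀ T).ne_zero) ?_
  intro Q hQ0
  obtain ⟨_, h2⟩ := TorsCount.xi_nsmul_trans_eq h Q p
  have h3 := val_mul_D_eq_N h hκ0 hT hp hS hT0 hξT0 hQ0
  rw [map_mul, map_mul (aeval (ξ (Pg + ι Q))), ← h2, map_mul, map_mul, map_mul, ← h3,
    mul_comm (w (ξ (p • (Pg + ι Q)))) (w (aeval (ξ (Pg + ι Q)) (TorsCount.pq β κ p).2)),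
    mul_assoc]

/-- The identity `ξ (p • R_Q) * D(X_Q) = c * N(X_Q)` at every `Q`. -/
theorem xi_mul_D_eq [CharZero k] (h : GenK ξ₀ ξ β κ ι Pg w) {p : ℕ} {S : Finset G₀} {c : k}
    (hc : (TorsCount.pq β κ p).1 * ∏ T ∈ S, (X - C (ξ₀ T))
      = C c * ((TorsCount.pq β κ p).2 * (X * ∏ T ∈ S, (X - C (κ / ξ₀ T))))) (Q : G₀) :
    ξ (p • (Pg + ι Q)) * aeval (ξ (Pg + ι Q)) (∏ T ∈ S, (X - C (ξ₀ T)))
      = algebraMap k K c * aeval (ξ (Pg + ι Q)) (X * ∏ T ∈ S, (X - C (κ / ξ₀ T))) := by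
  obtain ⟨h1, h2⟩ := TorsCount.xi_nsmul_trans_eq h Q p
  have h3 := congrArg (aeval (ξ (Pg + ι Q))) hc
  rw [map_mul, map_mul (aeval (ξ (Pg + ι Q))) (C c), map_mul (aeval (ξ (Pg + ι Q)))
    (TorsCount.pq β κ p).2, aeval_C, ← h2] at h3
  apply mul_left_cancel₀ h1
  linear_combination h3

/-- **(B)** the product formula for the `p`-torsion on a generic Kummer datum. -/
theorem prod_formula [IsAlgClosed k] [CharZero k] (h : GenK ξ₀ ξ β κ ι Pg w) (hκ0 : κ ≠ 0)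
    (hdisc : β ^ 2 ≠ 64 * κ) {p : ℕ} (hp : p.Prime) (hp2 : p ≠ 2) :
    (∏ᶠ T : {Q : G₀ // p • Q = 0 ∧ Q ≠ 0}, ξ₀ T.1) ^ 2 * (p : k) ^ 4 = κ ^ (p ^ 2 - 1) := by
  classical
  have hodd : Odd p := hp.odd_of_ne_two hp2
  have hp0 : 0 < p := hp.pos
  have hT := GenTable.table_of_cont h hκ0 hdisc (GenVals.contHyp h)
  -- the finite set of nonzero `p`-torsion points
  have hfin : {Q : G₀ | p • Q = 0}.Finite :=
    TorsCount.finite_torsion h (GenCard.prodFormula h hκ0 hdisc) hp0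
  have hfin' : {Q : G₀ | p • Q = 0 ∧ Q ≠ 0}.Finite := hfin.subset fun Q hQ => hQ.1
  set S : Finset G₀ := hfin'.toFinset with hSdef
  have hS : ∀ T, T ∈ S ↔ p • T = 0 ∧ T ≠ 0 := fun T => Set.Finite.mem_toFinset hfin'
  have hcard : S.card = p ^ 2 - 1 := by
    have h1 := GenCard.card_torsion h hκ0 hdisc hp0
    have hset : {Q : G₀ | p • Q = 0} = ((insert 0 S : Finset G₀) : Set G₀) := by
      ext Q
      rw [Finset.coe_insert, Set.mem_insert_iff, Finset.mem_coe, hS]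
      show p • Q = 0 ↔ _
      constructor
      · intro hQ
        by_cases hQ0 : Q = 0
        · exact Or.inl hQ0
        · exact Or.inr ⟨hQ, hQ0⟩
      · rintro (rfl | ⟨hQ, _⟩)
        · exact smul_zero _
        · exact hQ
    have h2 : Nat.card {Q : G₀ // p • Q = 0} = (insert 0 S : Finset G₀).card := by
      have h3 := Set.ncard_coe_finset (insert 0 S : Finset G₀)
      rw [← hset] at h3
      rw [← h3]
      rfl
    rw [Finset.card_insert_of_notMem (by rw [hS]; exact fun h => h.2 rfl)] at h2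
    omega
  -- the point `T0`
  obtain ⟨T0, hT0, hξT0⟩ := h.surj 0
  obtain ⟨c, hc0, hc⟩ := exists_const h hκ0 hT hodd hS hT0 hξT0
  have hid := xi_mul_D_eq h hc
  -- the constant
  have hid0 := hid 0
  rw [map_zero, add_zero] at hid0
  have hcp : c * (p : k) ^ 2 = 1 :=
    GenConst.const_mul_sq_eq_one h hp0 (monic_D S ξ₀) (monic_N S fun T => κ / ξ₀ T)
      (by rw [natDegree_N, natDegree_D]) hid0
  have hcpK : algebraMap k K c * (p : K) ^ 2 = 1 := by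
    rw [← map_natCast (algebraMap k K), ← map_pow, ← map_mul, hcp, map_one]
  have hX : ξ Pg ≠ 0 := by
    intro h0
    have := h.w_gen
    rw [h0, map_zero] at this
    exact ex_ne_zero 2 this.symm
  have hY : ξ (p • Pg) ≠ 0 := GenVals.xi_nsmul_Pg_ne_zero h hp0
  have hS0 : ∀ T ∈ S, ξ₀ T ≠ 0 := by
    intro T hTS
    obtain ⟨hpT, hTne⟩ := (hS T).1 hTS
    refine GenValTab.xi_ne_zero h.kummer₀ hT0 hξT0 hTne ?_
    rintro rfl
    rw [GenValTab.nsmul_eq_self_of_odd hodd (GenValTab.two_nsmul_T0 h.kummer₀ hT0 hξT0)] at hpT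
    exact hT0 hpT
  have hD : ∏ T ∈ S, (ξ Pg - algebraMap k K (ξ₀ T)) ≠ 0 := by
    rw [← GenValTab.aeval_prod_sub]
    have := aeval_ne_zero h hT _ (monic_D S ξ₀).ne_zero 0
    rwa [map_zero, add_zero] at this
  have e1 := hid T0
  rw [GenVals.xi_nsmul_add_T0 h hT0 hξT0 hodd] at e1
  have e2 := GenVals.xi_nsmul_add_T0 h hT0 hξT0 odd_one
  rw [one_nsmul, one_nsmul] at e2
  rw [e2] at e1
  have key := ProdAlg.prod_formula_of_identities ξ₀ S hodd hS0 hcard hκ0 hX hY hD ?_ ?_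
  · rw [ProdAlg.finprod_subtype_eq_prod (fun Q : G₀ => p • Q = 0 ∧ Q ≠ 0) S hS ξ₀]
    exact key
  · rw [map_mul, aeval_X, GenValTab.aeval_prod_sub, GenValTab.aeval_prod_sub] at hid0
    simp only [map_div₀] at hid0
    linear_combination (p : K) ^ 2 * hid0 + (ξ Pg *
      ∏ T ∈ S, (ξ Pg - algebraMap k K κ / algebraMap k K (ξ₀ T))) * hcpK
  · rw [map_mul, aeval_X, GenValTab.aeval_prod_sub, GenValTab.aeval_prod_sub] at e1
    simp only [map_div₀] at e1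
    linear_combination (p : K) ^ 2 * e1 + (algebraMap k K κ / ξ Pg *
      ∏ T ∈ S, (algebraMap k K κ / ξ Pg - algebraMap k K κ / algebraMap k K (ξ₀ T))) * hcpK

end Fermat.Agent.S13Lib.GenProdAsm
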