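import Mathlib
import Fermat.Agent.S13Lib.GenProd
import Fermat.Agent.S13Lib.GenCard
import Fermat.Agent.S13Lib.GenTableK
import Fermat.Agent.S13Lib.GenVals

/-!
# S13: the product formula on a generic Kummer datum, all hypotheses discharged

`prod_formula` : in a generic Kummer datum `GenK ξ₀ ξ β κ ι Pg w` over an algebraically closed
field `k` of characteristic zero with `κ ≠ 0` and `β² ≠ 64 κ`, for an odd prime `p`,
`(∏ ξ₀ T)² · p⁴ = κ ^ (p² - 1)`, the product running over the nonzero points killed by `p`.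
-/

set_option autoImplicit false

namespace Fermat.Agent.S13Lib.GenProdK

open Fermat.Agent.S13Lib.GenDefs

variable {k K G₀ G : Type*} [Field k] [Field K] [Algebra k K] [AddCommGroup G₀] [AddCommGroup G]
  {ξ₀ : G₀ → k} {ξ : G → K} {β κ : k} {ι : G₀ →+ G} {Pg : G}
  {w : Valuation K (WithZero (Multiplicative ℤ))}

/-- **Part B**: the product formula for the nonzero `p`-torsion, unconditional. -/
theorem prod_formula [IsAlgClosed k] [CharZero k] (h : GenK ξ₀ ξ β κ ι Pg w) (hκ0 : κ ≠ 0)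
    (hdisc : β ^ 2 ≠ 64 * κ) {p : ℕ} (hp : p.Prime) (hp2 : p ≠ 2) :
    (∏ᶠ T : {Q : G₀ // p • Q = 0 ∧ Q ≠ 0}, ξ₀ T.1) ^ 2 * (p : k) ^ 4 = κ ^ (p ^ 2 - 1) :=
  GenProd.prod_formula h hκ0 (GenVals.contHyp h) (GenTableK.table h hκ0 hdisc) hp hp2
    (GenCard.card_torsion h hκ0 hdisc hp.pos)

end Fermat.Agent.S13Lib.GenProdK
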