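/-
S13 long shot, piece (T1'): the universal numerator/denominator pair of multiplication by `n` on
an abstract Kummer line. For every non-torsion point `R`,
`ξ (n • R) * (den β κ n)(ξ R) = (num β κ n)(ξ R)` and `(den β κ n)(ξ R) ≠ 0`,
with polynomials `num β κ n`, `den β κ n` over the field of constants which do not depend on `R`.
-/
import Mathlib
import Fermat.Agent.S05Lib.Defs

set_option autoImplicit false

namespace Fermat.Agent.S13Lib.GenUniv

open Polynomial Fermat.Agent.S05Lib

section Defs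

variable {k : Type*} [Field k]

/-- numerator of the addition step -/
noncomputable def stepNum (β κ : k) (p' q' p q : k[X]) : k[X] :=
  (2 * (p + X * q) * (p * X + C κ * q) + C β * p * q * X) * q' - p' * (p - X * q) ^ 2

/-- denominator of the addition step -/
noncomputable def stepDen (q' p q : k[X]) : k[X] := (p - X * q) ^ 2 * q'

/-- `pair β κ m = ((num (m+1), den (m+1)), (num (m+2), den (m+2)))` -/
noncomputable def pair (β κ : k) : ℕ → (k[X] × k[X]) × (k[X] × k[X])
  | 0 => ((X, 1), ((X ^ 2 - C κ) ^ 2, X * (4 * X ^ 2 + C β * X + 4 * C κ)))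
  | m + 1 =>
    ((pair β κ m).2,
      (stepNum β κ (pair β κ m).1.1 (pair β κ m).1.2 (pair β κ m).2.1 (pair β κ m).2.2,
        stepDen (pair β κ m).1.2 (pair β κ m).2.1 (pair β κ m).2.2))

/-- the universal numerator of `ξ (n • R)` as a function of `ξ R` (`n ≥ 1`) -/
noncomputable def num (β κ : k) (n : ℕ) : k[X] := (pair β κ (n - 1)).1.1

/-- the universal denominator of `ξ (n • R)` as a function of `ξ R` (`n ≥ 1`) -/
noncomputable def den (β κ : k) (n : ℕ) : k[X] := (pair β κ (n - 1)).1.2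

theorem pair_succ_fst (β κ : k) (m : ℕ) : (pair β κ (m + 1)).1 = (pair β κ m).2 := rfl

theorem num_one (β κ : k) : num β κ 1 = X := rfl

theorem den_one (β κ : k) : den β κ 1 = 1 := rfl

theorem num_two (β κ : k) : num β κ 2 = (X ^ 2 - C κ) ^ 2 := rfl

theorem den_two (β κ : k) : den β κ 2 = X * (4 * X ^ 2 + C β * X + 4 * C κ) := rfl

theorem num_add_three (β κ : k) (n : ℕ) :
    num β κ (n + 3) = stepNum β κ (num β κ (n + 1)) (den β κ (n + 1)) (num β κ (n + 2))
      (den β κ (n + 2)) := rfl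

theorem den_add_three (β κ : k) (n : ℕ) :
    den β κ (n + 3) = stepDen (den β κ (n + 1)) (num β κ (n + 2)) (den β κ (n + 2)) := rfl

end Defs

section Main

variable {k K G : Type*} [Field k] [Field K] [Algebra k K] [AddCommGroup G] {ξ : G → K}
  {β κ : k}

/-- the two-step induction behind the universal pair -/
theorem pair_spec (hK : IsKummer ξ (algebraMap k K β) (algebraMap k K κ)) {R : G}
    (hR : ∀ m : ℕ, 0 < m → m • R ≠ 0) (m : ℕ) :
    (aeval (ξ R) (pair β κ m).1.2 ≠ 0 ∧
      ξ ((m + 1) • R) * aeval (ξ R) (pair β κ m).1.2 = aeval (ξ R) (pair β κ m).1.1) ∧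
    (aeval (ξ R) (pair β κ m).2.2 ≠ 0 ∧
      ξ ((m + 2) • R) * aeval (ξ R) (pair β κ m).2.2 = aeval (ξ R) (pair β κ m).2.1) := by
  have hR1 : R ≠ 0 := by
    have := hR 1 one_pos
    rwa [one_nsmul] at this
  induction m with
  | zero =>
    have h2 : (2 : ℕ) • R ≠ 0 := hR 2 (by norm_num)
    refine ⟨⟨?_, ?_⟩, ?_, ?_⟩
    · simp [pair]
    · simp [pair]
    · have := (hK.two_nsmul_eq_zero_iff R hR1).not.1 h2
      simpa [pair, map_ofNat] using this
    · have := hK.dbl R hR1 h2
      simpa [pair, map_ofNat] using this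
  | succ m ih =>
    obtain ⟨⟨hq', hp'⟩, hq, hp⟩ := ih
    refine ⟨⟨hq, ?_⟩, ?_, ?_⟩
    · have e : m + 1 + 1 = m + 2 := rfl
      rw [e]
      exact hp
    all_goals
      have hP : (m + 2) • R ≠ 0 := hR _ (by omega)
      have hne : ξ ((m + 2) • R) ≠ ξ R := by
        intro hc
        rcases hK.eq_or_eq_neg _ _ hP hR1 hc with e | e
        · apply hR (m + 1) (by omega)
          have : (m + 2) • R = (m + 1) • R + R := by rw [← succ_nsmul]
          rw [this] at e
          simpa using e
        · apply hR (m + 3) (by omega)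
          have : (m + 3) • R = (m + 2) • R + R := by rw [← succ_nsmul]
          rw [this, e]
          simp
      have hadd := hK.add _ _ hP hR1 hne
      have e1 : (m + 2) • R + R = (m + 3) • R := by rw [← succ_nsmul]
      have e2 : (m + 2) • R - R = (m + 1) • R := by
        have : (m + 2) • R = (m + 1) • R + R := by rw [← succ_nsmul]
        rw [this]
        simp
      rw [e1, e2] at hadd
      have hsub : ξ ((m + 2) • R) - ξ R ≠ 0 := sub_ne_zero.2 hne
    · show aeval (ξ R) (stepDen (pair β κ m).1.2 (pair β κ m).2.1 (pair β κ m).2.2) ≠ 0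
      simp only [stepDen, map_mul, map_pow, map_sub, aeval_X]
      rw [← hp]
      have : ξ ((m + 2) • R) * aeval (ξ R) (pair β κ m).2.2 - ξ R * aeval (ξ R) (pair β κ m).2.2
          = (ξ ((m + 2) • R) - ξ R) * aeval (ξ R) (pair β κ m).2.2 := by ring
      rw [this]
      exact mul_ne_zero (pow_ne_zero 2 (mul_ne_zero hsub hq)) hq'
    · show ξ ((m + 1 + 2) • R) *
          aeval (ξ R) (stepDen (pair β κ m).1.2 (pair β κ m).2.1 (pair β κ m).2.2) =
        aeval (ξ R) (stepNum β κ (pair β κ m).1.1 (pair β κ m).1.2 (pair β κ m).2.1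
          (pair β κ m).2.2)
      have e3 : m + 1 + 2 = m + 3 := rfl
      rw [e3]
      simp only [stepDen, stepNum, map_mul, map_pow, map_sub, map_add, aeval_X, aeval_C,
        map_ofNat]
      rw [← hp, ← hp']
      linear_combination (aeval (ξ R) (pair β κ m).2.2) ^ 2 * aeval (ξ R) (pair β κ m).1.2 * hadd

/-- **(T1') the universal pair**: `ξ (n • R) * den(ξ R) = num(ξ R)` for every non-torsion `R`. -/
theorem xi_nsmul_mul_den (hK : IsKummer ξ (algebraMap k K β) (algebraMap k K κ)) {R : G}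
    (hR : ∀ m : ℕ, 0 < m → m • R ≠ 0) {n : ℕ} (hn : 0 < n) :
    ξ (n • R) * aeval (ξ R) (den β κ n) = aeval (ξ R) (num β κ n) := by
  obtain ⟨m, rfl⟩ : ∃ m, n = m + 1 := ⟨n - 1, by omega⟩
  exact (pair_spec hK hR m).1.2

/-- the universal denominator does not vanish at `ξ R`, `R` non-torsion -/
theorem aeval_den_ne_zero (hK : IsKummer ξ (algebraMap k K β) (algebraMap k K κ)) {R : G}
    (hR : ∀ m : ℕ, 0 < m → m • R ≠ 0) {n : ℕ} (hn : 0 < n) :
    aeval (ξ R) (den β κ n) ≠ 0 := by
  obtain ⟨m, rfl⟩ : ∃ m, n = m + 1 := ⟨n - 1, by omega⟩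
  exact (pair_spec hK hR m).1.1

/-- the universal denominator is a nonzero polynomial (given one non-torsion point) -/
theorem den_ne_zero (hK : IsKummer ξ (algebraMap k K β) (algebraMap k K κ)) {R : G}
    (hR : ∀ m : ℕ, 0 < m → m • R ≠ 0) {n : ℕ} (hn : 0 < n) : den β κ n ≠ 0 := by
  intro h0
  apply aeval_den_ne_zero hK hR hn
  rw [h0, map_zero]

/-- `ξ (n • R)` as a rational function of `ξ R` -/
theorem xi_nsmul_eq (hK : IsKummer ξ (algebraMap k K β) (algebraMap k K κ)) {R : G}
    (hR : ∀ m : ℕ, 0 < m → m • R ≠ 0) {n : ℕ} (hn : 0 < n) :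
    ξ (n • R) = aeval (ξ R) (num β κ n) / aeval (ξ R) (den β κ n) := by
  rw [eq_div_iff (aeval_den_ne_zero hK hR hn)]
  exact xi_nsmul_mul_den hK hR hn

end Main

end Fermat.Agent.S13Lib.GenUniv
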