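import Mathlib
import Fermat.Agent.S05Lib.E1

/-!
# S13 (A2): Gauss' lemma, "no common zero" and the local height identity on an abstract
Kummer line with good reduction

For a valuation `v` with `v b ≤ 1`, `v c = 1`, `v (b² - 64 c) = 1`:

* `gauss` : `max (v (x y)) (max (v (x + y)) 1) = max 1 (v x) * max 1 (v y)`;
* `no_common_zero` : the three quadratic forms `(s - c u)²`, `2 t (s + c u) + b s u`,
  `t² - 4 s u` have no common zero modulo the maximal ideal;
* `local_height` : for `IsKummer ξ b c`,
  `max 1 (v ξ(P+R)) * max 1 (v ξ(P-R)) * v (ξP - ξR)² = (max 1 (v ξP))² * (max 1 (v ξR))²`.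
-/

set_option autoImplicit false

namespace Fermat.Agent.S13Lib.HeightAux

open Fermat.Agent.S05Lib

variable {F Γ₀ : Type*} [Field F] [LinearOrderedCommGroupWithZero Γ₀] (v : Valuation F Γ₀)

/-- Gauss lemma for the monic quadratic `(Z - a)(Z - b)`. -/
theorem gauss (a b : F) :
    max (v (a * b)) (max (v (a + b)) 1) = max 1 (v a) * max 1 (v b) := by
  rw [map_mul]
  rcases le_or_gt (v a) 1 with ha | ha
  · rcases le_or_gt (v b) 1 with hb | hb
    · rw [max_eq_left ha, max_eq_left hb, mul_one]
      have h1 : v a * v b ≤ 1 := mul_le_one' ha hb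
      have h2 : v (a + b) ≤ 1 := Valuation.map_add_le v ha hb
      rw [max_eq_right h2, max_eq_right h1]
    · rw [max_eq_left ha, max_eq_right hb.le, one_mul]
      have h1 : v (a + b) = v b := Valuation.map_add_eq_of_lt_right v (lt_of_le_of_lt ha hb)
      have h2 : v a * v b ≤ v b := by
        calc v a * v b ≤ 1 * v b := by gcongr
          _ = v b := one_mul _
      rw [h1, max_eq_left hb.le, max_eq_right h2]
  · rcases le_or_gt (v b) 1 with hb | hb
    · rw [max_eq_right ha.le, max_eq_left hb, mul_one]
      have h1 : v (a + b) = v a := Valuation.map_add_eq_of_lt_left v (lt_of_le_of_lt hb ha)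
      have h2 : v a * v b ≤ v a := by
        calc v a * v b ≤ v a * 1 := by gcongr
          _ = v a := mul_one _
      rw [h1, max_eq_left ha.le, max_eq_right h2]
    · rw [max_eq_right ha.le, max_eq_right hb.le]
      have h1 : v (a + b) ≤ v a * v b := by
        refine (Valuation.map_add v a b).trans (max_le ?_ ?_)
        · calc v a = v a * 1 := (mul_one _).symm
            _ ≤ v a * v b := by gcongr
        · calc v b = 1 * v b := (one_mul _).symm
            _ ≤ v a * v b := by gcongr
      have h2 : (1 : Γ₀) ≤ v a * v b := (one_lt_mul'' ha hb).le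
      rw [max_eq_left (max_le h1 h2)]

/-- elements of valuation `< 1` are closed under addition -/
theorem lt_one_add {x y : F} (hx : v x < 1) (hy : v y < 1) : v (x + y) < 1 :=
  Valuation.map_add_lt v hx hy

theorem lt_one_sub {x y : F} (hx : v x < 1) (hy : v y < 1) : v (x - y) < 1 :=
  Valuation.map_sub_lt v hx hy

theorem lt_one_mul_left {x y : F} (hx : v x ≤ 1) (hy : v y < 1) : v (x * y) < 1 := by
  rw [map_mul]
  exact mul_lt_one_of_nonneg_of_lt_one_right hx zero_le hy

theorem lt_one_mul_right {x y : F} (hx : v x < 1) (hy : v y ≤ 1) : v (x * y) < 1 := by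
  rw [mul_comm]
  exact lt_one_mul_left v hy hx

/-- "No common zero", normalised form: if `s, t, u` are integral and one of them is a unit, then
one of the three quadratic forms `(s - c u)²`, `2 t (s + c u) + b s u`, `t² - 4 s u` is a
unit. -/
theorem ncz_normalised {b c : F} (hb : v b ≤ 1) (hc : v c = 1)
    (hd : v (b ^ 2 - 64 * c) = 1) {s t u : F} (hs : v s ≤ 1) (ht : v t ≤ 1) (hu : v u ≤ 1)
    (hmax : v s = 1 ∨ v t = 1 ∨ v u = 1) :
    max (v ((s - c * u) ^ 2)) (max (v (2 * t * (s + c * u) + b * s * u)) (v (t ^ 2 - 4 * s * u)))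
      = 1 := by
  have h2 : v (2 : F) ≤ 1 := E1.val_two_le_one v
  have h4 : v (4 : F) ≤ 1 := by
    have := E1.val_natCast_le_one v 4
    simpa using this
  have h8 : v (8 : F) ≤ 1 := by
    have := E1.val_natCast_le_one v 8
    simpa using this
  have h16 : v (16 : F) ≤ 1 := by
    have := E1.val_natCast_le_one v 16
    simpa using this
  have hcu : v (c * u) ≤ 1 := by
    rw [map_mul, hc, one_mul]; exact hu
  have hscu : v (s - c * u) ≤ 1 := (Valuation.map_sub v _ _).trans (max_le hs hcu)
  have hscu' : v (s + c * u) ≤ 1 := Valuation.map_add_le v hs hcu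
  have hsu : v (s * u) ≤ 1 := by rw [map_mul]; exact mul_le_one' hs hu
  have hA : v ((s - c * u) ^ 2) ≤ 1 := by rw [map_pow]; exact pow_le_one' hscu 2
  have hB : v (2 * t * (s + c * u) + b * s * u) ≤ 1 := by
    refine Valuation.map_add_le v ?_ ?_
    · rw [map_mul, map_mul]; exact mul_le_one' (mul_le_one' h2 ht) hscu'
    · rw [mul_assoc, map_mul]; exact mul_le_one' hb hsu
  have hD : v (t ^ 2 - 4 * s * u) ≤ 1 := by
    refine (Valuation.map_sub v _ _).trans (max_le ?_ ?_)
    · rw [map_pow]; exact pow_le_one' ht 2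
    · rw [mul_assoc, map_mul]; exact mul_le_one' h4 hsu
  refine le_antisymm (max_le hA (max_le hB hD)) ?_
  by_contra hlt
  rw [not_le, max_lt_iff, max_lt_iff] at hlt
  obtain ⟨hA', hB', hD'⟩ := hlt
  -- e₁ = s - c u is small
  have he1 : v (s - c * u) < 1 := by
    by_contra h
    rw [not_lt] at h
    have h1 : v (s - c * u) = 1 := le_antisymm hscu h
    rw [map_pow, h1, one_pow] at hA'
    exact lt_irrefl _ hA'
  -- `u` is a unit
  have hu1 : v u = 1 := by
    by_contra hne
    have hult : v u < 1 := lt_of_le_of_ne hu hne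
    have hcult : v (c * u) < 1 := by rw [map_mul, hc, one_mul]; exact hult
    have hslt : v s < 1 := by
      have : s = (s - c * u) + c * u := by ring
      rw [this]; exact lt_one_add v he1 hcult
    have htlt : v t < 1 := by
      by_contra h
      rw [not_lt] at h
      have h1 : v t = 1 := le_antisymm ht h
      have h3 : v (t ^ 2) < 1 := by
        have : t ^ 2 = (t ^ 2 - 4 * s * u) + 4 * s * u := by ring
        rw [this]
        refine lt_one_add v hD' ?_
        rw [mul_assoc]
        exact lt_one_mul_left v h4 (lt_one_mul_left v hs hult)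
      rw [map_pow, h1, one_pow] at h3
      exact lt_irrefl _ h3
    rcases hmax with h | h | h
    · exact absurd h hslt.ne
    · exact absurd h htlt.ne
    · exact absurd h hult.ne
  -- e₄ = 4 t + b u is small
  have hbu : v (b * u) ≤ 1 := by rw [map_mul]; exact mul_le_one' hb hu
  have he4 : v (4 * t + b * u) < 1 := by
    have h1 : v (c * u * (4 * t + b * u)) < 1 := by
      have : c * u * (4 * t + b * u)
          = (2 * t * (s + c * u) + b * s * u) - (s - c * u) * (2 * t + b * u) := by ring
      rw [this]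
      refine lt_one_sub v hB' (lt_one_mul_right v he1 ?_)
      refine Valuation.map_add_le v ?_ hbu
      rw [map_mul]; exact mul_le_one' h2 ht
    rwa [map_mul, map_mul, hc, hu1, one_mul, one_mul] at h1
  -- t² - 4 c u² is small
  have he5 : v (t ^ 2 - 4 * c * u ^ 2) < 1 := by
    have : t ^ 2 - 4 * c * u ^ 2 = (t ^ 2 - 4 * s * u) + 4 * ((s - c * u) * u) := by ring
    rw [this]
    exact lt_one_add v hD' (lt_one_mul_left v h4 (lt_one_mul_right v he1 hu))
  have hfin : v ((b ^ 2 - 64 * c) * u ^ 2) < 1 := by
    have : (b ^ 2 - 64 * c) * u ^ 2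
        = (4 * t + b * u) * ((4 * t + b * u) - 8 * t) + 16 * (t ^ 2 - 4 * c * u ^ 2) := by ring
    rw [this]
    refine lt_one_add v (lt_one_mul_right v he4 ?_) (lt_one_mul_left v h16 he5)
    refine (Valuation.map_sub v _ _).trans (max_le he4.le ?_)
    rw [map_mul]; exact mul_le_one' h8 ht
  rw [map_mul, map_pow, hd, hu1, one_pow, one_mul] at hfin
  exact lt_irrefl _ hfin

/-- **No common zero**: the three quadratic forms `(s - c u)²`, `2 t (s + c u) + b s u`,
`t² - 4 s u` have no common zero modulo the maximal ideal. -/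
theorem no_common_zero {b c : F} (hb : v b ≤ 1) (hc : v c = 1)
    (hd : v (b ^ 2 - 64 * c) = 1) (s t u : F) :
    max (v ((s - c * u) ^ 2)) (max (v (2 * t * (s + c * u) + b * s * u)) (v (t ^ 2 - 4 * s * u)))
      = (max (v s) (max (v t) (v u))) ^ 2 := by
  obtain ⟨m, hm, hmem⟩ : ∃ m : F, v m = max (v s) (max (v t) (v u)) ∧ (m = s ∨ m = t ∨ m = u) := by
    rcases le_total (v s) (max (v t) (v u)) with h | h
    · rcases le_total (v t) (v u) with h' | h'
      · exact ⟨u, by rw [max_eq_right h, max_eq_right h'], Or.inr (Or.inr rfl)⟩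
      · exact ⟨t, by rw [max_eq_right h, max_eq_left h'], Or.inr (Or.inl rfl)⟩
    · exact ⟨s, by rw [max_eq_left h], Or.inl rfl⟩
  have hsm : v s ≤ v m := by rw [hm]; exact le_max_left _ _
  have htm : v t ≤ v m := by rw [hm]; exact (le_max_left _ _).trans (le_max_right _ _)
  have hum : v u ≤ v m := by rw [hm]; exact (le_max_right _ _).trans (le_max_right _ _)
  rw [← hm]
  by_cases hm0 : m = 0
  · have hs0 : s = 0 := by
      rw [hm0, map_zero] at hsm
      exact (Valuation.zero_iff v).1 (le_antisymm hsm zero_le)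
    have ht0 : t = 0 := by
      rw [hm0, map_zero] at htm
      exact (Valuation.zero_iff v).1 (le_antisymm htm zero_le)
    have hu0 : u = 0 := by
      rw [hm0, map_zero] at hum
      exact (Valuation.zero_iff v).1 (le_antisymm hum zero_le)
    subst hs0 ht0 hu0 hm0
    simp
  · have hvm0 : v m ≠ 0 := (Valuation.ne_zero_iff v).2 hm0
    have hvmpos : 0 < v m := zero_lt_iff.2 hvm0
    have hdiv : ∀ x : F, v x ≤ v m → v (x / m) ≤ 1 := by
      intro x hx
      rw [map_div₀]
      exact (div_le_one₀ hvmpos).2 hx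
    have hone : v (s / m) = 1 ∨ v (t / m) = 1 ∨ v (u / m) = 1 := by
      rcases hmem with h | h | h
      · left; rw [← h, div_self hm0, map_one]
      · right; left; rw [← h, div_self hm0, map_one]
      · right; right; rw [← h, div_self hm0, map_one]
    have key := ncz_normalised v hb hc hd (hdiv s hsm) (hdiv t htm) (hdiv u hum) hone
    have e1 : (s - c * u) ^ 2 = m ^ 2 * (s / m - c * (u / m)) ^ 2 := by
      field_simp
    have e2 : 2 * t * (s + c * u) + b * s * u
        = m ^ 2 * (2 * (t / m) * (s / m + c * (u / m)) + b * (s / m) * (u / m)) := by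
      field_simp
    have e3 : t ^ 2 - 4 * s * u = m ^ 2 * ((t / m) ^ 2 - 4 * (s / m) * (u / m)) := by
      field_simp
    rw [e1, e2, e3, map_mul v, map_mul v (m ^ 2) (2 * (t / m) * (s / m + c * (u / m))
      + b * (s / m) * (u / m)), map_mul v (m ^ 2) ((t / m) ^ 2 - 4 * (s / m) * (u / m)),
      max_mul_mul_left, max_mul_mul_left, key, mul_one, map_pow]

end Fermat.Agent.S13Lib.HeightAux
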