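import Mathlib
import Fermat.Agent.S13Lib.Iface
import Fermat.Agent.FrobLib2

/-!
# S13, part (E): the Minkowski dictionary

A normal subgroup of the absolute Galois group of `ℚ` which contains the fixer of a finite set
and every inertia subgroup is the whole group (there is no unramified extension of `ℚ`).
-/

set_option autoImplicit false

namespace Fermat.Agent.S13Lib.Minkowski

open Fermat.Agent.S13Lib.Iface
open scoped NumberField Pointwise

/-- A Galois number field different from `ℚ` has a prime number `p` such that every prime of its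
ring of integers above `p` has a nontrivial inertia element. -/
theorem exists_ne_one_mem_inertia (F : Type*) [Field F] [NumberField F] [IsGalois ℚ F]
    (hF : 1 < Module.finrank ℚ F) :
    ∃ p : ℕ, p.Prime ∧ ∀ (P : Ideal (𝓞 F)) (_ : P.IsPrime), (p : 𝓞 F) ∈ P →
      ∃ τ : F ≃ₐ[ℚ] F, τ ≠ 1 ∧ ∀ x : 𝓞 F, τ • x - x ∈ P := by
  obtain ⟨p, hp, hram⟩ := NumberField.exists_not_isUnramifiedAt_int_of_isGalois (K := F)
    (𝒪 := 𝓞 F) hF
  refine ⟨p, hp, fun P hP hpP => ?_⟩
  have hnr := hram P hP hpP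
  have : P.LiesOver (P.under ℤ) := ⟨rfl⟩
  have hcard := Ideal.card_inertia_eq_ramificationIdxIn (G := F ≃ₐ[ℚ] F) (P.under ℤ) P
  rw [Ideal.ramificationIdxIn_eq_ramificationIdx (P.under ℤ) P (F ≃ₐ[ℚ] F)] at hcard
  have hne : Nat.card (P.inertia (F ≃ₐ[ℚ] F)) ≠ 1 := by
    rw [hcard]
    intro h1
    exact hnr (Ideal.ramificationIdx_eq_one_iff.mp h1)
  have hbot : P.inertia (F ≃ₐ[ℚ] F) ≠ ⊥ := by
    intro hb
    apply hne
    rw [hb]
    exact Subgroup.card_bot
  obtain ⟨⟨τ, hτ⟩, hτ1⟩ := (Subgroup.ne_bot_iff_exists_ne_one).mp hbot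
  refine ⟨τ, fun h => hτ1 (Subtype.ext h), fun x => ?_⟩
  exact hτ x

/-- The lifting statement proved in `InertiaLift` (inertia of a valuation subring of `ℚ̄` maps
onto the inertia of the prime below it in a finite Galois subextension). -/
def Lift : Prop :=
  ∀ (H : Subgroup Gal), IsClosed (H : Set Gal) → ∀ (A : ValuationSubring Qb) (l : ℕ),
    l.Prime → A.LiesOverPrime l → ∀ s0 : Gal,
      (∀ b : Qb, IsIntegral ℤ b → (∀ h ∈ H, h b = b) → s0 b - b ∈ A.nonunits) →
      ∃ h ∈ H, s0 * h ∈ A.inertiaSubgroupIn ℚ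

theorem ie_of_lift (hlift : Lift) : IE := by
  intro H hHn S hfix hin
  have hgalQb : IsGalois ℚ Qb := FrobLib2.isGalois_algebraicClosure_rat
  -- `H` is open, hence closed
  let E : IntermediateField ℚ Qb := IntermediateField.adjoin ℚ (S : Set Qb)
  have hEfin : FiniteDimensional ℚ E :=
    IntermediateField.finiteDimensional_adjoin (fun x _ => Algebra.IsIntegral.isIntegral x)
  have hEH : E.fixingSubgroup ≤ H := by
    intro σ hσ
    apply hfix
    intro x hx
    exact (IntermediateField.mem_fixingSubgroup_iff _ _).mp hσ x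
      (IntermediateField.subset_adjoin ℚ _ hx)
  have hopen : IsOpen (H : Set Gal) := Subgroup.isOpen_mono hEH E.fixingSubgroup_isOpen
  have hclosed : IsClosed (H : Set Gal) := Subgroup.isClosed_of_isOpen H hopen
  -- the fixed field of `H` is a finite Galois extension of `ℚ`
  let F : IntermediateField ℚ Qb := IntermediateField.fixedField H
  have hFH : F.fixingSubgroup = H := InfiniteGalois.fixingSubgroup_fixedField ⟨H, hclosed⟩
  obtain ⟨hfin0, hgal0⟩ := (InfiniteGalois.isOpen_and_normal_iff_finite_and_isGalois F).mp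
    ⟨by rw [hFH]; exact hopen, by rw [hFH]; exact hHn⟩
  have hfin : FiniteDimensional ℚ F := hfin0
  have hgal : IsGalois ℚ F := hgal0
  by_contra hne
  have hFbot : F ≠ ⊥ := by
    intro hb
    apply hne
    rw [← hFH, hb, IntermediateField.fixingSubgroup_bot]
  have hrank : 1 < Module.finrank ℚ F := by
    have h1 : Module.finrank ℚ F ≠ 1 := fun h => hFbot (IntermediateField.finrank_eq_one_iff.mp h)
    have h0 : 0 < Module.finrank ℚ F := Module.finrank_pos
    omega
  have hNF : NumberField F := ⟨⟩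
  obtain ⟨p, hp, hτ⟩ := exists_ne_one_mem_inertia F hrank
  obtain ⟨A, hA⟩ := FrobLib2.exists_liesOverPrime hp
  -- the prime of `𝓞 F` below `A`
  have hint : ∀ x : 𝓞 F, IsIntegral ℤ (algebraMap F Qb (x : F)) := fun x =>
    (NumberField.RingOfIntegers.isIntegral_coe x).algebraMap
  let φ : 𝓞 F →+* A :=
    { toFun := fun x => ⟨algebraMap F Qb (x : F), FrobLib2.integral_mem_valuationSubring A (hint x)⟩
      map_one' := Subtype.ext (by simp)
      map_mul' := fun x y => Subtype.ext (by simp)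
      map_zero' := Subtype.ext (by simp)
      map_add' := fun x y => Subtype.ext (by simp) }
  let P : Ideal (𝓞 F) := (IsLocalRing.maximalIdeal A).comap φ
  have hPprime : P.IsPrime := Ideal.comap_isPrime φ _
  have hpA : ((p : ℕ) : A) ∈ IsLocalRing.maximalIdeal A := by
    obtain ⟨ha, hmem⟩ := (ValuationSubring.mem_nonunits_iff_exists_mem_maximalIdeal).1 hA
    have h2 : (⟨(p : Qb), ha⟩ : A) = ((p : ℕ) : A) := Subtype.ext (by simp)
    rwa [h2] at hmem
  have hpP : (p : 𝓞 F) ∈ P := by
    show φ (p : 𝓞 F) ∈ IsLocalRing.maximalIdeal A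
    rw [map_natCast]
    exact hpA
  obtain ⟨τ, hτ1, hτP⟩ := hτ P hPprime hpP
  obtain ⟨s0, hs0⟩ := AlgEquiv.restrictNormalHom_surjective Qb τ
  have hs0' : ∀ b : Qb, IsIntegral ℤ b → (∀ h ∈ H, h b = b) → s0 b - b ∈ A.nonunits := by
    intro b hb hfixb
    have hbF : b ∈ F := (IntermediateField.mem_fixedField_iff _ _).mpr hfixb
    let y : F := ⟨b, hbF⟩
    have hy : IsIntegral ℤ y :=
      (isIntegral_algebraMap_iff (algebraMap F Qb).injective).mp hb
    let x : 𝓞 F := ⟨y, hy⟩
    have h1 : φ (τ • x - x) ∈ IsLocalRing.maximalIdeal A := hτP x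
    have h2 : ((φ (τ • x - x) : A) : Qb) = s0 b - b := by
      show algebraMap F Qb ((τ • x - x : 𝓞 F) : F) = s0 b - b
      have h3 : ((τ • x - x : 𝓞 F) : F) = τ y - y := rfl
      rw [h3, map_sub, ← hs0]
      have h4 : algebraMap F Qb ((AlgEquiv.restrictNormalHom F s0) y) = s0 (algebraMap F Qb y) :=
        AlgEquiv.restrictNormal_commutes s0 F y
      rw [h4]
      rfl
    rw [← h2]
    exact (ValuationSubring.mem_nonunits_iff_exists_mem_maximalIdeal).2 ⟨(φ (τ • x - x)).2, h1⟩
  obtain ⟨h, hhH, hmem⟩ := hlift H hclosed A p hp hA s0 hs0'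
  have h5 : s0 * h ∈ H := hin p hp A hA hmem
  have h6 : s0 ∈ H := by
    have := H.mul_mem h5 (H.inv_mem hhH)
    rwa [mul_inv_cancel_right] at this
  have h6' : s0 ∈ F.fixingSubgroup := by rw [hFH]; exact h6
  have h7 : AlgEquiv.restrictNormalHom F s0 = 1 := by
    refine AlgEquiv.ext fun y => ?_
    have h4 : algebraMap F Qb ((AlgEquiv.restrictNormalHom F s0) y) = s0 (algebraMap F Qb y) :=
      AlgEquiv.restrictNormal_commutes s0 F y
    have h8 : s0 (algebraMap F Qb y) = algebraMap F Qb y :=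
      (IntermediateField.mem_fixingSubgroup_iff _ _).mp h6' _ y.2
    apply (algebraMap F Qb).injective
    rw [h4, h8]
    rfl
  apply hτ1
  rw [← hs0]
  exact h7

end Fermat.Agent.S13Lib.Minkowski
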