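import Mathlib
import Fermat.Agent.S05
import Fermat.Agent.S13Lib.Iface
import Fermat.Agent.S13Lib.IfaceB
import Fermat.Agent.S13Lib.PointGlue
import Fermat.Agent.S13Lib.PointCard
import Fermat.Agent.S13Lib.GenPointK
import Fermat.Agent.S13Lib.GenProd
import Fermat.Agent.S13Lib.GenVals
import Fermat.Agent.S13Lib.GenTableK
import Fermat.Agent.S13Lib.AtPDich

/-!
# S13, part B: the product formula for the `p`-torsion of a Weierstrass curve over an
algebraically closed field of characteristic `0`, and the interface statements (IB), (IC)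

* `prod_formula_gen`: the abstract product formula for a generic Kummer datum, all side
  hypotheses discharged;
* `prod_formula_point`: `(∏_{T ∈ W[p] ∖ 0} (x(T) - e))² p⁴ = κ^(p² - 1)`;
* `iB0`, `iBa`: (IB) for the Frey curve at `e = 0` and `e = a^p / 4`;
* `iC`: (IC) for the Frey curve, unconditionally.
-/

set_option autoImplicit false

namespace Fermat.Agent.S13Lib.PointProd

open WeierstrassCurve Fermat.Agent.S51Lib.Pts Fermat.Agent.S05Lib Fermat.Agent.S13Lib.GenDefs

universe u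

/-- abstract product formula for a generic Kummer datum -/
theorem prod_formula_gen {k K G₀ G : Type*} [Field k] [IsAlgClosed k] [CharZero k] [Field K]
    [Algebra k K] [AddCommGroup G₀] [AddCommGroup G] {ξ₀ : G₀ → k} {ξ : G → K} {β κ : k}
    {ι : G₀ →+ G} {Pg : G} {w : Valuation K (WithZero (Multiplicative ℤ))}
    (h : GenK ξ₀ ξ β κ ι Pg w) (hκ0 : κ ≠ 0) (hdisc : β ^ 2 ≠ 64 * κ) {p : ℕ} (hp : p.Prime)
    (hp2 : p ≠ 2) :
    (∏ᶠ T : {Q : G₀ // p • Q = 0 ∧ Q ≠ 0}, ξ₀ T.1) ^ 2 * (p : k) ^ 4 = κ ^ (p ^ 2 - 1) :=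
  GenProd.prod_formula h hκ0 (GenVals.contHyp h) (GenTableK.table h hκ0 hdisc) hp hp2
    (PointCard.card_torsion_gen h hκ0 hdisc hp.pos)

/-- **the product formula for the `p`-torsion points of a Weierstrass curve** over an
algebraically closed field of characteristic `0`, for the Kummer line at a `2`-torsion
abscissa `e` -/
theorem prod_formula_point {k : Type u} [Field k] [DecidableEq k] [IsAlgClosed k] [CharZero k]
    (W : WeierstrassCurve k) (hΔ : W.Δ ≠ 0) (e β κ : k) (h6 : B6 W e = 0) (hβ : B2 W e = β)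
    (hκ : B4 W e = 2 * κ) {p : ℕ} (hp : p.Prime) (hp2 : p ≠ 2) :
    (∏ᶠ T : {Q : W.toAffine.Point // p • Q = 0 ∧ Q ≠ 0}, Kummer.xi W e T.1) ^ 2 * (p : k) ^ 4
      = κ ^ (p ^ 2 - 1) :=
  PointGlue.prod_formula_point_of W hΔ e β κ h6 hβ hκ
    (GenPointK.exists_genK W hΔ e β κ h6 hβ hκ)
    (fun _ _ _ _ _ _ _ _ _ h hκ0 hd => prod_formula_gen h hκ0 hd hp hp2)

open Fermat.Agent.S13Lib.Iface

/-- **(IB)** for the Frey curve at the `2`-torsion abscissa `e = 0` -/
theorem iB0 (P : FreyPackage) :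
    IfaceB.IB P 0 (-((P.a : Qb) ^ P.p * (P.b : Qb) ^ P.p) / 16) :=
  prod_formula_point (P.freyCurve⁄Qb) (Fermat.Agent.S05.frey_Δ_ne_zero (K := Qb) P) 0 _ _
    (Fermat.Agent.S05.frey_B6_zero P) (Fermat.Agent.S05.frey_B2_zero P)
    (Fermat.Agent.S05.frey_B4_zero P) P.pp (by have := P.hp5; omega)

/-- **(IB)** for the Frey curve at the `2`-torsion abscissa `e = a^p / 4` -/
theorem iBa (P : FreyPackage) :
    IfaceB.IB P ((P.a : Qb) ^ P.p / 4) ((P.a : Qb) ^ P.p * (P.c : Qb) ^ P.p / 16) :=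
  prod_formula_point (P.freyCurve⁄Qb) (Fermat.Agent.S05.frey_Δ_ne_zero (K := Qb) P) _ _ _
    (Fermat.Agent.S05.frey_B6_a P) (Fermat.Agent.S05.frey_B2_a P)
    (Fermat.Agent.S05.frey_B4_a P) P.pp (by have := P.hp5; omega)

/-- **(IC)** for the Frey curve: the dichotomy at `p` for a Galois-stable line -/
theorem iC (P : FreyPackage) : IC P :=
  AtPDich.iC P (PointCard.iA P) (iB0 P) (iBa P)

end Fermat.Agent.S13Lib.PointProd
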