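import Mathlib
import Fermat.Agent.S05Lib.Inertia

/-!
# S13: the valuation of a rational number at a valuation subring above `p`

For a valuation subring `A` of a field `L` of characteristic zero in which the prime `p` is a
non-unit, and a nonzero rational number `s`, `A.valuation s = A.valuation p ^ padicValRat p s`.
In particular `1 < A.valuation s ↔ padicValRat p s < 0` (independent of `A`), and then
`(A.valuation p)⁻¹ ≤ A.valuation s`.
-/

set_option autoImplicit false

namespace Fermat.Agent.S13Lib.RatVal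

open Fermat.Agent.S05Lib

variable {L : Type*} [Field L] [CharZero L] (A : ValuationSubring L) {p : ℕ}

theorem valuation_natCast_ne_zero (hp : p.Prime) : A.valuation (p : L) ≠ 0 := by
  rw [Ne, map_eq_zero]
  exact_mod_cast hp.ne_zero

theorem valuation_natCast_lt_one (hA : (p : L) ∈ A.nonunits) : A.valuation (p : L) < 1 :=
  A.mem_nonunits_iff.1 hA

/-- the valuation of a nonzero natural number -/
theorem valuation_natCast (hp : p.Prime) (hA : (p : L) ∈ A.nonunits) {m : ℕ} (hm : m ≠ 0) :
    A.valuation (m : L) = A.valuation (p : L) ^ padicValNat p m := by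
  have h1 : ordProj[p] m * ordCompl[p] m = m := Nat.ordProj_mul_ordCompl_eq_self m p
  have h2 : ¬ p ∣ ordCompl[p] m := Nat.not_dvd_ordCompl hp hm
  have h3 : IsCoprime ((ordCompl[p] m : ℕ) : ℤ) (p : ℤ) :=
    Nat.isCoprime_iff_coprime.2 ((Nat.Prime.coprime_iff_not_dvd hp).2 h2).symm
  have h4 : A.valuation (((ordCompl[p] m : ℕ) : ℤ) : L) = 1 :=
    Inertia.valuation_intCast_eq_one A hA h3
  have h5 : (m : L) = (p : L) ^ (m.factorization p) * (((ordCompl[p] m : ℕ) : ℤ) : L) := by
    have h6 : (m : L) = ((ordProj[p] m * ordCompl[p] m : ℕ) : L) := by rw [h1]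
    rw [h6, Nat.cast_mul, Nat.cast_pow, Int.cast_natCast]
  rw [h5, map_mul, map_pow, h4, mul_one, Nat.factorization_def m hp]

/-- the valuation of a nonzero integer -/
theorem valuation_intCast (hp : p.Prime) (hA : (p : L) ∈ A.nonunits) {n : ℤ} (hn : n ≠ 0) :
    A.valuation (n : L) = A.valuation (p : L) ^ padicValInt p n := by
  have h0 : n.natAbs ≠ 0 := Int.natAbs_ne_zero.2 hn
  have h1 : A.valuation (n : L) = A.valuation ((n.natAbs : ℕ) : L) := by
    rcases Int.natAbs_eq n with h | h
    · have h2 : (n : L) = ((n.natAbs : ℕ) : L) := by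
        calc (n : L) = (((n.natAbs : ℕ) : ℤ) : L) := congrArg (Int.cast : ℤ → L) h
          _ = ((n.natAbs : ℕ) : L) := Int.cast_natCast _
      rw [h2]
    · have h2 : (n : L) = -((n.natAbs : ℕ) : L) := by
        calc (n : L) = ((-((n.natAbs : ℕ) : ℤ) : ℤ) : L) := congrArg (Int.cast : ℤ → L) h
          _ = -((n.natAbs : ℕ) : L) := by rw [Int.cast_neg, Int.cast_natCast]
      rw [h2, Valuation.map_neg]
  rw [h1, valuation_natCast A hp hA h0]
  rfl

/-- the valuation of a nonzero rational number -/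
theorem valuation_ratCast (hp : p.Prime) (hA : (p : L) ∈ A.nonunits) {s : ℚ} (hs : s ≠ 0) :
    A.valuation (s : L) = A.valuation (p : L) ^ padicValRat p s := by
  have hnum : s.num ≠ 0 := Rat.num_ne_zero.2 hs
  have hden : s.den ≠ 0 := s.den_ne_zero
  have h1 : (s : L) = (s.num : L) / (s.den : L) := Rat.cast_def s
  have hx : A.valuation (p : L) ≠ 0 := valuation_natCast_ne_zero A hp
  rw [h1, map_div₀, valuation_intCast A hp hA hnum, valuation_natCast A hp hA hden]
  show _ = A.valuation (p : L) ^ ((padicValInt p s.num : ℤ) - (padicValNat p s.den : ℤ))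
  rw [zpow_sub₀ hx, zpow_natCast, zpow_natCast]

section Order

variable {Γ : Type*} [LinearOrderedCommGroupWithZero Γ]

theorem one_lt_zpow_iff_neg {x : Γ} (h0 : x ≠ 0) (h1 : x < 1) (n : ℤ) : 1 < x ^ n ↔ n < 0 := by
  have hpos : 0 < x := zero_lt_iff.2 h0
  constructor
  · intro h
    by_contra hn
    push Not at hn
    obtain ⟨m, rfl⟩ := Int.eq_ofNat_of_zero_le hn
    rw [zpow_natCast] at h
    exact absurd h (not_lt.2 (pow_le_one₀ hpos.le h1.le))
  · intro hn
    obtain ⟨m, rfl⟩ : ∃ m : ℕ, n = -((m : ℤ) + 1) := ⟨(-n - 1).toNat, by omega⟩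
    rw [zpow_neg]
    have h2 : x ^ ((m : ℤ) + 1) < 1 := by
      have : x ^ ((m : ℤ) + 1) = x ^ (m + 1) := by
        rw [← zpow_natCast]; push_cast; rfl
      rw [this]
      exact pow_lt_one₀ hpos.le h1 (Nat.succ_ne_zero m)
    have h3 : 0 < x ^ ((m : ℤ) + 1) := zpow_pos hpos _
    exact (one_lt_inv₀ h3).2 h2

theorem inv_le_zpow_of_neg {x : Γ} (h0 : x ≠ 0) (h1 : x < 1) {n : ℤ} (hn : n < 0) :
    x⁻¹ ≤ x ^ n := by
  have hpos : 0 < x := zero_lt_iff.2 h0
  obtain ⟨m, rfl⟩ : ∃ m : ℕ, n = -((m : ℤ) + 1) := ⟨(-n - 1).toNat, by omega⟩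
  rw [zpow_neg]
  have h2 : x ^ ((m : ℤ) + 1) ≤ x := by
    have : x ^ ((m : ℤ) + 1) = x ^ (m + 1) := by
      rw [← zpow_natCast]; push_cast; rfl
    rw [this, pow_succ]
    calc x ^ m * x ≤ 1 * x := by
          exact mul_le_mul_left (pow_le_one₀ hpos.le h1.le) x
      _ = x := one_mul x
  have h3 : 0 < x ^ ((m : ℤ) + 1) := zpow_pos hpos _
  exact (inv_le_inv₀ hpos h3).2 h2

end Order

/-- a rational number has valuation `> 1` at `A` iff its `p`-adic valuation is negative
(so this does not depend on the valuation subring `A` above `p`) -/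
theorem one_lt_valuation_ratCast_iff (hp : p.Prime) (hA : (p : L) ∈ A.nonunits) {s : ℚ}
    (hs : s ≠ 0) : 1 < A.valuation (s : L) ↔ padicValRat p s < 0 := by
  rw [valuation_ratCast A hp hA hs]
  exact one_lt_zpow_iff_neg (valuation_natCast_ne_zero A hp) (valuation_natCast_lt_one A hA) _

/-- a rational number of valuation `> 1` has valuation at least `(v p)⁻¹` -/
theorem inv_le_valuation_ratCast (hp : p.Prime) (hA : (p : L) ∈ A.nonunits) {s : ℚ}
    (hs : s ≠ 0) (h : 1 < A.valuation (s : L)) :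
    (A.valuation (p : L))⁻¹ ≤ A.valuation (s : L) := by
  have hn := (one_lt_valuation_ratCast_iff A hp hA hs).1 h
  rw [valuation_ratCast A hp hA hs]
  exact inv_le_zpow_of_neg (valuation_natCast_ne_zero A hp) (valuation_natCast_lt_one A hA) hn

/-- the condition `1 < A.valuation s` for a rational `s` is independent of the valuation
subring above `p` -/
theorem one_lt_valuation_ratCast_congr (hp : p.Prime) (A' : ValuationSubring L)
    (hA : (p : L) ∈ A.nonunits) (hA' : (p : L) ∈ A'.nonunits) (s : ℚ) :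
    1 < A.valuation (s : L) ↔ 1 < A'.valuation (s : L) := by
  by_cases hs : s = 0
  · subst hs
    simp
  · rw [one_lt_valuation_ratCast_iff A hp hA hs, one_lt_valuation_ratCast_iff A' hp hA' hs]

end Fermat.Agent.S13Lib.RatVal
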